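import Fermat.Prelude.Def_ModularCurve_HeckeOperator
import Fermat.Prelude.Def_FLTPrelim_Ramification
import Fermat.Prelude.Def_EllipticCurve_FrobeniusTrace

/-!
# The statements on the torsion of `J₀(M q)` at a prime `q ∤ M`

`InertiaUnipotent` and `FrobeniusToric` are proved from the semistable reduction in this directory
and are what the representation theoretic statements use.
-/

set_option autoImplicit false

noncomputable section

open AlgebraicCurve ModularCurve

namespace Fermat.Agent.SemistableRed

local notation "Qbar" => AlgebraicClosure ℚ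

/-- `D` becomes principal when pushed down along `φ`. -/
def PushTrivial {K F F' : Type*} [Field K] [Field F] [Field F'] [Algebra K F] [Algebra K F']
    (φ : F →ₐ[K] F') (hφ : φ.toRingHom.IsIntegral) (D : Divisor K F') : Prop :=
  ∃ g : F, g ≠ 0 ∧ ∀ v, Divisor.pushforwardAlong φ hφ D v = v.ord g

/-- Inertia at `q` acts unipotently, with exponent two, on torsion of order prime to `q`. -/
def InertiaUnipotent (M q : ℕ) : Prop :=
  ∀ A : ValuationSubring Qbar, A.LiesOverPrime q →
    ∀ σ ∈ A.inertiaSubgroupIn ℚ, ∀ n : ℕ, n.Coprime q →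
      ∀ x : JZero (M * q), n • x = 0 → σ • σ • x - (2 : ℕ) • (σ • x) + x = 0

/-- On classes killed by both norms to level `M` a Frobenius `φ` at `q` satisfies
`(φ ^ 2 - q ^ 2) (φ ^ 2 - 1) = 0`. -/
def FrobeniusToric (M q : ℕ) [NeZero M] [NeZero q] : Prop :=
  ∀ A : ValuationSubring Qbar, A.LiesOverPrime q →
    ∀ φ : Qbar ≃ₐ[ℚ] Qbar, A.IsFrobeniusAt φ q → ∀ n : ℕ, n.Coprime q →
      ∀ (hα : HeckeAlphaBarIntegral Qbar M q) (hβ : HeckeBetaBarIntegral Qbar M q)
        (D : Divisor.degZero (K := Qbar) (F := modularFunctionFieldBar (M * q))),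
        n • Pic0.mk D = 0 →
        PushTrivial (heckeAlphaBar Qbar M q) hα (D : Divisor Qbar (modularFunctionFieldBar (M * q))) →
        PushTrivial (heckeBetaBar Qbar M q) hβ (D : Divisor Qbar (modularFunctionFieldBar (M * q))) →
          φ • φ • φ • φ • Pic0.mk D - (q ^ 2 + 1 : ℕ) • (φ • φ • Pic0.mk D)
            + (q ^ 2 : ℕ) • Pic0.mk D = 0

end Fermat.Agent.SemistableRed

end
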