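import Fermat.Agent.SemistableRed.GlueS34
import Mathlib.Algebra.MvPolynomial.CommRing

/-!
# Frobenius at a prime of semistable reduction on the new part

Hecke operators at good primes act on `p`-power torsion as `F + ℓ F⁻¹`, so every Galois-equivariant
map between the Jacobians of two levels commutes with them. If a Hecke polynomial vanishes at the
lower level, its image at level `N` is killed by all these maps; a quartic relation for `φ` on that
kernel then forces `trace ρ(φ) = ± (1 + q)`.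
-/

set_option autoImplicit false

noncomputable section

namespace Fermat.Agent.SemistableRed

open IsLocalRing Polynomial Fermat.Agent.EigenRep Matrix ModularCurve AlgebraicCurve
open Fermat.Agent.Chebotarev (exists_level_trace_congr trace_eq_of_charpoly)

local notation "Qbar" => AlgebraicClosure ℚ
local notation "Jtors" N:max n:max => Pic0.torsion (AlgebraicClosure ℚ) (modularFunctionFieldBar N) n

/-- A Galois-equivariant map of Jacobians. -/
def IsGaloisEquivariant {N N' : ℕ} (ν : JZero N →+ JZero N') : Prop :=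
  ∀ (σ : Qbar ≃ₐ[ℚ] Qbar) (x : JZero N), ν (σ • x) = σ • ν x

/-- `φ` satisfies `(φ² - q²)(φ² - 1) = 0` on the `p`-power torsion killed by all the maps `ν i`. -/
def QuarticOnKernel {N N' : ℕ} (p q : ℕ) {I : Type*} (ν : I → (JZero N →+ JZero N'))
    (φ : Qbar ≃ₐ[ℚ] Qbar) : Prop :=
  ∀ x : JZero N, (∃ n : ℕ, p ^ n • x = 0) → (∀ i, ν i x = 0) →
    φ • φ • φ • φ • x - (q ^ 2 + 1) • (φ • φ • x) + q ^ 2 • x = 0

variable {N N' p : ℕ} [NeZero N] [NeZero N'] [Fact p.Prime]

omit [NeZero N] [NeZero N'] [Fact p.Prime] in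
/-- The restriction to torsion of an additive map. -/
def torsMap (ν : JZero N →+ JZero N') (n : ℕ) : Jtors N n →+ Jtors N' n where
  toFun x := ⟨ν x, by rw [Pic0.mem_torsion, ← map_zsmul, Pic0.mem_torsion.mp x.2, map_zero]⟩
  map_zero' := Subtype.ext (map_zero ν)
  map_add' x y := Subtype.ext (map_add ν _ _)

/-- The matrix of a map of Jacobians modulo `pⁿ`. -/
def mapMat (M : TorsionHeckeModel N p) (M' : TorsionHeckeModel N' p) (ν : JZero N →+ JZero N')
    (n : ℕ) : Matrix (Fin M'.d) (Fin M.d) (ZMod (p ^ n)) :=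
  LinearMap.toMatrix'
    ((((M'.e n).toAddMonoidHom.comp (torsMap ν (p ^ n))).comp
      (M.e n).symm.toAddMonoidHom).toZModLinearMap (p ^ n))

theorem mapMat_mulVec (M : TorsionHeckeModel N p) (M' : TorsionHeckeModel N' p)
    (ν : JZero N →+ JZero N') (n : ℕ) (x : Jtors N (p ^ n)) :
    mapMat M M' ν n *ᵥ M.e n x = M'.e n (torsMap ν (p ^ n) x) := by
  rw [mapMat, LinearMap.toMatrix'_mulVec]
  show M'.e n (torsMap ν (p ^ n) ((M.e n).symm (M.e n x))) = _
  rw [AddEquiv.symm_apply_apply]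

theorem mapMat_mul_levelMat (M : TorsionHeckeModel N p) (M' : TorsionHeckeModel N' p)
    {ν : JZero N →+ JZero N'} (hν : IsGaloisEquivariant ν) (n : ℕ) (σ : Qbar ≃ₐ[ℚ] Qbar) :
    mapMat M M' ν n * levelMat M n σ = levelMat M' n σ * mapMat M M' ν n :=
  Matrix.ext_of_mulVec_single fun j => by
    obtain ⟨x, hx⟩ := (M.e n).surjective (Pi.single j 1)
    rw [← hx, ← mulVec_mulVec, ← mulVec_mulVec, levelMat_mulVec, mapMat_mulVec, mapMat_mulVec,
      levelMat_mulVec]
    congr 1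
    exact Subtype.ext (hν σ (x : JZero N))

/-- The Eichler–Shimura relation determines `T_ℓ` from a Frobenius element. -/
theorem matMod_heckeMat_eq (R : RepInputs N p) {ℓ : ℕ} (hℓ : ℓ.Prime) (hℓNp : ¬ ℓ ∣ N * p)
    {A : ValuationSubring Qbar} (hA : A.LiesOverPrime ℓ) {σ : Qbar ≃ₐ[ℚ] Qbar}
    (hσ : A.IsFrobeniusAt σ ℓ) (n : ℕ) :
    matMod p R.model.d n (heckeMat R.model ⟨ℓ, hℓ⟩) =
      levelMat R.model n σ + ℓ • levelMat R.model n σ⁻¹ := by
  have h := congrArg (matMod p R.model.d n) (galMat_frobenius R.model R.es hℓ hℓNp hA hσ)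
  rw [map_add, map_sub, map_mul, map_mul, map_natCast, map_zero, matMod_galMat] at h
  have h2 : matMod p R.model.d n (heckeMat R.model ⟨ℓ, hℓ⟩) * levelMat R.model n σ =
      levelMat R.model n σ * levelMat R.model n σ +
        (ℓ : Matrix (Fin R.model.d) (Fin R.model.d) (ZMod (p ^ n))) :=
    (sub_eq_zero.mp ((add_sub_right_comm _ _ _).trans h)).symm
  have h3 := congrArg (· * levelMat R.model n σ⁻¹) h2
  simp only [mul_assoc, add_mul, ← map_mul, mul_inv_cancel, map_one, mul_one] at h3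
  rwa [← nsmul_eq_mul] at h3

/-- Equivariant maps intertwine the Hecke operators at good primes. -/
theorem mapMat_mul_hecke (R : RepInputs N p) (R' : RepInputs N' p) {ν : JZero N →+ JZero N'}
    (hν : IsGaloisEquivariant ν) {ℓ : ℕ} (hℓ : ℓ.Prime) (hℓN : ¬ ℓ ∣ N * p) (hℓN' : ¬ ℓ ∣ N' * p)
    (n : ℕ) :
    mapMat R.model R'.model ν n * (R.model.T ⟨ℓ, hℓ⟩).map (Int.cast : ℤ → ZMod (p ^ n)) =
      (R'.model.T ⟨ℓ, hℓ⟩).map (Int.cast : ℤ → ZMod (p ^ n)) * mapMat R.model R'.model ν n := by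
  obtain ⟨A, σ, hA, hσ⟩ := Frobenius.exists_liesOverPrime_and_isFrobeniusAt_qbar hℓ
  rw [← matMod_heckeMat R.model n ⟨ℓ, hℓ⟩, ← matMod_heckeMat R'.model n ⟨ℓ, hℓ⟩,
    matMod_heckeMat_eq R hℓ hℓN hA hσ, matMod_heckeMat_eq R' hℓ hℓN' hA hσ, Matrix.mul_add,
    Matrix.add_mul, Matrix.mul_smul, Matrix.smul_mul, mapMat_mul_levelMat _ _ hν,
    mapMat_mul_levelMat _ _ hν]

/-- Evaluation of Hecke polynomials in the matrix algebra. -/
def evalT (M : TorsionHeckeModel N p) (S : Set ℕ)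
    (P : MvPolynomial {ℓ : Nat.Primes // (ℓ : ℕ) ∉ S} ℤ) : matAlg (matFamily M S) :=
  letI := matAlgCommRing (T := matFamily M S) fun i j => M.comm i.1 j.1
  MvPolynomial.aeval (fun ℓ => matGen (matFamily M S) ℓ) P

omit [Fact p.Prime] in
theorem evalT_C (M : TorsionHeckeModel N p) (S : Set ℕ) (c : ℤ) :
    evalT M S (MvPolynomial.C c) = algebraMap ℤ _ c := by
  let := matAlgCommRing (T := matFamily M S) fun i j => M.comm i.1 j.1
  rw [evalT, MvPolynomial.aeval_C]

omit [Fact p.Prime] in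
theorem evalT_add (M : TorsionHeckeModel N p) (S : Set ℕ)
    (P Q : MvPolynomial {ℓ : Nat.Primes // (ℓ : ℕ) ∉ S} ℤ) :
    evalT M S (P + Q) = evalT M S P + evalT M S Q := by
  let := matAlgCommRing (T := matFamily M S) fun i j => M.comm i.1 j.1
  exact map_add _ P Q

omit [Fact p.Prime] in
theorem evalT_mul (M : TorsionHeckeModel N p) (S : Set ℕ)
    (P Q : MvPolynomial {ℓ : Nat.Primes // (ℓ : ℕ) ∉ S} ℤ) :
    evalT M S (P * Q) = evalT M S P * evalT M S Q := by
  let := matAlgCommRing (T := matFamily M S) fun i j => M.comm i.1 j.1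
  exact map_mul _ P Q

omit [Fact p.Prime] in
theorem evalT_X (M : TorsionHeckeModel N p) (S : Set ℕ) (ℓ : {ℓ : Nat.Primes // (ℓ : ℕ) ∉ S}) :
    evalT M S (MvPolynomial.X ℓ) = matGen (matFamily M S) ℓ := by
  let := matAlgCommRing (T := matFamily M S) fun i j => M.comm i.1 j.1
  exact MvPolynomial.aeval_X _ ℓ

/-- Equivariant maps intertwine all Hecke polynomials at good primes. -/
theorem mapMat_mul_evalT (R : RepInputs N p) (R' : RepInputs N' p) {ν : JZero N →+ JZero N'}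
    (hν : IsGaloisEquivariant ν) {S : Set ℕ}
    (hS : ∀ ℓ : ℕ, ℓ.Prime → ℓ ∉ S → ¬ ℓ ∣ N * p ∧ ¬ ℓ ∣ N' * p)
    (P : MvPolynomial {ℓ : Nat.Primes // (ℓ : ℕ) ∉ S} ℤ) (n : ℕ) :
    mapMat R.model R'.model ν n *
        (evalT R.model S P : Matrix (Fin R.model.d) (Fin R.model.d) ℤ).map
          (Int.castRingHom (ZMod (p ^ n))) =
      (evalT R'.model S P : Matrix (Fin R'.model.d) (Fin R'.model.d) ℤ).map
          (Int.castRingHom (ZMod (p ^ n))) * mapMat R.model R'.model ν n := by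
  induction P using MvPolynomial.induction_on with
  | C c =>
    rw [evalT_C, evalT_C]
    simp only [← RingHom.mapMatrix_apply, eq_intCast, SubringClass.coe_intCast, map_intCast]
    rw [← zsmul_one c, ← zsmul_one c, Matrix.mul_smul, Matrix.smul_mul, Matrix.mul_one,
      Matrix.one_mul]
  | add a b ha hb =>
    rw [evalT_add, evalT_add]
    simp only [← RingHom.mapMatrix_apply, Subalgebra.coe_add, map_add] at ha hb ⊢
    rw [Matrix.mul_add, Matrix.add_mul, ha, hb]
  | mul_X a i ha =>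
    rw [evalT_mul, evalT_mul, evalT_X, evalT_X]
    simp only [← RingHom.mapMatrix_apply, Subalgebra.coe_mul, map_mul] at ha ⊢
    rw [← Matrix.mul_assoc, ha, Matrix.mul_assoc, Matrix.mul_assoc]
    congr 1
    exact mapMat_mul_hecke R R' hν i.1.2 (hS i.1 i.1.2 i.2).1 (hS i.1 i.1.2 i.2).2 n

/-- The quartic relation on the image of a Hecke polynomial vanishing at level `N'`. -/
theorem quartic_mul_evalT (R : RepInputs N p) (R' : RepInputs N' p) {I : Type*}
    {ν : I → (JZero N →+ JZero N')} (hν : ∀ i, IsGaloisEquivariant (ν i)) {q : ℕ}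
    {φ : Qbar ≃ₐ[ℚ] Qbar} (hquart : QuarticOnKernel p q ν φ) {S : Set ℕ}
    (hS : ∀ ℓ : ℕ, ℓ.Prime → ℓ ∉ S → ¬ ℓ ∣ N * p ∧ ¬ ℓ ∣ N' * p)
    {P : MvPolynomial {ℓ : Nat.Primes // (ℓ : ℕ) ∉ S} ℤ} (hP : evalT R'.model S P = 0) (n : ℕ) :
    (levelMat R.model n φ * levelMat R.model n φ * levelMat R.model n φ * levelMat R.model n φ
        - (q ^ 2 + 1) • (levelMat R.model n φ * levelMat R.model n φ) + q ^ 2 • 1) *
      (evalT R.model S P : Matrix (Fin R.model.d) (Fin R.model.d) ℤ).map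
        (Int.castRingHom (ZMod (p ^ n))) = 0 :=
  Matrix.ext_of_mulVec_single fun j => by
    set E := (evalT R.model S P : Matrix (Fin R.model.d) (Fin R.model.d) ℤ).map
      (Int.castRingHom (ZMod (p ^ n))) with hE
    obtain ⟨y, hy⟩ := (R.model.e n).surjective (E *ᵥ Pi.single j 1)
    have hker : ∀ i, ν i (y : JZero N) = 0 := by
      intro i
      have h := congrArg (· *ᵥ Pi.single j 1) (mapMat_mul_evalT R R' (hν i) hS P n)
      simp only [← mulVec_mulVec] at h
      rw [← hE, ← hy, mapMat_mulVec, hP, ZeroMemClass.coe_zero,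
        Matrix.map_zero _ (map_zero _), zero_mulVec] at h
      exact congrArg Subtype.val ((R'.model.e n).injective (h.trans (map_zero _).symm))
    have h := hquart y (exists_pow_nsmul_eq_zero y) hker
    rw [← mulVec_mulVec, ← hy]
    simp only [add_mulVec, sub_mulVec, Matrix.smul_mulVec, one_mulVec, ← mulVec_mulVec,
      levelMat_mulVec, zero_mulVec]
    rw [← map_nsmul (R.model.e n), ← map_nsmul (R.model.e n), ← map_sub (R.model.e n),
      ← map_add (R.model.e n)]
    refine (congrArg (R.model.e n) (Subtype.ext ?_)).trans (map_zero _)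
    exact h

/-- **Trace of Frobenius on a newform system.** If some Hecke polynomial vanishes at level `N'`
but not under `π`, then `trace ρ(φ) = ± (1 + q)` and `det ρ(φ) = q`. -/
theorem charpoly_of_quartic (R : RepInputs N p) (R' : RepInputs N' p) {I : Type*}
    {ν : I → (JZero N →+ JZero N')} (hν : ∀ i, IsGaloisEquivariant (ν i)) {q : ℕ}
    {φ : Qbar ≃ₐ[ℚ] Qbar} (hquart : QuarticOnKernel p q ν φ)
    (hε : (epsilonPadic p φ : ℤ_[p]) = q)
    {S : Set ℕ} (hSf : S.Finite) (hpS : p ∈ S) (hNS : ∀ r : ℕ, r.Prime → r ∣ N → r ∈ S)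
    (hN'S : ∀ r : ℕ, r.Prime → r ∣ N' → r ∈ S)
    {T : Type} [CommRing T] [IsLocalRing T] [IsNoetherianRing T] [IsDomain T]
    (hpT : (p : T) ∈ maximalIdeal T)
    (π : CuspForm.heckeAlgebra N 2 S →+* T) (ρ : GaloisRepAdic T)
    (hfrob : ∀ (ℓ : ℕ) (hℓ : ℓ.Prime) (hℓN : ¬ ℓ ∣ N) (hℓS : ℓ ∉ S),
      ∀ A : ValuationSubring Qbar, A.LiesOverPrime ℓ →
        ∀ σ, A.IsFrobeniusAt σ ℓ →
          LinearMap.charpoly (ρ.ρ σ) =
            X ^ 2 - C (π (CuspForm.heckeAlgebra.T hℓ hℓN hℓS)) * X + C ((ℓ : T)))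
    {P : MvPolynomial {ℓ : Nat.Primes // (ℓ : ℕ) ∉ S} ℤ} (hP : evalT R'.model S P = 0)
    (hPπ : π (toForms R.model S (evalT R.model S P)) ≠ 0) :
    LinearMap.charpoly (ρ.ρ φ) = X ^ 2 - C ((q : T) + 1) * X + C ((q : T)) ∨
      LinearMap.charpoly (ρ.ρ φ) = X ^ 2 + C ((q : T) + 1) * X + C ((q : T)) := by
  classical
  have hnot : ∀ r : ℕ, r.Prime → r ∉ S → ¬ r ∣ N * p ∧ ¬ r ∣ N' * p := by
    intro r hr hrS
    refine ⟨fun h => ?_, fun h => ?_⟩ <;> rcases hr.dvd_mul.mp h with h | h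
    · exact hrS (hNS r hr h)
    · exact hrS ((Nat.prime_dvd_prime_iff_eq hr Fact.out).mp h ▸ hpS)
    · exact hrS (hN'S r hr h)
    · exact hrS ((Nat.prime_dvd_prime_iff_eq hr Fact.out).mp h ▸ hpS)
  set Z : T := π (toForms R.model S (evalT R.model S P))
  have hmain : ∀ n, (ρ.trace φ ^ 2 - ((q : T) + 1) ^ 2) * Z ∈ maximalIdeal T ^ n ∧
      LinearMap.det (ρ.ρ φ) - (q : T) ∈ maximalIdeal T ^ n := by
    intro n
    set fam := matFamily R.model S
    obtain ⟨M, hM⟩ :=
      HeckeUnramified.exists_pow_smul_submodule p (Subalgebra.toSubmodule (matAlg fam)) n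
    obtain ⟨L₁, hL₁, hc₁⟩ := exists_level_trace_congr ρ n
    obtain ⟨L₂, hL₂, hc₂⟩ := exists_level_galMat R.model R.smooth M
    obtain ⟨L₃, hL₃, hc₃⟩ := exists_level_epsilon (p := p) (max M n)
    obtain ⟨L₄, hL₄, hc₄⟩ := exists_level_det_congr ρ n
    obtain ⟨ℓ, hℓ, hℓS, A, hA, τ, hτ, hag⟩ :=
      Chebotarev.exists_isFrobeniusAt_eqOn (L₁ ⊔ L₂ ⊔ L₃ ⊔ L₄) φ hSf.toFinset
    rw [Set.Finite.mem_toFinset] at hℓS
    have hag₁ : ∀ x ∈ L₁, τ x = φ x := fun x hx =>
      hag x ((le_sup_left.trans (le_sup_left.trans le_sup_left) : L₁ ≤ L₁ ⊔ L₂ ⊔ L₃ ⊔ L₄) hx)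
    have hag₂ : ∀ x ∈ L₂, τ x = φ x := fun x hx =>
      hag x ((le_sup_right.trans (le_sup_left.trans le_sup_left) : L₂ ≤ L₁ ⊔ L₂ ⊔ L₃ ⊔ L₄) hx)
    have hag₃ : ∀ x ∈ L₃, τ x = φ x := fun x hx =>
      hag x ((le_sup_right.trans le_sup_left : L₃ ≤ L₁ ⊔ L₂ ⊔ L₃ ⊔ L₄) hx)
    have hag₄ : ∀ x ∈ L₄, τ x = φ x := fun x hx =>
      hag x ((le_sup_right : L₄ ≤ L₁ ⊔ L₂ ⊔ L₃ ⊔ L₄) hx)
    have hfix : ∀ x, τ x = φ x → (φ⁻¹ * τ) x = x := fun x hx => by
      rw [AlgEquiv.mul_apply, hx]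
      exact φ.symm_apply_apply x
    have hgal : matMod p R.model.d M (galMat R.model τ) = matMod p R.model.d M (galMat R.model φ) := by
      conv_lhs => rw [← mul_inv_cancel_left φ τ]
      rw [map_mul, map_mul, hc₂ _ fun a ha => hfix a (hag₂ a ha), mul_one]
    have heps : (ℓ : ZMod (p ^ max M n)) = (q : ZMod (p ^ max M n)) := by
      have h : PadicInt.toZModPow (max M n) (epsilonPadic p τ : ℤ_[p]) =
          (q : ZMod (p ^ max M n)) := by
        conv_lhs => rw [← mul_inv_cancel_left φ τ]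
        rw [map_mul, Units.val_mul, map_mul, hε, map_natCast,
          hc₃ _ fun a ha => hfix a (hag₃ a ha), mul_one]
      rw [← h, toZModPow_epsilon_frobenius hℓ (fun h => hℓS (h ▸ hpS)) hA hτ (max M n)]
    have hℓn : (ℓ : T) - (q : T) ∈ maximalIdeal T ^ n := by
      have h1 : ((p ^ max M n : ℕ) : ℤ) ∣ (ℓ : ℤ) - (q : ℤ) := by
        rw [← ZMod.intCast_eq_intCast_iff_dvd_sub]
        push_cast
        exact heps.symm
      obtain ⟨c, hc⟩ := h1
      have h2 := congrArg (Int.cast : ℤ → T) hc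
      push_cast at h2
      rw [h2]
      refine Ideal.mul_mem_right _ _ (Ideal.pow_le_pow_right (le_max_right M n) ?_)
      exact Ideal.pow_mem_pow hpT _
    have hcp := hfrob ℓ hℓ (fun h => hℓS (hNS ℓ hℓ h)) hℓS A hA τ hτ
    have htrτ : ρ.trace τ = π (CuspForm.heckeAlgebra.T hℓ (fun h => hℓS (hNS ℓ hℓ h)) hℓS) :=
      trace_eq_of_charpoly ρ.finrank_eq hcp
    have hdetτ : LinearMap.det (ρ.ρ τ) = (ℓ : T) := by
      have := congrArg (fun P => P.coeff 0)
        ((charpoly_eq_of_trace_det ρ.finrank_eq _).symm.trans hcp)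
      simpa using this
    refine ⟨?_, ?_⟩
    swap
    · have := Ideal.sub_mem _ hℓn (hc₄ φ τ hag₄)
      rw [hdetτ] at this
      convert this using 1
      ring
    set G := levelMat R.model M φ
    set Gi := levelMat R.model M φ⁻¹
    set Tl := matMod p R.model.d M (heckeMat R.model ⟨ℓ, hℓ⟩) with hTl
    set E := (evalT R.model S P : Matrix (Fin R.model.d) (Fin R.model.d) ℤ).map
      (Int.castRingHom (ZMod (p ^ M))) with hE
    have hGiG : Gi * G = 1 := by rw [← map_mul, inv_mul_cancel, map_one]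
    have hℓM : ((ℓ : ℕ) : Matrix (Fin R.model.d) (Fin R.model.d) (ZMod (p ^ M))) = q • 1 := by
      have : (ℓ : ZMod (p ^ M)) = (q : ZMod (p ^ M)) := by
        have := congrArg (ZMod.castHom (pow_dvd_pow p (le_max_left M n)) (ZMod (p ^ M))) heps
        rwa [map_natCast, map_natCast] at this
      rw [← map_natCast (Matrix.scalar (Fin R.model.d)) ℓ, this, map_natCast, nsmul_one]
    have hTG : Tl * G = G * G + q • 1 := by
      have h := congrArg (matMod p R.model.d M)
        (galMat_frobenius R.model R.es hℓ (hnot ℓ hℓ hℓS).1 hA hτ)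
      simp only [map_add, map_sub, map_mul, map_natCast, map_zero, hgal, matMod_galMat, hℓM] at h
      exact (sub_eq_zero.mp ((add_sub_right_comm _ _ _).trans h)).symm
    have hGT : G * Tl = Tl * G := by
      have h := congrArg (matMod p R.model.d M) (galMat_commute R.model R.equivariant φ ⟨ℓ, hℓ⟩)
      rwa [map_mul, map_mul, matMod_galMat] at h
    have hq := quartic_mul_evalT R R' hν hquart hnot hP M
    rw [← hE] at hq
    have hkey : (Tl * Tl - (q + 1) ^ 2 • 1) * E = 0 := by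
      have h2 : G * G * (Tl * Tl - (q + 1) ^ 2 • 1) =
          G * G * G * G - (q ^ 2 + 1) • (G * G) + q ^ 2 • 1 := by
        have hTTGG : G * G * (Tl * Tl) = (Tl * G) * (Tl * G) := by
          calc G * G * (Tl * Tl) = G * (G * Tl) * Tl := by simp only [mul_assoc]
            _ = G * (Tl * G) * Tl := by rw [hGT]
            _ = G * Tl * (G * Tl) := by simp only [mul_assoc]
            _ = _ := by rw [hGT]
        rw [mul_sub, hTTGG, hTG, mul_smul_comm, mul_one]
        simp only [mul_add, add_mul, smul_mul_assoc, mul_smul_comm, one_mul, mul_one, mul_assoc]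
        module
      rw [← h2, mul_assoc] at hq
      have h3 := congrArg (Gi * Gi * ·) hq
      simp only [mul_zero, ← mul_assoc] at h3
      rwa [mul_assoc Gi Gi G, hGiG, mul_one, hGiG, one_mul] at h3
    set a : matAlg fam := (matGen fam ⟨⟨ℓ, hℓ⟩, hℓS⟩ * matGen fam ⟨⟨ℓ, hℓ⟩, hℓS⟩ -
      (q + 1) ^ 2 • 1) * evalT R.model S P with ha
    have hdiv : ∀ i j, ((p : ℤ) ^ M ∣ (a : Matrix (Fin R.model.d) (Fin R.model.d) ℤ) i j) := by
      intro i j
      have h0 : ((a : Matrix (Fin R.model.d) (Fin R.model.d) ℤ)).map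
          (Int.castRingHom (ZMod (p ^ M))) = 0 := by
        rw [ha, ← RingHom.mapMatrix_apply]
        simp only [Subalgebra.coe_mul, AddSubgroupClass.coe_sub, AddSubmonoidClass.coe_nsmul,
          OneMemClass.coe_one, map_mul, map_sub, map_nsmul, map_one]
        have hgen : (Int.castRingHom (ZMod (p ^ M))).mapMatrix
            (matGen fam ⟨⟨ℓ, hℓ⟩, hℓS⟩ : Matrix (Fin R.model.d) (Fin R.model.d) ℤ) = Tl :=
          (matMod_heckeMat R.model M ⟨ℓ, hℓ⟩).symm
        rw [hgen]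
        exact hkey
      have h1 : (((a : Matrix (Fin R.model.d) (Fin R.model.d) ℤ) i j : ℤ) : ZMod (p ^ M)) = 0 :=
        congr($h0 i j)
      rw [ZMod.intCast_zmod_eq_zero_iff_dvd] at h1
      exact_mod_cast h1
    obtain ⟨y, hy, hay⟩ := hM _ a.2 hdiv
    have hay' : a = ((p : ℤ) ^ n) • (⟨y, hy⟩ : matAlg fam) := Subtype.ext hay
    set t : T := π (CuspForm.heckeAlgebra.T hℓ (fun h => hℓS (hNS ℓ hℓ h)) hℓS)
    have hπ : (t ^ 2 - ((q : T) + 1) ^ 2) * Z ∈ maximalIdeal T ^ n := by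
      have e : π (toForms R.model S a) = (t ^ 2 - ((q : T) + 1) ^ 2) * Z := by
        rw [ha, map_mul, map_mul, map_sub, map_sub, map_mul, map_mul, map_nsmul, map_nsmul,
          map_one, map_one, nsmul_one, toForms_T R.model hℓ (fun h => hℓS (hNS ℓ hℓ h))]
        push_cast
        ring
      rw [← e, hay', map_zsmul, map_zsmul, zsmul_eq_mul]
      refine Ideal.mul_mem_right _ _ ?_
      push_cast
      exact Ideal.pow_mem_pow hpT n
    have hd := Ideal.mul_mem_right ((ρ.trace τ + ρ.trace φ) * Z) _ (hc₁ φ τ hag₁)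
    rw [htrτ] at hd
    convert Ideal.sub_mem _ hπ hd using 1
    ring
  have key : ∀ x : T, (∀ n, x ∈ maximalIdeal T ^ n) → x = 0 := fun x hx => by
    rw [← Submodule.mem_bot T,
      ← Ideal.iInf_pow_eq_bot_of_isLocalRing _ (maximalIdeal.isMaximal T).ne_top, Submodule.mem_iInf]
    exact hx
  have hsq := sub_eq_zero.mp
    ((mul_eq_zero.mp (key _ fun n => (hmain n).1)).resolve_right hPπ)
  rw [charpoly_eq_of_trace_det ρ.finrank_eq, sub_eq_zero.mp (key _ fun n => (hmain n).2)]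
  rcases sq_eq_sq_iff_eq_or_eq_neg.mp hsq with h | h
  · exact Or.inl (by rw [show LinearMap.trace T ρ.V (ρ.ρ φ) = (q : T) + 1 from h])
  · exact Or.inr (by
      rw [show LinearMap.trace T ρ.V (ρ.ρ φ) = -((q : T) + 1) from h, map_neg]
      ring)

end Fermat.Agent.SemistableRed

end
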