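import Fermat.Agent.SemistableRed.AtkinLehner
import Fermat.Agent.SemistableRed.Interface
import Fermat.Agent.SemistableRed.NewRelation
import Fermat.Agent.HeckeJ0.Correspondence
import Fermat.Agent.HeckeJ0.Finite
import Fermat.Agent.FunctionFieldRR.PushPull
import Fermat.Agent.X0Analytic.Places

/-!
# The two norm maps `J₀(M q) → J₀(M)`

Both push-forwards are Galois equivariant, and a class killed by one of them is represented by
divisors whose push-forward is principal.
-/

set_option autoImplicit false

noncomputable section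

open AlgebraicCurve ModularCurve

namespace Fermat.Agent.SemistableRed

local notation "Qbar" => AlgebraicClosure ℚ

section Generic

variable {K F F' : Type*} [Field K] [Field F] [Field F'] [Algebra K F] [Algebra K F']
  (ψ : F →ₐ[K] F') (hψ : ψ.toRingHom.IsIntegral) (hfin : FiniteAlong K ψ)
  (hN : NormFormulaAlong K ψ hfin)

/-- Push-forward on divisors of degree zero. -/
def pushDegZero :
    Divisor.degZero (K := K) (F := F') →+ Divisor.degZero (K := K) (F := F) :=
  ((Divisor.pushforwardAlong ψ hψ).domRestrict (Divisor.degZero (K := K) (F := F'))).codRestrict _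
    fun D => Divisor.pushforwardAlong_mem_degZero ψ hψ D.2

/-- Push-forward on divisor classes of degree zero. -/
def pushPic : Pic0 K F' →+ Pic0 K F :=
  QuotientAddGroup.map _ _ (pushDegZero ψ hψ) (by
    rintro ⟨D, hD0⟩ hD
    simp only [AddSubgroup.mem_addSubgroupOf] at hD ⊢
    exact Divisor.isPrincipal_pushforwardAlong ψ hψ hfin hN hD)

theorem pushPic_mk (D : Divisor.degZero (K := K) (F := F')) :
    pushPic ψ hψ hfin hN (Pic0.mk D) = Pic0.mk (pushDegZero ψ hψ D) := rfl

theorem pushTrivial_of_pushPic_eq_zero {D : Divisor.degZero (K := K) (F := F')}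
    (h : pushPic ψ hψ hfin hN (Pic0.mk D) = 0) : PushTrivial ψ hψ (D : Divisor K F') := by
  rw [pushPic_mk] at h
  have h1 := (QuotientAddGroup.eq_zero_iff _).mp h
  rw [AddSubgroup.mem_addSubgroupOf] at h1
  exact h1

theorem pushPic_smul {g : SemilinearAut K F} {g' : SemilinearAut K F'}
    (hdeg : ∀ v : Place K F, v.deg = 1) (hdeg' : ∀ w : Place K F', w.deg = 1)
    (hg : SemilinearAut.IntertwinesAlong ψ.toRingHom g g') (x : Pic0 K F') :
    pushPic ψ hψ hfin hN (g' • x) = g • pushPic ψ hψ hfin hN x := by
  obtain ⟨D, rfl⟩ := Pic0.mk_surjective x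
  rw [SemilinearAut.pic0_smul_mk, pushPic_mk, pushPic_mk, SemilinearAut.pic0_smul_mk]
  refine congrArg Pic0.mk (Subtype.ext ?_)
  exact HeckeJ0.pushforwardAlong_smul hψ hdeg hdeg' hg (D : Divisor K F')

end Generic

variable (M q : ℕ) [NeZero M] [NeZero q]

theorem isFunctionField_bar (N : ℕ) [NeZero N] :
    FunctionFieldRR.IsFunctionField Qbar (modularFunctionFieldBar N) :=
  X0Analytic.isFunctionField qbarToComplex

theorem isIntegral_alpha : HeckeAlphaBarIntegral Qbar M q :=
  haveI := isFunctionField_bar M
  haveI := isFunctionField_bar (M * q)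
  HeckeJ0.isIntegral_of_isFunctionField (heckeAlphaBar Qbar M q)

theorem isIntegral_beta : HeckeBetaBarIntegral Qbar M q :=
  haveI := isFunctionField_bar M
  haveI := isFunctionField_bar (M * q)
  HeckeJ0.isIntegral_of_isFunctionField (heckeBetaBar Qbar M q)

/-- The norm along a map of modular function fields. -/
def normMap (ψ : ↥(modularFunctionFieldBar M) →ₐ[Qbar] ↥(modularFunctionFieldBar (M * q))) :
    JZero (M * q) →+ JZero M :=
  haveI := isFunctionField_bar M
  haveI := isFunctionField_bar (M * q)
  pushPic ψ (HeckeJ0.isIntegral_of_isFunctionField ψ) (FunctionFieldRR.finiteAlong ψ)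
    (FunctionFieldRR.normFormulaAlong ψ _)

/-- The two norms: along the inclusion and along `q ↦ q ^ q`. -/
def normMaps : Bool → (JZero (M * q) →+ JZero M) := fun b =>
  cond b (normMap M q (heckeBetaBar Qbar M q)) (normMap M q (heckeAlphaBar Qbar M q))

theorem normMap_equivariant
    (ψ : ↥(modularFunctionFieldBar M) →ₐ[Qbar] ↥(modularFunctionFieldBar (M * q)))
    (h : ∀ σ : Qbar ≃ₐ[ℚ] Qbar, SemilinearAut.IntertwinesAlong ψ.toRingHom
      (arithmeticGalois (modularFunctionFieldFull M) σ)
      (arithmeticGalois (modularFunctionFieldFull (M * q)) σ)) :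
    IsGaloisEquivariant (normMap M q ψ) := fun σ x => by
  have := isFunctionField_bar M
  have := isFunctionField_bar (M * q)
  exact pushPic_smul ψ _ _ _ (fun v => FunctionFieldRR.deg_eq_one v)
    (fun w => FunctionFieldRR.deg_eq_one w) (h σ) x

theorem normMaps_equivariant (b : Bool) : IsGaloisEquivariant (normMaps M q b) := by
  cases b
  · exact normMap_equivariant M q _ (HeckeJ0.intertwines_heckeAlphaBar M q)
  · exact normMap_equivariant M q _ (HeckeJ0.intertwines_heckeBetaBar M q)

theorem pushTrivial_of_normMap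
    {ψ : ↥(modularFunctionFieldBar M) →ₐ[Qbar] ↥(modularFunctionFieldBar (M * q))}
    (hψ : ψ.toRingHom.IsIntegral)
    {D : Divisor.degZero (K := Qbar) (F := modularFunctionFieldBar (M * q))}
    (h : normMap M q ψ (Pic0.mk D) = 0) :
    PushTrivial ψ hψ (D : Divisor Qbar (modularFunctionFieldBar (M * q))) := by
  have := isFunctionField_bar M
  have := isFunctionField_bar (M * q)
  exact pushTrivial_of_pushPic_eq_zero ψ hψ (FunctionFieldRR.finiteAlong ψ)
    (FunctionFieldRR.normFormulaAlong ψ _) h

/-- The quartic relation at `q` on the kernel of both norms, from the semistable reduction. -/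
theorem quarticOnKernel_of_frobeniusToric (h : FrobeniusToric M q) {p : ℕ} (hpq : p.Coprime q)
    {A : ValuationSubring Qbar} (hA : A.LiesOverPrime q) {φ : Qbar ≃ₐ[ℚ] Qbar}
    (hφ : A.IsFrobeniusAt φ q) : QuarticOnKernel p q (normMaps M q) φ := by
  intro x hx hker
  obtain ⟨n, hn⟩ := hx
  obtain ⟨D, rfl⟩ := Pic0.mk_surjective x
  exact h A hA φ hφ (p ^ n) (hpq.pow_left n) (isIntegral_alpha M q) (isIntegral_beta M q) D hn
    (pushTrivial_of_normMap M q _ (hker false))
    (pushTrivial_of_normMap M q _ (hker true))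

end Fermat.Agent.SemistableRed

end
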