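import Fermat.Agent.SemistableRed.EigenAgree
import Fermat.Agent.SemistableRed.NormMaps
import Fermat.Agent.EigenRep.AttachedAdic
import Fermat.Agent.EigenRep.Inputs
import Fermat.Agent.EigenRep.Smooth
import Fermat.Agent.HeckeJ0.TorsionModel
import Fermat.Agent.HeckeJ0.Inputs
import Fermat.Agent.Mazur.Conj.StarMat
import Fermat.Agent.LevelRaising.FormOfSymbol
import Fermat.Agent.S20
import Fermat.Prelude.Def_CuspForm_Newforms

/-!
# A newform's eigensystem at a lower level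

A character of the Hecke algebra of the lattice at level `N'` is the system of an eigenform, as
periods and their transforms span. So some Hecke polynomial vanishes at each proper level and not
on a newform; the quartic relation then gives the shape of Frobenius at `q ∥ N`.
-/

set_option autoImplicit false
set_option linter.style.haveILetI false

noncomputable section

open Fermat.Agent.EigenRep Polynomial Matrix CongruenceSubgroup ModularCurve

namespace Fermat.Agent.SemistableRed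

local notation "Qbar" => AlgebraicClosure ℚ

/-- The torsion inputs, given the Eichler–Shimura relations. -/
def torsionInputs {N p : ℕ} [NeZero N] [Fact p.Prime] (hes : EichlerShimuraRelations N p) :
    RepInputs N p :=
  ⟨HeckeJ0.torsionHeckeModel N p, HeckeJ0.heckeGaloisEquivariant N, jZeroSmooth N, hes,
    frobeniusDense⟩

/-- An eigensystem of the lattice algebra outside `S` is that of an eigenform. -/
theorem exists_eigenform_of_matAlgHom {N p : ℕ} [NeZero N] [Fact p.Prime] (S : Set ℕ)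
    (hNS : ∀ r : ℕ, r.Prime → r ∣ N → r ∈ S) (hes : EichlerShimuraRelations N p)
    (φ : matAlg (matFamily (torsionInputs hes).model S) →+* ℂ) :
    ∃ h : CuspForm (Gamma0 N) 2, h.IsNormalizedEigenform ∧
      ∀ (r : ℕ) (hr : r.Prime) (hrS : r ∉ S),
        ModularFormClass.qCoeff h r =
          φ (matGen (matFamily (torsionInputs hes).model S) ⟨⟨r, hr⟩, hrS⟩) := by
  classical
  have := HeckeEigen.finiteDimensional_cuspForm N 2
  let R := torsionInputs hes
  obtain ⟨v, hv0, hv⟩ := EigenRep.exists_common_eigenvector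
    (fun i j : {ℓ : Nat.Primes // (ℓ : ℕ) ∉ S} => R.model.comm i.1 j.1) φ
  obtain ⟨⟨x, y⟩, hxy⟩ := Mazur.perPair_surjective (Mazur.rk_le_two_mul_finrank
    (HeckeJ0.parabolicFull N) (S20.result N).ge) v
  have hR : ∀ r : ℕ, r.Prime → r ∉ S → ¬ r ∣ N := fun r hr hrS h => hrS (hNS r hr h)
  -- both forms are eigen
  have hxy' : ∀ (r : ℕ) (hr : r.Prime) (hrS : r ∉ S),
      CuspForm.heckeTLin 2 hr (hR r hr hrS) x = φ (matGen _ ⟨⟨r, hr⟩, hrS⟩) • x ∧
        CuspForm.heckeTLin 2 hr (hR r hr hrS) y = φ (matGen _ ⟨⟨r, hr⟩, hrS⟩) • y := by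
    intro r hr hrS
    have e : EigenRep.formsOp N ⟨r, hr⟩ = CuspForm.heckeTLin 2 hr (hR r hr hrS) :=
      dif_neg (hR r hr hrS)
    have h1 := Mazur.map_perPair (P := HeckeJ0.heckeMatAt N ⟨r, hr⟩)
      (p := EigenRep.formsOp N ⟨r, hr⟩) (fun f => HeckeJ0.perMap_formsOp N ⟨r, hr⟩ f)
      (fun f => by
        rw [e]
        exact EichlerShimura.starForm_heckeTLin hr (hR r hr hrS) f) x y
    have h2 : (HeckeJ0.heckeMatAt N ⟨r, hr⟩).map (Int.cast : ℤ → ℂ) *ᵥ v =
        φ (matGen _ ⟨⟨r, hr⟩, hrS⟩) • v := hv ⟨⟨r, hr⟩, hrS⟩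
    rw [← hxy, h1, e] at h2
    have h3 := Mazur.perPair_injective (h2.trans ((Mazur.perPair N).map_smul _ _).symm)
    exact ⟨congrArg Prod.fst h3, congrArg Prod.snd h3⟩
  let W : Submodule ℂ (CuspForm (Gamma0 N) 2) :=
    ⨅ r : {ℓ : Nat.Primes // (ℓ : ℕ) ∉ S},
      LinearMap.ker (LevelRaising.heckeAt N ⟨r.1, r.1.2⟩ - φ (matGen _ r) • LinearMap.id)
  have hmemW : ∀ f, f ∈ W ↔ ∀ r : {ℓ : Nat.Primes // (ℓ : ℕ) ∉ S},
      LevelRaising.heckeAt N ⟨r.1, r.1.2⟩ f = φ (matGen _ r) • f := fun f => by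
    simp [W, sub_eq_zero, Submodule.mem_iInf]
  have hW : W ≠ ⊥ := by
    intro hbot
    have h1 : x ∈ W ∧ y ∈ W := by
      refine ⟨(hmemW _).mpr fun r => ?_, (hmemW _).mpr fun r => ?_⟩ <;>
        rw [LevelRaising.heckeAt, dif_neg (hR _ r.1.2 r.2)]
      · exact (hxy' _ r.1.2 r.2).1
      · exact (hxy' _ r.1.2 r.2).2
    rw [hbot, Submodule.mem_bot, Submodule.mem_bot] at h1
    exact hv0 (by rw [← hxy, h1.1, h1.2]; exact map_zero _)
  obtain ⟨f, hfW, hf0, hf⟩ := LevelRaising.exists_common_eigenvector (LevelRaising.heckeAt N)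
    LevelRaising.commute_heckeAt W hW fun i f hf => (hmemW _).mpr fun r => by
      rw [← Module.End.mul_apply, (LevelRaising.commute_heckeAt (N := N) ⟨r.1, r.1.2⟩ i).eq,
        Module.End.mul_apply, (hmemW f).mp hf r, map_smul]
  have hTe : ∀ (r : ℕ) (hr : r.Prime) (hrN : ¬ r ∣ N), ∃ c : ℂ,
      CuspForm.heckeTLin 2 hr hrN f = c • f := fun r hr hrN => by
    obtain ⟨c, hc⟩ := hf ⟨r, hr⟩
    exact ⟨c, by rwa [LevelRaising.heckeAt, dif_neg hrN] at hc⟩
  have hUe : ∀ (r : ℕ) (_ : r.Prime) (hrN : r ∣ N), ∃ c : ℂ,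
      CuspForm.heckeULin 2 hrN f = c • f := fun r hr hrN => by
    obtain ⟨c, hc⟩ := hf ⟨r, hr⟩
    exact ⟨c, by rwa [LevelRaising.heckeAt, dif_pos hrN] at hc⟩
  set a := ModularFormClass.qCoeff f 1 with ha
  have ha0 : a ≠ 0 := fun ha1 => hf0 (HeckeEigen.eq_zero_of_forall_pairOne (by norm_num) fun t => by
    obtain ⟨c, hc⟩ := HeckeEigen.exists_eigenvalue_of_generators hTe hUe t
    rw [HeckeEigen.pairOne_apply, hc, map_smul, HeckeEigen.qCoeffLin_apply, ← ha, ha1, smul_zero])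
  let g₀ : CuspForm (Gamma0 N) 2 := a⁻¹ • f
  have hg1 : ModularFormClass.qCoeff g₀ 1 = 1 := by
    rw [← HeckeEigen.qCoeffLin_apply, map_smul, HeckeEigen.qCoeffLin_apply, smul_eq_mul, ← ha,
      inv_mul_cancel₀ ha0]
  have hg : g₀.IsNormalizedEigenform := HeckeEigen.isNormalizedEigenform_of_eigen hg1
    (fun r hr hrN => by
      obtain ⟨c, hc⟩ := hTe r hr hrN
      exact ⟨c, by rw [map_smul, hc, smul_comm]⟩)
    (fun r hr hrN => by
      obtain ⟨c, hc⟩ := hUe r hr hrN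
      exact ⟨c, by rw [map_smul, hc, smul_comm]⟩)
  refine ⟨_, hg, fun r hr hrS => ?_⟩
  have h1 := (hmemW _).mp (W.smul_mem a⁻¹ hfW) ⟨⟨r, hr⟩, hrS⟩
  rw [LevelRaising.heckeAt, dif_neg (hR r hr hrS),
    HeckeEigen.heckeTLin_apply_of_isNormalizedEigenform hg hr (hR r hr hrS)] at h1
  exact smul_left_injective ℂ hg.ne_zero h1

/-- An element of the range of a character of a lattice algebra with nonzero value survives any
map to a ring of characteristic zero. -/
theorem map_ne_zero_of_isIntegral {B O : Type*} [CommRing B] [IsDomain B] [CommRing O]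
    [CharZero O] (ι : B →+* O) {x : B} (hint : IsIntegral ℤ x) (hx : x ≠ 0) : ι x ≠ 0 := by
  intro h0
  obtain ⟨c, hc, y, hy⟩ := hint.isAlgebraic.exists_nonzero_dvd (mem_nonZeroDivisors_of_ne_zero hx)
  have := congrArg ι hy
  rw [map_mul, h0, zero_mul, eq_intCast, map_intCast] at this
  exact hc (Int.cast_eq_zero.mp this)

/-- Frobenius at a prime `q ∥ N` on the representation of a newform. -/
theorem charpoly_of_newform {M' q p : ℕ} [NeZero M'] [NeZero q] [Fact p.Prime]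
    (hES : ∀ (K r : ℕ) [NeZero K] [Fact r.Prime], EichlerShimuraRelations K r)
    (hq : q.Prime) (hqp : q ≠ p) (htor : FrobeniusToric M' q)
    {g : CuspForm (Gamma0 (M' * q)) 2} (hg : g.IsNewform)
    {S : Set ℕ} (hSf : S.Finite) (hpS : p ∈ S)
    (hNS : ∀ r : ℕ, r.Prime → r ∣ M' * q → r ∈ S)
    (χ : CuspForm.heckeAlgebra (M' * q) 2 S →+* ℂ)
    (hχ : ∀ (ℓ : ℕ) (hℓ : ℓ.Prime) (hℓN : ¬ ℓ ∣ M' * q) (hℓS : ℓ ∉ S),
      χ (CuspForm.heckeAlgebra.T hℓ hℓN hℓS) = ModularFormClass.qCoeff g ℓ)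
    {O : Type} [CommRing O] [IsDomain O] [IsLocalRing O] [IsNoetherianRing O] [CharZero O]
    (hpO : (p : O) ∈ IsLocalRing.maximalIdeal O) (ι : χ.range →+* O) (ρ : GaloisRepAdic O)
    (hfrob : ∀ (ℓ : ℕ) (hℓ : ℓ.Prime) (hℓN : ¬ ℓ ∣ M' * q) (hℓS : ℓ ∉ S),
      ∀ A : ValuationSubring Qbar, A.LiesOverPrime ℓ → ∀ σ, A.IsFrobeniusAt σ ℓ →
        LinearMap.charpoly (ρ.ρ σ) =
          X ^ 2 - C ((ι.comp χ.rangeRestrict) (CuspForm.heckeAlgebra.T hℓ hℓN hℓS)) * X
            + C ((ℓ : O)))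
    {A : ValuationSubring Qbar} (hA : A.LiesOverPrime q) {φ : Qbar ≃ₐ[ℚ] Qbar}
    (hφ : A.IsFrobeniusAt φ q) :
    LinearMap.charpoly (ρ.ρ φ) = X ^ 2 - C ((q : O) + 1) * X + C ((q : O)) ∨
      LinearMap.charpoly (ρ.ρ φ) = X ^ 2 + C ((q : O) + 1) * X + C ((q : O)) := by
  classical
  set R := torsionInputs (hES (M' * q) p)
  set R' := torsionInputs (hES M' p)
  have hN'S : ∀ r : ℕ, r.Prime → r ∣ M' → r ∈ S := fun r hr h => hNS r hr (h.mul_right q)
  obtain ⟨P, hP, hPχ⟩ : ∃ P, evalT R'.model S P = 0 ∧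
      χ (toForms R.model S (evalT R.model S P)) ≠ 0 := by
    by_contra hcon
    push Not at hcon
    letI := matAlgCommRing (T := matFamily R.model S) fun i j => R.model.comm i.1 j.1
    letI := matAlgCommRing (T := matFamily R'.model S) fun i j => R'.model.comm i.1 j.1
    let e' : MvPolynomial {ℓ : Nat.Primes // (ℓ : ℕ) ∉ S} ℤ →+* matAlg (matFamily R'.model S) :=
      (MvPolynomial.aeval fun ℓ => matGen (matFamily R'.model S) ℓ).toRingHom
    let ψ : MvPolynomial {ℓ : Nat.Primes // (ℓ : ℕ) ∉ S} ℤ →+* ℂ :=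
      (χ.comp (toForms R.model S)).comp
        (MvPolynomial.aeval fun ℓ => matGen (matFamily R.model S) ℓ).toRingHom
    have hsurj : Function.Surjective e' := by
      rintro ⟨m, hm⟩
      induction hm using Algebra.adjoin_induction with
      | mem m hm =>
        obtain ⟨i, rfl⟩ := hm
        exact ⟨MvPolynomial.X i, MvPolynomial.aeval_X _ i⟩
      | algebraMap r => exact ⟨MvPolynomial.C r, MvPolynomial.aeval_C _ r⟩
      | add x y _ _ hx hy =>
        obtain ⟨a, ha⟩ := hx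
        obtain ⟨b, hb⟩ := hy
        exact ⟨a + b, by rw [map_add, ha, hb]; rfl⟩
      | mul x y _ _ hx hy =>
        obtain ⟨a, ha⟩ := hx
        obtain ⟨b, hb⟩ := hy
        exact ⟨a * b, by rw [map_mul, ha, hb]; rfl⟩
    have hker : RingHom.ker e' ≤ RingHom.ker ψ := fun P hP => hcon P hP
    let φ' : matAlg (matFamily R'.model S) →+* ℂ := e'.liftOfSurjective hsurj ⟨ψ, hker⟩
    have hφ' : ∀ P, φ' (e' P) = ψ P := fun P => RingHom.liftOfRightInverse_comp_apply _ _ _ _ P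
    obtain ⟨h, hh, hhr⟩ := exists_eigenform_of_matAlgHom S hN'S (hES M' p) φ'
    have hagree : ∀ ℓ : ℕ, ℓ.Prime → ℓ ∉ S →
        ModularFormClass.qCoeff g ℓ = ModularFormClass.qCoeff h ℓ := by
      intro ℓ hℓ hℓS
      have hℓN : ¬ ℓ ∣ M' * q := fun hd => hℓS (hNS ℓ hℓ hd)
      have h1 := hφ' (MvPolynomial.X ⟨⟨ℓ, hℓ⟩, hℓS⟩)
      rw [show e' (MvPolynomial.X ⟨⟨ℓ, hℓ⟩, hℓS⟩) = matGen _ ⟨⟨ℓ, hℓ⟩, hℓS⟩ from
        MvPolynomial.aeval_X _ _] at h1
      rw [hhr ℓ hℓ hℓS, h1]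
      show _ = χ (toForms R.model S (MvPolynomial.aeval _ (MvPolynomial.X _)))
      rw [MvPolynomial.aeval_X, toForms_T R.model hℓ hℓN hℓS, hχ]
    refine hg.2 M' (dvd_mul_right M' q) (fun h0 => ?_) ⟨h, hh, fun ℓ hℓ hℓN => ?_⟩
    · have h2 := Nat.eq_of_mul_eq_mul_left (Nat.pos_of_ne_zero (NeZero.ne M'))
        ((mul_one M').trans h0)
      exact hq.one_lt.ne h2
    · exact (qCoeff_eq_of_agree_of_inputs (fun K r _ _ => torsionInputs (hES K r)) hg.1 hh hSf
        hagree hℓ hℓN fun hd => hℓN (hd.mul_right q)).symm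
  have hint : IsIntegral ℤ (χ.rangeRestrict (toForms R.model S (evalT R.model S P))) := by
    have : Module.Finite ℤ (matAlg (matFamily R.model S)) :=
      Module.Finite.of_injective (matAlg (matFamily R.model S)).val.toLinearMap
        Subtype.val_injective
    exact map_isIntegral_int (χ.rangeRestrict.comp (toForms R.model S))
      (IsIntegral.of_finite ℤ (evalT R.model S P))
  exact charpoly_of_quartic R R' (normMaps_equivariant M' q)
    (quarticOnKernel_of_frobeniusToric M' q htor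
      ((Nat.coprime_primes Fact.out hq).mpr hqp.symm) hA hφ)
    (epsilon_frobenius hq hqp hA hφ) hSf hpS hNS hN'S hpO (ι.comp χ.rangeRestrict) ρ hfrob hP
    (map_ne_zero_of_isIntegral ι hint fun h0 => hPχ (congrArg Subtype.val h0))

end Fermat.Agent.SemistableRed

end
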