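import Fermat.Agent.SemistableRed.GaloisCompat
import Fermat.Agent.Congruence.Norm
import Fermat.Agent.Congruence.Correspondence
import Fermat.Agent.FunctionFieldRR.PushPull

/-!
# The norms to level `M` and the toric relation

The expansion of the norm of `f` from level `M q` to level `M` is
`f(t ^ q) * ∏ (w_q f)(ζ ^ b t)`, so it reduces to `red₀ f * Frob (red₁ f)`. A class killed by both
norms therefore has reductions with power norms, and a Frobenius at `q` satisfies
`(φ ^ 2 - q ^ 2) (φ ^ 2 - 1) = 0` on it.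
-/

set_option autoImplicit false
set_option linter.unusedSectionVars false

noncomputable section

open IsLocalRing ModularCurve AlgebraicCurve
open Fermat.Agent.Reduction Fermat.Agent.FunctionFieldRR

namespace Fermat.Agent.SemistableRed

local notation "Qbar" => AlgebraicClosure ℚ

section Generic

variable {L : Type*} [Field L] {A : ValuationSubring L}

theorem SRep.twist {x : LaurentSeries L} {v : LaurentSeries (ResidueField A)} (ζ : Aˣ)
    (hζ : residue A (ζ : A) = 1) (h : SRep x v) :
    SRep (Congruence.twist (Units.map (A.subtype : A →* L) ζ) x) v := by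
  obtain ⟨P, Q, hP, hQ, rfl⟩ := h
  have hι : ∀ z : LaurentSeries A, ιS A (Congruence.twist ζ z) =
      Congruence.twist (Units.map (A.subtype : A →* L) ζ) (ιS A z) := fun z =>
    Congruence.coeffMap_twist A.subtype ζ z
  have hr : ∀ z : LaurentSeries A, redS A (Congruence.twist ζ z) = redS A z := fun z => by
    rw [redS, Congruence.coeffMap_twist,
      show Units.map (residue A : A →* ResidueField A) ζ = 1 from Units.ext hζ,
      Congruence.twist_one]
  refine ⟨Congruence.twist ζ P, Congruence.twist ζ Q, ?_, by rw [hr]; exact hQ, by rw [hr, hr]⟩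
  rw [hι, hι, ← map_mul, hP]

theorem SRep.prod {J : Type*} (s : Finset J) {f : J → LaurentSeries L}
    {g : J → LaurentSeries (ResidueField A)} (h : ∀ j ∈ s, SRep (f j) (g j)) :
    SRep (∏ j ∈ s, f j) (∏ j ∈ s, g j) := by
  classical
  induction s using Finset.induction with
  | empty => simpa using SRep.one
  | insert j t hj ih =>
    rw [Finset.prod_insert hj, Finset.prod_insert hj]
    exact (h j (Finset.mem_insert_self j t)).mul (ih fun a ha => h a (Finset.mem_insert_of_mem ha))

variable {K F F' : Type*} [Field K] [Field F] [Field F'] [Algebra K F] [Algebra K F']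

/-- The norm along an embedding. -/
def normAlong (ψ : F →ₐ[K] F') (x : F') : F :=
  letI := algebraAlong ψ
  Algebra.norm F x

theorem normAlong_comp (ψ : F →ₐ[K] F') (w : F' ≃ₐ[K] F') {φ : F →ₐ[K] F'}
    (hφ : ∀ x, w (ψ x) = φ x) (x : F') : normAlong ψ x = normAlong φ (w x) :=
  @Algebra.norm_eq_of_equiv_equiv F F' F F' _ _ _ _ (algebraAlong ψ) (algebraAlong φ)
    (RingEquiv.refl F) w.toRingEquiv (RingHom.ext fun a => (hφ a).symm) x

variable [IsAlgClosed K] [IsFunctionField K F] [IsFunctionField K F']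

/-- When the push forward of `D` is principal, the norm of a function with divisor `n D` is a
constant times an `n`-th power. -/
theorem normAlong_eq_pow (ψ : F →ₐ[K] F') (hψ : ψ.toRingHom.IsIntegral) {D : Divisor K F'} {n : ℕ}
    {u : F'} (hu : u ≠ 0) (hD : ∀ P, P.ord u = (n : ℤ) * D P) {g : F} (hg : g ≠ 0)
    (h : ∀ v, Divisor.pushforwardAlong ψ hψ D v = v.ord g) :
    ∃ a : K, normAlong ψ u = algebraMap K F a * g ^ n ∧ normAlong ψ u ≠ 0 := by
  let := algebraAlong ψ
  have : Module.Finite F F' := finiteAlong ψ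
  have hn0 : normAlong ψ u ≠ 0 := Algebra.norm_ne_zero_iff.mpr hu
  have hord : ∀ v : Place K F, v.ord (normAlong ψ u) = (n : ℤ) * v.ord g := fun v => by
    have h1 := Congruence.pushforwardAlong_eq_ord ψ hψ (finiteAlong ψ) (normFormulaAlong ψ _) hu
      (E := (n : ℤ) • D) (fun w => by simp [hD w]) v
    rw [map_zsmul, Finsupp.smul_apply, smul_eq_mul, h v] at h1
    exact h1.symm
  obtain ⟨a, ha⟩ := exists_algebraMap_eq_of_forall_ord_nonneg (K := K)
    (f := normAlong ψ u / g ^ n) fun v => by
      rw [ord_div v hn0 (pow_ne_zero n hg), hord, ord_pow, sub_self]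
  exact ⟨a, by rw [← ha, div_mul_cancel₀ _ (pow_ne_zero n hg)], hn0⟩

end Generic

variable {A : ValuationSubring Qbar} {M q : ℕ} [NeZero M] [NeZero q] [Fact q.Prime]
  [CharP (ResidueField A) q] [IsAlgClosed (ResidueField A)] (S : Setting A M q)

namespace Setting

/-- The expansion of a norm to level `M`. -/
theorem qExpand_norm (ζ : Qbarˣ) (hζ : IsPrimitiveRoot (ζ : Qbar) q)
    (f : modularFunctionFieldBar (M * q)) :
    qExpand Qbar q ((normAlong (heckeAlphaBar Qbar M q) f : modularFunctionFieldBar M) : LaurentSeries Qbar) =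
      qExpand Qbar q (S.side 0 f) * ∏ b : Fin q, Congruence.twist (ζ ^ (b : ℕ)) (S.side 1 f) := by
  have := isFunctionField_level M
  have := isFunctionField_level (M * q)
  let := algebraAlong (heckeAlphaBar Qbar M q)
  let : Module (modularFunctionFieldBar M) (modularFunctionFieldBar (M * q)) := Algebra.toModule
  have : Module.Finite (modularFunctionFieldBar M) (modularFunctionFieldBar (M * q)) :=
    finiteAlong (heckeAlphaBar Qbar M q)
  have : CharZero (modularFunctionFieldBar M) :=
    charZero_of_injective_algebraMap (algebraMap Qbar (modularFunctionFieldBar M)).injective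
  have hz : ∀ b : ℕ, (ζ ^ b : Qbarˣ) ^ q = 1 := fun b => by
    have hζ1 : ζ ^ q = 1 := Units.ext (by simpa using hζ.pow_eq_one)
    rw [← pow_mul, mul_comm, pow_mul, hζ1, one_pow]
  let g : modularFunctionFieldBar M →+* LaurentSeries Qbar :=
    (qExpand Qbar q).comp (modularFunctionFieldBar M).val.toRingHom
  let e : Option (Fin q) → (modularFunctionFieldBar (M * q) →+* LaurentSeries Qbar) := fun o =>
    o.elim ((qExpand Qbar q).comp (S.side 0).toRingHom)
      (fun b => (Congruence.twist (ζ ^ (b : ℕ))).comp (S.side 1).toRingHom)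
  have he : ∀ o x, e o (heckeAlphaBar Qbar M q x) = g x := by
    rintro (_ | b) x
    · exact congrArg (qExpand Qbar q) (S.side_alpha x).1
    · show Congruence.twist (ζ ^ (b : ℕ)) (S.side 1 (heckeAlphaBar Qbar M q x)) =
        qExpand Qbar q (x : LaurentSeries Qbar)
      rw [(S.side_alpha x).2, Congruence.twist_qExpand_of_pow_eq_one (hz b)]
  have hnone : e none S.jqF = qExpand Qbar q (qExpand Qbar q (jqModC Qbar)) :=
    congrArg (qExpand Qbar q) (S.side_beta (jBar M)).1
  have hsome : ∀ b : Fin q, e (some b) S.jqF = Congruence.twist (ζ ^ (b : ℕ)) (jqModC Qbar) :=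
    fun b => congrArg (Congruence.twist (ζ ^ (b : ℕ))) (S.side_beta (jBar M)).2
  have hne : ∀ b : Fin q, qExpand Qbar q (qExpand Qbar q (jqModC Qbar)) ≠
      Congruence.twist (ζ ^ (b : ℕ)) (jqModC Qbar) := by
    intro b hb
    have h1 := congrArg (fun z => z.coeff (-1 : ℤ)) hb
    have hnd : ¬ (q : ℤ) ∣ (-1 : ℤ) := fun hd => by
      rw [Int.dvd_neg] at hd
      have := Int.le_of_dvd one_pos hd
      have := S.prime.two_le
      omega
    simp only [qExpand_coeff_of_not_dvd q _ hnd, Congruence.twist_coeff, coeff_jqModC_neg_one,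
      mul_one] at h1
    exact Units.ne_zero _ h1.symm
  have hinj : Function.Injective e := by
    intro o o' hoo
    have hj := congrArg (fun r : _ →+* LaurentSeries Qbar => r S.jqF) hoo
    rcases o with _ | b <;> rcases o' with _ | b' <;> simp only [hnone, hsome] at hj
    · rfl
    · exact absurd hj (hne b')
    · exact absurd hj.symm (hne b)
    · have h1 := congrArg (fun z => z.coeff (-1 : ℤ)) hj
      simp only [Congruence.twist_coeff, coeff_jqModC_neg_one, mul_one] at h1
      exact congrArg some (Fin.ext (hζ.pow_inj b.isLt b'.isLt (by simpa using h1)))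
  have hdeg : Fintype.card (Option (Fin q)) =
      Module.finrank (modularFunctionFieldBar M) (modularFunctionFieldBar (M * q)) := by
    rw [Fintype.card_option, Fintype.card_fin]
    exact (finrankAlong_alpha S.prime S.not_dvd).symm
  have hmain := Congruence.map_norm_eq_prod g e he hinj hdeg f
  rw [Fintype.prod_option] at hmain
  exact hmain

include S in
/-- The norm of a function reducing to `v 0`, `v 1` reduces to `v 0 * Frob (v 1)`. -/
theorem srep_norm {f : modularFunctionFieldBar (M * q)} {c : Fin 2 → Qbar}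
    {v : Fin 2 → modularFunctionFieldFullC (ResidueField A) M}
    (h : ∀ i, SRep (S.side i (c i • f)) (v i : LaurentSeries (ResidueField A))) :
    SRep ((c 0 * c 1 ^ q) • qExpand Qbar q
        ((normAlong (heckeAlphaBar Qbar M q) f : modularFunctionFieldBar M) : LaurentSeries Qbar))
      (qExpand (ResidueField A) q
        ((v 0 * frobG (ResidueField A) M q • v 1 : _) : LaurentSeries (ResidueField A))) := by
  obtain ⟨z₀, hz₀⟩ := HasEnoughRootsOfUnity.prim (M := Qbar) (n := q)
  have hz₀A : z₀ ∈ A := by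
    have h1 : IsIntegral A z₀ :=
      IsIntegral.of_pow S.prime.pos (by rw [hz₀.pow_eq_one]; exact isIntegral_one)
    obtain ⟨a, ha⟩ := IsIntegrallyClosed.isIntegral_iff.mp h1
    exact ha ▸ a.2
  let ζA : Aˣ := (IsUnit.of_pow_eq_one (a := (⟨z₀, hz₀A⟩ : A))
    (Subtype.ext (by simpa using hz₀.pow_eq_one)) (NeZero.ne q)).unit
  have hζ : IsPrimitiveRoot ((Units.map (A.subtype : A →* Qbar) ζA : Qbarˣ) : Qbar) q := by
    simpa [ζA] using hz₀
  have hres : residue A (ζA : A) = 1 := by
    have h1 : (residue A (ζA : A)) ^ q = 1 := by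
      rw [← map_pow, show (ζA : A) ^ q = 1 from
        Subtype.ext (by simpa [ζA] using hz₀.pow_eq_one), map_one]
    have h2 : (residue A (ζA : A) - 1) ^ q = 0 := by rw [sub_pow_char, h1, one_pow, sub_self]
    simpa [sub_eq_zero] using pow_eq_zero_iff (NeZero.ne q) |>.mp h2
  have hsc : ∀ (d : Qbar) (i : Fin 2), S.side i (d • f) =
      algebraMap Qbar (LaurentSeries Qbar) d * S.side i f := fun d i => by
    rw [S.side_smul, smul_eq_algebraMap_mul]
  have hfix : ∀ (n : ℕ) [NeZero n] (d : Qbar), qExpand Qbar n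
      (algebraMap Qbar (LaurentSeries Qbar) d) = algebraMap Qbar (LaurentSeries Qbar) d :=
    fun n _ d => by rw [algebraMap_laurentSeries_eq_single, qExpand_single, mul_zero]
  have hprod := ((h 0).qExpand q).mul (SRep.prod (A := A) Finset.univ fun (b : Fin q) _ =>
    SRep.twist (ζA ^ (b : ℕ)) (by rw [Units.val_pow_eq_pow_val, map_pow, hres, one_pow]) (h 1))
  have e1 : qExpand Qbar q (S.side 0 (c 0 • f)) * ∏ b : Fin q,
      Congruence.twist (Units.map (A.subtype : A →* Qbar) (ζA ^ (b : ℕ))) (S.side 1 (c 1 • f)) =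
        (c 0 * c 1 ^ q) • qExpand Qbar q
          ((normAlong (heckeAlphaBar Qbar M q) f : modularFunctionFieldBar M) : LaurentSeries Qbar) := by
    rw [S.qExpand_norm _ hζ f, hsc, hsc, smul_eq_algebraMap_mul, map_mul, hfix, map_mul, map_pow]
    have ht : ∀ b : Fin q, Congruence.twist (Units.map (A.subtype : A →* Qbar) (ζA ^ (b : ℕ)))
        (algebraMap Qbar (LaurentSeries Qbar) (c 1) * S.side 1 f) =
          algebraMap Qbar (LaurentSeries Qbar) (c 1) *
            Congruence.twist (Units.map (A.subtype : A →* Qbar) ζA ^ (b : ℕ)) (S.side 1 f) :=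
      fun b => by
        rw [map_mul, map_pow, algebraMap_laurentSeries_eq_single, Congruence.twist_single_zero]
    simp only [ht, Finset.prod_mul_distrib, Finset.prod_const, Finset.card_univ, Fintype.card_fin]
    ring
  rw [e1, Finset.prod_const, Finset.card_univ, Fintype.card_fin,
    Congruence.laurent_pow_char q (v 1 : LaurentSeries (ResidueField A))] at hprod
  rw [MulMemClass.coe_mul, map_mul, coe_frobG_smul]
  exact hprod

set_option maxHeartbeats 400000 in
include S in
/-- If the norm is a constant times an `n`-th power, so is the product of reductions. -/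
theorem exists_root {n : ℕ} (hn : n ≠ 0) {f : modularFunctionFieldBar (M * q)}
    {a : Qbar} {g : modularFunctionFieldBar M} (hg : g ≠ 0)
    (hN : normAlong (heckeAlphaBar Qbar M q) f = algebraMap Qbar _ a * g ^ n)
    {c : Fin 2 → Qbar}
    (hc : ∀ i, S.gauss.Int i (c i • f) ∧ S.gauss.red i (c i • f) ≠ 0) :
    ∃ y : modularFunctionFieldFullC (ResidueField A) M, y ≠ 0 ∧
      S.gauss.red 0 (c 0 • f) * frobG (ResidueField A) M q • S.gauss.red 1 (c 1 • f) = y ^ n := by
  have h1 := S.srep_norm (c := c) fun i => S.srep_red (hc i).1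
  obtain ⟨d, hd, hdi, hdr⟩ := S.model.exists_scale hg
  have h2 := ((S.srep_level _ hdi).qExpand q).pow n
  set G : LaurentSeries Qbar := qExpand Qbar q ((d • g : modularFunctionFieldBar M) :
    LaurentSeries Qbar) ^ n with hG
  set z := S.gauss.red 0 (c 0 • f) * frobG (ResidueField A) M q • S.gauss.red 1 (c 1 • f) with hz
  set g' := S.model.red (d • g)
  have hz0 : z ≠ 0 := mul_ne_zero (hc 0).2 ((smul_ne_zero_iff_ne _).mpr (hc 1).2)
  have hg' : qExpand (ResidueField A) q (g' : LaurentSeries (ResidueField A)) ^ n ≠ 0 :=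
    pow_ne_zero _ ((map_ne_zero_iff _ (qExpand_injective (R := ResidueField A) q)).mpr
      fun h => hdr (Subtype.ext h))
  set e : Qbar := c 0 * c 1 ^ q * a / d ^ n with he
  have hfix : ∀ x : Qbar, qExpand Qbar q
      (algebraMap Qbar (LaurentSeries Qbar) x) = algebraMap Qbar (LaurentSeries Qbar) x :=
    fun x => by rw [algebraMap_laurentSeries_eq_single, qExpand_single, mul_zero]
  have heq : (c 0 * c 1 ^ q) • qExpand Qbar q
      ((normAlong (heckeAlphaBar Qbar M q) f : modularFunctionFieldBar M) : LaurentSeries Qbar) = e • G := by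
    rw [hN, hG, he, MulMemClass.coe_mul, IntermediateField.coe_algebraMap_apply,
      SubmonoidClass.coe_pow, map_mul, map_pow, hfix, Algebra.smul_def d, MulMemClass.coe_mul,
      IntermediateField.coe_algebraMap_apply, map_mul (qExpand Qbar q), hfix,
      smul_eq_algebraMap_mul, smul_eq_algebraMap_mul, mul_pow, map_div₀, map_pow, map_mul]
    field_simp [(map_ne_zero (algebraMap Qbar (LaurentSeries Qbar))).mpr hd]
    simp only [map_mul, map_pow]
    ring
  rw [heq] at h1
  have heA : e ∈ A := by
    by_contra hcon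
    exact hg' (h2.unique (srep_zero_of_not_mem hcon h1))
  have h3 := h1.unique (h2.smul heA)
  set eb := residue A ⟨e, heA⟩
  obtain ⟨r, hr⟩ := IsAlgClosed.exists_pow_nat_eq eb (Nat.pos_of_ne_zero hn)
  refine ⟨algebraMap (ResidueField A) _ r * g', ?_, ?_⟩
  · refine mul_ne_zero ((map_ne_zero _).mpr fun h0 => hz0 ?_) hdr
    rw [h0, zero_pow hn] at hr
    rw [← hr, zero_smul, map_eq_zero_iff _ (qExpand_injective (R := ResidueField A) q)] at h3
    exact Subtype.ext h3
  · refine Subtype.ext (qExpand_injective (R := ResidueField A) q ?_)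
    rw [h3, SubmonoidClass.coe_pow, MulMemClass.coe_mul, IntermediateField.coe_algebraMap_apply,
      map_pow, map_mul, mul_pow, smul_eq_algebraMap_mul, ← hr, map_pow,
      algebraMap_laurentSeries_eq_single, qExpand_single, mul_zero]

include S in
/-- The toric relation for a Frobenius at `A`. -/
theorem toric {φ : Qbar ≃ₐ[ℚ] Qbar} (hφ : A.IsFrobeniusAt φ q) {n : ℕ} (hn : n.Coprime q)
    (hα : HeckeAlphaBarIntegral Qbar M q) (hβ : HeckeBetaBarIntegral Qbar M q)
    (D : Divisor.degZero (K := Qbar) (F := modularFunctionFieldBar (M * q)))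
    (hx : n • Pic0.mk D = 0)
    (hDα : PushTrivial (heckeAlphaBar Qbar M q) hα
      (D : Divisor Qbar (modularFunctionFieldBar (M * q))))
    (hDβ : PushTrivial (heckeBetaBar Qbar M q) hβ
      (D : Divisor Qbar (modularFunctionFieldBar (M * q)))) :
    φ • φ • φ • φ • Pic0.mk D - (q ^ 2 + 1 : ℕ) • (φ • φ • Pic0.mk D)
      + (q ^ 2 : ℕ) • Pic0.mk D = 0 := by
  have := isFunctionField_level M
  have := isFunctionField_level (M * q)
  have := S.isFunctionField_C
  obtain ⟨hs, hact⟩ := hφ
  have hnk : (n : ResidueField A) ≠ 0 := natCast_residue_ne_zero S.above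
    fun h => S.prime.not_dvd_one (hn ▸ Nat.dvd_gcd h dvd_rfl)
  have hn0 : n ≠ 0 := fun h0 => hnk (by rw [h0, Nat.cast_zero])
  have hc := S.compatible hs (frobenius (ResidueField A) q)
    (fun a => (ResidueField.residue_smul _ (⟨φ, hs⟩ : A.decompositionSubgroup ℚ) a).trans (hact _))
    (frobG (ResidueField A) M q) (fun z => coe_frobG_smul _ M q z) (e := q)
    (baseAut_frobG _ M q)
  -- a function with divisor `n D`
  have hp : n • D ∈ (Divisor.principal (K := Qbar)
      (F := modularFunctionFieldBar (M * q))).addSubgroupOf _ :=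
    (QuotientAddGroup.eq_zero_iff (n • D)).mp hx
  obtain ⟨u, hu, hu'⟩ := hp
  have hD : ∀ P, P.ord u = (n : ℤ) * (D : Divisor Qbar (modularFunctionFieldBar (M * q))) P :=
    fun P => by rw [← hu' P]; simp
  choose c hc' hcr using fun i => S.normalise i u hu
  have hwu : ∀ i, S.gauss.Int i (c (1 - i) • S.w u) ∧
      S.gauss.red i (c (1 - i) • S.w u) = S.gauss.red (1 - i) (c (1 - i) • u) := fun i => by
    rw [← S.w_smul]; exact S.red_w (hc' _)
  obtain ⟨gα, hgα, hgα'⟩ := hDα
  obtain ⟨gβ, hgβ, hgβ'⟩ := hDβ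
  obtain ⟨aα, hNα, -⟩ := normAlong_eq_pow _ hα hu hD hgα hgα'
  obtain ⟨aβ, hNβ, -⟩ := normAlong_eq_pow _ hβ hu hD hgβ hgβ'
  rw [normAlong_comp (heckeBetaBar Qbar M q) S.w (φ := heckeAlphaBar Qbar M q)
    (fun x => wq_heckeBetaBar _ _ x)] at hNβ
  obtain ⟨y0, hy0, hy0'⟩ := S.exists_root hn0 hgα hNα (c := c) fun i => ⟨hc' i, hcr i⟩
  obtain ⟨y1, hy1, hy1'⟩ := S.exists_root hn0 hgβ hNβ (c := fun i => c (1 - i))
    fun i => ⟨(hwu i).1, by rw [(hwu i).2]; exact hcr _⟩
  rw [(hwu 0).2, (hwu 1).2] at hy1'
  exact hc.toric (fun z => frobG_smul_piG _ M q z) hnk D hu hD c ![y0, y1] (fun i => by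
      obtain rfl | rfl : i = 0 ∨ i = 1 := by omega
      · exact ⟨hy0, hc' _, hcr _⟩
      · exact ⟨hy1, hc' _, hcr _⟩) fun i => by
    obtain rfl | rfl : i = 0 ∨ i = 1 := by omega
    · exact hy0'
    · exact hy1'

end Setting

/-- The toric relation at `q` from the reduction facts at level `M`. -/
theorem frobeniusToric_of_facts {M q : ℕ} [NeZero M] [NeZero q] [Fact q.Prime] (hqM : ¬ q ∣ M)
    (hfacts : ∀ A : ValuationSubring Qbar, A.LiesOverPrime q →
      ∃ g : ℤ, ReductionFacts (ResidueField A) M g) : FrobeniusToric M q := by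
  intro A hA φ hφ n hn hα hβ D hx hDα hDβ
  have := charP_residueField hA
  have : IsAlgClosed (ResidueField A) := isAlgClosed_residueField
  exact (⟨hqM, hA, hfacts A hA⟩ : Setting A M q).toric hφ hn hα hβ D hx hDα hDβ

end Fermat.Agent.SemistableRed

end
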