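import Fermat.Agent.SemistableRed.GaloisCompat
import Fermat.Agent.SemistableRed.Toric
import Fermat.Agent.SemistableRed.NewformSystem
import Fermat.Prelude.Def_CuspForm_HeckeGaloisRepDatum

/-!
# S34 and S35 from the reduction facts and the Eichler–Shimura relations
-/

set_option autoImplicit false

noncomputable section

open Fermat.Agent.EigenRep Fermat.Agent.Reduction Polynomial ModularCurve

namespace Fermat.Agent.SemistableRed

local notation "Qbar" => AlgebraicClosure ℚ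

/-- The facts on good reduction of `X₀(M)` at every prime not dividing `M`. -/
def GoodReductionFacts : Prop :=
  ∀ (M q : ℕ) [NeZero M] [Fact q.Prime], ¬ q ∣ M → ∀ A : ValuationSubring Qbar, A.LiesOverPrime q →
    ∃ g : ℤ, ReductionFacts (IsLocalRing.ResidueField A) M g

/-- The Eichler–Shimura relations on torsion at every level. -/
def AllRelations : Prop :=
  ∀ (K r : ℕ) [NeZero K] [Fact r.Prime], EichlerShimuraRelations K r

theorem exists_level {N q : ℕ} [NeZero N] (hqN : q ∣ N) (hq2 : ¬ q ^ 2 ∣ N) :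
    ∃ M, N = M * q ∧ M ≠ 0 ∧ ¬ q ∣ M := by
  obtain ⟨M, hM⟩ := hqN
  refine ⟨M, by rw [hM, mul_comm], fun h => NeZero.ne N (by rw [hM, h, mul_zero]), fun h => hq2 ?_⟩
  rw [hM, pow_two]
  exact Nat.mul_dvd_mul_left q h

/-- Inertia at `q ∥ N` is unipotent on the representation of a Hecke datum. -/
theorem isUnipotentOnInertiaAt_of_facts (hfacts : GoodReductionFacts) (hes : AllRelations)
    {p N : ℕ} [NeZero N] [Fact p.Prime] {S : Finset ℕ}
    {𝒪 : Type} [CommRing 𝒪] [IsDomain 𝒪] [IsDiscreteValuationRing 𝒪]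
    [IsAdicComplete (IsLocalRing.maximalIdeal 𝒪) 𝒪]
    {θ : CuspForm.heckeAlgebra N 2 (↑S : Set ℕ) →+* IsLocalRing.ResidueField 𝒪}
    {T : Type} [CommRing T] [IsLocalRing T] [IsNoetherianRing T]
    [IsAdicComplete (IsLocalRing.maximalIdeal T) T] [Algebra 𝒪 T] [IsLocalHom (algebraMap 𝒪 T)]
    [Module.Finite 𝒪 T] [Module.Free 𝒪 T]
    (hp𝒪 : (p : 𝒪) ∈ IsLocalRing.maximalIdeal 𝒪) (hpS : p ∈ S)
    (hNS : ∀ q : ℕ, q.Prime → q ∣ N → q ∈ S)
    (H : CuspForm.HeckeGaloisRepDatum N (↑S : Set ℕ) 𝒪 θ T)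
    {q : ℕ} (hq : q.Prime) (hqp : q ≠ p) (hqN : q ∣ N) (hq2 : ¬ q ^ 2 ∣ N) :
    H.ρ.IsUnipotentOnInertiaAt q := by
  have : Fact q.Prime := ⟨hq⟩
  obtain ⟨M, hNM, hM0, hqM⟩ := exists_level hqN hq2
  subst hNM
  have : NeZero M := ⟨hM0⟩
  refine isUnipotentOnInertiaAt_datum (torsionInputs (hes (M * q) p)) hp𝒪 hpS hNS H q hq hqp ?_
  intro P hP σ hσ x hx
  obtain ⟨n, hn⟩ := hx
  exact inertiaUnipotent_of_facts hqM (hfacts M q hqM) P hP σ hσ (p ^ n)
    (((Nat.coprime_primes Fact.out hq).mpr hqp.symm).pow_left n) x hn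

/-- The representation of a newform, with the shape of Frobenius at the primes exactly dividing
the level. -/
theorem exists_galoisRepAdic_newform_of_facts (hfacts : GoodReductionFacts) (hes : AllRelations)
    {M : ℕ} [NeZero M] {g : CuspForm (CongruenceSubgroup.Gamma0 M) 2} (hg : g.IsNewform)
    (lam : ℕ) [Fact lam.Prime] (S : Finset ℕ)
    (O' : Type) [CommRing O'] [IsDomain O'] [IsDiscreteValuationRing O']
    [IsAdicComplete (IsLocalRing.maximalIdeal O') O'] [Finite (IsLocalRing.ResidueField O')]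
    [CharZero O'] (hlamO' : (lam : O') ∈ IsLocalRing.maximalIdeal O')
    (chig : CuspForm.heckeAlgebra M 2 (↑S : Set ℕ) →+* ℂ)
    (hchig : ∀ (ℓ : ℕ) (hℓ : ℓ.Prime) (hℓM : ¬ ℓ ∣ M) (hℓS : ℓ ∉ (↑S : Set ℕ)),
      chig (CuspForm.heckeAlgebra.T hℓ hℓM hℓS) = ModularFormClass.qCoeff g ℓ)
    (iota : chig.range →+* O')
    (hlamS : lam ∈ S) (hMS : ∀ q : ℕ, q.Prime → q ∣ M → q ∈ S) :
    ∃ (O'' : Type) (_ : CommRing O'') (_ : IsDomain O'') (_ : IsDiscreteValuationRing O'')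
      (_ : IsAdicComplete (IsLocalRing.maximalIdeal O'') O'')
      (_ : Finite (IsLocalRing.ResidueField O''))
      (_ : CharZero O'') (_ : Algebra O' O'') (_ : Module.Finite O' O'')
      (_ : IsLocalHom (algebraMap O' O'')),
      Function.Injective (algebraMap O' O'') ∧
      ∃ ρ : GaloisRepAdic O'',
        (∀ (ℓ : ℕ) (hℓ : ℓ.Prime) (hℓM : ¬ ℓ ∣ M) (hℓS : ℓ ∉ (↑S : Set ℕ)),
          ∀ A : ValuationSubring Qbar, A.LiesOverPrime ℓ →
            ∀ σ : Qbar ≃ₐ[ℚ] Qbar, A.IsFrobeniusAt σ ℓ →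
              LinearMap.charpoly (ρ.ρ σ) =
                X ^ 2 - C (algebraMap O' O'' ((iota.comp chig.rangeRestrict)
                    (CuspForm.heckeAlgebra.T hℓ hℓM hℓS))) * X
                  + C ((ℓ : O''))) ∧
        (∀ q : ℕ, q.Prime → q ≠ lam → q ∣ M → ¬ q ^ 2 ∣ M →
          ∀ A : ValuationSubring Qbar, A.LiesOverPrime q →
            ∀ σ : Qbar ≃ₐ[ℚ] Qbar, A.IsFrobeniusAt σ q →
              LinearMap.charpoly (ρ.ρ σ) = X ^ 2 - C ((q : O'') + 1) * X + C ((q : O'')) ∨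
              LinearMap.charpoly (ρ.ρ σ) = X ^ 2 + C ((q : O'') + 1) * X + C ((q : O''))) := by
  obtain ⟨O'', _, _, _, _, _, _, _, _, _, hinj, ρ, hfrob, -⟩ :=
    exists_galoisRepAdic_of_inputs (torsionInputs (hes M lam)) S hlamS O' hlamO'
      (iota.comp chig.rangeRestrict)
  refine ⟨O'', inferInstance, inferInstance, inferInstance, inferInstance, inferInstance,
    inferInstance, inferInstance, inferInstance, inferInstance, hinj, ρ, hfrob, ?_⟩
  intro q hq hqlam hqM hq2 A hA σ hσ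
  have : Fact q.Prime := ⟨hq⟩
  obtain ⟨M', hM', hM'0, hqM'⟩ := exists_level hqM hq2
  subst hM'
  have : NeZero M' := ⟨hM'0⟩
  have : NeZero q := ⟨hq.ne_zero⟩
  refine charpoly_of_newform hes hq hqlam
    (frobeniusToric_of_facts hqM' (hfacts M' q hqM')) hg S.finite_toSet
    (Finset.mem_coe.mpr hlamS) (fun r hr hrM => Finset.mem_coe.mpr (hMS r hr hrM)) chig hchig ?_
    ((algebraMap O' O'').comp iota) ρ hfrob hA hσ
  rw [← map_natCast (algebraMap O' O'') lam]
  exact map_nonunit (algebraMap O' O'') _ hlamO'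

end Fermat.Agent.SemistableRed

end
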