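import Fermat.Agent.SemistableRed.Templates
import Fermat.Agent.IgusaGenus.Main
import Fermat.Agent.Reduction.JZeroInjective
import Fermat.Agent.Reduction.Exists
import Fermat.Agent.Congruence.Assembly
import Fermat.Agent.HeckeJ0.Inputs

/-!
# The reduction facts and the Eichler–Shimura relations hold
-/

set_option autoImplicit false

noncomputable section

open IsLocalRing ModularCurve Fermat.Agent.EigenRep

namespace Fermat.Agent.SemistableRed

theorem goodReductionFacts : GoodReductionFacts :=
  fun _ _ _ _ hqM _ hA => ⟨_, IgusaGenus.reductionFacts hqM hA⟩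

theorem allRelations : AllRelations := by
  intro K r _ _
  refine eichlerShimuraRelations_of_specialization (HeckeJ0.heckeOperatorsCommuteBar K)
    (HeckeJ0.heckeGaloisEquivariant K)
    (Congruence.specializationExists_of_hecke_injective K r (HeckeJ0.heckeOperatorsCommuteBar K)
      (fun ℓ _ _ _ => HeckeJ0.heckeInputsAlong K ℓ) ?_)
  intro ℓ hℓ hℓK A hA m hm z hmz hz
  have : Fact ℓ.Prime := ⟨hℓ⟩
  exact Reduction.eq_zero_of_reductionModL_eq_zero hA (IgusaGenus.reductionFacts hℓK hA)
    (Reduction.reductionInputsModL hA (IgusaGenus.reductionFacts hℓK hA)) hm hmz hz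

end Fermat.Agent.SemistableRed

end
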