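import Fermat.Agent.EigenRep.TorsionAction

/-!
# Semilinear automorphisms as `p`-adic matrices on the torsion of `J₀(N)`

`galMat` extends to all semilinear automorphisms of the function field, so the Atkin–Lehner
automorphisms act by matrices compatible with the Galois ones.
-/

set_option autoImplicit false

noncomputable section

namespace Fermat.Agent.SemistableRed

open ModularCurve AlgebraicCurve Matrix Fermat.Agent.EigenRep

local notation "Qbar" => AlgebraicClosure ℚ
local notation "Jtors" N:max n:max => Pic0.torsion (AlgebraicClosure ℚ) (modularFunctionFieldBar N) n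

variable {N p : ℕ} [NeZero N] (M : TorsionHeckeModel N p)

/-- An automorphism on `J₀(N)[pⁿ]` in matrices. -/
def autLevelMat (n : ℕ) :
    SemilinearAut Qbar (modularFunctionFieldBar N) →* Matrix (Fin M.d) (Fin M.d) (ZMod (p ^ n)) :=
  ((LinearMap.toMatrixAlgEquiv' : _ ≃ₐ[ZMod (p ^ n)] _).toAlgHom.toMonoidHom.comp
    ((levelEquiv M n).conjAlgEquiv (ZMod (p ^ n))).toAlgHom.toMonoidHom).comp
    (SemilinearAut.torsionRep Qbar (modularFunctionFieldBar N) (p ^ n))

theorem autLevelMat_mulVec (n : ℕ) (g : SemilinearAut Qbar (modularFunctionFieldBar N))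
    (x : Jtors N (p ^ n)) : autLevelMat M n g *ᵥ M.e n x = M.e n (g • x) :=
  toMatrix_conj_mulVec (levelEquiv M n) (SemilinearAut.torsionRep _ _ (p ^ n) g) x

theorem autLevelMat_compat (n : ℕ) (g : SemilinearAut Qbar (modularFunctionFieldBar N))
    (i j : Fin M.d) :
    ZMod.castHom (pow_dvd_pow p n.le_succ) (ZMod (p ^ n)) (autLevelMat M (n + 1) g i j) =
      autLevelMat M n g i j := by
  let c := ZMod.castHom (pow_dvd_pow p n.le_succ) (ZMod (p ^ n))
  have key : (autLevelMat M (n + 1) g).map c = autLevelMat M n g := by
    refine mat_ext M fun y => ?_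
    choose v hv using fun k =>
      ZMod.castHom_surjective (pow_dvd_pow p n.le_succ) (M.e n y k)
    let x := (M.e (n + 1)).symm v
    have hy : mulTors n x = y := (M.e n).injective (funext fun k => by
      rw [M.e_compat n x _ rfl k, AddEquiv.apply_symm_apply, hv k])
    have hσ : ((g • mulTors n x : Jtors N (p ^ n)) : JZero N) =
        p • ((g • x : Jtors N (p ^ (n + 1))) : JZero N) := by
      rw [SemilinearAut.coe_torsion_smul, SemilinearAut.coe_torsion_smul]
      exact (DistribSMul.toAddMonoidHom (JZero N) g).map_nsmul p x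
    have hcv : c ∘ v = M.e n y := funext hv
    funext k
    rw [← hcv, ← RingHom.map_mulVec c, show v = M.e (n + 1) x from
      ((M.e (n + 1)).apply_symm_apply v).symm, autLevelMat_mulVec,
      show (c ∘ M.e (n + 1) x) = M.e n y by rw [← hcv]; congr 1; exact (M.e (n + 1)).apply_symm_apply v,
      autLevelMat_mulVec, ← hy]
    exact (M.e_compat n _ _ hσ k).symm
  exact congr($key i j)

variable [Fact p.Prime]

/-- An automorphism as a `p`-adic matrix. -/
def autMat : SemilinearAut Qbar (modularFunctionFieldBar N) →* Matrix (Fin M.d) (Fin M.d) ℤ_[p] :=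
  (exists_monoidHom_matMod (autLevelMat M) (autLevelMat_compat M)).choose

theorem matMod_autMat (n : ℕ) (g : SemilinearAut Qbar (modularFunctionFieldBar N)) :
    matMod p M.d n (autMat M g) = autLevelMat M n g :=
  (exists_monoidHom_matMod (autLevelMat M) (autLevelMat_compat M)).choose_spec n g

theorem autMat_galois (σ : Qbar ≃ₐ[ℚ] Qbar) :
    autMat M (arithmeticGalois (modularFunctionFieldFull N) σ) = galMat M σ :=
  matMod_ext fun n => by rw [matMod_autMat, matMod_galMat]; rfl

/-- An automorphism commuting with Galois gives a matrix commuting with the Galois ones. -/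
theorem commute_autMat_galMat {g : SemilinearAut Qbar (modularFunctionFieldBar N)}
    {σ : Qbar ≃ₐ[ℚ] Qbar}
    (h : g * arithmeticGalois (modularFunctionFieldFull N) σ =
      arithmeticGalois (modularFunctionFieldFull N) σ * g) :
    Commute (autMat M g) (galMat M σ) := by
  rw [← autMat_galois]
  exact Commute.map h (autMat M)

end Fermat.Agent.SemistableRed

end
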