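import Mathlib.Algebra.MonoidAlgebra.Basic
import Mathlib.LinearAlgebra.Matrix.Charpoly.Coeff
import Mathlib.Tactic

/-!
# Linear relations pass to an irreducible two-dimensional representation with the same traces

If `G g + det(R g) G g⁻¹ = tr(R g)` on a nonzero space and some commutator `R g R h - R h R g` is
invertible, every linear combination of group elements killed by `G` is killed by `R`.
-/

set_option autoImplicit false

namespace Fermat.Agent.SemistableRed.Pseudo

open Matrix MonoidAlgebra

variable {K : Type*} [Field K]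

theorem adjugate_eq_sub (X : Matrix (Fin 2) (Fin 2) K) : X.adjugate = X.trace • 1 - X := by
  rw [Matrix.adjugate_fin_two, Matrix.trace_fin_two]
  ext i j
  fin_cases i <;> fin_cases j <;> simp

/-- A matrix orthogonal to a pair with invertible commutator for the trace form is zero. -/
theorem eq_zero_of_trace_eq_zero (X H H' : Matrix (Fin 2) (Fin 2) K) (h0 : X.trace = 0)
    (h1 : (X * H).trace = 0) (h2 : (X * H').trace = 0) (h3 : (X * (H * H')).trace = 0)
    (hc : (H * H' - H' * H).det ≠ 0) : X = 0 := by
  have hX : X.adjugate = -X := by rw [adjugate_eq_sub, h0, zero_smul, zero_sub]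
  have key : ∀ Y, (X * Y).trace = 0 → X * Y = Y.adjugate * X := fun Y hY => by
    have := adjugate_eq_sub (X * Y)
    rw [hY, zero_smul, zero_sub, Matrix.adjugate_mul_distrib, hX, mul_neg, neg_inj] at this
    exact this.symm
  have e1 : X * (H * H') = X * (H' * H) := by
    rw [key _ h3, Matrix.adjugate_mul_distrib, ← mul_assoc X H' H, key _ h2, mul_assoc _ X H,
      key _ h1, mul_assoc]
  have e2 : X * (H * H' - H' * H) = 0 := by rw [mul_sub, e1, sub_self]
  have hu : IsUnit (H * H' - H' * H) := (Matrix.isUnit_iff_isUnit_det _).mpr hc.isUnit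
  exact hu.mul_left_eq_zero.mp e2

variable {V : Type*} [AddCommGroup V] [Module K V] {Γ : Type*} [Group Γ]
  (G : Γ →* Module.End K V) (R : Γ →* Matrix (Fin 2) (Fin 2) K)

/-- `g ↦ det(R g) g⁻¹`, reversing products. -/
noncomputable def barHom : MonoidAlgebra K Γ →ₐ[K] (MonoidAlgebra K Γ)ᵐᵒᵖ :=
  MonoidAlgebra.lift K (MonoidAlgebra K Γ)ᵐᵒᵖ Γ
    { toFun := fun g => MulOpposite.op ((R g).det • MonoidAlgebra.of K Γ g⁻¹)
      map_one' := by simp [MonoidAlgebra.one_def]
      map_mul' := fun g h => by
        rw [← MulOpposite.op_mul, map_mul, Matrix.det_mul, smul_mul_smul_comm, _root_.mul_inv_rev, map_mul,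
          mul_comm (R g).det] }

/-- The involution of the group algebra. -/
noncomputable def bar (x : MonoidAlgebra K Γ) : MonoidAlgebra K Γ := (barHom R x).unop

theorem bar_mul (x y : MonoidAlgebra K Γ) : bar R (x * y) = bar R y * bar R x := by
  rw [bar, map_mul, MulOpposite.unop_mul]; rfl

theorem lift_add_bar (hq : ∀ g, G g + (R g).det • G g⁻¹ = (R g).trace • (1 : Module.End K V))
    (x : MonoidAlgebra K Γ) :
    MonoidAlgebra.lift K _ Γ G x + MonoidAlgebra.lift K _ Γ G (bar R x) =
      (MonoidAlgebra.lift K _ Γ R x).trace • (1 : Module.End K V) := by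
  induction x using MonoidAlgebra.induction_on with
  | of g =>
    rw [bar, barHom, MonoidAlgebra.lift_of, MonoidAlgebra.lift_of, MonoidAlgebra.lift_of]
    simp only [MonoidHom.coe_mk, OneHom.coe_mk, MulOpposite.unop_op, map_smul, MonoidAlgebra.lift_of]
    exact hq g
  | add x y hx hy =>
    simp only [bar, map_add, MulOpposite.unop_add, Matrix.trace_add, add_smul] at hx hy ⊢
    rw [← hx, ← hy]
    abel
  | smul r x hx =>
    simp only [bar, map_smul, MulOpposite.unop_smul, Matrix.trace_smul, smul_eq_mul, ← smul_smul,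
      ← smul_add] at hx ⊢
    rw [hx]

variable [CharZero K] [Nontrivial V]

/-- A combination killed by `G` is killed by `R`. -/
theorem lift_eq_zero (hq : ∀ g, G g + (R g).det • G g⁻¹ = (R g).trace • (1 : Module.End K V))
    (hirr : ∃ g h, (R g * R h - R h * R g).det ≠ 0) (r : MonoidAlgebra K Γ)
    (hr : MonoidAlgebra.lift K _ Γ G r = 0) : MonoidAlgebra.lift K _ Γ R r = 0 := by
  obtain ⟨g, h, hc⟩ := hirr
  set Φ := MonoidAlgebra.lift K (Module.End K V) Γ G
  set Ψ := MonoidAlgebra.lift K (Matrix (Fin 2) (Fin 2) K) Γ R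
  have hsum := lift_add_bar G R hq
  have hinj : ∀ a b : K, a • (1 : Module.End K V) = b • 1 → a = b := fun a b hab => by
    obtain ⟨v, hv⟩ := exists_ne (0 : V)
    exact smul_left_injective K hv (LinearMap.congr_fun hab v)
  set γ : MonoidAlgebra K Γ := MonoidAlgebra.of K Γ g
  set c : MonoidAlgebra K Γ :=
    γ * MonoidAlgebra.of K Γ h - MonoidAlgebra.of K Γ h * γ with hcdef
  have hΨc : Ψ c = R g * R h - R h * R g := by simp [Ψ, γ, hcdef]
  have htc : (Ψ c).trace = 0 := by rw [hΨc, Matrix.trace_sub, Matrix.trace_mul_comm, sub_self]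
  have hcbar : Φ (bar R c) = -Φ c :=
    eq_neg_of_add_eq_zero_right ((hsum c).trans (by rw [htc, zero_smul]))
  -- the traces of the translates of `r` vanish
  have htr : ∀ x, (Ψ (r * x)).trace = 0 := by
    intro x
    set t := (Ψ (r * x)).trace with ht
    by_contra ht0
    have hy : Φ (bar R (r * x)) = t • 1 := by
      have := hsum (r * x)
      rwa [show Φ (r * x) = 0 by rw [map_mul, hr, zero_mul], zero_add] at this
    set t' := (Ψ (r * x * c)).trace
    have hyc : Φ c = (-t' / t) • 1 := by
      have := hsum (r * x * c)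
      rw [show Φ (r * x * c) = 0 by rw [map_mul, map_mul, hr, zero_mul, zero_mul], zero_add, bar_mul,
        map_mul, hy, hcbar, mul_smul_comm, mul_one, smul_neg] at this
      rw [div_eq_inv_mul, mul_smul, neg_smul, ← this, neg_neg, smul_smul, inv_mul_cancel₀ ht0,
        one_smul]
    set l := -t' / t
    -- the scalar vanishes
    have hl : l = 0 := by
      by_contra hl0
      have h1 := hsum (c * γ)
      have h2 : (Ψ (c * γ)).trace = 0 := by
        rw [map_mul, hΨc, show Ψ γ = R g from MonoidAlgebra.lift_of _ _, sub_mul, Matrix.trace_sub,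
          mul_assoc (R g), Matrix.trace_mul_comm (R g), sub_self]
      rw [h2, zero_smul, bar_mul, map_mul, map_mul, hcbar, hyc, mul_neg, smul_mul_assoc, one_mul,
        mul_smul_comm, mul_one, ← sub_eq_add_neg, ← smul_sub, smul_eq_zero, or_iff_right hl0,
        sub_eq_zero] at h1
      have h3 := hsum γ
      rw [← h1, ← two_smul K] at h3
      have hγ : Φ γ = ((Ψ γ).trace / 2) • 1 := by
        rw [div_eq_inv_mul, mul_smul, ← h3, smul_smul, inv_mul_cancel₀ two_ne_zero, one_smul]
      have : Φ c = 0 := by
        rw [hcdef, map_sub, map_mul, map_mul, hγ, smul_mul_assoc, one_mul, mul_smul_comm, mul_one,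
          sub_self]
      rw [hyc] at this
      exact hl0 (hinj l 0 (by rw [this, zero_smul]))
    rw [hl, zero_smul] at hyc
    -- so the commutator has determinant zero
    have h4 := hsum (c * c)
    rw [bar_mul, map_mul, map_mul, hcbar, hyc, mul_zero, neg_zero, mul_zero, zero_add, map_mul] at h4
    have h5 : (Ψ c * Ψ c).trace = -2 * (Ψ c).det := by
      have h00 := htc
      rw [Matrix.trace_fin_two] at h00 ⊢
      rw [Matrix.det_fin_two]
      simp only [Matrix.mul_apply, Fin.sum_univ_two]
      linear_combination ((Ψ c) 0 0 + (Ψ c) 1 1) * h00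
    refine hc ?_
    have h6 := hinj (Ψ c * Ψ c).trace 0 (by rw [zero_smul]; exact h4.symm)
    rw [h5, hΨc] at h6
    simpa using h6
  refine eq_zero_of_trace_eq_zero _ (R g) (R h) ?_ ?_ ?_ ?_ hc
  · simpa using htr 1
  · rw [← show Ψ γ = R g from MonoidAlgebra.lift_of _ _, ← map_mul]; exact htr γ
  · rw [← show Ψ (MonoidAlgebra.of K Γ h) = R h from MonoidAlgebra.lift_of _ _, ← map_mul]
    exact htr _
  · rw [← show Ψ γ = R g from MonoidAlgebra.lift_of _ _,
      ← show Ψ (MonoidAlgebra.of K Γ h) = R h from MonoidAlgebra.lift_of _ _, ← map_mul, ← map_mul]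
    exact htr _

end Fermat.Agent.SemistableRed.Pseudo
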