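import Fermat.Agent.SemistableRed.Swap
import Fermat.Agent.SemistableRed.AutMat
import Fermat.Agent.SemistableRed.Pseudo
import Fermat.Agent.SemistableRed.NormMaps
import Fermat.Agent.SemistableRed.Templates
import Fermat.Agent.Reduction.Instances

/-!
# Frobenius and inertia at `q ∥ N` on an eigensystem, with the sign

On a Galois stable space of vectors on which `w_q` is `- s` and a Hecke polynomial vanishing at
level `N / q` is a nonzero scalar, a representation with the same quadratic relations has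
`trace φ = s (q + 1)`, `trace τ = 2` and `(φ - s q) (τ - 1) = 0`.
-/

set_option autoImplicit false
set_option linter.style.haveILetI false

noncomputable section

namespace Fermat.Agent.SemistableRed

open ModularCurve AlgebraicCurve Matrix IsLocalRing Fermat.Agent.EigenRep Fermat.Agent.Reduction

local notation "Qbar" => AlgebraicClosure ℚ
local notation "Jtors" N:max n:max => Pic0.torsion (AlgebraicClosure ℚ) (modularFunctionFieldBar N) n

section Matrices

variable {M q p : ℕ} [NeZero M] [NeZero q] [Fact p.Prime] [Fact q.Prime] (hqM : ¬ q ∣ M)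

/-- The matrix of `w_q`. -/
def wMatPadic (T : TorsionHeckeModel (M * q) p) : Matrix (Fin T.d) (Fin T.d) ℤ_[p] :=
  autMat T (SemilinearAut.ofAlgAut (wq (Fact.out : q.Prime) hqM))

theorem matMod_wMatPadic_mulVec (T : TorsionHeckeModel (M * q) p) (n : ℕ)
    (x : Jtors (M * q) (p ^ n)) :
    matMod p T.d n (wMatPadic hqM T) *ᵥ T.e n x =
      T.e n (SemilinearAut.ofAlgAut (wq (Fact.out : q.Prime) hqM) • x) := by
  rw [wMatPadic, matMod_autMat, autLevelMat_mulVec]

theorem wMatPadic_commute (T : TorsionHeckeModel (M * q) p) (σ : Qbar ≃ₐ[ℚ] Qbar) :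
    Commute (wMatPadic hqM T) (galMat T σ) :=
  commute_autMat_galMat T (commute_ofAlgAut_wq (Fact.out : q.Prime) hqM σ)

theorem matMod_galMat_mulVec (T : TorsionHeckeModel (M * q) p) (n : ℕ) (σ : Qbar ≃ₐ[ℚ] Qbar)
    (x : Jtors (M * q) (p ^ n)) :
    matMod p T.d n (galMat T σ) *ᵥ T.e n x =
      T.e n (JZero.torsionGaloisRep (M * q) (p ^ n) σ x) := by
  rw [matMod_galMat, levelMat_mulVec]

variable {A : ValuationSubring Qbar}

omit [NeZero M] [NeZero q] [Fact q.Prime] in
theorem matMod_mulVec_combination (d n m : ℕ) (X Y Z : Matrix (Fin d) (Fin d) ℤ_[p])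
    (v : Fin d → ZMod (p ^ n)) :
    matMod p d n ((X + (m : ℤ_[p]) • Y) * Z) *ᵥ v =
      matMod p d n X *ᵥ (matMod p d n Z *ᵥ v) + m • (matMod p d n Y *ᵥ (matMod p d n Z *ᵥ v)) := by
  have h : matMod p d n ((m : ℤ_[p]) • Y) = m • matMod p d n Y := by
    ext i j
    simp [matMod_apply, Matrix.smul_apply]
  rw [map_mul, map_add, h, ← mulVec_mulVec, add_mulVec, Matrix.smul_mulVec]

set_option maxHeartbeats 800000 in
/-- `(φ + q w) (τ - 1) = 0` in matrices. -/
theorem mat_monodromy (hfacts : GoodReductionFacts) (hqp : q ≠ p) (T : TorsionHeckeModel (M * q) p)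
    (hA : A.LiesOverPrime q) {φ τ : Qbar ≃ₐ[ℚ] Qbar} (hφ : A.IsFrobeniusAt φ q)
    (hτ : τ ∈ A.inertiaSubgroupIn ℚ) :
    (galMat T φ + (q : ℤ_[p]) • wMatPadic hqM T) * (galMat T τ - 1) = 0 := by
  have := charP_residueField hA
  have : IsAlgClosed (ResidueField A) := isAlgClosed_residueField
  let S : Setting A M q := ⟨hqM, hA, hfacts M q hqM A hA⟩
  refine matMod_ext fun n => mat_ext T fun x => ?_
  have h := S.signed_monodromy hφ hτ
    (((Nat.coprime_primes Fact.out Fact.out).mpr hqp.symm).pow_left n) (x : JZero (M * q)) (by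
      rw [← natCast_zsmul]; exact Pic0.mem_torsion.mp x.2)
  rw [map_zero, zero_mulVec, matMod_mulVec_combination, map_sub, map_one, sub_mulVec, one_mulVec,
    matMod_galMat_mulVec, ← map_sub (T.e n), matMod_galMat_mulVec, matMod_wMatPadic_mulVec,
    ← map_nsmul (T.e n), ← map_add (T.e n)]
  refine (congrArg (T.e n) (Subtype.ext ?_)).trans (map_zero _)
  exact h

set_option maxHeartbeats 800000 in
/-- `(φ + q w) (φ² - 1)` kills the image of a Hecke polynomial vanishing at level `M`. -/
theorem mat_toric (hfacts : GoodReductionFacts) (hqp : q ≠ p) (R : RepInputs (M * q) p)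
    (R' : RepInputs M p) {S : Set ℕ}
    (hS : ∀ ℓ : ℕ, ℓ.Prime → ℓ ∉ S → ¬ ℓ ∣ M * q * p ∧ ¬ ℓ ∣ M * p)
    {P : MvPolynomial {ℓ : Nat.Primes // (ℓ : ℕ) ∉ S} ℤ} (hP : evalT R'.model S P = 0)
    (hA : A.LiesOverPrime q) {φ : Qbar ≃ₐ[ℚ] Qbar} (hφ : A.IsFrobeniusAt φ q) :
    (galMat R.model φ + (q : ℤ_[p]) • wMatPadic hqM R.model) *
        (galMat R.model φ * galMat R.model φ - 1) *
      (evalT R.model S P : Matrix (Fin R.model.d) (Fin R.model.d) ℤ).map
        (Int.castRingHom ℤ_[p]) = 0 := by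
  have := charP_residueField hA
  have : IsAlgClosed (ResidueField A) := isAlgClosed_residueField
  let St : Setting A M q := ⟨hqM, hA, hfacts M q hqM A hA⟩
  refine matMod_ext fun n => Matrix.ext_of_mulVec_single fun j => ?_
  set E := (evalT R.model S P : Matrix (Fin R.model.d) (Fin R.model.d) ℤ).map
    (Int.castRingHom (ZMod (p ^ n))) with hE
  have hEmod : matMod p R.model.d n
      ((evalT R.model S P : Matrix (Fin R.model.d) (Fin R.model.d) ℤ).map
        (Int.castRingHom ℤ_[p])) = E := by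
    ext a b
    simp [hE, matMod_apply, Matrix.map_apply]
  obtain ⟨y, hy⟩ := (R.model.e n).surjective (E *ᵥ Pi.single j 1)
  have hker : ∀ i, normMaps M q i (y : JZero (M * q)) = 0 := by
    intro i
    have h := congrArg (· *ᵥ Pi.single j 1)
      (mapMat_mul_evalT R R' (normMaps_equivariant M q i) hS P n)
    simp only [← mulVec_mulVec] at h
    rw [← hE, ← hy, mapMat_mulVec, hP, ZeroMemClass.coe_zero,
      Matrix.map_zero _ (map_zero _), zero_mulVec] at h
    exact congrArg Subtype.val ((R'.model.e n).injective (h.trans (map_zero _).symm))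
  obtain ⟨D, hD⟩ := Pic0.mk_surjective (y : JZero (M * q))
  have h := St.signed_toric hφ (((Nat.coprime_primes Fact.out Fact.out).mpr hqp.symm).pow_left n)
    (isIntegral_alpha M q) (isIntegral_beta M q) D
    (by rw [hD, ← natCast_zsmul]; exact Pic0.mem_torsion.mp y.2)
    (pushTrivial_of_normMap M q _ (by rw [hD]; exact hker false))
    (pushTrivial_of_normMap M q _ (by rw [hD]; exact hker true))
  rw [hD] at h
  rw [map_mul, hEmod, map_zero, zero_mulVec, ← mulVec_mulVec, ← hy, matMod_mulVec_combination,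
    map_sub, map_mul, map_one, sub_mulVec, one_mulVec, ← mulVec_mulVec,
    matMod_galMat_mulVec, matMod_galMat_mulVec, ← map_sub (R.model.e n),
    matMod_galMat_mulVec, matMod_wMatPadic_mulVec, ← map_nsmul (R.model.e n),
    ← map_add (R.model.e n)]
  refine (congrArg (R.model.e n) (Subtype.ext ?_)).trans (map_zero _)
  exact h

end Matrices

/-- The signed toric relation determines the trace. -/
theorem trace_of_signed {K : Type*} [Field K] [CharZero K] {q : ℕ} (hq : q ≠ 1) (hq0 : q ≠ 0)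
    (F : Matrix (Fin 2) (Fin 2) K) (s : K) (hs : s * s = 1) (hdet : F.det = q)
    (h : (F - (s * q) • 1) * (F * F - 1) = 0) : F.trace = s * ((q : K) + 1) := by
  have hch : F * F = F.trace • F - (q : K) • 1 := by
    rw [← hdet]
    ext i j
    fin_cases i <;> fin_cases j <;>
      simp [Matrix.trace_fin_two, Matrix.det_fin_two, Matrix.mul_apply, Fin.sum_univ_two] <;> ring
  have h' : (F.trace - s * ((q : K) + 1)) • ((F.trace + s) • F - (q : K) • 1) = 0 := by
    rw [← h, sub_mul, mul_sub, hch, mul_one, mul_sub, mul_smul_comm, mul_smul_comm, mul_one, hch,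
      smul_mul_assoc, one_mul]
    match_scalars <;> first | ring1 | linear_combination -((q : K) + 1) * hs
  by_contra hne
  have h2 := (smul_eq_zero.mp h').resolve_left (sub_ne_zero.mpr hne)
  rw [sub_eq_zero] at h2
  have e1 := congrArg Matrix.trace h2
  have e2 := congrArg Matrix.det h2
  rw [Matrix.trace_smul, Matrix.trace_smul, Matrix.trace_one, Fintype.card_fin, smul_eq_mul,
    smul_eq_mul] at e1
  rw [Matrix.det_smul, Matrix.det_smul, Matrix.det_one, Fintype.card_fin, hdet] at e2
  have hq' : (q : K) ≠ 0 := Nat.cast_ne_zero.mpr hq0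
  have e3 : (F.trace + s) ^ 2 = q := mul_right_cancel₀ hq' (by linear_combination e2)
  push_cast at e1
  have hu : F.trace + s ≠ 0 := fun h0 => hq' (by rw [← e3, h0]; ring)
  have e4 : F.trace = 2 * (F.trace + s) :=
    mul_left_cancel₀ hu (by linear_combination e1 - 2 * e3)
  exact hq (Nat.cast_injective (R := K) (by
    rw [Nat.cast_one, ← hs, ← e3]
    linear_combination -((F.trace + s) - s) * e4))

section Eigen

variable {M q p : ℕ} [NeZero M] [NeZero q] [Fact p.Prime] [Fact q.Prime]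
  (R : RepInputs (M * q) p) {K : Type*} [Field K] (ι : ℤ_[p] →+* K)
  (V : Submodule K (Fin R.model.d → K))
  (hV : ∀ σ, ∀ v ∈ V, galEnd R.model ι σ v ∈ V)

/-- Galois on a stable space of vectors. -/
def eigenAct : (Qbar ≃ₐ[ℚ] Qbar) →* Module.End K V where
  toFun σ := (galEnd R.model ι σ).restrict (hV σ)
  map_one' := by ext v; simp
  map_mul' σ σ' := by ext v; simp

theorem coe_eigenAct (σ : Qbar ≃ₐ[ℚ] Qbar) (v : V) :
    (eigenAct R ι V hV σ v : Fin R.model.d → K) = (galMat R.model σ).map ι *ᵥ v := rfl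

include hV in
/-- **The signed local shape at `q` of an eigensystem.** -/
theorem signed_of_eigen [CharZero K] (hfacts : GoodReductionFacts) (hqM : ¬ q ∣ M) (hqp : q ≠ p)
    (hV0 : V ≠ ⊥) (ρ : (Qbar ≃ₐ[ℚ] Qbar) →* Matrix (Fin 2) (Fin 2) K)
    (hdet : ∀ σ, (ρ σ).det = ι (epsilonPadic p σ : ℤ_[p]))
    (hquad : ∀ σ, ∀ v ∈ V, galEnd R.model ι σ v +
      ι (epsilonPadic p σ : ℤ_[p]) • galEnd R.model ι σ⁻¹ v = (ρ σ).trace • v)
    (hirr : ∃ g h, (ρ g * ρ h - ρ h * ρ g).det ≠ 0) (s : K) (hs : s * s = 1)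
    (hw : ∀ v ∈ V, (wMatPadic hqM R.model).map ι *ᵥ v = -(s • v))
    (R' : RepInputs M p) {S : Set ℕ}
    (hS : ∀ ℓ : ℕ, ℓ.Prime → ℓ ∉ S → ¬ ℓ ∣ M * q * p ∧ ¬ ℓ ∣ M * p)
    {P : MvPolynomial {ℓ : Nat.Primes // (ℓ : ℕ) ∉ S} ℤ} (hP : evalT R'.model S P = 0)
    {c : K} (hc : c ≠ 0)
    (hE : ∀ v ∈ V, (evalT R.model S P : Matrix (Fin R.model.d) (Fin R.model.d) ℤ).map
      (Int.cast : ℤ → K) *ᵥ v = c • v)
    {A : ValuationSubring Qbar} (hA : A.LiesOverPrime q) {φ : Qbar ≃ₐ[ℚ] Qbar}
    (hφ : A.IsFrobeniusAt φ q) :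
    (ρ φ).trace = s * ((q : K) + 1) ∧ ∀ τ ∈ A.inertiaSubgroupIn ℚ, (ρ τ).trace = 2 ∧
      (ρ φ - (s * q) • 1) * (ρ τ - 1) = 0 := by
  haveI : Nontrivial V := V.nontrivial_iff_ne_bot.mpr hV0
  have hq : q.Prime := Fact.out
  set G := eigenAct R ι V hV
  have hG : ∀ σ (v : V), ((G σ v : V) : Fin R.model.d → K) = (galMat R.model σ).map ι *ᵥ v :=
    coe_eigenAct R ι V hV
  have hGq : ∀ σ, G σ + (ρ σ).det • G σ⁻¹ = (ρ σ).trace • (1 : Module.End K V) := fun σ =>
    LinearMap.ext fun v => Subtype.ext (by rw [hdet]; exact hquad σ v v.2)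
  have transfer := Pseudo.lift_eq_zero G ρ hGq hirr
  -- a relation of matrices gives one on `V`
  have hdown : ∀ {X : Matrix (Fin R.model.d) (Fin R.model.d) ℤ_[p]}, X = 0 →
      ∀ v : Fin R.model.d → K, X.map ι *ᵥ v = 0 := fun hX v => by
    rw [hX, Matrix.map_zero _ (map_zero ι), zero_mulVec]
  have hkey : ∀ u : V, ((galMat R.model φ + (q : ℤ_[p]) • wMatPadic hqM R.model).map ι) *ᵥ
      (u : Fin R.model.d → K) =
      ((G φ u - (s * q) • u : V) : Fin R.model.d → K) := fun u => by
    rw [Matrix.map_add _ (map_add ι), add_mulVec,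
      Matrix.map_smul' _ _ _ (map_mul ι), map_natCast, Matrix.smul_mulVec, hw _ u.2,
      Submodule.coe_sub, Submodule.coe_smul, coe_eigenAct, smul_neg, smul_smul, mul_comm (q : K),
      ← sub_eq_add_neg]
  have hεφ : (ρ φ).det = q := by
    rw [hdet, epsilon_frobenius hq hqp hA hφ, map_natCast]
  have htr : (ρ φ).trace = s * ((q : K) + 1) := by
    refine trace_of_signed hq.ne_one hq.ne_zero _ s hs hεφ ?_
    have hr := transfer ((MonoidAlgebra.of K _ φ - (s * q) • 1) *
      (MonoidAlgebra.of K _ φ * MonoidAlgebra.of K _ φ - 1)) ?_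
    · simpa [map_mul, map_sub, MonoidAlgebra.lift_of] using hr
    refine LinearMap.ext fun v => Subtype.ext ?_
    simp only [map_mul, map_sub, map_smul, map_one, MonoidAlgebra.lift_of, Module.End.mul_apply,
      LinearMap.sub_apply, LinearMap.smul_apply, Module.End.one_apply, LinearMap.zero_apply]
    rw [sub_sub_sub_comm, ← map_sub (G φ), ← smul_sub, ← hkey]
    have hmat := hdown (mat_toric hqM hfacts hqp R R' hS hP hA hφ) v
    rw [Matrix.map_mul, Matrix.map_mul, ← mulVec_mulVec, Matrix.map_map,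
      show ι ∘ (Int.castRingHom ℤ_[p]) = (Int.cast : ℤ → K) from funext fun z => map_intCast ι z,
      hE v v.2, mulVec_smul, ← mulVec_mulVec, smul_eq_zero, or_iff_right hc] at hmat
    rw [Submodule.coe_zero, ← hmat, Submodule.coe_sub, hG, hG, mulVec_mulVec,
      ← Matrix.map_mul, Matrix.map_sub _ (map_sub ι), Matrix.map_one _ (map_zero ι) (map_one ι),
      sub_mulVec _ 1 (v : Fin R.model.d → K), one_mulVec]
  refine ⟨htr, fun τ hτ => ⟨?_, ?_⟩⟩
  · have hr := transfer ((MonoidAlgebra.of K _ τ - 1) * (MonoidAlgebra.of K _ τ - 1)) ?_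
    · have hu : (ρ τ - 1) * (ρ τ - 1) = 0 := by
        simpa [map_mul, map_sub, MonoidAlgebra.lift_of] using hr
      have hn : IsNilpotent (ρ τ - 1) := ⟨2, by rw [pow_two]; exact hu⟩
      have h0 := (Matrix.isNilpotent_trace_of_isNilpotent hn).eq_zero
      rw [Matrix.trace_sub, Matrix.trace_one, Fintype.card_fin, sub_eq_zero] at h0
      exact_mod_cast h0
    refine LinearMap.ext fun v => Subtype.ext ?_
    have hu : UnipotentOnTorsion (M * q) p τ := fun x ⟨n, hn⟩ =>
      inertiaUnipotent_of_facts hqM (hfacts M q hqM) A hA τ hτ (p ^ n)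
        (((Nat.coprime_primes Fact.out hq).mpr hqp.symm).pow_left n) x hn
    have hmat := hdown (galMat_unipotent R.model hu) v
    rw [two_mul, Matrix.map_add _ (map_add ι), Matrix.map_sub _ (map_sub ι), Matrix.map_mul,
      Matrix.map_add _ (map_add ι), Matrix.map_one _ (map_zero ι) (map_one ι), add_mulVec,
      sub_mulVec, add_mulVec, one_mulVec, ← mulVec_mulVec] at hmat
    simp only [map_mul, map_sub, map_one, MonoidAlgebra.lift_of, Module.End.mul_apply,
      LinearMap.sub_apply, Module.End.one_apply, LinearMap.zero_apply, Submodule.coe_sub,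
      hG, Submodule.coe_zero]
    rw [← hmat]
    abel
  · have hr := transfer ((MonoidAlgebra.of K _ φ - (s * q) • 1) *
      (MonoidAlgebra.of K _ τ - 1)) ?_
    · simpa [map_mul, map_sub, MonoidAlgebra.lift_of] using hr
    refine LinearMap.ext fun v => Subtype.ext ?_
    simp only [map_mul, map_sub, map_smul, map_one, MonoidAlgebra.lift_of, Module.End.mul_apply,
      LinearMap.sub_apply, LinearMap.smul_apply, Module.End.one_apply, LinearMap.zero_apply]
    rw [sub_sub_sub_comm, ← map_sub (G φ), ← smul_sub, ← hkey]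
    have hmat := hdown (mat_monodromy hqM hfacts hqp R.model hA hφ hτ) v
    rw [Matrix.map_mul, ← mulVec_mulVec] at hmat
    rw [Submodule.coe_zero, ← hmat, Submodule.coe_sub, hG,
      Matrix.map_sub _ (map_sub ι), Matrix.map_one _ (map_zero ι) (map_one ι), sub_mulVec,
      one_mulVec]

end Eigen

end Fermat.Agent.SemistableRed

end
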