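import Fermat.Agent.SemistableRed.AtkinLehner
import Fermat.Agent.X0Analytic.Places
import Fermat.Agent.Reduction.Interface

/-!
# The poles of `j` and `j(q τ)` at level `M * q`

At every pole of `j` one of `j`, `j(q τ)` has `q` times the pole order of the other; the two
functions have the same poles and both degeneracy maps have degree `q + 1`.
-/

set_option autoImplicit false

noncomputable section

open AlgebraicCurve ModularCurve
open scoped MatrixGroups

namespace Fermat.Agent.SemistableRed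

open Fermat.Agent.X0Analytic Fermat.Agent.Congruence
open Gamma0Count (CosetSpace)

theorem finrankAlong_comp_algEquiv {K F F' : Type*} [Field K] [Field F] [Field F'] [Algebra K F]
    [Algebra K F'] (ψ : F →ₐ[K] F') (w : F' ≃ₐ[K] F') :
    finrankAlong K (w.toAlgHom.comp ψ) = finrankAlong K ψ :=
  (@Algebra.finrank_eq_of_equiv_equiv F F' _ _ (algebraAlong ψ) F F' _ _
    (algebraAlong (w.toAlgHom.comp ψ)) (RingEquiv.refl F) w.toRingEquiv (by ext x; rfl)).symm

variable {L : Type} [Field L] [Algebra ℚ L] {M q : ℕ} [NeZero M] [NeZero q]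

/-- `j(q τ)` at level `M * q`. -/
theorem heckeBetaBar_jEl :
    heckeBetaBar L M q (jEl L M) =
      algToField L (M * q)
        ⟨jL L q, Algebra.subset_adjoin ⟨q, inferInstance, dvd_mul_left q M, rfl⟩⟩ := by
  refine Subtype.ext ?_
  rw [coe_heckeBetaBar, jEl, coe_algToField, coe_algToField]
  show qExpand L q (jL L 1) = jL L q
  rw [← jL_mul]
  simp only [one_mul]

/-- The order of `j(q τ)` at a cusp: one of the two possible shapes. -/
theorem order_embCusp_heckeBetaBar_jEl (φ : L →+* ℂ) (hq : q.Prime)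
    (x : CosetSpace (M * q)) :
    (embCusp φ x (heckeBetaBar L M q (jEl L M))).order = -((q : ℤ) * (M * q : ℕ)) ∨
      (q : ℤ) * (embCusp φ x (heckeBetaBar L M q (jEl L M))).order = -((M * q : ℕ) : ℤ) := by
  rw [heckeBetaBar_jEl, embCusp_algToField, toModFun_jL φ (dvd_mul_left q M)]
  induction x using QuotientGroup.induction_on with
  | H g =>
    obtain ⟨A, D, K, hK, ζ, hζ, hmem, hAD, -, hKD, hser⟩ :=
      scaledJ_comp (dvd_mul_left q M) (g⁻¹ : SL(2, ℤ))
    have hf : conj (g : CosetSpace (M * q))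
        ⟨scaledJ q, scaledJ_mem (dvd_mul_left q M)⟩ = ⟨_, hmem⟩ :=
      Subtype.ext (funext fun τ => conj_mk_apply g _ τ)
    rw [hf, hser, order_qExpand K (rot_jqC_ne_zero hζ), order_rot hζ jqC_ne_zero, jqC_order]
    rcases hq.eq_one_or_self_of_dvd A ⟨D, hAD.symm⟩ with hA | hA
    · right
      rw [hA, one_mul] at hAD
      rw [hA, one_mul, hAD] at hKD
      rw [← hKD]
      push_cast
      ring
    · left
      rw [hA] at hAD
      have hD : D = 1 := (Nat.mul_eq_left hq.ne_zero).mp hAD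
      rw [hA, hD, mul_one] at hKD
      rw [hKD]
      push_cast
      ring

variable [IsAlgClosed L]

/-- At a pole of `j` the orders of `j` and `j(q τ)` have ratio `q` or `1 / q`. -/
theorem ord_heckeBetaBar_jEl (φ : L →+* ℂ) (hq : q.Prime)
    (P : Place L ↥(FLevel L (M * q))) (hP : P.ord (heckeAlphaBar L M q (jEl L M)) < 0) :
    P.ord (heckeBetaBar L M q (jEl L M)) = q * P.ord (heckeAlphaBar L M q (jEl L M)) ∨
      P.ord (heckeAlphaBar L M q (jEl L M)) = q * P.ord (heckeBetaBar L M q (jEl L M)) := by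
  rw [heckeAlphaBar_jEl] at hP ⊢
  obtain ⟨pl, hpl⟩ := exists_places_infty (N := M * q) φ
  obtain ⟨s, rfl⟩ := hpl.2.2.2.2 P (by rw [Place.ord_inv]; omega)
  have h1 := hpl.2.1 s
  rw [Place.ord_inv] at h1
  have h2 := hpl.2.2.1 s (heckeBetaBar L M q (jEl L M))
  set per := Function.minimalPeriod (cosetPerm (N := M * q) ModularGroup.T) s
  have hN : ((M * q : ℕ) : ℤ) ≠ 0 := by exact_mod_cast NeZero.ne (M * q)
  set K : ℤ := ((M * q : ℕ) : ℤ)
  rcases order_embCusp_heckeBetaBar_jEl φ hq s with h | h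
  · left
    apply mul_left_cancel₀ hN
    linear_combination -h2 + (per : ℤ) * h + (q : ℤ) * K * h1
  · right
    apply mul_left_cancel₀ hN
    linear_combination (q : ℤ) * h2 - (per : ℤ) * h + (-K) * h1

theorem ord_heckeBetaBar_jEl_neg (φ : L →+* ℂ) (hq : q.Prime)
    (P : Place L ↥(FLevel L (M * q))) (hP : P.ord (heckeAlphaBar L M q (jEl L M)) < 0) :
    P.ord (heckeBetaBar L M q (jEl L M)) < 0 := by
  rcases ord_heckeBetaBar_jEl φ hq P hP with h | h
  · rw [h]
    exact mul_neg_of_pos_of_neg (by exact_mod_cast hq.pos) hP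
  · by_contra h0
    rw [h] at hP
    have : 0 ≤ (q : ℤ) * P.ord (heckeBetaBar L M q (jEl L M)) :=
      mul_nonneg (by exact_mod_cast hq.pos.le) (not_lt.mp h0)
    omega

/-- `j` and `j(q τ)` have the same poles. -/
theorem ord_neg_iff (φ : L →+* ℂ) (hq : q.Prime) (hqM : ¬ q ∣ M)
    (P : Place L ↥(FLevel L (M * q))) :
    P.ord (heckeAlphaBar L M q (jEl L M)) < 0 ↔ P.ord (heckeBetaBar L M q (jEl L M)) < 0 := by
  refine ⟨ord_heckeBetaBar_jEl_neg φ hq P, fun h => ?_⟩
  set w := SemilinearAut.ofAlgAut (atkinLehner φ hq hqM) with hw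
  have hα : w • heckeAlphaBar L M q (jEl L M) = heckeBetaBar L M q (jEl L M) :=
    atkinLehner_heckeAlphaBar φ hq hqM _
  have hβ : w • heckeBetaBar L M q (jEl L M) = heckeAlphaBar L M q (jEl L M) :=
    atkinLehner_heckeBetaBar φ hq hqM _
  have h1 : (w • P).ord (heckeAlphaBar L M q (jEl L M)) < 0 := by
    conv_lhs => rw [← hβ, SemilinearAut.ord_smul]
    exact h
  have h2 := ord_heckeBetaBar_jEl_neg φ hq _ h1
  rwa [← hα, SemilinearAut.ord_smul] at h2

omit [IsAlgClosed L] in
theorem finrankAlong_heckeBetaBar (φ : L →+* ℂ) (hq : q.Prime) (hqM : ¬ q ∣ M) :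
    finrankAlong L (heckeBetaBar L M q) = q + 1 := by
  rw [← finrankAlong_heckeAlphaBar φ hq hqM, ← atkinLehner_comp_alpha φ hq hqM,
    finrankAlong_comp_algEquiv]

section Bar

local notation "Qbar" => AlgebraicClosure ℚ

theorem jEl_eq_jBar (M : ℕ) [NeZero M] : jEl Qbar M = Reduction.jBar M := by
  refine Subtype.ext ?_
  rw [jEl, coe_algToField]
  show jL Qbar 1 = jqModC Qbar
  rw [jL, qExpand_one_apply, ← jqModC_rat]
  exact coeffMap_jqModC _

variable {M q : ℕ} [NeZero M] [NeZero q]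

theorem ord_jBar_cases (hq : q.Prime) (P : Place Qbar (modularFunctionFieldBar (M * q)))
    (hP : P.ord (heckeAlphaBar Qbar M q (Reduction.jBar M)) < 0) :
    P.ord (heckeBetaBar Qbar M q (Reduction.jBar M)) =
        q * P.ord (heckeAlphaBar Qbar M q (Reduction.jBar M)) ∨
      P.ord (heckeAlphaBar Qbar M q (Reduction.jBar M)) =
        q * P.ord (heckeBetaBar Qbar M q (Reduction.jBar M)) := by
  rw [← jEl_eq_jBar] at hP ⊢
  exact ord_heckeBetaBar_jEl qbarToComplex hq P hP

theorem ord_jBar_neg_iff (hq : q.Prime) (hqM : ¬ q ∣ M)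
    (P : Place Qbar (modularFunctionFieldBar (M * q))) :
    P.ord (heckeAlphaBar Qbar M q (Reduction.jBar M)) < 0 ↔
      P.ord (heckeBetaBar Qbar M q (Reduction.jBar M)) < 0 := by
  rw [← jEl_eq_jBar]
  exact ord_neg_iff qbarToComplex hq hqM P

theorem finrankAlong_alpha (hq : q.Prime) (hqM : ¬ q ∣ M) :
    finrankAlong Qbar (heckeAlphaBar Qbar M q) = q + 1 :=
  finrankAlong_heckeAlphaBar qbarToComplex hq hqM

theorem finrankAlong_beta (hq : q.Prime) (hqM : ¬ q ∣ M) :
    finrankAlong Qbar (heckeBetaBar Qbar M q) = q + 1 :=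
  finrankAlong_heckeBetaBar qbarToComplex hq hqM

end Bar

end Fermat.Agent.SemistableRed

end
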