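import Mathlib.LinearAlgebra.Dimension.Finrank
import Mathlib.LinearAlgebra.FiniteDimensional.Basic
import Mathlib.LinearAlgebra.Matrix.Charpoly.Basic
import Fermat.Prelude.Def_ModularCurve_LaurentCoeff

/-!
# Gauss reductions of several embeddings into Laurent series

`A` is a valuation ring of `L` with residue map `π`, and `E i` are embeddings of a field `F` into
Laurent series over `L`. An element is integral if all its coefficients are; reduction is
coefficientwise. The pivot argument gives lattices with independent reductions, and a family with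
independent reductions of the right cardinality is an integral basis.
-/

set_option autoImplicit false

noncomputable section

open ModularCurve HahnSeries

namespace Fermat.Agent.SemistableRed

variable {L : Type*} [Field L] (A : ValuationSubring L)
variable {k : Type*} [Field k] (π : A →+* k)

/-- `π` is a residue map of `A`. -/
def IsResidueMap : Prop := ∀ a : A, π a = 0 ↔ ¬ IsUnit a

open Classical in
/-- The retraction `L → A` by zero. -/
def toA : ZeroHom L A where
  toFun x := if h : x ∈ A then ⟨x, h⟩ else 0
  map_zero' := by simp [zero_mem]; rfl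

/-- All coefficients lie in `A`. -/
def IntSeries (f : LaurentSeries L) : Prop := ∀ n : ℤ, f.coeff n ∈ A

/-- Coefficientwise reduction (meaningful on integral series). -/
def redSeries (f : LaurentSeries L) : LaurentSeries k := coeffMap π (f.map (toA A))

/-- Integral with nonzero reduction. -/
def Primitive (f : LaurentSeries L) : Prop := IntSeries A f ∧ redSeries A π f ≠ 0

variable {A π}

theorem toA_of_mem {x : L} (h : x ∈ A) : toA A x = ⟨x, h⟩ := dif_pos h

theorem intSeries_coeffMap (y : LaurentSeries A) : IntSeries A (coeffMap A.subtype y) :=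
  fun n => (y.coeff n).2

theorem coeffMap_subtype_injective : Function.Injective (coeffMap (A.subtype : A →+* L)) := by
  intro x y h
  ext n
  exact congrArg (fun z => HahnSeries.coeff z n) h

theorem IntSeries.coeffMap_map {f : LaurentSeries L} (h : IntSeries A f) :
    coeffMap A.subtype (f.map (toA A)) = f := by
  ext n
  rw [coeffMap_coeff]
  show ((toA A (f.coeff n) : A) : L) = f.coeff n
  rw [toA_of_mem (h n)]

theorem map_toA_coeffMap (y : LaurentSeries A) : (coeffMap A.subtype y).map (toA A) = y :=
  coeffMap_subtype_injective (intSeries_coeffMap y).coeffMap_map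

theorem redSeries_coeffMap (y : LaurentSeries A) :
    redSeries A π (coeffMap A.subtype y) = coeffMap π y := by rw [redSeries, map_toA_coeffMap]

theorem redSeries_coeff {f : LaurentSeries L} (h : IntSeries A f) (n : ℤ) :
    (redSeries A π f).coeff n = π ⟨f.coeff n, h n⟩ := by
  show π (toA A (f.coeff n)) = _
  rw [toA_of_mem (h n)]

theorem intSeries_zero : IntSeries A (0 : LaurentSeries L) := fun n => by simp [zero_mem]

theorem redSeries_zero : redSeries A π (0 : LaurentSeries L) = 0 := by
  simpa using redSeries_coeffMap (π := π) (0 : LaurentSeries A)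

theorem IntSeries.mul {f g : LaurentSeries L} (hf : IntSeries A f) (hg : IntSeries A g) :
    IntSeries A (f * g) := by
  have := intSeries_coeffMap (f.map (toA A) * g.map (toA A))
  rwa [map_mul, hf.coeffMap_map, hg.coeffMap_map] at this

theorem coeff_algebraMap_zero (c : L) :
    (algebraMap L (LaurentSeries L) c).coeff 0 = c := by
  rw [algebraMap_laurentSeries_eq_single]
  simp

theorem algebraMap_eq_coeffMap {c : L} (hc : c ∈ A) :
    algebraMap L (LaurentSeries L) c =
      coeffMap A.subtype (HahnSeries.single 0 ⟨c, hc⟩) := by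
  rw [coeffMap_single, algebraMap_laurentSeries_eq_single]
  rfl

theorem intSeries_algebraMap_iff {c : L} :
    IntSeries A (algebraMap L (LaurentSeries L) c) ↔ c ∈ A := by
  refine ⟨fun h => ?_, fun h => ?_⟩
  · simpa [coeff_algebraMap_zero] using h 0
  · rw [algebraMap_eq_coeffMap h]
    exact intSeries_coeffMap _

theorem smul_eq_algebraMap_mul {R : Type*} [Field R] (c : R) (f : LaurentSeries R) :
    c • f = algebraMap R (LaurentSeries R) c * f := by
  rw [algebraMap_laurentSeries_eq_single, HahnSeries.single_zero_mul_eq_smul]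

theorem algHom_smul {F : Type*} [Field F] [Algebra L F] (φ : F →ₐ[L] LaurentSeries L) (c : L)
    (f : F) : φ (c • f) = c • φ f := by
  rw [Algebra.smul_def, map_mul, AlgHom.commutes, smul_eq_algebraMap_mul]

theorem IntSeries.smul {c : L} (hc : c ∈ A) {f : LaurentSeries L} (hf : IntSeries A f) :
    IntSeries A (c • f) := by
  rw [smul_eq_algebraMap_mul]
  exact (intSeries_algebraMap_iff.mpr hc).mul hf

theorem exists_isUnit_coeff (hπ : IsResidueMap A π) {f : LaurentSeries L}
    (hf : Primitive A π f) :
    ∃ n, ∃ h : f.coeff n ∈ A, IsUnit (⟨f.coeff n, h⟩ : A) := by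
  by_contra hne
  push Not at hne
  refine hf.2 ?_
  ext n
  rw [redSeries_coeff hf.1, HahnSeries.coeff_zero]
  exact (hπ _).mpr (hne n (hf.1 n))

/-- In a finite family of nonzero scalars some member is divisible into all others. -/
theorem exists_forall_div_mem {J : Type*} (s : Finset J) (hs : s.Nonempty) (c : J → L)
    (hc : ∀ j ∈ s, c j ≠ 0) : ∃ i ∈ s, ∀ j ∈ s, c i / c j ∈ A := by
  classical
  induction hs using Finset.Nonempty.cons_induction with
  | singleton a => exact ⟨a, by simp, fun j hj => by
      rw [Finset.mem_singleton] at hj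
      rw [hj, div_self (hc a (by simp))]
      exact one_mem A⟩
  | cons a s ha hs ih =>
    obtain ⟨i, hi, hij⟩ := ih fun j hj => hc j (Finset.mem_cons_of_mem hj)
    have hca : c a ≠ 0 := hc a (Finset.mem_cons_self a s)
    have hci : c i ≠ 0 := hc i (Finset.mem_cons_of_mem hi)
    rcases A.mem_or_inv_mem (c a / c i) with h | h
    · refine ⟨a, Finset.mem_cons_self a s, fun j hj => ?_⟩
      rcases Finset.mem_cons.mp hj with rfl | hj
      · rw [div_self hca]; exact one_mem A
      · rw [show c a / c j = c a / c i * (c i / c j) by rw [div_mul_div_cancel₀ hci]]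
        exact A.mul_mem _ _ h (hij j hj)
    · refine ⟨i, Finset.mem_cons_of_mem hi, fun j hj => ?_⟩
      rcases Finset.mem_cons.mp hj with rfl | hj
      · rwa [inv_div] at h
      · exact hij j hj

/-! ### Several embeddings -/

variable {F : Type*} [Field F] [Algebra L F] {ι : Type*} (E : ι → F →ₐ[L] LaurentSeries L)

variable (A) in
/-- Integrality for every embedding. -/
def IntFam (f : F) : Prop := ∀ i, IntSeries A (E i f)

variable (A π) in
/-- The tuple of reductions. -/
def redFam (f : F) : ι → LaurentSeries k := fun i => redSeries A π (E i f)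

/-- Simultaneous scaling of a finite family of elements. -/
theorem exists_scale [Fintype ι] [Nonempty ι] {J : Type*} [Fintype J]
    (f : J → F) (hn : ∀ i j, f j ≠ 0 → ∃ c : L, Primitive A π (E i (c • f j)))
    (hf : ∃ j, f j ≠ 0) :
    ∃ a : L, a ≠ 0 ∧ (∀ j, IntFam A E (a • f j)) ∧ ∃ j i, redFam A π E (a • f j) i ≠ 0 := by
  classical
  let s : Finset (J × ι) := Finset.univ.filter fun x => f x.1 ≠ 0
  have hs : s.Nonempty := by
    obtain ⟨j, hj⟩ := hf
    exact ⟨(j, Classical.arbitrary ι), by simp [s, hj]⟩
  have key : ∀ x : J × ι, ∃ c : L, x ∈ s → Primitive A π (E x.2 (c • f x.1)) := fun x => by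
    by_cases hx : x ∈ s
    · obtain ⟨c, hc⟩ := hn x.2 x.1 (Finset.mem_filter.mp hx).2
      exact ⟨c, fun _ => hc⟩
    · exact ⟨0, fun h => absurd h hx⟩
  choose c hc using key
  have hc0 : ∀ x ∈ s, c x ≠ 0 := fun x hx h0 => (hc x hx).2 (by
    rw [h0, zero_smul, map_zero, redSeries_zero])
  obtain ⟨x0, hx0, hmin⟩ := exists_forall_div_mem (A := A) s hs c hc0
  refine ⟨c x0, hc0 x0 hx0, fun j i => ?_, x0.1, x0.2, (hc x0 hx0).2⟩
  by_cases hj : f j = 0
  · rw [hj, smul_zero, map_zero]
    exact intSeries_zero
  · have hx : (j, i) ∈ s := by simp [s, hj]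
    rw [show c x0 • f j = (c x0 / c (j, i)) • (c (j, i) • f j) by
      rw [smul_smul, div_mul_cancel₀ _ (hc0 _ hx)], algHom_smul]
    exact (hc _ hx).1.smul (hmin _ hx)

/-- Pivot argument: every finite-dimensional space has a basis of integral elements with linearly
independent reductions. -/
theorem exists_reduced_basis (hπ : IsResidueMap A π) [Fintype ι] [Nonempty ι]
    (W : Submodule L F)
    (hn : ∀ i, ∀ f ∈ W, f ≠ 0 → ∃ c : L, Primitive A π (E i (c • f))) (r : ℕ) :
    ∀ V : Submodule L F, V ≤ W → FiniteDimensional L V → Module.finrank L V = r →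
      ∃ e : Fin r → F, Submodule.span L (Set.range e) = V ∧ (∀ j, IntFam A E (e j)) ∧
        LinearIndependent k (fun j => redFam A π E (e j)) := by
  induction r with
  | zero =>
    intro V _ _ hV
    refine ⟨Fin.elim0, ?_, fun j => j.elim0, linearIndependent_empty_type⟩
    rw [Submodule.finrank_eq_zero.mp hV, Set.range_eq_empty, Submodule.span_empty]
  | succ r ih =>
    intro V hVW hfd hV
    obtain ⟨x, hxV, hx⟩ := Submodule.exists_mem_ne_zero_of_ne_bot
      (p := V) (fun h => by rw [h] at hV; simp at hV)
    obtain ⟨a, ha, hint, -, i, hne⟩ := exists_scale E (fun _ : Unit => x)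
      (fun i _ h => hn i x (hVW hxV) h) ⟨(), hx⟩
    set y := a • x with hy
    have hyV : y ∈ V := V.smul_mem a hxV
    obtain ⟨n, hnA, hunit⟩ := exists_isUnit_coeff hπ (f := E i y) ⟨hint () i, hne⟩
    have hn0 : (E i y).coeff n ≠ 0 := fun h => by
      have := hunit.ne_zero
      exact this (Subtype.ext h)
    let φ : F →ₗ[L] L :=
      { toFun := fun z => (E i z).coeff n
        map_add' := fun u v => by simp
        map_smul' := fun c u => by simp [algHom_smul] }
    have hφy : φ y ≠ 0 := hn0
    have hker : Module.finrank L (V ⊓ LinearMap.ker φ : Submodule L F) = r := by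
      have h1 := LinearMap.finrank_range_add_finrank_ker (φ.domRestrict V)
      have h2 : LinearMap.range (φ.domRestrict V) = ⊤ := by
        refine eq_top_iff.mpr fun z _ => ⟨(z / φ y) • ⟨y, hyV⟩, ?_⟩
        simp [div_mul_cancel₀ _ hφy]
      have h3 : Module.finrank L (LinearMap.ker (φ.domRestrict V)) =
          Module.finrank L (V ⊓ LinearMap.ker φ : Submodule L F) := by
        rw [LinearMap.ker_domRestrict]
        exact LinearEquiv.finrank_eq
          ((Submodule.comapSubtypeEquivOfLe (inf_le_left : V ⊓ LinearMap.ker φ ≤ V)).symm.trans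
            (LinearEquiv.ofEq _ _ (by rw [Submodule.comap_inf, Submodule.comap_subtype_self,
              top_inf_eq]))).symm
      rw [h2, finrank_top, Module.finrank_self, h3, hV] at h1
      omega
    obtain ⟨e, hespan, heint, heli⟩ := ih _ (inf_le_left.trans hVW)
      (Submodule.finiteDimensional_inf_left V _) hker
    have heker : ∀ j, φ (e j) = 0 := fun j =>
      (Submodule.mem_inf.mp (hespan ▸ Submodule.subset_span ⟨j, rfl⟩ :
        e j ∈ V ⊓ LinearMap.ker φ)).2
    refine ⟨Fin.cons y e, le_antisymm ?_ ?_, Fin.cases (hint ()) heint, ?_⟩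
    · rw [Submodule.span_le]
      rintro _ ⟨j, rfl⟩
      induction j using Fin.cases with
      | zero => exact hyV
      | succ j => exact (Submodule.mem_inf.mp (hespan ▸ Submodule.subset_span ⟨j, rfl⟩ :
          e j ∈ V ⊓ LinearMap.ker φ)).1
    · intro z hz
      have hz' : z - (φ z / φ y) • y ∈ V ⊓ LinearMap.ker φ :=
        ⟨V.sub_mem hz (V.smul_mem _ hyV), by simp [div_mul_cancel₀ _ hφy]⟩
      rw [← hespan] at hz'
      rw [← sub_add_cancel z ((φ z / φ y) • y)]
      refine add_mem (Submodule.span_mono ?_ hz')
        (Submodule.smul_mem _ _ (Submodule.subset_span ⟨0, rfl⟩))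
      rintro _ ⟨j, rfl⟩
      exact ⟨j.succ, by simp⟩
    · have hcons : (fun j => redFam A π E (Fin.cons (α := fun _ => F) y e j)) =
          Fin.cons (α := fun _ => ι → LaurentSeries k) (redFam A π E y)
            (fun j => redFam A π E (e j)) := funext (Fin.cases (by simp) (by simp))
      rw [hcons]
      refine heli.finCons fun hmem => ?_
      let ψ : (ι → LaurentSeries k) →ₗ[k] k :=
        { toFun := fun g => (g i).coeff n
          map_add' := fun u v => by simp
          map_smul' := fun c u => by simp }
      have h1 : ψ (redFam A π E y) ≠ 0 := by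
        show (redSeries A π (E i y)).coeff n ≠ 0
        rw [redSeries_coeff (hint () i)]
        exact fun h => (hπ _).mp h hunit
      refine h1 ?_
      have h2 : ∀ j, ψ (redFam A π E (e j)) = 0 := fun j => by
        show (redSeries A π (E i (e j))).coeff n = 0
        rw [redSeries_coeff (heint j i)]
        have h0 : (⟨(E i (e j)).coeff n, heint j i n⟩ : A) = 0 := Subtype.ext (heker j)
        rw [h0, map_zero]
      have : Submodule.span k (Set.range fun j => redFam A π E (e j)) ≤ LinearMap.ker ψ := by
        rw [Submodule.span_le]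
        rintro _ ⟨j, rfl⟩
        exact h2 j
      exact this hmem

end Fermat.Agent.SemistableRed

end
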