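import Fermat.Agent.FunctionFieldRR.FiberTheory
import Fermat.Agent.SemistableRed.GaussSplit

/-!
# The interface of a split semistable model

A function field `F` over `L` with two Gauss reductions into a function field `G` over the residue
field, together with the geometric facts about the reductions of the spaces `L(mH)` that are
used to study torsion classes. Everything later is deduced from this interface.
-/

set_option autoImplicit false

noncomputable section

open AlgebraicCurve

namespace Fermat.Agent.SemistableRed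

/-- A split model: two reductions `red i` of integral functions, a pole divisor `H` reducing to `C`
on both components, the twist `pf` linking the components and the Riemann–Roch data. -/
structure SplitModel {L : Type*} [Field L] (A : ValuationSubring L) {k : Type*} [Field k]
    (π : A →+* k) (F : Type*) [Field F] [Algebra L F] (G : Type*) [Field G] [Algebra k G] where
  Int : Fin 2 → F → Prop
  red : Fin 2 → F → G
  int_one : ∀ i, Int i 1
  red_one : ∀ i, red i 1 = 1
  int_add : ∀ i f g, Int i f → Int i g → Int i (f + g)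
  red_add : ∀ i f g, Int i f → Int i g → red i (f + g) = red i f + red i g
  int_mul : ∀ i f g, Int i f → Int i g → Int i (f * g)
  red_mul : ∀ i f g, Int i f → Int i g → red i (f * g) = red i f * red i g
  int_smul : ∀ i (c : L) f, c ∈ A → Int i f → Int i (c • f)
  red_smul : ∀ i (c : L) f (hc : c ∈ A), Int i f → red i (c • f) = π ⟨c, hc⟩ • red i f
  isResidueMap : IsResidueMap A π
  residue_surjective : Function.Surjective π
  rankOne : ∀ x : L, x ≠ 0 → ∀ y : A, π y = 0 → ∃ m : ℕ, (y : L) ^ m / x ∈ A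
  normalise : ∀ i f, f ≠ 0 → ∃ c : L, Int i (c • f) ∧ red i (c • f) ≠ 0
  exists_lift : ∀ z : Fin 2 → G, ∃ f, ∀ i, Int i f ∧ red i f = z i
  reduced_basis : ∀ (r : ℕ) (V : Submodule L F), FiniteDimensional L V →
    Module.finrank L V = r → ∃ e : Fin r → F, Submodule.span L (Set.range e) = V ∧
      (∀ j i, Int i (e j)) ∧ LinearIndependent k fun j i => red i (e j)
  /-- poles of the affine part -/
  H : Divisor L F
  H_nonneg : ∀ P, 0 ≤ H P
  /-- their reduction on each component -/
  C : Divisor k G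
  C_nonneg : ∀ P, 0 ≤ C P
  degree_H : Divisor.degree H = 2 * Divisor.degree C
  degree_C_pos : 0 < Divisor.degree C
  T : F
  Tbar : G
  T_ne : T ≠ 0
  Tbar_ne : Tbar ≠ 0
  int_T : ∀ i, Int i T
  red_T : ∀ i, red i T = Tbar
  ord_T : ∀ P, 0 < H P → P.ord T = -H P
  ord_T_nonneg : ∀ P, H P = 0 → 0 ≤ P.ord T
  ord_Tbar : ∀ P, 0 < C P → P.ord Tbar = -C P
  ord_Tbar_nonneg : ∀ P, C P = 0 → 0 ≤ P.ord Tbar
  bound : ∀ (m : ℕ) (f : F), (∀ i, Int i f) → f ∈ riemannRochSpace ((m : ℤ) • H) →
    ∀ i, red i f ∈ riemannRochSpace ((m : ℤ) • C)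
  pf : G →ₐ[k] G
  /-- `pf` of a regular function vanishes to order at least two wherever it vanishes -/
  pf_two : ∀ (m : ℕ) (z : G) (Q : Place k G), z ∈ riemannRochSpace ((m : ℤ) • C) → C Q = 0 →
    0 < Q.ord (pf z) → 2 ≤ Q.ord (pf z)
  lift_graph : ∀ (m : ℕ) (z : G), z ∈ riemannRochSpace ((m : ℤ) • C) →
    ∀ i : Fin 2, ∃ (m' : ℕ) (f : F), f ∈ riemannRochSpace ((m' : ℤ) • H) ∧ (∀ j, Int j f) ∧
      ∀ j, red j f = if j = i then z else pf z
  /-- the function cutting out the candidates for the double points -/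
  hbar : G
  hbar_ne : hbar ≠ 0
  crit : Finset (Place k G)
  mem_crit : ∀ P, P ∈ crit ↔ C P = 0 ∧ 0 < P.ord hbar
  hbar_nonneg : ∀ P, C P = 0 → 0 ≤ P.ord hbar
  ord_Tbar_crit : ∀ P ∈ crit, P.ord Tbar = 0
  lift_crit : ∀ (m : ℕ) (z : G), z ∈ riemannRochSpace ((m : ℤ) • C) →
    ∀ i : Fin 2, ∃ (m' : ℕ) (f : F), f ∈ riemannRochSpace ((m' : ℤ) • H) ∧ (∀ j, Int j f) ∧
      ∀ j, red j f = if j = i then hbar * z else 0
  leadBound : ℕ
  lead : ∀ I : ℕ, leadBound ≤ I → ∀ (i : Fin 2) (z : G),
    z ∈ riemannRochSpace (((I + 1 : ℕ) : ℤ) • C) →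
      ∃ f : F, f ∈ riemannRochSpace (((I + 1 : ℕ) : ℤ) • H) ∧ (∀ j, Int j f) ∧
        red i f - z ∈ riemannRochSpace ((I : ℤ) • C) ∧ ∀ j, j ≠ i → red j f = 0
  gF : ℤ
  gG : ℤ
  rrBound : ℤ
  rrF : ∀ D : Divisor L F, rrBound ≤ Divisor.degree D →
    (Module.finrank L (riemannRochSpace D) : ℤ) = Divisor.degree D + 1 - gF
  rrG : ∀ D : Divisor k G, rrBound ≤ Divisor.degree D →
    (Module.finrank k (riemannRochSpace D) : ℤ) = Divisor.degree D + 1 - gG

namespace SplitModel

variable {L : Type*} [Field L] {A : ValuationSubring L} {k : Type*} [Field k] {π : A →+* k}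
  {F : Type*} [Field F] [Algebra L F] {G : Type*} [Field G] [Algebra k G]
variable (S : SplitModel A π F G)

/-- Integral on both components. -/
def Int2 (f : F) : Prop := ∀ i, S.Int i f

/-- The pair of reductions. -/
def red2 (f : F) : Fin 2 → G := fun i => S.red i f

theorem int_zero (i : Fin 2) : S.Int i (0 : F) := by
  simpa using S.int_smul i 0 1 A.zero_mem (S.int_one i)

theorem red_zero (i : Fin 2) : S.red i (0 : F) = 0 := by
  have h := S.red_smul i 0 1 A.zero_mem (S.int_one i)
  rw [zero_smul, show (⟨0, A.zero_mem⟩ : A) = 0 from rfl, map_zero, zero_smul] at h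
  exact h

theorem int_neg {i : Fin 2} {f : F} (hf : S.Int i f) : S.Int i (-f) := by
  simpa using S.int_smul i (-1) f (A.neg_mem _ A.one_mem) hf

theorem red_neg {i : Fin 2} {f : F} (hf : S.Int i f) : S.red i (-f) = -S.red i f := by
  have h := S.red_add i f (-f) hf (S.int_neg hf)
  rw [add_neg_cancel, S.red_zero] at h
  exact eq_neg_of_add_eq_zero_right h.symm

theorem int_sub {i : Fin 2} {f g : F} (hf : S.Int i f) (hg : S.Int i g) : S.Int i (f - g) := by
  rw [sub_eq_add_neg]; exact S.int_add i f _ hf (S.int_neg hg)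

theorem red_sub {i : Fin 2} {f g : F} (hf : S.Int i f) (hg : S.Int i g) :
    S.red i (f - g) = S.red i f - S.red i g := by
  rw [sub_eq_add_neg, S.red_add i f _ hf (S.int_neg hg), S.red_neg hg, sub_eq_add_neg]

theorem int_sum {J : Type*} (s : Finset J) {f : J → F} {i : Fin 2}
    (hf : ∀ j ∈ s, S.Int i (f j)) :
    S.Int i (∑ j ∈ s, f j) ∧ S.red i (∑ j ∈ s, f j) = ∑ j ∈ s, S.red i (f j) := by
  classical
  induction s using Finset.induction with
  | empty => exact ⟨by simpa using S.int_zero i, by simpa using S.red_zero i⟩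
  | insert j t hj ih =>
    obtain ⟨h1, h2⟩ := ih fun a ha => hf a (Finset.mem_insert_of_mem ha)
    have hj' := hf j (Finset.mem_insert_self j t)
    rw [Finset.sum_insert hj, Finset.sum_insert hj]
    exact ⟨S.int_add i _ _ hj' h1, by rw [S.red_add i _ _ hj' h1, h2]⟩

theorem int_pow {i : Fin 2} {f : F} (hf : S.Int i f) (m : ℕ) : S.Int i (f ^ m) := by
  induction m with
  | zero => simpa using S.int_one i
  | succ m ih => rw [pow_succ]; exact S.int_mul i _ _ ih hf

theorem red_pow {i : Fin 2} {f : F} (hf : S.Int i f) (m : ℕ) :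
    S.red i (f ^ m) = S.red i f ^ m := by
  induction m with
  | zero => simpa using S.red_one i
  | succ m ih => rw [pow_succ, S.red_mul i _ _ (S.int_pow hf m) hf, ih, pow_succ]

theorem ne_zero_of_red_ne {i : Fin 2} {f : F} (h : S.red i f ≠ 0) : f ≠ 0 :=
  fun h0 => h (by rw [h0, S.red_zero])

theorem smul_mem_zero {i : Fin 2} {f : F} {c : L} (hc : c ∈ A) (hc0 : π ⟨c, hc⟩ = 0)
    (hf : S.Int i f) : S.red i (c • f) = 0 := by
  rw [S.red_smul i c f hc hf, hc0, zero_smul]

/-- If integral elements have independent reductions, an integral combination of them has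
integral coefficients. -/
theorem coeff_mem {J : Type*} [Fintype J] {e : J → F} (he : ∀ j, S.Int2 (e j))
    (hind : LinearIndependent k fun j => S.red2 (e j)) {c : J → L}
    (hint : S.Int2 (∑ j, c j • e j)) : ∀ j, c j ∈ A := by
  classical
  by_contra hne
  push Not at hne
  obtain ⟨j0, hj0⟩ := hne
  let s : Finset J := Finset.univ.filter fun j => c j ≠ 0
  have hs : s.Nonempty := ⟨j0, by simp [s]; exact fun h => hj0 (h ▸ A.zero_mem)⟩
  obtain ⟨i0, hi0, hmin⟩ := exists_forall_div_mem (A := A) s hs (fun j => (c j)⁻¹)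
    fun j hj => inv_ne_zero (Finset.mem_filter.mp hj).2
  have hci : c i0 ≠ 0 := (Finset.mem_filter.mp hi0).2
  have hall : ∀ j, c j / c i0 ∈ A := fun j => by
    by_cases hj : c j = 0
    · rw [hj, zero_div]; exact A.zero_mem
    · have := hmin j (by simp [s, hj])
      rwa [inv_div_inv] at this
  have hciA : c i0 ∉ A := fun h => hj0 (by
    rw [← div_mul_cancel₀ (c j0) hci]; exact A.mul_mem _ _ (hall j0) h)
  have ha : (c i0)⁻¹ ∈ A := (A.mem_or_inv_mem _).resolve_left hciA
  have ha0 : π ⟨_, ha⟩ = 0 := (S.isResidueMap _).mpr fun hu => hciA (by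
    obtain ⟨u, hu⟩ := hu
    have h1 : (c i0)⁻¹ * ((↑u⁻¹ : A) : L) = 1 := by
      rw [← show ((u : A) : L) = (c i0)⁻¹ from congrArg Subtype.val hu]
      exact congrArg Subtype.val u.mul_inv
    have h2 := eq_inv_of_mul_eq_one_right h1
    rw [inv_inv] at h2
    rw [← h2]
    exact SetLike.coe_mem _)
  have hsum : ∀ i, ∑ j, π ⟨_, hall j⟩ • S.red i (e j) = 0 := fun i => by
    have h1 := S.smul_mem_zero ha ha0 (hint i)
    rw [Finset.smul_sum] at h1
    simp only [smul_smul, ← div_eq_inv_mul] at h1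
    rw [(S.int_sum Finset.univ fun j _ => S.int_smul i _ _ (hall j) (he j i)).2] at h1
    rw [← h1]
    exact Finset.sum_congr rfl fun j _ => (S.red_smul i _ _ (hall j) (he j i)).symm
  have h0 := Fintype.linearIndependent_iff.mp hind (fun j => π ⟨_, hall j⟩) (funext fun i => by
    simpa [Finset.sum_apply, red2] using hsum i) i0
  simp only [div_self hci] at h0
  exact one_ne_zero ((map_one π).symm.trans h0)

end SplitModel

end Fermat.Agent.SemistableRed

end
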