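import Fermat.Agent.SemistableRed.Lead
import Fermat.Agent.SemistableRed.Model

/-!
# The split semistable model of `X₀(M q)` at `q ∤ M`

Component `0` is the one through the reduction at `∞`, component `1` its image under `w_q`; both
are the special fibre of `X₀(M)` and `piG` links them.
-/

set_option autoImplicit false
set_option linter.unusedSectionVars false

noncomputable section

open IsLocalRing ModularCurve AlgebraicCurve IntermediateField
open Fermat.Agent.Reduction Fermat.Agent.FunctionFieldRR

namespace Fermat.Agent.SemistableRed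

local notation "Qbar" => AlgebraicClosure ℚ

variable {A : ValuationSubring Qbar} {M q : ℕ} [NeZero M] [NeZero q] [Fact q.Prime]
  [CharP (ResidueField A) q] [IsAlgClosed (ResidueField A)] (S : Setting A M q)

namespace Setting

theorem finite_crit :
    {P : Place (ResidueField A) (modularFunctionFieldFullC (ResidueField A) M) |
      S.polesC P = 0 ∧ 0 < P.ord S.hb}.Finite := by
  have := S.isFunctionField_C
  exact (finite_ord_ne_zero (K := ResidueField A) S.hb).subset fun P hP => by
    simp only [Set.mem_ofPred_eq] at hP ⊢
    omega

include S in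
theorem exists_rrBound :
    ∃ B : ℤ,
      (∀ D : Divisor Qbar (modularFunctionFieldBar (M * q)), B ≤ Divisor.degree D →
        (Module.finrank Qbar (riemannRochSpace D) : ℤ) =
          Divisor.degree D + 1 - (genus0 (M * q) : ℤ)) ∧
      ∀ D : Divisor (ResidueField A) (modularFunctionFieldFullC (ResidueField A) M),
        B ≤ Divisor.degree D → (Module.finrank (ResidueField A) (riemannRochSpace D) : ℤ) =
          Divisor.degree D + 1 - S.facts.choose := by
  have := isFunctionField_level (M * q)
  have := finiteDimensional_jBar (M * q)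
  have := isSeparable_jBar (M * q)
  obtain ⟨c, hc⟩ := S.facts.choose_spec.genus_le
  refine ⟨max c (2 * (genus0 (M * q) : ℤ) - 1), fun D hD => ?_, fun D hD => ?_⟩
  · exact finrank_eq_of_degree_gt (transcendental_jBar (M * q))
      (show 2 * (genus0 (M * q) : ℤ) - 2 < _ by omega)
  · exact le_antisymm (hc D (le_trans (le_max_left _ _) hD))
      (S.facts.choose_spec.charL.riemann D)

/-- The split model of `X₀(M q)` at `q`. -/
def splitModel (S : Setting A M q) : SplitModel A (residue A) (modularFunctionFieldBar (M * q))
    (modularFunctionFieldFullC (ResidueField A) M) where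
  Int := S.gauss.Int
  red := S.gauss.red
  int_one := S.gauss.int_one
  red_one := S.gauss.red_one
  int_add := S.gauss.int_add
  red_add := S.gauss.red_add
  int_mul := S.gauss.int_mul
  red_mul := S.gauss.red_mul
  int_smul := S.gauss.int_smul
  red_smul := S.gauss.red_smul
  isResidueMap := S.gauss.isResidueMap
  residue_surjective := residue_surjective
  rankOne := S.rankOne
  normalise := S.normalise
  exists_lift := S.exists_lift
  reduced_basis := S.reduced_basis
  H := S.polesH
  H_nonneg := S.polesH_nonneg
  C := S.polesC
  C_nonneg := S.polesC_nonneg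
  degree_H := S.degree_polesH
  degree_C_pos := S.degree_polesC_pos
  T := S.fnT
  Tbar := S.fnTbar
  T_ne := S.fnT_ne
  Tbar_ne := S.fnTbar_ne
  int_T i := (S.red_fnT i).1
  red_T i := (S.red_fnT i).2
  ord_T _ := S.ord_fnT
  ord_T_nonneg _ := S.ord_fnT_nonneg
  ord_Tbar _ := S.ord_fnTbar
  ord_Tbar_nonneg _ := S.ord_fnTbar_nonneg
  bound := S.red_mem_rr
  pf := piG (ResidueField A) M q
  pf_two _ z Q _ _ := piG_two Q z
  lift_graph := S.lift_graph
  hbar := S.hb
  hbar_ne := S.hb_ne
  crit := S.finite_crit.toFinset
  mem_crit P := by simp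
  hbar_nonneg P hP := by
    rw [S.hb_eq]
    have h := (ord_nonneg_iff _ _).mp (S.ord_jbar_nonneg hP)
    exact (ord_nonneg_iff _ _).mpr (sub_mem h (pow_mem h _))
  ord_Tbar_crit P hP := by
    rw [Set.Finite.mem_toFinset] at hP
    exact S.ord_fnTbar_crit hP.1 hP.2
  lift_crit := S.lift_crit
  leadBound := S.exists_lead.choose
  lead := S.exists_lead.choose_spec
  gF := genus0 (M * q)
  gG := S.facts.choose
  rrBound := S.exists_rrBound.choose
  rrF := S.exists_rrBound.choose_spec.1
  rrG := S.exists_rrBound.choose_spec.2

end Setting

/-- The facts needed at every prime `q ∤ M`. -/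
theorem Setting.of_reductionFacts {g : ℤ} (hqM : ¬ q ∣ M) (hA : A.LiesOverPrime q)
    (h : ReductionFacts (ResidueField A) M g) : Setting A M q :=
  ⟨hqM, hA, g, h⟩

end Fermat.Agent.SemistableRed

end
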