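import Fermat.Agent.SemistableRed.Representatives
import Fermat.Prelude.Def_AlgebraicCurve_BaseChangeGalois

/-!
# Semilinear automorphisms and the gluing datum

An automorphism compatible with both reductions multiplies the gluing datum by its exponent on
constants. Hence an automorphism trivial on the reductions is unipotent on torsion, and one acting
by Frobenius satisfies the toric relation on classes with power norms.
-/

set_option autoImplicit false
set_option linter.unusedSectionVars false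

noncomputable section

open AlgebraicCurve Fermat.Agent.FunctionFieldRR

namespace Fermat.Agent.SemistableRed.SplitModel

variable {L : Type*} [Field L] [IsAlgClosed L] {A : ValuationSubring L} {k : Type*} [Field k]
  [IsAlgClosed k] {π : A →+* k} {F : Type*} [Field F] [Algebra L F] [IsFunctionField L F]
  {G : Type*} [Field G] [Algebra k G] [IsFunctionField k G]
variable (S : SplitModel A π F G) {n : ℕ}

/-- `s` acts on the reductions through `t`, which acts by `c ↦ c ^ e` on constants. -/
structure Compatible (s : SemilinearAut L F) (t : SemilinearAut k G) (e : ℕ) : Prop where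
  int : ∀ i f, S.Int i f → S.Int i (s • f)
  red : ∀ i f, S.Int i f → S.red i (s • f) = t • S.red i f
  H_inv : ∀ P, S.H (s • P) = S.H P
  C_inv : ∀ P, S.C (t • P) = S.C P
  base : ∀ c, SemilinearAut.baseAut t c = c ^ e

variable {S} {s s' : SemilinearAut L F} {t t' : SemilinearAut k G} {e e' : ℕ}

theorem Compatible.mul (h : S.Compatible s t e) (h' : S.Compatible s' t' e') :
    S.Compatible (s * s') (t * t') (e' * e) where
  int i f hf := by rw [mul_smul]; exact h.int i _ (h'.int i f hf)
  red i f hf := by rw [mul_smul, mul_smul, h.red i _ (h'.int i f hf), h'.red i f hf]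
  H_inv P := by rw [mul_smul, h.H_inv, h'.H_inv]
  C_inv P := by rw [mul_smul, h.C_inv, h'.C_inv]
  base c := by
    rw [SemilinearAut.baseAut_mul, RingAut.mul_apply, h.base, h'.base, pow_mul]

theorem smul_scalar (s : SemilinearAut L F) (c : L) (f : F) :
    s • (c • f) = SemilinearAut.baseAut s c • (s • f) := by
  rw [Algebra.smul_def, smul_mul', SemilinearAut.smul_algebraMap, ← Algebra.smul_def]

theorem residueConst_aut (h : S.Compatible s t e) {P : Place k G} {f : G}
    (hf : VanishesTo P 0 f) : residueConst (t • P) (t • f) = residueConst P f ^ e := by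
  refine residueConst_eq _ ?_
  have hspec := residueConst_spec P ((vanishesTo_zero_iff P).mp hf)
  have he : t • f - algebraMap k G (residueConst P f ^ e) =
      t • (f - algebraMap k G (residueConst P f)) := by
    rw [smul_sub, SemilinearAut.smul_algebraMap, h.base]
  rcases hspec with h0 | h0
  · exact Or.inl (by rw [he, h0, smul_zero])
  · exact Or.inr (by rw [he, SemilinearAut.ord_smul]; exact h0)

/-- The image of a representative. -/
def Compatible.mapRep (h : S.Compatible s t e) (R : S.Rep n) : S.Rep n where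
  u := s • R.u
  D := s • R.D
  u_ne := (smul_ne_zero_iff_ne s).mpr R.u_ne
  ord_u P := by
    have := SemilinearAut.ord_smul s (s⁻¹ • P) R.u
    rw [smul_inv_smul] at this
    rw [this, R.ord_u, SemilinearAut.divisor_smul_apply]
  degree_D := by rw [SemilinearAut.degree_smul, R.degree_D]
  int i := h.int i _ (R.int i)
  red_u i := by rw [h.red i _ (R.int i), R.red_u, smul_one]

theorem Compatible.cls_mapRep (h : S.Compatible s t e) (R : S.Rep n) :
    Rep.cls S (h.mapRep R) = s • Rep.cls S R :=
  (SemilinearAut.pic0_smul_mk s ⟨R.D, Divisor.mem_degZero.mpr R.degree_D⟩).symm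

theorem Compatible.mem_twist (h : S.Compatible s t e) {R : S.Rep n} {m : ℕ} {f : F}
    (hf : f ∈ S.twist R m) : s • f ∈ S.twist (h.mapRep R) m := by
  rcases eq_or_ne f 0 with rfl | h0
  · rw [smul_zero]; exact Submodule.zero_mem _
  refine mem_rrs_iff.mpr (Or.inr fun P => ?_)
  have h1 := (mem_rrs_iff.mp hf).resolve_left h0 (s⁻¹ • P)
  have h2 := SemilinearAut.ord_smul s (s⁻¹ • P) f
  rw [smul_inv_smul] at h2
  have h3 := h.H_inv (s⁻¹ • P)
  rw [smul_inv_smul] at h3
  simp only [Compatible.mapRep, Finsupp.add_apply, Finsupp.smul_apply, smul_eq_mul,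
    SemilinearAut.divisor_smul_apply] at h1 ⊢
  rw [h3, h2]
  exact h1

/-- The gluing datum of the image is the `e`-th power. -/
theorem Compatible.hasZeta (hn : n ≠ 0) (h : S.Compatible s t e)
    (hfix : ∀ x ∈ S.pairs, t • x.1 = x.1 ∧ t • x.2 = x.2) {R : S.Rep n} {ζ : S.pairs → k}
    (hζ : S.HasZeta R ζ) : S.HasZeta (h.mapRep R) (ζ ^ e) := by
  obtain ⟨η, -, hη⟩ := S.exists_hasZeta hn (h.mapRep R)
  suffices η = ζ ^ e by rw [← this]; exact hη
  obtain ⟨z, hz, hv⟩ := S.exists_pair_values (le_refl S.evalLevel) ζ 1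
  have hmem : z ∈ S.imgSpace (S.twist R S.evalLevel) := by
    rw [hζ _ le_rfl]
    exact S.mem_zetaSpace.mpr ⟨hz, fun x => by rw [(hv x).1, (hv x).2]; simp⟩
  obtain ⟨f, hf, hfi, hfr⟩ := hmem
  have himg : (fun i => t • z i) ∈ S.imgSpace (S.twist (h.mapRep R) S.evalLevel) :=
    ⟨s • f, h.mem_twist hf, fun i => h.int i f (hfi i), funext fun i => by
      show S.red i (s • f) = t • z i
      rw [h.red i f (hfi i), ← hfr]; rfl⟩
  rw [hη _ le_rfl] at himg
  funext x
  have hp := S.mem_pairs.mp x.2
  obtain ⟨hf1, hf2⟩ := hfix _ x.2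
  have h0 : ev (0, (x : Place k G × Place k G).1) (fun i => t • z i) = ζ x ^ e := by
    show residueConst _ (t • z 0) = _
    conv_lhs => rw [← hf1]
    rw [residueConst_aut h (S.regular_of_mem_pairSpace hz 0 hp.1)]
    exact congrArg (· ^ e) (hv x).1
  have h1 : ev (1, (x : Place k G × Place k G).2) (fun i => t • z i) = 1 := by
    show residueConst _ (t • z 1) = _
    conv_lhs => rw [← hf2]
    rw [residueConst_aut h (S.regular_of_mem_pairSpace hz 1 hp.2.1)]
    have := (hv x).2
    simp only [ev, Pi.one_apply] at this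
    rw [this, one_pow]
  have h2 := (S.mem_zetaSpace.mp himg).2 x
  rw [h0, h1] at h2
  simpa using h2.symm

/-- Every torsion class has a function with `n` times its divisor. -/
theorem exists_function (x : Pic0 L F) (hx : n • x = 0) :
    ∃ (D : Divisor.degZero (K := L) (F := F)) (u : F), Pic0.mk D = x ∧ u ≠ 0 ∧
      ∀ P, P.ord u = (n : ℤ) * (D : Divisor L F) P := by
  obtain ⟨D, rfl⟩ := Pic0.mk_surjective x
  have h : (QuotientAddGroup.mk (n • D) : Pic0 L F) = 0 := by
    rw [← hx]; rfl
  have h2 := (QuotientAddGroup.eq_zero_iff _).mp h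
  simp only [AddSubgroup.mem_addSubgroupOf] at h2
  obtain ⟨u, hu, hu'⟩ := h2
  refine ⟨D, u, rfl, hu, fun P => ?_⟩
  rw [← hu' P]
  simp

/-- A representative of `s • x - x` when the quotient of reductions is an `n`-th power. -/
theorem Compatible.exists_rep_diff (hn : n ≠ 0) (h : S.Compatible s t e)
    (D : Divisor.degZero (K := L) (F := F)) {u : F} (hu : u ≠ 0)
    (hD : ∀ P, P.ord u = (n : ℤ) * (D : Divisor L F) P) (c : Fin 2 → L) (y : Fin 2 → G)
    (hc : ∀ i, y i ≠ 0 ∧ S.Int i (c i • u) ∧ S.red i (c i • u) ≠ 0 ∧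
      t • S.red i (c i • u) = S.red i (c i • u) * y i ^ n) :
    ∃ R : S.Rep n, Rep.cls S R = s • Pic0.mk D - Pic0.mk D := by
  have hc0 : ∀ i, c i ≠ 0 := fun i h0 => (hc i).2.2.1 (by rw [h0, zero_smul, S.red_zero])
  let E : Divisor.degZero (K := L) (F := F) := SemilinearAut.degZeroSMulHom s D - D
  have hE : ∀ P, P.ord (s • u / u) = (n : ℤ) * (E : Divisor L F) P := fun P => by
    have h1 := SemilinearAut.ord_smul s (s⁻¹ • P) u
    rw [smul_inv_smul] at h1
    rw [div_eq_mul_inv, P.ord_mul ((smul_ne_zero_iff_ne s).mpr hu) (inv_ne_zero hu), P.ord_inv,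
      h1, hD, hD]
    simp only [E, AddSubgroup.coe_sub, SemilinearAut.coe_degZeroSMulHom, Finsupp.sub_apply,
      SemilinearAut.divisor_smul_apply]
    ring
  obtain ⟨R, hR⟩ := S.exists_rep hn (div_ne_zero ((smul_ne_zero_iff_ne s).mpr hu) hu) E hE
    (fun i => SemilinearAut.baseAut s (c i) / c i) y fun i => by
    obtain ⟨hy, hi, hr, ht⟩ := hc i
    obtain ⟨a, a'⟩ := S.int_inv hi hr
    have he : (SemilinearAut.baseAut s (c i) / c i) • (s • u / u) =
        (s • (c i • u)) * (c i • u)⁻¹ := by
      rw [smul_scalar, Algebra.smul_def, Algebra.smul_def, Algebra.smul_def, map_div₀, mul_inv]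
      ring
    refine ⟨div_ne_zero ((map_ne_zero (SemilinearAut.baseAut s)).mpr (hc0 i)) (hc0 i), hy, ?_, ?_⟩
    · rw [he]; exact S.int_mul i _ _ (h.int i _ hi) a
    · rw [he, S.red_mul i _ _ (h.int i _ hi) a, a', h.red i _ hi, ht]
      field_simp
  exact ⟨R, hR.trans rfl⟩

/-- An automorphism trivial on the reductions is unipotent of exponent two on torsion. -/
theorem Compatible.unipotent (h : S.Compatible s t 1) (ht : ∀ z : G, t • z = z)
    (hn : (n : k) ≠ 0) (x : Pic0 L F) (hx : n • x = 0) :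
    s • s • x - (2 : ℕ) • (s • x) + x = 0 := by
  have hn0 : n ≠ 0 := fun h0 => hn (by rw [h0, Nat.cast_zero])
  obtain ⟨D, u, rfl, hu, hD⟩ := exists_function x hx
  choose c hc hcr using fun i => S.normalise i u hu
  obtain ⟨R, hR⟩ := h.exists_rep_diff hn0 D hu hD c (fun _ => 1) fun i =>
    ⟨one_ne_zero, hc i, hcr i, by rw [ht, one_pow, mul_one]⟩
  have hfix : ∀ P : Place k G, t • P = P := fun P => eq_of_forall_mem fun z => by
    rw [SemilinearAut.smul_toValuationSubring,
      ValuationSubring.mem_pointwise_smul_iff_inv_smul_mem]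
    have : t⁻¹ • z = z := by
      conv_lhs => rw [← ht z]
      exact inv_smul_smul t z
    rw [this]
    exact id
  obtain ⟨ζ, -, hζ⟩ := S.exists_hasZeta hn0 R
  have h2 := h.hasZeta hn0 (fun x _ => ⟨hfix _, hfix _⟩) hζ
  rw [pow_one] at h2
  have h3 := S.cls_eq_of_hasZeta hn hζ h2
  rw [h.cls_mapRep, hR, smul_sub] at h3
  rw [two_nsmul]
  have h4 := sub_eq_zero.mpr h3
  rw [← h4]
  abel

variable (h : S.Compatible s t e)

include h in
/-- Glued places are fixed by the square of a Frobenius. -/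
theorem Compatible.smul_smul_pair (hpf : ∀ z, t • S.pf z = z ^ e) {x : Place k G × Place k G}
    (hx : x ∈ S.pairs) : t • t • x.1 = x.1 ∧ t • t • x.2 = x.2 := by
  obtain ⟨hP, hQ, hrel⟩ := S.mem_pairs.mp hx
  suffices key : ∀ (i : Fin 2) (P Q : Place k G), S.C P = 0 → S.C Q = 0 →
      S.Rel (i, P) (1 - i, Q) → t • t • P = P by
    exact ⟨key 0 x.1 x.2 hP hQ hrel, key 1 x.2 x.1 hQ hP fun z hz => (hrel z hz).symm⟩
  intro i P Q hP hQ hrel
  have hne : (1 - i : Fin 2) ≠ i := (by decide : ∀ j : Fin 2, (1 - j : Fin 2) ≠ j) i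
  have hCt : S.C (t • t • P) = 0 := by rw [h.C_inv, h.C_inv, hP]
  have hfrob : Function.Injective fun c : k => c ^ e := fun a b hab =>
    (SemilinearAut.baseAut t).injective (by rw [h.base, h.base]; exact hab)
  have hval : ∀ (m : ℕ) z, z ∈ riemannRochSpace ((m : ℤ) • S.C) →
      residueConst (t • t • P) z = residueConst P z := by
    intro m z hz
    obtain ⟨m', hw⟩ := (S.reach_graph hz i).mem_pairSpace S
    have hwz : S.pf z ∈ riemannRochSpace ((m' : ℤ) • S.C) := by
      have := S.mem_pairSpace.mp hw (1 - i)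
      simpa [hne] using this
    have h1 := hrel _ (S.reach_graph hz i)
    have h2 := hrel _ (S.reach_graph hwz (1 - i))
    simp only [ev, if_true, if_neg hne, if_neg hne.symm] at h1 h2
    obtain ⟨m'', hw''⟩ := (S.reach_graph hwz i).mem_pairSpace S
    have hwwz : S.pf (S.pf z) ∈ riemannRochSpace ((m'' : ℤ) • S.C) := by
      have := S.mem_pairSpace.mp hw'' (1 - i)
      simpa [hne] using this
    have hreg : ∀ {l : ℕ} {w : G}, w ∈ riemannRochSpace ((l : ℤ) • S.C) → ∀ {R : Place k G},
        S.C R = 0 → VanishesTo R 0 w := fun {l w} hw {R} hR =>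
      (mem_rrs_iff.mp hw).imp id fun h' => by simpa [hR] using h' R
    have h3 := residueConst_aut (h.mul h) (hreg hwwz hP)
    rw [mul_smul, mul_smul, hpf, smul_pow', hpf, ← pow_mul, h2, ← h1,
      residueConst_pow (hreg hz hCt)] at h3
    have he : e * e ≠ 0 → Function.Injective fun c : k => c ^ (e * e) := fun _ a b hab =>
      hfrob (hfrob (by simpa [pow_mul] using hab))
    by_cases h0 : e * e = 0
    · have he0 : e = 0 := by simpa using h0
      exact hfrob (by simp [he0])
    · exact he h0 h3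
  by_contra hne'
  classical
  obtain ⟨z, hz, hv⟩ := S.exists_values {t • t • P, P} (by simp [hP, hCt]) _ le_rfl
    fun y => if (y : Place k G) = P then 1 else 0
  have h1 := hv ⟨t • t • P, by simp⟩
  have h2 := hv ⟨P, by simp⟩
  rw [hval _ z hz, h2] at h1
  simp [hne'] at h1

include h in
/-- The toric relation for a Frobenius, on classes whose norms are powers. -/
theorem Compatible.toric (hpf : ∀ z, t • S.pf z = z ^ e) (hn : (n : k) ≠ 0)
    (D : Divisor.degZero (K := L) (F := F)) {u : F} (hu : u ≠ 0)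
    (hD : ∀ P, P.ord u = (n : ℤ) * (D : Divisor L F) P) (c : Fin 2 → L) (y : Fin 2 → G)
    (hy : ∀ i, y i ≠ 0 ∧ S.Int i (c i • u) ∧ S.red i (c i • u) ≠ 0)
    (hnorm : ∀ i, S.red i (c i • u) * t • S.red (1 - i) (c (1 - i) • u) = y i ^ n) :
    s • s • s • s • Pic0.mk D - (e ^ 2 + 1) • (s • s • Pic0.mk D) + (e ^ 2) • Pic0.mk D = 0 := by
  have hn0 : n ≠ 0 := fun h0 => hn (by rw [h0, Nat.cast_zero])
  set z : Fin 2 → G := fun i => S.red i (c i • u) with hz
  have hz0 : ∀ i, z i ≠ 0 := fun i => (hy i).2.2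
  obtain ⟨R, hR⟩ := (h.mul h).exists_rep_diff hn0 D hu hD c
    (fun i => t • y (1 - i) / y i) fun i => by
    refine ⟨div_ne_zero ((smul_ne_zero_iff_ne t).mpr (hy _).1) (hy i).1, (hy i).2.1, hz0 i, ?_⟩
    have hrev : (1 - (1 - i) : Fin 2) = i := sub_sub_cancel 1 i
    have h1 := congrArg (t • ·) (hnorm (1 - i))
    simp only [smul_mul', smul_pow', hrev] at h1
    have h2 := hnorm i
    show (t * t) • z i = z i * (t • y (1 - i) / y i) ^ n
    rw [div_pow, ← h1, ← h2, mul_smul]
    have hz1 : S.red i (c i • u) ≠ 0 := hz0 i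
    have hz2 : t • S.red (1 - i) (c (1 - i) • u) ≠ 0 := (smul_ne_zero_iff_ne t).mpr (hz0 _)
    simp only [hz]
    field_simp
  obtain ⟨ζ, -, hζ⟩ := S.exists_hasZeta hn0 R
  have h2 := (h.mul h).hasZeta hn0 (fun x hx => by
    rw [mul_smul, mul_smul]; exact h.smul_smul_pair hpf hx) hζ
  have h3 := S.cls_eq_of_hasZeta hn (HasZeta.npow S hn0 hζ (e ^ 2)) (by rw [pow_two]; exact h2)
  rw [Compatible.cls_mapRep, Rep.cls_npow, hR, mul_smul, mul_smul, smul_sub, smul_sub,
    nsmul_sub] at h3
  rw [add_nsmul, one_nsmul]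
  have h4 := sub_eq_zero.mpr h3
  rw [← h4]
  abel

end Fermat.Agent.SemistableRed.SplitModel

end
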