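import Fermat.Agent.SemistableRed.Components
import Fermat.Agent.SemistableRed.Equivariance
import Fermat.Agent.SemistableRed.Interface
import Fermat.Agent.Reduction.Rank
import Fermat.Agent.Congruence.Reduction

/-!
# The decomposition group on the split model of `X₀(M q)`

An element of the decomposition group at `A` commutes with both expansions, so it acts on both
reductions through its action on the residue field. In particular inertia is unipotent on torsion
of order prime to `q`.
-/

set_option autoImplicit false
set_option linter.unusedSectionVars false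

noncomputable section

open IsLocalRing ModularCurve AlgebraicCurve
open Fermat.Agent.Reduction

namespace Fermat.Agent.SemistableRed

local notation "Qbar" => AlgebraicClosure ℚ

variable {A : ValuationSubring Qbar} {M q : ℕ} [NeZero M] [NeZero q] [Fact q.Prime]
  [CharP (ResidueField A) q] [IsAlgClosed (ResidueField A)] (S : Setting A M q)

local notation "gal" => arithmeticGalois (L := AlgebraicClosure ℚ) (modularFunctionFieldFull (M * q))

namespace Setting

theorem side_galois (σ : Qbar ≃ₐ[ℚ] Qbar) (i : Fin 2) (f : modularFunctionFieldBar (M * q)) :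
    S.side i (gal σ • f) = coeffMap (σ : Qbar →+* Qbar) (S.side i f) := by
  obtain rfl | rfl : i = 0 ∨ i = 1 := by omega
  · rw [side_zero, side_zero]; exact coe_arithmeticGalois_smul _ σ f
  · rw [side_one, side_one, w, wq_galois_smul S.prime S.not_dvd σ f]
    exact coe_arithmeticGalois_smul _ σ _

theorem galois_jF (σ : Qbar ≃ₐ[ℚ] Qbar) : gal σ • S.jF = S.jF ∧ gal σ • S.jqF = S.jqF := by
  refine ⟨Subtype.ext ?_, Subtype.ext ?_⟩
  · rw [coe_arithmeticGalois_smul, jF, coe_heckeAlphaBar]
    exact coeffMap_jqModC _
  · rw [coe_arithmeticGalois_smul, jqF, coe_heckeBetaBar,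
      show ((jBar M : modularFunctionFieldBar M) : LaurentSeries Qbar) = jqModC Qbar from rfl,
      coeffMap_qExpand, coeffMap_jqModC]

theorem polesH_galois (σ : Qbar ≃ₐ[ℚ] Qbar)
    (P : Place Qbar (modularFunctionFieldBar (M * q))) : S.polesH (gal σ • P) = S.polesH P := by
  have h1 := SemilinearAut.ord_smul (gal σ) P S.jF
  have h2 := SemilinearAut.ord_smul (gal σ) P S.jqF
  rw [(S.galois_jF σ).1] at h1
  rw [(S.galois_jF σ).2] at h2
  rw [polesH_apply, polesH_apply, h1, h2]

/-- An element of the decomposition group is compatible with its action on the residue field. -/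
theorem compatible {σ : Qbar ≃ₐ[ℚ] Qbar} (hσ : σ ∈ A.decompositionSubgroup ℚ)
    (gbar : ResidueField A →+* ResidueField A)
    (hbar : ∀ a, residue A (Congruence.actRingHom A hσ a) = gbar (residue A a))
    (t : SemilinearAut (ResidueField A) (modularFunctionFieldFullC (ResidueField A) M))
    (ht : ∀ z : modularFunctionFieldFullC (ResidueField A) M,
      ((t • z : modularFunctionFieldFullC (ResidueField A) M) : LaurentSeries (ResidueField A)) =
        coeffMap gbar (z : LaurentSeries (ResidueField A)))
    {e : ℕ} (he : ∀ c, SemilinearAut.baseAut t c = c ^ e) :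
    S.splitModel.Compatible (gal σ) t e := by
  have key : ∀ i f, S.gauss.Int i f →
      S.gauss.Int i (gal σ • f) ∧ S.gauss.red i (gal σ • f) = t • S.gauss.red i f := by
    intro i f hf
    refine S.red_eq ?_
    rw [S.side_galois, ht]
    exact (S.srep_red hf).map _ (Congruence.actRingHom A hσ) (fun a => rfl) gbar hbar
  refine ⟨fun i f hf => (key i f hf).1, fun i f hf => (key i f hf).2, S.polesH_galois σ,
    fun P => ?_, he⟩
  have hj : t • jbar (ResidueField A) M = jbar (ResidueField A) M :=
    Subtype.ext ((ht _).trans (coeffMap_jqModC _))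
  have h := SemilinearAut.ord_smul t P (jbar (ResidueField A) M)
  rw [hj] at h
  show S.polesC (t • P) = S.polesC P
  rw [polesC_apply, polesC_apply, h]

include S in
/-- Inertia is unipotent of exponent two on torsion of order prime to `q`. -/
theorem unipotent {σ : Qbar ≃ₐ[ℚ] Qbar} (hσ : σ ∈ A.inertiaSubgroupIn ℚ) {n : ℕ}
    (hn : n.Coprime q) (x : JZero (M * q)) (hx : n • x = 0) :
    σ • σ • x - (2 : ℕ) • (σ • x) + x = 0 := by
  have := isFunctionField_level (M * q)
  have := S.isFunctionField_C
  obtain ⟨⟨s, hs⟩, hker, rfl⟩ := hσ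
  have hc := S.compatible (σ := s) hs (RingHom.id _)
    (fun a => (ResidueField.residue_smul _ (⟨s, hs⟩ : A.decompositionSubgroup ℚ) a).trans
      (RingEquiv.congr_fun (MonoidHom.mem_ker.1 hker) _))
    1 (fun z => by rw [one_smul, coeffMap_id]) (e := 1)
    (fun c => by rw [SemilinearAut.baseAut_one, pow_one]; rfl)
  have hnk : (n : ResidueField A) ≠ 0 := natCast_residue_ne_zero S.above
    fun h => S.prime.not_dvd_one (hn ▸ Nat.dvd_gcd h dvd_rfl)
  exact hc.unipotent (fun z => one_smul _ z) hnk x hx

end Setting

/-- Inertia at `q` is unipotent on the torsion of `J₀(M q)` of order prime to `q`. -/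
theorem inertiaUnipotent_of_facts {M q : ℕ} [NeZero M] [Fact q.Prime] (hqM : ¬ q ∣ M)
    (hfacts : ∀ A : ValuationSubring Qbar, A.LiesOverPrime q →
      ∃ g : ℤ, ReductionFacts (ResidueField A) M g) : InertiaUnipotent M q := by
  intro A hA σ hσ n hn x hx
  have : NeZero q := ⟨(Fact.out : q.Prime).ne_zero⟩
  have := charP_residueField hA
  have : IsAlgClosed (ResidueField A) := isAlgClosed_residueField
  exact (⟨hqM, hA, hfacts A hA⟩ : Setting A M q).unipotent hσ hn x hx

end Fermat.Agent.SemistableRed

end
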