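import Fermat.Agent.HeckeUnramified.Basic
import Fermat.Prelude.Def_GaloisRep_LocalConditions

/-!
# Unipotent inertia for representations carried by a Hecke algebra (glue for S34)

If `(σ - 1)² = 0` on the `p`-power torsion of `J₀(N)` and `σ` fixes the `p`-power roots of unity,
then a representation with Hecke traces at Frobenius elements has characteristic polynomial
`(X - 1)²` at `σ`.
-/

set_option autoImplicit false

noncomputable section

namespace Fermat.Agent.SemistableRed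

open IsLocalRing Polynomial Fermat.Agent.EigenRep Matrix ModularCurve
open Fermat.Agent.Chebotarev (exists_level_trace_congr trace_eq_of_charpoly)

local notation "Qbar" => AlgebraicClosure ℚ

/-- The second difference of `σ` vanishes on `p`-power torsion. -/
def UnipotentOnTorsion (N p : ℕ) (σ : Qbar ≃ₐ[ℚ] Qbar) : Prop :=
  ∀ x : JZero N, (∃ n : ℕ, p ^ n • x = 0) → σ • σ • x - 2 • (σ • x) + x = 0

theorem galMat_unipotent {N p : ℕ} [NeZero N] [Fact p.Prime] (M : TorsionHeckeModel N p)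
    {σ : Qbar ≃ₐ[ℚ] Qbar} (h : UnipotentOnTorsion N p σ) :
    galMat M σ * galMat M σ - 2 * galMat M σ + 1 = 0 := by
  refine matMod_ext fun n => ?_
  have key := relation_of_equiv (M.e n) (levelMat M n σ)
    ((2 : ℕ) : Matrix (Fin M.d) (Fin M.d) (ZMod (p ^ n)))
    (JZero.torsionGaloisRep N (p ^ n) σ) (fun x => 2 • x) (levelMat_mulVec M n σ)
    (fun x => by rw [natCast_mulVec, map_nsmul, Nat.cast_smul_eq_nsmul]) 1
    (fun x => Subtype.ext (by
      rw [one_nsmul]
      exact h x (exists_pow_nsmul_eq_zero x)))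
  rw [map_add, map_sub, map_mul, map_mul, map_ofNat, map_zero, map_one, matMod_galMat]
  simpa using key

theorem charpoly_eq_of_trace_det {A V : Type} [CommRing A] [Nontrivial A] [AddCommGroup V]
    [Module A V] [Module.Free A V] [Module.Finite A V] (hV : Module.finrank A V = 2)
    (f : Module.End A V) :
    LinearMap.charpoly f = X ^ 2 - C (LinearMap.trace A V f) * X + C (LinearMap.det f) := by
  have b := Module.finBasisOfFinrankEq A V hV
  rw [← LinearMap.charpoly_toMatrix f b, Matrix.charpoly_fin_two, LinearMap.trace_eq_matrix_trace A b,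
    LinearMap.det_toMatrix b]

theorem exists_level_det_congr {A : Type} [CommRing A] [IsLocalRing A] (ρ : GaloisRepAdic A)
    (n : ℕ) :
    ∃ L : IntermediateField ℚ Qbar, FiniteDimensional ℚ L ∧
      ∀ g g' : Qbar ≃ₐ[ℚ] Qbar, (∀ x ∈ L, g' x = g x) →
        LinearMap.det (ρ.ρ g') - LinearMap.det (ρ.ρ g) ∈ maximalIdeal A ^ n := by
  let b := DefRing.repBasis ρ
  obtain ⟨L, hL, h⟩ := DefRing.isCont_matrixRep ρ b n
  refine ⟨L, hL, fun g g' hgg => ?_⟩
  have hfix : ∀ x ∈ L, (g⁻¹ * g') x = x := fun x hx => by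
    rw [AlgEquiv.mul_apply, hgg x hx]
    exact g.symm_apply_apply x
  set P := DefRing.matrixRep ρ b
  have hdet : ∀ t, LinearMap.det (ρ.ρ t) = (P t).det := fun t => (LinearMap.det_toMatrix b _).symm
  have hgg' : (P g').det = (P g).det * (P (g⁻¹ * g')).det := by
    rw [← Matrix.det_mul, ← map_mul, mul_inv_cancel_left]
  rw [hdet, hdet, hgg']
  set Q := P (g⁻¹ * g') with hQ
  have hq : ∀ i j, (Ideal.Quotient.mk (maximalIdeal A ^ n)) (Q i j) =
      (1 : Matrix (Fin 2) (Fin 2) (A ⧸ maximalIdeal A ^ n)) i j := by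
    intro i j
    have := h _ hfix i j
    rw [← Ideal.Quotient.eq_zero_iff_mem, Matrix.sub_apply, map_sub, sub_eq_zero] at this
    rw [this, Matrix.one_apply, Matrix.one_apply]
    split_ifs <;> simp
  rw [← Ideal.Quotient.eq_zero_iff_mem, map_sub, map_mul,
    RingHom.map_det (Ideal.Quotient.mk _) Q,
    show (Ideal.Quotient.mk (maximalIdeal A ^ n)).mapMatrix Q = 1 from Matrix.ext hq,
    Matrix.det_one, mul_one, sub_self]

theorem charpoly_of_unipotentOnTorsion {p N : ℕ} [Fact p.Prime] [NeZero N] (R : RepInputs N p)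
    {S : Set ℕ} (hS : S.Finite) (hpS : p ∈ S) (hNS : ∀ q : ℕ, q.Prime → q ∣ N → q ∈ S)
    {T : Type} [CommRing T] [IsLocalRing T] [IsNoetherianRing T] (hpT : (p : T) ∈ maximalIdeal T)
    (π : CuspForm.heckeAlgebra N 2 S →+* T) (ρ : GaloisRepAdic T)
    (hfrob : ∀ (ℓ : ℕ) (hℓ : ℓ.Prime) (hℓN : ¬ ℓ ∣ N) (hℓS : ℓ ∉ S),
      ∀ A : ValuationSubring Qbar, A.LiesOverPrime ℓ →
        ∀ σ, A.IsFrobeniusAt σ ℓ →
          LinearMap.charpoly (ρ.ρ σ) =
            X ^ 2 - C (π (CuspForm.heckeAlgebra.T hℓ hℓN hℓS)) * X + C ((ℓ : T)))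
    {σ : Qbar ≃ₐ[ℚ] Qbar} (huni : UnipotentOnTorsion N p σ) (hε : epsilonPadic p σ = 1) :
    LinearMap.charpoly (ρ.ρ σ) = (X - 1) ^ 2 := by
  classical
  have hnot : ∀ r : ℕ, r.Prime → r ∉ S → ¬ r ∣ N * p := by
    intro r hr hrS h
    rcases hr.dvd_mul.mp h with h | h
    · exact hrS (hNS r hr h)
    · exact hrS ((Nat.prime_dvd_prime_iff_eq hr Fact.out).mp h ▸ hpS)
  have hmain : ∀ n, ρ.trace σ - 2 ∈ maximalIdeal T ^ n ∧
      LinearMap.det (ρ.ρ σ) - 1 ∈ maximalIdeal T ^ n := by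
    intro n
    set fam := matFamily R.model S
    obtain ⟨M, hM⟩ :=
      HeckeUnramified.exists_pow_smul_submodule p (Subalgebra.toSubmodule (matAlg fam)) n
    obtain ⟨L₁, hL₁, hc₁⟩ := exists_level_trace_congr ρ n
    obtain ⟨L₂, hL₂, hc₂⟩ := exists_level_galMat R.model R.smooth M
    obtain ⟨L₃, hL₃, hc₃⟩ := exists_level_epsilon (p := p) (max M n)
    obtain ⟨L₄, hL₄, hc₄⟩ := exists_level_det_congr ρ n
    obtain ⟨ℓ, hℓ, hℓS, A, hA, τ, hτ, hag⟩ :=
      Chebotarev.exists_isFrobeniusAt_eqOn (L₁ ⊔ L₂ ⊔ L₃ ⊔ L₄) σ hS.toFinset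
    rw [Set.Finite.mem_toFinset] at hℓS
    have hag₁ : ∀ x ∈ L₁, τ x = σ x := fun x hx =>
      hag x ((le_sup_left.trans (le_sup_left.trans le_sup_left) : L₁ ≤ L₁ ⊔ L₂ ⊔ L₃ ⊔ L₄) hx)
    have hag₂ : ∀ x ∈ L₂, τ x = σ x := fun x hx =>
      hag x ((le_sup_right.trans (le_sup_left.trans le_sup_left) : L₂ ≤ L₁ ⊔ L₂ ⊔ L₃ ⊔ L₄) hx)
    have hag₃ : ∀ x ∈ L₃, τ x = σ x := fun x hx =>
      hag x ((le_sup_right.trans le_sup_left : L₃ ≤ L₁ ⊔ L₂ ⊔ L₃ ⊔ L₄) hx)
    have hag₄ : ∀ x ∈ L₄, τ x = σ x := fun x hx =>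
      hag x ((le_sup_right : L₄ ≤ L₁ ⊔ L₂ ⊔ L₃ ⊔ L₄) hx)
    have hfix : ∀ x, τ x = σ x → (σ⁻¹ * τ) x = x := fun x hx => by
      rw [AlgEquiv.mul_apply, hx]
      exact σ.symm_apply_apply x
    have hgal : matMod p R.model.d M (galMat R.model τ) = matMod p R.model.d M (galMat R.model σ) := by
      conv_lhs => rw [← mul_inv_cancel_left σ τ]
      rw [map_mul, map_mul, hc₂ _ fun a ha => hfix a (hag₂ a ha), mul_one]
    have heps : (ℓ : ZMod (p ^ max M n)) = 1 := by
      have h : PadicInt.toZModPow (max M n) (epsilonPadic p τ : ℤ_[p]) = 1 := by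
        conv_lhs => rw [← mul_inv_cancel_left σ τ]
        rw [map_mul, Units.val_mul, map_mul, hε, Units.val_one, map_one, one_mul]
        exact hc₃ _ fun a ha => hfix a (hag₃ a ha)
      rw [← h, toZModPow_epsilon_frobenius hℓ (fun h => hℓS (h ▸ hpS)) hA hτ (max M n)]
    have hℓn : (ℓ : T) - 1 ∈ maximalIdeal T ^ n := by
      have h1 : ((p ^ max M n : ℕ) : ℤ) ∣ (ℓ : ℤ) - 1 := by
        rw [← ZMod.intCast_eq_intCast_iff_dvd_sub]
        push_cast
        exact heps.symm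
      obtain ⟨c, hc⟩ := h1
      have h2 := congrArg (Int.cast : ℤ → T) hc
      push_cast at h2
      rw [h2]
      refine Ideal.mul_mem_right _ _ (Ideal.pow_le_pow_right (le_max_right M n) ?_)
      exact Ideal.pow_mem_pow hpT _
    have hcp := hfrob ℓ hℓ (fun h => hℓS (hNS ℓ hℓ h)) hℓS A hA τ hτ
    have htrτ := trace_eq_of_charpoly ρ.finrank_eq hcp
    have hdetτ : LinearMap.det (ρ.ρ τ) = (ℓ : T) := by
      have := congrArg (fun P => P.coeff 0) ((charpoly_eq_of_trace_det ρ.finrank_eq _).symm.trans hcp)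
      simpa using this
    refine ⟨?_, ?_⟩
    swap
    · have := Ideal.sub_mem _ hℓn (hc₄ σ τ hag₄)
      rw [hdetτ] at this
      convert this using 1
      ring
    have hrel := congrArg (matMod p R.model.d M)
      (galMat_frobenius R.model R.es hℓ (hnot ℓ hℓ hℓS) hA hτ)
    simp only [map_add, map_sub, map_mul, map_natCast, map_zero, hgal] at hrel
    have huni' := congrArg (matMod p R.model.d M) (galMat_unipotent R.model huni)
    simp only [map_add, map_sub, map_mul, map_ofNat, map_zero, map_one] at huni'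
    have hℓM : ((ℓ : ℕ) : Matrix (Fin R.model.d) (Fin R.model.d) (ZMod (p ^ M))) = 1 := by
      have : (ℓ : ZMod (p ^ M)) = 1 := by
        have := congrArg (ZMod.castHom (pow_dvd_pow p (le_max_left M n)) (ZMod (p ^ M))) heps
        rwa [map_natCast, map_one] at this
      rw [← map_natCast (Matrix.scalar (Fin R.model.d)) ℓ, this, map_one]
    rw [hℓM] at hrel
    set G := matMod p R.model.d M (galMat R.model σ)
    have hG : G * matMod p R.model.d M (galMat R.model σ⁻¹) = 1 := by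
      rw [← map_mul, ← map_mul, mul_inv_cancel, map_one, map_one]
    have hTG : matMod p R.model.d M (heckeMat R.model ⟨ℓ, hℓ⟩) * G = 2 * G :=
      sub_right_injective (add_right_cancel (hrel.trans huni'.symm))
    have hT2 : matMod p R.model.d M (heckeMat R.model ⟨ℓ, hℓ⟩) = 2 := by
      have := congrArg (· * matMod p R.model.d M (galMat R.model σ⁻¹)) hTG
      simpa only [mul_assoc, hG, mul_one] using this
    set a : matAlg fam := matGen fam ⟨⟨ℓ, hℓ⟩, hℓS⟩ - 2 with ha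
    have hdiv : ∀ i j, ((p : ℤ) ^ M ∣ (a : Matrix (Fin R.model.d) (Fin R.model.d) ℤ) i j) := by
      intro i j
      have h0 : ((a : Matrix (Fin R.model.d) (Fin R.model.d) ℤ)).map
          (Int.castRingHom (ZMod (p ^ M))) = 0 := by
        rw [ha]
        push_cast
        have e2 : ((2 : matAlg fam) : Matrix (Fin R.model.d) (Fin R.model.d) ℤ) = 2 :=
          map_ofNat (matAlg fam).val 2
        rw [e2, ← RingHom.mapMatrix_apply, map_sub, map_ofNat, sub_eq_zero, RingHom.mapMatrix_apply]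
        exact (matMod_heckeMat R.model M ⟨ℓ, hℓ⟩).symm.trans hT2
      have h1 : (((a : Matrix (Fin R.model.d) (Fin R.model.d) ℤ) i j : ℤ) : ZMod (p ^ M)) = 0 :=
        congr($h0 i j)
      rw [ZMod.intCast_zmod_eq_zero_iff_dvd] at h1
      exact_mod_cast h1
    obtain ⟨y, hy, hay⟩ := hM _ a.2 hdiv
    have hay' : a = ((p : ℤ) ^ n) • (⟨y, hy⟩ : matAlg fam) := Subtype.ext hay
    have hπ : π (CuspForm.heckeAlgebra.T hℓ (fun h => hℓS (hNS ℓ hℓ h)) hℓS) - 2
        ∈ maximalIdeal T ^ n := by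
      have e : π (toForms R.model S a) =
          π (CuspForm.heckeAlgebra.T hℓ (fun h => hℓS (hNS ℓ hℓ h)) hℓS) - 2 := by
        rw [ha, map_sub, map_sub, map_ofNat, map_ofNat, toForms_T R.model hℓ (fun h => hℓS (hNS ℓ hℓ h))]
      rw [← e, hay', map_zsmul, map_zsmul, zsmul_eq_mul]
      refine Ideal.mul_mem_right _ _ ?_
      push_cast
      exact Ideal.pow_mem_pow hpT n
    have := Ideal.sub_mem _ hπ (hc₁ σ τ hag₁)
    rw [← htrτ] at this
    convert this using 1
    simp only [GaloisRepAdic.trace]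
    ring
  have key : ∀ x : T, (∀ n, x ∈ maximalIdeal T ^ n) → x = 0 := fun x hx => by
    rw [← Submodule.mem_bot T,
      ← Ideal.iInf_pow_eq_bot_of_isLocalRing _ (maximalIdeal.isMaximal T).ne_top, Submodule.mem_iInf]
    exact hx
  rw [charpoly_eq_of_trace_det ρ.finrank_eq, sub_eq_zero.mp (key _ fun n => (hmain n).2),
    show LinearMap.trace T ρ.V (ρ.ρ σ) = 2 from sub_eq_zero.mp (key _ fun n => (hmain n).1),
    map_one, map_ofNat]
  ring

variable {p N : ℕ} [NeZero N] {S : Finset ℕ}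
  {𝒪 : Type} [CommRing 𝒪] [IsDomain 𝒪] [IsDiscreteValuationRing 𝒪]
  [IsAdicComplete (IsLocalRing.maximalIdeal 𝒪) 𝒪]
  {θ : CuspForm.heckeAlgebra N 2 (↑S : Set ℕ) →+* IsLocalRing.ResidueField 𝒪}
  {T : Type} [CommRing T] [IsLocalRing T] [IsNoetherianRing T]
  [IsAdicComplete (IsLocalRing.maximalIdeal T) T] [Algebra 𝒪 T] [IsLocalHom (algebraMap 𝒪 T)]
  [Module.Finite 𝒪 T] [Module.Free 𝒪 T]

/-- S34 given the torsion inputs and unipotence of inertia on the torsion of `J₀(N)`. -/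
theorem isUnipotentOnInertiaAt_datum [Fact p.Prime] (R : RepInputs N p)
    (hp𝒪 : (p : 𝒪) ∈ IsLocalRing.maximalIdeal 𝒪) (hpS : p ∈ S)
    (hNS : ∀ q : ℕ, q.Prime → q ∣ N → q ∈ S)
    (H : CuspForm.HeckeGaloisRepDatum N (↑S : Set ℕ) 𝒪 θ T)
    (q : ℕ) (hq : q.Prime) (hqp : q ≠ p)
    (hC1 : ∀ P : ValuationSubring Qbar, P.LiesOverPrime q →
      ∀ σ ∈ P.inertiaSubgroupIn ℚ, UnipotentOnTorsion N p σ) :
    H.ρ.IsUnipotentOnInertiaAt q := by
  intro P hP σ hσ
  have hpT : (p : T) ∈ IsLocalRing.maximalIdeal T := by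
    rw [← map_natCast (algebraMap 𝒪 T) p]
    exact map_nonunit (algebraMap 𝒪 T) _ hp𝒪
  exact charpoly_of_unipotentOnTorsion R S.finite_toSet (Finset.mem_coe.mpr hpS)
    (fun r hr hrN => Finset.mem_coe.mpr (hNS r hr hrN)) hpT H.π H.ρ H.charpoly_frob
    (hC1 P hP σ hσ) (epsilon_inertia hq hqp hP hσ)

end Fermat.Agent.SemistableRed

end
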