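import Fermat.Agent.Congruence.Reduction
import Fermat.Agent.Reduction.QPlace
import Fermat.Prelude.Def_AlgebraicCurve_BaseChangeGalois
import Mathlib.FieldTheory.IsAlgClosed.Basic
import Mathlib.FieldTheory.KummerPolynomial

/-!
# Frobenius on the function field of the special fibre

The coefficient Frobenius of `F̄_M = modularFunctionFieldFullC k M` and the `k`-embedding
`z ↦ z(t ^ q)` of `F̄_M` into itself, whose composite is the `q`-th power map.
-/

set_option autoImplicit false

noncomputable section

open AlgebraicCurve ModularCurve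

namespace Fermat.Agent.SemistableRed

variable (k : Type*) [Field k] [IsAlgClosed k] (M q : ℕ) [Fact q.Prime] [CharP k q]

/-- Frobenius of `k` as an automorphism. -/
def frobK : k ≃+* k := RingEquiv.ofBijective (frobenius k q)
  ⟨frobenius_inj k q, fun c => by
    obtain ⟨z, hz⟩ := IsAlgClosed.exists_pow_nat_eq c (Fact.out : q.Prime).pos
    exact ⟨z, hz⟩⟩

/-- Coefficient Frobenius on `F̄_M`. -/
def frobFull : modularFunctionFieldFullC k M ≃+* modularFunctionFieldFullC k M where
  toFun x := ⟨coeffMap (frobK k q : k →+* k) (x : LaurentSeries k),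
    Congruence.coeffMap_mem_fullC _ x.2⟩
  invFun x := ⟨coeffMap ((frobK k q).symm : k →+* k) (x : LaurentSeries k),
    Congruence.coeffMap_mem_fullC _ x.2⟩
  left_inv x := Subtype.ext <| by
    show coeffMap _ (coeffMap _ (x : LaurentSeries k)) = (x : LaurentSeries k)
    rw [coeffMap_coeffMap, coeffMap_congr (g := RingHom.id k)
      (RingHom.ext fun a => (frobK k q).symm_apply_apply a) (x : LaurentSeries k), coeffMap_id]
  right_inv x := Subtype.ext <| by
    show coeffMap _ (coeffMap _ (x : LaurentSeries k)) = (x : LaurentSeries k)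
    rw [coeffMap_coeffMap, coeffMap_congr (g := RingHom.id k)
      (RingHom.ext fun a => (frobK k q).apply_symm_apply a) (x : LaurentSeries k), coeffMap_id]
  map_mul' x y := Subtype.ext (map_mul (coeffMap (frobK k q : k →+* k)) _ _)
  map_add' x y := Subtype.ext (map_add (coeffMap (frobK k q : k →+* k)) _ _)

/-- Coefficient Frobenius as a semilinear automorphism. -/
def frobG : SemilinearAut k (modularFunctionFieldFullC k M) :=
  ⟨(frobFull k M q, frobK k q), fun a =>
    Subtype.ext (coeffMap_algebraMap (frobK k q : k →+* k) a)⟩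

theorem baseAut_frobG (c : k) : SemilinearAut.baseAut (frobG k M q) c = c ^ q := rfl

theorem coe_frobG_smul (x : modularFunctionFieldFullC k M) :
    ((frobG k M q • x : modularFunctionFieldFullC k M) : LaurentSeries k) =
      coeffMap (frobenius k q) (x : LaurentSeries k) := rfl

theorem coeffMap_frobenius_symm (x : LaurentSeries k) :
    coeffMap (frobenius k q) (coeffMap ((frobK k q).symm : k →+* k) x) = x := by
  ext n
  simp only [coeffMap_coeff]
  exact (frobK k q).apply_symm_apply _

theorem qExpand_mem_full [NeZero q] {x : LaurentSeries k}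
    (hx : x ∈ modularFunctionFieldFullC k M) : qExpand k q x ∈ modularFunctionFieldFullC k M := by
  have h := Congruence.laurent_pow_char q (coeffMap ((frobK k q).symm : k →+* k) x)
  rw [coeffMap_frobenius_symm] at h
  rw [← h]
  exact pow_mem (Congruence.coeffMap_mem_fullC _ hx) _

/-- `z ↦ z(t ^ q)` on `F̄_M`. -/
def piG [NeZero q] : modularFunctionFieldFullC k M →ₐ[k] modularFunctionFieldFullC k M where
  toFun x := ⟨qExpand k q (x : LaurentSeries k), qExpand_mem_full k M q x.2⟩
  map_one' := Subtype.ext (map_one (qExpand k q))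
  map_mul' x y := Subtype.ext (map_mul (qExpand k q) _ _)
  map_zero' := Subtype.ext (map_zero (qExpand k q))
  map_add' x y := Subtype.ext (map_add (qExpand k q) _ _)
  commutes' c := Subtype.ext <| by
    show qExpand k q (algebraMap k (LaurentSeries k) c) = algebraMap k (LaurentSeries k) c
    rw [algebraMap_laurentSeries_eq_single, qExpand_single, mul_zero]

@[simp] theorem coe_piG [NeZero q] (x : modularFunctionFieldFullC k M) :
    (piG k M q x : LaurentSeries k) = qExpand k q (x : LaurentSeries k) := rfl

theorem frobG_smul_piG [NeZero q] (x : modularFunctionFieldFullC k M) :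
    frobG k M q • piG k M q x = x ^ q := Subtype.ext <| by
  rw [coe_frobG_smul, coe_piG, coeffMap_qExpand, SubmonoidClass.coe_pow,
    Congruence.laurent_pow_char q (x : LaurentSeries k)]

theorem piG_eq_pow [NeZero q] (x : modularFunctionFieldFullC k M) :
    piG k M q x = ((frobFull k M q).symm x) ^ q := Subtype.ext <| by
  rw [SubmonoidClass.coe_pow, Congruence.laurent_pow_char q, coe_piG]
  congr 1
  exact (coeffMap_frobenius_symm k q _).symm

/-- The invariant `j̄`. -/
def jbar : modularFunctionFieldFullC k M := ⟨jqModC k, jqModC_mem_full k M⟩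

theorem frobG_smul_jbar : frobG k M q • jbar k M = jbar k M :=
  Subtype.ext (coeffMap_jqModC _)

theorem piG_jbar [NeZero q] : piG k M q (jbar k M) = jbar k M ^ q := by
  rw [← frobG_smul_piG]
  exact Subtype.ext (by rw [coe_frobG_smul, coe_piG, coeffMap_qExpand,
    show coeffMap (frobenius k q) ((jbar k M : modularFunctionFieldFullC k M) : LaurentSeries k) =
      jqModC k from coeffMap_jqModC _]; rfl)

theorem jbar_ne_pow [NeZero q] (b : modularFunctionFieldFullC k M) : b ^ q ≠ jbar k M := by
  intro h
  have h1 := congrArg (fun t : modularFunctionFieldFullC k M => (t : LaurentSeries k).coeff (-1)) h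
  simp only [SubmonoidClass.coe_pow, Congruence.laurent_pow_char q] at h1
  rw [qExpand_coeff_of_not_dvd q _ (fun hd => by
    rw [Int.dvd_neg] at hd
    have := Int.le_of_dvd one_pos hd
    have := (Fact.out : q.Prime).two_le
    omega), show ((jbar k M : modularFunctionFieldFullC k M) : LaurentSeries k) = jqModC k from rfl,
    coeff_jqModC_neg_one] at h1
  exact zero_ne_one h1

/-- `1, j̄, …, j̄ ^ (q - 1)` are independent over the image of `piG`. -/
theorem eq_zero_of_sum_piG_mul_pow [NeZero q] (c : Fin q → modularFunctionFieldFullC k M)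
    (h : ∑ b : Fin q, piG k M q (c b) * jbar k M ^ (b : ℕ) = 0) : ∀ b, c b = 0 := by
  classical
  set p : Polynomial (modularFunctionFieldFullC k M) :=
    ∑ b : Fin q, Polynomial.C (c b) * Polynomial.X ^ (b : ℕ) with hp
  set m : Polynomial (modularFunctionFieldFullC k M) :=
    Polynomial.X ^ q - Polynomial.C (jbar k M) with hm
  have hirr : Irreducible m := X_pow_sub_C_irreducible_of_prime Fact.out (jbar_ne_pow k M q)
  have hep : p.eval₂ (piG k M q).toRingHom (jbar k M) = 0 := by
    rw [hp, Polynomial.eval₂_finsetSum]
    simpa using h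
  have hem : m.eval₂ (piG k M q).toRingHom (jbar k M) = 0 := by
    simp [hm, piG_jbar]
  have hdvd : m ∣ p := by
    by_contra hnd
    obtain ⟨a, b, hab⟩ := hirr.coprime_iff_not_dvd.mpr hnd
    have := congrArg (Polynomial.eval₂ (piG k M q).toRingHom (jbar k M)) hab
    rw [Polynomial.eval₂_add, Polynomial.eval₂_mul, Polynomial.eval₂_mul, hep, hem,
      Polynomial.eval₂_one, mul_zero, mul_zero, add_zero] at this
    exact zero_ne_one this
  have hp0 : p = 0 := by
    refine Polynomial.eq_zero_of_dvd_of_degree_lt hdvd ?_
    rw [hm, Polynomial.degree_X_pow_sub_C (Fact.out : q.Prime).pos]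
    refine (Polynomial.degree_sum_le _ _).trans_lt ?_
    refine (Finset.sup_lt_iff (WithBot.bot_lt_coe q)).mpr fun b _ => ?_
    exact (Polynomial.degree_C_mul_X_pow_le _ _).trans_lt (WithBot.coe_lt_coe.mpr b.2)
  intro b
  have := congrArg (fun t => Polynomial.coeff t (b : ℕ)) hp0
  simpa [hp, Polynomial.finsetSum_coeff, Fin.val_inj] using this

end Fermat.Agent.SemistableRed

end
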