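import Fermat.Agent.SemistableRed.GaussPair
import Fermat.Agent.FunctionFieldRR.RiemannRoch
import Mathlib.LinearAlgebra.Charpoly.ToMatrix

/-!
# Reductions of regular functions are regular

If `[F : L(x)]` is twice `[G : k(x̄)]` and every pair of functions lifts, then an integral function
regular wherever `x` is regular reduces to functions regular wherever `x̄` is regular: its
characteristic polynomial over `L(x)` has coefficients in `A[x]`.
-/

set_option autoImplicit false

noncomputable section

open Polynomial IntermediateField AlgebraicCurve Fermat.Agent.FunctionFieldRR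

namespace Fermat.Agent.SemistableRed

theorem charpoly_smul_comp {R : Type*} [CommRing R] {n : Type*} [Fintype n] [DecidableEq n]
    (r : R) (M : Matrix n n R) :
    (r • M).charpoly.comp (C r * X) = C (r ^ Fintype.card n) * M.charpoly := by
  rw [Matrix.charpoly, Matrix.charpoly, ← Polynomial.coe_compRingHom_apply, RingHom.map_det,
    map_pow, ← Matrix.det_smul]
  congr 1
  refine Matrix.ext fun a b => ?_
  rw [RingHom.mapMatrix_apply, Matrix.map_apply, Matrix.smul_apply, Matrix.charmatrix_apply,
    Matrix.charmatrix_apply, Polynomial.coe_compRingHom_apply, Matrix.smul_apply, smul_eq_mul,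
    smul_eq_mul, sub_comp, C_comp, C_mul]
  rcases eq_or_ne a b with rfl | hab
  · rw [Matrix.diagonal_apply_eq, X_comp, mul_sub]
  · rw [Matrix.diagonal_apply_ne _ hab, zero_comp, mul_sub, mul_zero]

/-- Monic relations preserve regularity. -/
theorem ord_nonneg_of_monic_relation {K E : Type*} [Field K] [Field E] [Algebra K E]
    (Q : Place K E) {d : ℕ} (c : ℕ → E) {z : E} (hc : ∀ n < d, VanishesTo Q 0 (c n))
    (h : z ^ d + ∑ n ∈ Finset.range d, c n * z ^ n = 0) : 0 ≤ Q.ord z := by
  by_contra hlt
  push Not at hlt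
  have hz : z ≠ 0 := fun h0 => by rw [h0, Q.ord_zero] at hlt; exact lt_irrefl _ hlt
  have hs : VanishesTo Q (((d : ℤ) - 1) * Q.ord z) (∑ n ∈ Finset.range d, c n * z ^ n) := by
    refine VanishesTo.sum _ _ fun n hn => ?_
    have hn' : (n : ℤ) ≤ (d : ℤ) - 1 := by have := Finset.mem_range.mp hn; omega
    have h2 : VanishesTo Q (((d : ℤ) - 1) * Q.ord z) (z ^ n) :=
      Or.inr (by rw [ord_pow]; nlinarith)
    simpa using (hc n (Finset.mem_range.mp hn)).mul h2
  have h3 := hs.neg
  rw [← eq_neg_of_add_eq_zero_left h] at h3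
  have h4 := h3.resolve_left (pow_ne_zero _ hz)
  rw [ord_pow] at h4
  nlinarith

namespace GaussPair

variable {L : Type*} [Field L] [IsAlgClosed L] {A : ValuationSubring L} {k : Type*} [Field k]
  [IsAlgClosed k] {π : A →+* k} {F : Type*} [Field F] [Algebra L F] [IsFunctionField L F]
  {G : Type*} [Field G] [Algebra k G] [IsFunctionField k G]
variable {S : GaussPair A π F G}

/-- The bound on reductions of regular functions. -/
theorem red_regular (hlift : ∀ z : Fin 2 → G, ∃ f, ∀ i, S.Int i f ∧ S.red i f = z i)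
    {x : F} {xb : G} (hx : ∀ i, S.Int i x ∧ S.red i x = xb) (htx : Transcendental L x)
    (htb : Transcendental k xb)
    (hdeg : Module.finrank L⟮x⟯ F = 2 * Module.finrank k⟮xb⟯ G)
    {f : F} (hf : S.Int2 f) (hreg : ∀ P : Place L F, 0 ≤ P.ord x → 0 ≤ P.ord f)
    (i : Fin 2) (Q : Place k G) (hQ : 0 ≤ Q.ord xb) : 0 ≤ Q.ord (S.red i f) := by
  classical
  have := finiteDimensional_adjoin htx
  have := finiteDimensional_adjoin htb
  have := isFunctionField_adjoin htx
  -- the adapted basis
  let bz := Module.finBasis k⟮xb⟯ G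
  have hl : ∀ j : Fin 2 × Fin (Module.finrank k⟮xb⟯ G), ∃ g, ∀ i, S.Int i g ∧
      S.red i g = if i = j.1 then bz j.2 else 0 := fun j => hlift _
  choose e he using hl
  have hei : ∀ j, S.Int2 (e j) := fun j i => (he j i).1
  have hind : S.PolyIndep xb e := by
    intro p hp j
    have h := hp j.1
    simp only [(he _ j.1).2, Fintype.sum_prod_type, mul_ite, mul_zero] at h
    rw [Finset.sum_comm] at h
    simp only [Finset.sum_ite_eq, Finset.mem_univ, if_true] at h
    rw [← combPoly_apply (b := bz) (p := fun r => p (j.1, r)), combPoly_eq_sum_smul] at h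
    exact aeval_gx_eq_zero htb (Fintype.linearIndependent_iff.mp bz.linearIndependent _ h j.2)
  have hxne : x ≠ 0 := fun h0 => htx (by rw [h0]; exact isAlgebraic_zero)
  have hli : LinearIndependent L⟮x⟯ e := linearIndependent_adjoin_simple hxne e fun φ hφ j => by
    rw [poly_eq_zero hx hei hind φ hφ j, coeff_zero]
  have hcard : Fintype.card (Fin 2 × Fin (Module.finrank k⟮xb⟯ G)) = Module.finrank L⟮x⟯ F := by
    rw [Fintype.card_prod, Fintype.card_fin, Fintype.card_fin, hdeg]
  have : Nonempty (Fin 2 × Fin (Module.finrank k⟮xb⟯ G)) :=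
    ⟨(0, ⟨0, Module.finrank_pos⟩)⟩
  let bF := basisOfLinearIndependentOfCardEqFinrank hli hcard
  have hbF : ⇑bF = e := coe_basisOfLinearIndependentOfCardEqFinrank hli _
  set M := Algebra.leftMulMatrix bF f with hM
  -- a common denominator
  have hquot : ∀ a b, ∃ p r : L[X], r ≠ 0 ∧ M a b * aeval (gx x) r = aeval (gx x) p := fun a b => by
    obtain ⟨p, r, hpr⟩ := gx_eq_div (a := M a b)
    rcases eq_or_ne r 0 with rfl | hr
    · exact ⟨0, 1, one_ne_zero, by rw [hpr]; simp⟩
    · exact ⟨p, r, hr, by rw [hpr, div_mul_cancel₀ _ fun h => hr (aeval_gx_eq_zero htx h)]⟩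
  choose p r hr0 hpr using hquot
  obtain ⟨c, R, hc, hR, ⟨_, hRb⟩, -⟩ := exists_scale_poly S.isResidueMap
    (fun _ : Unit => ∏ y : _ × _, r y.1 y.2)
    ⟨(), Finset.prod_ne_zero_iff.mpr fun y _ => hr0 y.1 y.2⟩
  have hR' := hR ()
  set R0 := R () with hR0
  let φ : A[X] →+* L⟮x⟯ :=
    (aeval (gx (K := L) x)).toRingHom.comp (Polynomial.mapRingHom A.subtype)
  have hφ : ∀ P : A[X], φ P = aeval (gx (K := L) x) (P.map A.subtype) := fun P => rfl
  have hentry : ∀ a b, ∃ q : L[X], φ R0 * M a b = aeval (gx x) q := fun a b => by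
    refine ⟨C c * (∏ y ∈ Finset.univ.erase (a, b), r y.1 y.2) * p a b, ?_⟩
    rw [hφ, ← hR', ← Finset.prod_erase_mul _ _ (Finset.mem_univ (a, b)), map_mul, map_mul, map_mul,
      map_mul, ← hpr a b]
    ring
  choose q hq using hentry
  have hcoeff : ∀ a b, ∃ P : A[X], q a b = P.map A.subtype := by
    intro a b
    refine poly_coeff_mem hx hei hind (fun a => q a b) ?_ a
    have he1 : ∑ a, aeval x (q a b) * e a = aeval x (R0.map A.subtype) * (f * e b) := by
      have h1 : f * e b = ∑ a, M a b • e a := by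
        conv_lhs => rw [← bF.sum_repr (f * e b)]
        refine Finset.sum_congr rfl fun a _ => ?_
        rw [hbF, hM, Algebra.leftMulMatrix_eq_repr_mul, hbF]
      rw [h1, Finset.mul_sum]
      refine Finset.sum_congr rfl fun a _ => ?_
      have h2 := congrArg (algebraMap L⟮x⟯ F) (hq a b)
      rw [map_mul, hφ, ← aeval_algebraMap_apply, ← aeval_algebraMap_apply,
        AdjoinSimple.algebraMap_gen] at h2
      rw [← h2, Algebra.smul_def]
      ring
    intro i
    rw [he1]
    exact S.int_mul i _ _ (S.int_aeval (hx i).1 _).1 (S.int_mul i _ _ (hf i) (hei b i))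
  choose P hP using hcoeff
  let PM : Matrix _ _ A[X] := Matrix.of P
  have hPM : φ.mapMatrix PM = φ R0 • M := by
    refine Matrix.ext fun a b => ?_
    rw [RingHom.mapMatrix_apply, Matrix.map_apply, Matrix.smul_apply, smul_eq_mul, hq a b, hP a b]
    rfl
  set d := Fintype.card (Fin 2 × Fin (Module.finrank k⟮xb⟯ G)) with hd
  -- coefficients of the characteristic polynomial are polynomials
  have hchi : ∀ n, ∃ cn : L[X], M.charpoly.coeff n = aeval (gx x) cn := by
    intro n
    refine exists_polynomial_of_regular htx fun c0 => ?_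
    have hfull := fullFiber_adjoin htx (finitePlace htx c0)
    have hfreg : ∀ w ∈ placesOver F (finitePlace htx c0), VanishesTo w 0 f := fun w hw => by
      refine Or.inr (hreg w ?_)
      have h1 := (restrict_eq_finitePlace_iff htx).mp (mem_placesOver.mp hw)
      by_contra hlt
      push Not at hlt
      have hx0 : x ≠ 0 := hxne
      have h2 : w.ord (x + -algebraMap L F c0) = w.ord x := by
        rcases eq_or_ne c0 0 with rfl | hc0
        · simp
        · exact ord_add_eq_of_lt hx0 (by rw [ord_neg, ord_algebraMap]; exact hlt)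
      rw [← sub_eq_add_neg] at h2
      omega
    have hcp : M.charpoly =
        (fiberMatrix hfull hfreg).charpoly.map (finitePlace htx c0).toValuationSubring.subtype := by
      rw [← Matrix.charpoly_map, hM]
      have : (fiberMatrix hfull hfreg).map (finitePlace htx c0).toValuationSubring.subtype =
          Algebra.leftMulMatrix (fiberBasis hfull) f := rfl
      rw [this]
      simp only [← Algebra.toMatrix_lmul_eq, LinearMap.charpoly_toMatrix]
    rw [hcp, coeff_map]
    exact (vanishesTo_zero_iff _).mpr (Subtype.coe_prop _)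
  choose cn hcn using hchi
  have hrel : ∀ n, (PM.charpoly.coeff n * R0 ^ n).map A.subtype =
      (R0.map A.subtype) ^ d * cn n := by
    intro n
    have h1 := congrArg (fun t => t.coeff n) (charpoly_smul_comp (φ R0) M)
    rw [← hPM, RingHom.mapMatrix_apply, Matrix.charpoly_map, comp_C_mul_X_coeff, coeff_map,
      coeff_C_mul, hcn n] at h1
    have h2 : aeval (gx (K := L) x) ((PM.charpoly.coeff n * R0 ^ n).map A.subtype -
        (R0.map A.subtype) ^ d * cn n) = 0 := by
      rw [map_sub, map_mul, map_pow, ← hφ, ← hφ, map_mul, map_pow]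
      exact sub_eq_zero.mpr h1
    exact sub_eq_zero.mp (aeval_gx_eq_zero htx h2)
  have hR0b : R0.map π ≠ 0 := hRb
  have hCn : ∀ n, ∃ Cn : A[X], cn n = Cn.map A.subtype := by
    intro n
    by_cases hall : ∀ j, (cn n).coeff j ∈ A
    · obtain ⟨Cn, hCn⟩ := (Polynomial.lifts_iff_coeff_lifts (f := A.subtype) (cn n)).mpr
        fun j => ⟨⟨_, hall j⟩, rfl⟩
      exact ⟨Cn, hCn.symm⟩
    exfalso
    obtain ⟨c', Cs, -, hCs, ⟨_, hCb⟩, h⟩ := exists_scale_poly S.isResidueMap
      (fun _ : Unit => cn n) ⟨(), fun h0 => hall fun j => by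
        rw [show cn n = 0 from h0, coeff_zero]; exact A.zero_mem⟩
    obtain ⟨hc', hc'π⟩ := h.resolve_left fun h' => hall (h' ())
    have h1 : C (⟨c', hc'⟩ : A) * (PM.charpoly.coeff n * R0 ^ n) = R0 ^ d * Cs () := by
      refine Polynomial.map_injective A.subtype A.subtype_injective ?_
      rw [Polynomial.map_mul A.subtype (p := C (⟨c', hc'⟩ : A)),
        Polynomial.map_mul A.subtype (p := R0 ^ d), hrel, Polynomial.map_pow, map_C, ← hCs ()]
      show C c' * _ = _
      ring
    have h2 := congrArg (Polynomial.map π) h1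
    rw [Polynomial.map_mul, map_C, hc'π, C_0, zero_mul, Polynomial.map_mul,
      Polynomial.map_pow] at h2
    exact (mul_ne_zero (pow_ne_zero _ hR0b) hCb) h2.symm
  choose Cn hCn using hCn
  -- the reduced equation
  have hdegM : M.charpoly.natDegree = d := Matrix.charpoly_natDegree_eq_dim M
  have heq : f ^ d + ∑ n ∈ Finset.range d, aeval x ((Cn n).map A.subtype) * f ^ n = 0 := by
    have h1 : aeval f M.charpoly = 0 := by
      apply Algebra.leftMulMatrix_injective bF
      rw [← aeval_algHom_apply, ← hM, Matrix.aeval_self_charpoly, map_zero]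
    rw [aeval_eq_sum_range, hdegM, Finset.sum_range_succ,
      show M.charpoly.coeff d = 1 from hdegM ▸ M.charpoly_monic.coeff_natDegree, one_smul] at h1
    rw [add_comm, ← h1]
    congr 1
    refine Finset.sum_congr rfl fun n _ => ?_
    rw [← hCn n, hcn n, Algebra.smul_def, ← aeval_algebraMap_apply, AdjoinSimple.algebraMap_gen]
  obtain ⟨hsi, hsr⟩ := S.int_sum (Finset.range d) (i := i)
    (f := fun n => aeval x ((Cn n).map A.subtype) * f ^ n)
    fun n _ => S.int_mul i _ _ (S.int_aeval (hx i).1 _).1 (S.int_pow (hf i) n).1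
  have h3 := S.red_add i _ _ (S.int_pow (hf i) d).1 hsi
  rw [heq, S.red_zero, (S.int_pow (hf i) d).2, hsr] at h3
  refine ord_nonneg_of_monic_relation Q (d := d)
    (fun n => aeval xb ((Cn n).map π)) (fun n _ => ?_) ?_
  · exact (vanishesTo_zero_iff _).mpr
      (aeval_mem _ Q.algebraMap_mem' ((ord_nonneg_iff _ _).mp hQ) _)
  · rw [h3]
    congr 1
    refine Finset.sum_congr rfl fun n _ => ?_
    rw [S.red_mul i _ _ (S.int_aeval (hx i).1 _).1 (S.int_pow (hf i) n).1,
      (S.int_aeval (hx i).1 _).2, (hx i).2, (S.int_pow (hf i) n).2]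

end GaussPair

end Fermat.Agent.SemistableRed

end
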