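import Fermat.Agent.SemistableRed.Sides
import Fermat.Agent.SemistableRed.PoleFacts
import Fermat.Agent.SemistableRed.FiniteBound
import Fermat.Agent.Reduction.Facts
import Fermat.Agent.Reduction.Construction
import Fermat.Agent.HeckeJ0.Finite

/-!
# The poles of the affine part and the bound on reductions

`H` is the polar divisor of `j` plus that of `j_q`, `C` is `q + 1` times the polar divisor of `j̄`
and `T = (j - a) (j_q - a)` has reduction `(j̄ - ā) (j̄ ^ q - ā)` on both sides. Reductions of
functions in `L(m H)` lie in `L(m C)`, and functions in `L(m C)` lift to level `M`.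
-/

set_option autoImplicit false
set_option linter.unusedSectionVars false

noncomputable section

open IsLocalRing ModularCurve AlgebraicCurve IntermediateField
open Fermat.Agent.Reduction Fermat.Agent.FunctionFieldRR

namespace Fermat.Agent.SemistableRed

local notation "Qbar" => AlgebraicClosure ℚ

theorem isFunctionField_level (N : ℕ) [NeZero N] :
    IsFunctionField Qbar (modularFunctionFieldBar N) :=
  haveI := finiteDimensional_jBar N
  IsFunctionField.of_finiteDimensional _ (transcendental_jBar N)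

/-- Poles of a difference with a constant. -/
theorem ord_sub_algebraMap_of_neg {K E : Type*} [Field K] [Field E] [Algebra K E] (P : Place K E)
    {x : E} (hx : P.ord x < 0) (c : K) : P.ord (x - algebraMap K E c) = P.ord x := by
  rw [sub_eq_add_neg]
  exact ord_add_eq_of_lt (fun h => by rw [h, P.ord_zero] at hx; exact lt_irrefl _ hx)
    (by rw [ord_neg, ord_algebraMap]; exact hx)

/-- Regularity of a difference with a constant. -/
theorem ord_sub_algebraMap_nonneg {K E : Type*} [Field K] [Field E] [Algebra K E]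
    (P : Place K E) {x : E} (hx : 0 ≤ P.ord x) (c : K) : 0 ≤ P.ord (x - algebraMap K E c) :=
  (ord_nonneg_iff _ _).mpr (sub_mem ((ord_nonneg_iff _ _).mp hx) (P.algebraMap_mem' c))

/-- A function equal to one of its `Q`-th powers omits the constants without this property. -/
theorem ord_sub_eq_zero_of_pow_fixed {K E : Type*} [Field K] [Field E] [Algebra K E] {Q : ℕ}
    (hQ : Q ≠ 0) (hfrob : ∀ u v : E, (u - v) ^ Q = u ^ Q - v ^ Q) (P : Place K E) {x : E}
    (hx : 0 ≤ P.ord x) (hpos : 0 < P.ord (x - x ^ Q)) {b : K} (hb : b ^ Q ≠ b) :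
    P.ord (x - algebraMap K E b) = 0 := by
  refine le_antisymm ?_ (ord_sub_algebraMap_nonneg P hx b)
  by_contra hlt
  push Not at hlt
  set z := x - algebraMap K E b with hz
  set c := algebraMap K E (b - b ^ Q) with hc
  have he : x - x ^ Q = c + (z - z ^ Q) := by
    rw [hz, hfrob, hc, map_sub, map_pow]; ring
  have hc0 : c ≠ 0 := (map_ne_zero _).mpr (sub_ne_zero.mpr hb.symm)
  have hcord : P.ord c = 0 := by rw [hc, ord_algebraMap]
  rcases eq_or_ne (z - z ^ Q) 0 with h0 | h0
  · rw [he, h0, add_zero, hcord] at hpos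
    omega
  have h1 : (1 : ℤ) ≤ P.ord (z - z ^ Q) := by
    rw [sub_eq_add_neg]
    refine le_ord_add (by rwa [← sub_eq_add_neg]) (by omega) ?_
    rw [ord_neg, ord_pow]
    have : (1 : ℤ) ≤ Q := by exact_mod_cast Nat.pos_of_ne_zero hQ
    nlinarith
  rw [he, ord_add_eq_of_lt hc0 (by omega), hcord] at hpos
  omega

variable {A : ValuationSubring Qbar} {M q : ℕ} [NeZero M] [NeZero q] [Fact q.Prime]
  [CharP (ResidueField A) q] [IsAlgClosed (ResidueField A)] (S : Setting A M q)

namespace Setting

include S in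
theorem natCast_ne_zero : (M : ResidueField A) ≠ 0 :=
  natCast_residue_ne_zero S.above S.not_dvd

include S in
theorem isFunctionField_C :
    IsFunctionField (ResidueField A) (modularFunctionFieldFullC (ResidueField A) M) :=
  haveI := finiteDimensional_jC (ResidueField A) M S.natCast_ne_zero
  IsFunctionField.of_finiteDimensional _ (transcendental_jC _ M)

include S in
theorem degree_polar_jbar :
    haveI := S.isFunctionField_C
    Divisor.degree (polarDivisor (K := ResidueField A) (jbar (ResidueField A) M)) =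
      dedekindPsi M := by
  have := S.isFunctionField_C
  have := finiteDimensional_jC (ResidueField A) M S.natCast_ne_zero
  rw [show jbar (ResidueField A) M = jC (ResidueField A) M from rfl,
    degree_polarDivisor (transcendental_jC _ M), finrank_jC _ M S.natCast_ne_zero]

theorem jF_eq : S.jF = jBar (M * q) :=
  Subtype.ext (coe_heckeAlphaBar M q (jBar M))

theorem jF_ne : S.jF ≠ 0 := fun h => by
  have := transcendental_jBar (M * q)
  rw [← S.jF_eq, h] at this
  exact this isAlgebraic_zero

/-- The polar divisor of the affine part. -/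
def polesH (S : Setting A M q) : Divisor Qbar (modularFunctionFieldBar (M * q)) :=
  haveI := isFunctionField_level (M * q)
  polarDivisor S.jF + polarDivisor S.jqF

/-- Its reduction on each side. -/
def polesC (S : Setting A M q) :
    Divisor (ResidueField A) (modularFunctionFieldFullC (ResidueField A) M) :=
  haveI := S.isFunctionField_C
  ((q + 1 : ℕ) : ℤ) • polarDivisor (jbar (ResidueField A) M)

theorem polesH_apply (P : Place Qbar (modularFunctionFieldBar (M * q))) :
    S.polesH P = max (-P.ord S.jF) 0 + max (-P.ord S.jqF) 0 := rfl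

theorem polesC_apply
    (P : Place (ResidueField A) (modularFunctionFieldFullC (ResidueField A) M)) :
    S.polesC P = ((q + 1 : ℕ) : ℤ) * max (-P.ord (jbar (ResidueField A) M)) 0 := rfl

theorem polesH_nonneg (P : Place Qbar (modularFunctionFieldBar (M * q))) : 0 ≤ S.polesH P := by
  rw [polesH_apply]; positivity

theorem polesC_nonneg
    (P : Place (ResidueField A) (modularFunctionFieldFullC (ResidueField A) M)) :
    0 ≤ S.polesC P := by
  rw [polesC_apply]; positivity

theorem polesH_eq_zero_iff (P : Place Qbar (modularFunctionFieldBar (M * q))) :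
    S.polesH P = 0 ↔ 0 ≤ P.ord S.jF ∧ 0 ≤ P.ord S.jqF := by
  rw [polesH_apply]; omega

theorem ord_jF_neg_iff (P : Place Qbar (modularFunctionFieldBar (M * q))) :
    P.ord S.jF < 0 ↔ P.ord S.jqF < 0 :=
  ord_jBar_neg_iff S.prime S.not_dvd P

theorem polesH_pos_iff (P : Place Qbar (modularFunctionFieldBar (M * q))) :
    0 < S.polesH P ↔ P.ord S.jF < 0 ∧ P.ord S.jqF < 0 := by
  have h := S.ord_jF_neg_iff P
  rw [polesH_apply]
  constructor
  · intro hP
    by_cases h1 : P.ord S.jF < 0
    · exact ⟨h1, h.mp h1⟩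
    · exact absurd (h.mpr (by omega)) h1
  · rintro ⟨h1, h2⟩
    omega

include S in
theorem dedekindPsi_mul : dedekindPsi (M * q) = (q + 1) * dedekindPsi M :=
  Igusa.dedekindPsi_mul_prime_of_not_dvd S.prime S.not_dvd

theorem degree_polesH : Divisor.degree S.polesH = 2 * Divisor.degree S.polesC := by
  have := isFunctionField_level (M * q)
  have := S.isFunctionField_C
  have := finiteDimensional_jBar (M * q)
  have h1 : Divisor.degree (polarDivisor (K := Qbar) S.jF) = dedekindPsi (M * q) := by
    rw [S.jF_eq, degree_polarDivisor (transcendental_jBar _), finrank_jBar]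
  have h2 : SemilinearAut.ofAlgAut S.w • polarDivisor (K := Qbar) S.jF = polarDivisor S.jqF := by
    refine Finsupp.ext fun P => ?_
    have h3 := SemilinearAut.ord_smul (SemilinearAut.ofAlgAut S.w)
      ((SemilinearAut.ofAlgAut S.w)⁻¹ • P) S.jF
    rw [smul_inv_smul, SemilinearAut.ofAlgAut_smul, S.w_jF] at h3
    rw [SemilinearAut.divisor_smul_apply, polarDivisor_apply, polarDivisor_apply, ← h3]
  rw [polesH, polesC, map_add, map_zsmul, ← h2, SemilinearAut.degree_smul, h1,
    S.degree_polar_jbar, S.dedekindPsi_mul, smul_eq_mul]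
  push_cast
  ring

theorem degree_polesC_pos : 0 < Divisor.degree S.polesC := by
  have := S.isFunctionField_C
  rw [polesC, map_zsmul, S.degree_polar_jbar, smul_eq_mul]
  have : (0 : ℤ) < dedekindPsi M := by exact_mod_cast dedekindPsi_pos M
  positivity

/-! ### The function `T` -/

include S in
theorem exists_shift : ∃ a : A, residue A a ^ (q * q) ≠ residue A a := by
  have h1 : 1 < q * q := Nat.one_lt_mul_iff.mpr ⟨S.prime.pos, S.prime.pos, Or.inl S.prime.one_lt⟩
  have hp : (Polynomial.X ^ (q * q) - Polynomial.X : Polynomial (ResidueField A)) ≠ 0 :=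
    FiniteField.X_pow_card_sub_X_ne_zero _ h1
  obtain ⟨b, hb⟩ := Polynomial.exists_eval_ne_zero_of_natDegree_lt_card _ hp (by
    exact Cardinal.natCast_lt_aleph0.trans_le (Cardinal.aleph0_le_mk _))
  obtain ⟨a, rfl⟩ := residue_surjective b
  exact ⟨a, fun h => hb (by simp [h])⟩

/-- The shift. -/
def shift (S : Setting A M q) : A := S.exists_shift.choose

theorem residue_shift : residue A S.shift ^ (q * q) ≠ residue A S.shift :=
  S.exists_shift.choose_spec

/-- `(j - a) (j_q - a)`. -/
def fnT (S : Setting A M q) : modularFunctionFieldBar (M * q) :=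
  (S.jF - algebraMap Qbar _ (S.shift : Qbar)) * (S.jqF - algebraMap Qbar _ (S.shift : Qbar))

/-- `(j̄ - ā) (j̄ ^ q - ā)`. -/
def fnTbar (S : Setting A M q) : modularFunctionFieldFullC (ResidueField A) M :=
  (jbar (ResidueField A) M - algebraMap (ResidueField A) _ (residue A S.shift)) *
    (jbar (ResidueField A) M ^ q - algebraMap (ResidueField A) _ (residue A S.shift))

theorem red_fnT (i : Fin 2) : S.gauss.Int i S.fnT ∧ S.gauss.red i S.fnT = S.fnTbar := by
  have hc := S.gauss.int_const (i := i) S.shift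
  obtain ⟨h1, h1'⟩ := S.red_eq (S.srep_jF i)
  obtain ⟨h2, h2'⟩ := S.red_eq (S.srep_jqF i)
  have hneg : ∀ {f}, S.gauss.Int i f → S.gauss.Int i (-f) ∧
      S.gauss.red i (-f) = -S.gauss.red i f := fun {f} hf => by
    refine ⟨by simpa using S.gauss.int_smul i (-1) f (A.neg_mem _ A.one_mem) hf, ?_⟩
    have := S.gauss.red_smul i (-1) f (A.neg_mem _ A.one_mem) hf
    rw [show (⟨(-1 : Qbar), A.neg_mem _ A.one_mem⟩ : A) = -1 from rfl, map_neg, map_one] at this
    simpa using this
  obtain ⟨h3, h3'⟩ := hneg hc.1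
  have e : ∀ {f}, S.gauss.Int i f →
      S.gauss.Int i (f - algebraMap Qbar _ (S.shift : Qbar)) ∧
        S.gauss.red i (f - algebraMap Qbar _ (S.shift : Qbar)) =
          S.gauss.red i f - algebraMap (ResidueField A) _ (residue A S.shift) := fun {f} hf => by
    rw [sub_eq_add_neg, sub_eq_add_neg]
    exact ⟨S.gauss.int_add i _ _ hf h3, by rw [S.gauss.red_add i _ _ hf h3, h3', hc.2]⟩
  refine ⟨S.gauss.int_mul i _ _ (e h1).1 (e h2).1, ?_⟩
  rw [fnT, S.gauss.red_mul i _ _ (e h1).1 (e h2).1, (e h1).2, (e h2).2, h1', h2', fnTbar]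
  obtain rfl | rfl : i = 0 ∨ i = 1 := by omega
  · simp [alphaVal, piG_jbar]
  · simp [alphaVal, piG_jbar, mul_comm]

theorem ord_fnT {P : Place Qbar (modularFunctionFieldBar (M * q))} (hP : 0 < S.polesH P) :
    P.ord S.fnT = -S.polesH P := by
  obtain ⟨h1, h2⟩ := (S.polesH_pos_iff P).mp hP
  have e1 := ord_sub_algebraMap_of_neg P h1 (S.shift : Qbar)
  have e2 := ord_sub_algebraMap_of_neg P h2 (S.shift : Qbar)
  rw [fnT, P.ord_mul (fun h => by rw [h, P.ord_zero] at e1; omega)
    (fun h => by rw [h, P.ord_zero] at e2; omega), e1, e2, polesH_apply]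
  omega

theorem ord_fnT_nonneg {P : Place Qbar (modularFunctionFieldBar (M * q))} (hP : S.polesH P = 0) :
    0 ≤ P.ord S.fnT := by
  obtain ⟨h1, h2⟩ := (S.polesH_eq_zero_iff P).mp hP
  exact (ord_nonneg_iff _ _).mpr (mul_mem
    ((ord_nonneg_iff _ _).mp (ord_sub_algebraMap_nonneg P h1 _))
    ((ord_nonneg_iff _ _).mp (ord_sub_algebraMap_nonneg P h2 _)))

theorem ord_jbar_neg {P : Place (ResidueField A) (modularFunctionFieldFullC (ResidueField A) M)}
    (hP : 0 < S.polesC P) : P.ord (jbar (ResidueField A) M) < 0 := by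
  by_contra h
  rw [polesC_apply, max_eq_right (by omega), mul_zero] at hP
  omega

theorem ord_jbar_nonneg
    {P : Place (ResidueField A) (modularFunctionFieldFullC (ResidueField A) M)}
    (hP : S.polesC P = 0) : 0 ≤ P.ord (jbar (ResidueField A) M) := by
  rw [polesC_apply, mul_eq_zero] at hP
  rcases hP with h | h <;> omega

theorem ord_fnTbar {P : Place (ResidueField A) (modularFunctionFieldFullC (ResidueField A) M)}
    (hP : 0 < S.polesC P) : P.ord S.fnTbar = -S.polesC P := by
  have h1 := S.ord_jbar_neg hP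
  have hq : (2 : ℤ) ≤ q := by exact_mod_cast S.prime.two_le
  have h2 : P.ord (jbar (ResidueField A) M ^ q) < 0 := by rw [ord_pow]; nlinarith
  have e1 := ord_sub_algebraMap_of_neg P h1 (residue A S.shift)
  have e2 := ord_sub_algebraMap_of_neg P h2 (residue A S.shift)
  rw [fnTbar, P.ord_mul (fun h => by rw [h, P.ord_zero] at e1; omega)
    (fun h => by rw [h, P.ord_zero] at e2; omega), e1, e2, ord_pow, polesC_apply,
    max_eq_left (by omega)]
  push_cast
  ring

theorem ord_fnTbar_nonneg
    {P : Place (ResidueField A) (modularFunctionFieldFullC (ResidueField A) M)}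
    (hP : S.polesC P = 0) : 0 ≤ P.ord S.fnTbar := by
  have h1 := S.ord_jbar_nonneg hP
  have h2 : 0 ≤ P.ord (jbar (ResidueField A) M ^ q) := by rw [ord_pow]; positivity
  exact (ord_nonneg_iff _ _).mpr (mul_mem
    ((ord_nonneg_iff _ _).mp (ord_sub_algebraMap_nonneg P h1 _))
    ((ord_nonneg_iff _ _).mp (ord_sub_algebraMap_nonneg P h2 _)))

theorem exists_pole_fnTbar :
    ∃ P : Place (ResidueField A) (modularFunctionFieldFullC (ResidueField A) M),
      0 < S.polesC P := by
  by_contra h
  push Not at h
  have h0 : S.polesC = 0 := Finsupp.ext fun P => le_antisymm (h P) (S.polesC_nonneg P)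
  have := S.degree_polesC_pos
  rw [h0, map_zero] at this
  exact lt_irrefl _ this

theorem exists_pole_fnT :
    ∃ P : Place Qbar (modularFunctionFieldBar (M * q)), 0 < S.polesH P := by
  by_contra h
  push Not at h
  have h0 : S.polesH = 0 := Finsupp.ext fun P => le_antisymm (h P) (S.polesH_nonneg P)
  have h1 := S.degree_polesH
  have := S.degree_polesC_pos
  rw [h0, map_zero] at h1
  omega

theorem fnT_ne : S.fnT ≠ 0 := fun h => by
  obtain ⟨P, hP⟩ := S.exists_pole_fnT
  have := S.ord_fnT hP
  rw [h, P.ord_zero] at this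
  omega

theorem fnTbar_ne : S.fnTbar ≠ 0 := fun h => by
  obtain ⟨P, hP⟩ := S.exists_pole_fnTbar
  have := S.ord_fnTbar hP
  rw [h, P.ord_zero] at this
  omega

theorem transcendental_fnT : Transcendental Qbar S.fnT := by
  have := isFunctionField_level (M * q)
  obtain ⟨P, hP⟩ := S.exists_pole_fnT
  exact transcendental_of_ord_ne_zero P (by rw [S.ord_fnT hP]; omega)

theorem transcendental_fnTbar : Transcendental (ResidueField A) S.fnTbar := by
  have := S.isFunctionField_C
  obtain ⟨P, hP⟩ := S.exists_pole_fnTbar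
  exact transcendental_of_ord_ne_zero P (by rw [S.ord_fnTbar hP]; omega)

theorem finrank_fnT :
    (Module.finrank Qbar⟮S.fnT⟯ (modularFunctionFieldBar (M * q)) : ℕ) =
      2 * Module.finrank (ResidueField A)⟮S.fnTbar⟯
        (modularFunctionFieldFullC (ResidueField A) M) := by
  have := isFunctionField_level (M * q)
  have := S.isFunctionField_C
  have := finiteDimensional_adjoin S.transcendental_fnT
  have := finiteDimensional_adjoin S.transcendental_fnTbar
  have hH : polarDivisor (K := Qbar) S.fnT = S.polesH := by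
    refine Finsupp.ext fun P => ?_
    rw [polarDivisor_apply]
    rcases (S.polesH_nonneg P).eq_or_lt with h | h
    · have := S.ord_fnT_nonneg h.symm; omega
    · rw [S.ord_fnT h]; omega
  have hC : polarDivisor (K := ResidueField A) S.fnTbar = S.polesC := by
    refine Finsupp.ext fun P => ?_
    rw [polarDivisor_apply]
    rcases (S.polesC_nonneg P).eq_or_lt with h | h
    · have := S.ord_fnTbar_nonneg h.symm; omega
    · rw [S.ord_fnTbar h]; omega
  have h1 := degree_polarDivisor S.transcendental_fnT
  have h2 := degree_polarDivisor S.transcendental_fnTbar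
  rw [hH, S.degree_polesH] at h1
  rw [hC] at h2
  omega

/-! ### Reductions of `L(m H)` -/

theorem int_inv {i : Fin 2} {f : modularFunctionFieldBar (M * q)} (hf : S.gauss.Int i f)
    (hr : S.gauss.red i f ≠ 0) :
    S.gauss.Int i f⁻¹ ∧ S.gauss.red i f⁻¹ = (S.gauss.red i f)⁻¹ := by
  have h := (S.srep_red hf).inv fun h => hr (Subtype.ext h)
  rw [← map_inv₀, ← IntermediateField.coe_inv] at h
  exact S.red_eq h

theorem red_mem_rr (m : ℕ) (f : modularFunctionFieldBar (M * q)) (hf : ∀ i, S.gauss.Int i f)
    (hfH : f ∈ riemannRochSpace ((m : ℤ) • S.polesH)) (i : Fin 2) :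
    S.gauss.red i f ∈ riemannRochSpace ((m : ℤ) • S.polesC) := by
  have := isFunctionField_level (M * q)
  have := S.isFunctionField_C
  rcases eq_or_ne f 0 with rfl | hf0
  · rw [S.gauss.red_zero]; exact zero_mem _
  have hord : ∀ P, -((m : ℤ) * S.polesH P) ≤ P.ord f := fun P => by
    simpa using (mem_rr hf0).mp hfH P
  have hreg1 : ∀ P : Place Qbar (modularFunctionFieldBar (M * q)),
      0 ≤ P.ord S.fnT → 0 ≤ P.ord f := fun P hP => by
    rcases (S.polesH_nonneg P).eq_or_lt with h | h
    · simpa [← h] using hord P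
    · rw [S.ord_fnT h] at hP; omega
  have b1 := GaussPair.red_regular S.exists_lift S.red_fnT S.transcendental_fnT
    S.transcendental_fnTbar S.finrank_fnT hf hreg1 i
  have hinv : ∀ i, S.gauss.Int i S.fnT⁻¹ ∧ S.gauss.red i S.fnT⁻¹ = S.fnTbar⁻¹ := fun i => by
    obtain ⟨h1, h2⟩ := S.int_inv (S.red_fnT i).1 (by rw [(S.red_fnT i).2]; exact S.fnTbar_ne)
    exact ⟨h1, by rw [h2, (S.red_fnT i).2]⟩
  have hg : ∀ i, S.gauss.Int i (f * S.fnT⁻¹ ^ m) ∧
      S.gauss.red i (f * S.fnT⁻¹ ^ m) = S.gauss.red i f * S.fnTbar⁻¹ ^ m := fun i => by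
    obtain ⟨h1, h2⟩ := S.gauss.int_pow (hinv i).1 m
    exact ⟨S.gauss.int_mul i _ _ (hf i) h1,
      by rw [S.gauss.red_mul i _ _ (hf i) h1, h2, (hinv i).2]⟩
  have hreg2 : ∀ P : Place Qbar (modularFunctionFieldBar (M * q)),
      0 ≤ P.ord S.fnT⁻¹ → 0 ≤ P.ord (f * S.fnT⁻¹ ^ m) := fun P hP => by
    rw [P.ord_mul hf0 (pow_ne_zero _ (inv_ne_zero S.fnT_ne)), ord_pow, P.ord_inv]
    rw [P.ord_inv] at hP
    have h0 := hord P
    rcases (S.polesH_nonneg P).eq_or_lt with h | h
    · have h3 := S.ord_fnT_nonneg h.symm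
      rw [← h, mul_zero] at h0
      rw [show P.ord S.fnT = 0 by omega]
      omega
    · rw [S.ord_fnT h]; linarith
  have htr : ∀ {K E : Type} [Field K] [Field E] [Algebra K E] {x : E},
      Transcendental K x → Transcendental K x⁻¹ := fun hx h => hx (by simpa using h.inv)
  have b2 := GaussPair.red_regular S.exists_lift hinv (htr S.transcendental_fnT)
    (fun h => S.transcendental_fnTbar (by simpa using h.inv))
    (by rw [finrank_adjoin_inv, finrank_adjoin_inv]; exact S.finrank_fnT)
    (fun i => (hg i).1) hreg2 i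
  rcases eq_or_ne (S.gauss.red i f) 0 with hr | hr
  · rw [hr]; exact zero_mem _
  rw [mem_rr hr]
  intro Q
  simp only [Finsupp.smul_apply, smul_eq_mul]
  rcases (S.polesC_nonneg Q).eq_or_lt with h | h
  · have := b1 Q (S.ord_fnTbar_nonneg h.symm)
    rw [← h, mul_zero, neg_zero]
    exact this
  · have h3 := b2 Q (by rw [Q.ord_inv, S.ord_fnTbar h]; omega)
    rw [(hg i).2, Q.ord_mul hr (pow_ne_zero _ (inv_ne_zero S.fnTbar_ne)), ord_pow, Q.ord_inv,
      S.ord_fnTbar h] at h3
    linarith

/-! ### Lifting to level `M` -/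

/-- For large `k` the space `L(k P̄)` at level `M` lifts to the functions bounded by `k` poles
of `j`. -/
theorem exists_lift_exact :
    haveI := S.isFunctionField_C
    ∃ c₀ : ℕ, ∀ k : ℕ, c₀ ≤ k → ∀ z : modularFunctionFieldFullC (ResidueField A) M,
      z ∈ riemannRochSpace ((k : ℤ) • polarDivisor (K := ResidueField A) (jbar (ResidueField A) M)) →
      ∃ s : modularFunctionFieldBar M, S.model.IsInt s ∧ S.model.red s = z ∧
        ∀ v : Place Qbar (modularFunctionFieldBar M),
          VanishesTo v (-((k : ℤ) * max (-v.ord (jBar M)) 0)) s := by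
  have := isFunctionField_level M
  have := S.isFunctionField_C
  have : HasPrincipalDivisors Qbar (modularFunctionFieldBar M) := hasPrincipalDivisors
  have : HasPrincipalDivisors (ResidueField A) (modularFunctionFieldFullC (ResidueField A) M) :=
    hasPrincipalDivisors
  obtain ⟨c, hc⟩ := S.facts.choose_spec.genus_le
  obtain ⟨R⟩ := S.model.exists_reductionMap
    ⟨S.facts.choose_spec.char0.riemann, S.facts.choose_spec.charL.riemann, hc⟩
  set P₀ : Divisor Qbar (modularFunctionFieldBar M) := polesOf (jBar M) with hP₀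
  have hR := R.spec (jBar M) S.isInt_jBar.1 (by
    rw [S.isInt_jBar.2]
    intro h
    exact transcendental_jC (ResidueField A) M
      (show IsAlgebraic _ (jC (ResidueField A) M) from (congrArg _ h).mpr isAlgebraic_zero))
  rw [S.isInt_jBar.2] at hR
  have hle : ∀ Q, max (-Q.ord (jbar (ResidueField A) M)) 0 ≤
      Finsupp.mapDomain R.toFun P₀ Q := by
    intro Q
    have h1 : Finsupp.mapDomain R.toFun P₀ + Finsupp.mapDomain R.toFun (dvs (jBar M)) =
        Finsupp.mapDomain R.toFun (P₀ + dvs (jBar M)) := (Finsupp.mapDomain_add ..).symm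
    have hnn : (0 : Divisor Qbar (modularFunctionFieldBar M)) ≤ P₀ + dvs (jBar M) :=
      Finsupp.le_def.mpr fun v => by
        rw [Finsupp.add_apply, dvs_apply, hP₀, polesOf_apply, Finsupp.zero_apply]; omega
    have h2 := Finsupp.le_def.mp (mapDomain_mono R.toFun hnn) Q
    rw [← h1, hR, Finsupp.mapDomain_zero, Finsupp.zero_apply, Finsupp.add_apply, dvs_apply] at h2
    have h3 := Finsupp.le_def.mp
      (mapDomain_mono R.toFun (polesOf_nonneg (K := Qbar) (jBar M))) Q
    rw [Finsupp.mapDomain_zero, Finsupp.zero_apply, ← hP₀] at h3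
    omega
  have hpsi : (1 : ℤ) ≤ Divisor.degree P₀ := by
    have h := finrank_le_degree_polesOf (transcendental_jBar M)
    have h' : 0 < dedekindPsi M := dedekindPsi_pos M
    rw [finrank_jBar, ← hP₀] at h
    omega
  refine ⟨c.toNat, fun k hk z hz => ?_⟩
  have hzD : z ∈ riemannRochSpace (Finsupp.mapDomain R.toFun ((k : ℤ) • P₀)) := by
    refine rr_mono (Finsupp.le_def.mpr fun Q => ?_) hz
    rw [Finsupp.mapDomain_smul, Finsupp.smul_apply, Finsupp.smul_apply, smul_eq_mul, smul_eq_mul]
    exact mul_le_mul_of_nonneg_left (hle Q) (Int.natCast_nonneg k)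
  obtain ⟨s, hs, hsi, hsr⟩ := R.exists_lift S.facts.choose_spec.char0.riemann hc (by
    rw [map_zsmul, smul_eq_mul]
    have : c ≤ (k : ℤ) := by have := Int.self_le_toNat c; omega
    nlinarith) hzD
  refine ⟨s, hsi, hsr, fun v => ?_⟩
  have := mem_riemannRochSpace_iff.mp hs v
  rw [Finsupp.smul_apply, smul_eq_mul, hP₀, polesOf_apply] at this
  exact this

theorem exists_lift_level (m : ℕ) (z : modularFunctionFieldFullC (ResidueField A) M)
    (hz : z ∈ riemannRochSpace ((m : ℤ) • S.polesC)) :
    ∃ (m' : ℕ) (s : modularFunctionFieldBar M), S.model.IsInt s ∧ S.model.red s = z ∧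
      ∀ v : Place Qbar (modularFunctionFieldBar M),
        VanishesTo v (-((m' : ℤ) * max (-v.ord (jBar M)) 0)) s := by
  have := S.isFunctionField_C
  obtain ⟨c₀, h⟩ := S.exists_lift_exact
  refine ⟨m * (q + 1) + c₀, h _ le_add_self z (rr_mono (Finsupp.le_def.mpr fun Q => ?_) hz)⟩
  rw [Finsupp.smul_apply, Finsupp.smul_apply, smul_eq_mul, smul_eq_mul, polesC_apply,
    polarDivisor_apply]
  have h0 : (0 : ℤ) ≤ max (-Q.ord (jbar (ResidueField A) M)) 0 := le_max_right _ _
  push_cast
  nlinarith

theorem alpha_mem_rr {m' : ℕ} {s : modularFunctionFieldBar M}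
    (hs : ∀ v : Place Qbar (modularFunctionFieldBar M),
      VanishesTo v (-((m' : ℤ) * max (-v.ord (jBar M)) 0)) s) :
    heckeAlphaBar Qbar M q s ∈ riemannRochSpace ((m' : ℤ) • S.polesH) ∧
      heckeBetaBar Qbar M q s ∈ riemannRochSpace ((m' : ℤ) • S.polesH) := by
  have := isFunctionField_level M
  have := isFunctionField_level (M * q)
  have key : ∀ (φ : modularFunctionFieldBar M →ₐ[Qbar] modularFunctionFieldBar (M * q)),
      (∀ P : Place Qbar (modularFunctionFieldBar (M * q)), max (-P.ord (φ (jBar M))) 0 ≤ S.polesH P) →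
      φ s ∈ riemannRochSpace ((m' : ℤ) • S.polesH) := by
    intro φ hφ
    have hint := HeckeJ0.isIntegral_of_isFunctionField φ
    refine mem_riemannRochSpace_iff.mpr fun P => ?_
    simp only [Finsupp.smul_apply, smul_eq_mul]
    rcases hs (P.restrictAlong φ hint) with h | h
    · exact Or.inl (by rw [h, map_zero])
    refine Or.inr ?_
    rw [Place.ord_restrictAlong φ hint P s]
    have h1 := hφ P
    rw [Place.ord_restrictAlong φ hint P (jBar M)] at h1
    set e : ℤ := (Place.ramificationIndexAlong φ P : ℤ)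
    have he : 0 ≤ e := Int.natCast_nonneg _
    set o := (P.restrictAlong φ hint).ord (jBar M)
    have h2 : e * max (-o) 0 ≤ S.polesH P := by
      rw [mul_max_of_nonneg _ _ he, mul_zero, mul_neg]; exact h1
    have h3 := mul_le_mul_of_nonneg_left h he
    have h4 := mul_le_mul_of_nonneg_left h2 (Int.natCast_nonneg m')
    linarith
  exact ⟨key _ fun P => by rw [polesH_apply]; exact le_add_of_nonneg_right (le_max_right _ _),
    key _ fun P => by rw [polesH_apply]; exact le_add_of_nonneg_left (le_max_right _ _)⟩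

/-- Lifts of the graphs of `piG`. -/
theorem lift_graph (m : ℕ) (z : modularFunctionFieldFullC (ResidueField A) M)
    (hz : z ∈ riemannRochSpace ((m : ℤ) • S.polesC)) (i : Fin 2) :
    ∃ (m' : ℕ) (f : modularFunctionFieldBar (M * q)),
      f ∈ riemannRochSpace ((m' : ℤ) • S.polesH) ∧ (∀ j, S.gauss.Int j f) ∧
        ∀ j, S.gauss.red j f = if j = i then z else piG (ResidueField A) M q z := by
  obtain ⟨m', s, hsi, rfl, hs⟩ := S.exists_lift_level m z hz
  obtain ⟨ha, hb⟩ := S.alpha_mem_rr hs
  obtain rfl | rfl : i = 0 ∨ i = 1 := by omega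
  · refine ⟨m', _, ha, fun j => (S.red_eq (S.srep_alpha s hsi j)).1, fun j => ?_⟩
    rw [(S.red_eq (S.srep_alpha s hsi j)).2]
    obtain rfl | rfl : j = 0 ∨ j = 1 := by omega
    · simp [alphaVal]
    · simp [alphaVal]
  · refine ⟨m', _, hb, fun j => (S.red_eq (S.srep_beta s hsi j)).1, fun j => ?_⟩
    rw [(S.red_eq (S.srep_beta s hsi j)).2]
    obtain rfl | rfl : j = 0 ∨ j = 1 := by omega
    · simp [alphaVal]
    · simp [alphaVal]

theorem piG_two (Q : Place (ResidueField A) (modularFunctionFieldFullC (ResidueField A) M))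
    (z : modularFunctionFieldFullC (ResidueField A) M)
    (hpos : 0 < Q.ord (piG (ResidueField A) M q z)) : 2 ≤ Q.ord (piG (ResidueField A) M q z) := by
  rw [piG_eq_pow, ord_pow] at hpos ⊢
  have hq : (2 : ℤ) ≤ q := by exact_mod_cast (Fact.out : q.Prime).two_le
  nlinarith [pos_of_mul_pos_right hpos (by omega)]

theorem ord_fnTbar_crit
    {P : Place (ResidueField A) (modularFunctionFieldFullC (ResidueField A) M)}
    (hC : S.polesC P = 0) (hh : 0 < P.ord S.hb) : P.ord S.fnTbar = 0 := by
  have : CharP (modularFunctionFieldFullC (ResidueField A) M) q :=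
    charP_of_injective_algebraMap (algebraMap (ResidueField A) _).injective q
  have h1 := S.ord_jbar_nonneg hC
  have hh' : 0 < P.ord (jbar (ResidueField A) M - jbar (ResidueField A) M ^ (q * q)) := by
    rw [pow_mul]; exact hh
  have hfrob : ∀ u v : modularFunctionFieldFullC (ResidueField A) M,
      (u - v) ^ (q * q) = u ^ (q * q) - v ^ (q * q) := fun u v => by
    rw [pow_mul, pow_mul, pow_mul, sub_pow_char, sub_pow_char]
  have key : ∀ b : ResidueField A, b ^ (q * q) ≠ b →
      P.ord (jbar (ResidueField A) M - algebraMap _ _ b) = 0 := fun b hb =>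
    ord_sub_eq_zero_of_pow_fixed (Nat.mul_ne_zero (NeZero.ne q) (NeZero.ne q)) hfrob P h1 hh' hb
  obtain ⟨b, hb⟩ := IsAlgClosed.exists_pow_nat_eq (residue A S.shift) S.prime.pos
  have hbne : b ^ (q * q) ≠ b := fun h => S.residue_shift (by
    rw [← hb, ← pow_mul, mul_comm q (q * q), pow_mul, h])
  have e2 : jbar (ResidueField A) M ^ q - algebraMap (ResidueField A) _ (residue A S.shift) =
      (jbar (ResidueField A) M - algebraMap (ResidueField A) _ b) ^ q := by
    rw [sub_pow_char, ← map_pow, hb]
  have hne : ∀ c : ResidueField A,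
      (jbar (ResidueField A) M - algebraMap (ResidueField A) _ c) ≠ 0 := fun c h => by
    refine transcendental_jC (ResidueField A) M ?_
    rw [show jC (ResidueField A) M = algebraMap _ _ c from sub_eq_zero.mp h]
    exact isAlgebraic_algebraMap c
  rw [fnTbar, e2, P.ord_mul (hne _) (pow_ne_zero _ (hne _)), ord_pow,
    key _ S.residue_shift, key b hbne, mul_zero, add_zero]

end Setting

end Fermat.Agent.SemistableRed

end
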