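import Fermat.Agent.Congruence.LevelData
import Fermat.Agent.Reduction.Instances

/-!
# The Atkin–Lehner automorphism at a prime exactly dividing the level

For a prime `q ∤ M` the substitution `j(d τ) ↔ j(d q τ)` (`d ∣ M`) extends to an involutive
automorphism of the function field of level `M * q` over any `L ⊆ ℂ`, commuting with the action on
coefficients and exchanging the two degeneracy maps to level `M`.
-/

set_option autoImplicit false

noncomputable section

open ModularCurve
open scoped Fermat.Agent.Reduction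

namespace Fermat.Agent.SemistableRed

open Fermat.Agent.X0Analytic Fermat.Agent.Congruence

variable {L : Type} [Field L] [Algebra ℚ L] {M q : ℕ} [NeZero M] [NeZero q]

theorem swapAlg_swapAlg (φ : L →+* ℂ) (hq : q.Prime) (hqM : ¬ q ∣ M) (x : ↥(algGen L (M * q))) :
    swapAlg φ hq hqM (swapAlg φ hq hqM x) = x := by
  obtain ⟨p, rfl⟩ := genAt_surjective (L := L) hq x
  rw [swapAlg_aeval]
  induction p using MvPolynomial.induction_on with
  | C c =>
    rw [MvPolynomial.aeval_C, MvPolynomial.aeval_C]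
    have h := swapAlg_aeval φ hq hqM (MvPolynomial.C c)
    rwa [MvPolynomial.aeval_C, MvPolynomial.aeval_C] at h
  | add p r hp hr => rw [map_add, map_add, map_add, hp, hr]
  | mul_X p i hp =>
    have hi : swapAlg φ hq hqM (genSwap L M q i) = genAt L M q i :=
      (swapAlg_genAt φ hq hqM (i.1, !i.2)).trans (by rw [genSwap, Bool.not_not])
    rw [map_mul (MvPolynomial.aeval (genSwap L M q)), MvPolynomial.aeval_X,
      map_mul (swapAlg φ hq hqM), map_mul (MvPolynomial.aeval (genAt L M q)),
      MvPolynomial.aeval_X, hp, hi]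

/-- The swap as an automorphism of the generated algebra. -/
def swapEquiv (φ : L →+* ℂ) (hq : q.Prime) (hqM : ¬ q ∣ M) :
    ↥(algGen L (M * q)) ≃+* ↥(algGen L (M * q)) :=
  RingEquiv.ofRingHom (swapAlg φ hq hqM) (swapAlg φ hq hqM)
    (RingHom.ext (swapAlg_swapAlg φ hq hqM)) (RingHom.ext (swapAlg_swapAlg φ hq hqM))

theorem swapAlg_algebraMap (φ : L →+* ℂ) (hq : q.Prime) (hqM : ¬ q ∣ M) (c : L) :
    swapAlg φ hq hqM (algebraMap L _ c) = algebraMap L _ c := by
  have h := swapAlg_aeval φ hq hqM (MvPolynomial.C c)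
  rwa [MvPolynomial.aeval_C, MvPolynomial.aeval_C] at h

/-- The Atkin–Lehner automorphism of the function field, as a ring automorphism. -/
def atkinLehnerRingEquiv (φ : L →+* ℂ) (hq : q.Prime) (hqM : ¬ q ∣ M) :
    ↥(FLevel L (M * q)) ≃+* ↥(FLevel L (M * q)) :=
  IsFractionRing.ringEquivOfRingEquiv (swapEquiv φ hq hqM)

theorem atkinLehnerRingEquiv_algToField (φ : L →+* ℂ) (hq : q.Prime) (hqM : ¬ q ∣ M)
    (a : ↥(algGen L (M * q))) :
    atkinLehnerRingEquiv φ hq hqM (algToField L (M * q) a) =
      algToField L (M * q) (swapAlg φ hq hqM a) :=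
  IsFractionRing.ringEquivOfRingEquiv_algebraMap (swapEquiv φ hq hqM) a

/-- The Atkin–Lehner automorphism of the function field of level `M * q`. -/
def atkinLehner (φ : L →+* ℂ) (hq : q.Prime) (hqM : ¬ q ∣ M) :
    ↥(FLevel L (M * q)) ≃ₐ[L] ↥(FLevel L (M * q)) :=
  AlgEquiv.ofRingEquiv (f := atkinLehnerRingEquiv φ hq hqM) fun c => by
    rw [← (algToField L (M * q)).commutes c, atkinLehnerRingEquiv_algToField, swapAlg_algebraMap]

variable (φ : L →+* ℂ) (hq : q.Prime) (hqM : ¬ q ∣ M)

theorem atkinLehner_algToField (a : ↥(algGen L (M * q))) :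
    atkinLehner φ hq hqM (algToField L (M * q) a) =
      algToField L (M * q) (swapAlg φ hq hqM a) :=
  atkinLehnerRingEquiv_algToField φ hq hqM a

theorem atkinLehner_atkinLehner (x : ↥(FLevel L (M * q))) :
    atkinLehner φ hq hqM (atkinLehner φ hq hqM x) = x := by
  obtain ⟨a, b, hb, hab⟩ := exists_div L (M * q) x
  have hb' : algToField L (M * q) b ≠ 0 :=
    (map_ne_zero_iff _ (algToField_injective L (M * q))).mpr hb
  refine mul_right_cancel₀ hb' ?_
  have hinv : ∀ c : ↥(algGen L (M * q)),
      atkinLehner φ hq hqM (atkinLehner φ hq hqM (algToField L (M * q) c)) =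
        algToField L (M * q) c := fun c => by
    rw [atkinLehner_algToField, atkinLehner_algToField, swapAlg_swapAlg]
  conv_lhs => rw [← hinv b, ← map_mul, ← map_mul, hab, hinv]
  exact hab.symm

/-- `w_q` exchanges the two degeneracy embeddings from level `M`. -/
theorem atkinLehner_heckeAlphaBar (x : ↥(FLevel L M)) :
    atkinLehner φ hq hqM (heckeAlphaBar L M q x) = heckeBetaBar L M q x := by
  refine RingHom.congr_fun (f := (atkinLehner φ hq hqM).toRingEquiv.toRingHom.comp
    (heckeAlphaBar L M q).toRingHom) (g := (heckeBetaBar L M q).toRingHom)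
    (hom_ext (fun c => ?_) fun d hd0 hd => ?_) x
  · show atkinLehner φ hq hqM (heckeAlphaBar L M q (algebraMap L _ c)) =
      heckeBetaBar L M q (algebraMap L _ c)
    rw [AlgHom.commutes, AlgHom.commutes, AlgEquiv.commutes]
  · show atkinLehner φ hq hqM (heckeAlphaBar L M q _) = heckeBetaBar L M q _
    have hx : (heckeAlphaBar L M q) (algToField L M ⟨jL L d,
        Algebra.subset_adjoin ⟨d, inferInstance, hd, rfl⟩⟩) =
        algToField L (M * q) (genAt L M q (⟨d, hd⟩, false)) :=
      Subtype.ext (by rw [coe_heckeAlphaBar, coe_algToField, coe_algToField, coe_genAt_false])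
    have hy : (heckeBetaBar L M q) (algToField L M ⟨jL L d,
        Algebra.subset_adjoin ⟨d, inferInstance, hd, rfl⟩⟩) =
        algToField L (M * q) (genAt L M q (⟨d, hd⟩, true)) :=
      Subtype.ext (by
        rw [coe_heckeBetaBar, coe_algToField, coe_algToField, coe_genAt_true]
        exact (jL_mul d).symm)
    rw [hx, hy, atkinLehner_algToField, swapAlg_genAt]
    rfl

theorem atkinLehner_heckeBetaBar (x : ↥(FLevel L M)) :
    atkinLehner φ hq hqM (heckeBetaBar L M q x) = heckeAlphaBar L M q x := by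
  rw [← atkinLehner_heckeAlphaBar φ hq hqM x, atkinLehner_atkinLehner]

theorem atkinLehner_comp_alpha :
    (atkinLehner φ hq hqM).toAlgHom.comp (heckeAlphaBar L M q) = heckeBetaBar L M q :=
  AlgHom.ext (atkinLehner_heckeAlphaBar φ hq hqM)

/-- The coefficient action fixes the generators. -/
theorem coeffMap_jL (σ : L ≃ₐ[ℚ] L) (d : ℕ) [NeZero d] :
    coeffMap (σ : L →+* L) (jL L d) = jL L d :=
  coeffMap_coeffEmb σ _

/-- `w_q` commutes with the action on coefficients. -/
theorem atkinLehner_arithmeticRingAut (σ : L ≃ₐ[ℚ] L) (x : ↥(FLevel L (M * q))) :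
    atkinLehner φ hq hqM (arithmeticRingAut (modularFunctionFieldFull (M * q)) σ x) =
      arithmeticRingAut (modularFunctionFieldFull (M * q)) σ (atkinLehner φ hq hqM x) := by
  refine RingHom.congr_fun (f := (atkinLehner φ hq hqM).toRingEquiv.toRingHom.comp
    (arithmeticRingAut (modularFunctionFieldFull (M * q)) σ).toRingHom)
    (g := (arithmeticRingAut (modularFunctionFieldFull (M * q)) σ).toRingHom.comp
      (atkinLehner φ hq hqM).toRingEquiv.toRingHom)
    (hom_ext (fun c => ?_) fun d hd0 hd => ?_) x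
  · show atkinLehner φ hq hqM (arithmeticRingAut _ σ (algebraMap L _ c)) =
      arithmeticRingAut _ σ (atkinLehner φ hq hqM (algebraMap L _ c))
    rw [arithmeticRingAut_algebraMap, AlgEquiv.commutes, AlgEquiv.commutes,
      arithmeticRingAut_algebraMap]
  · show atkinLehner φ hq hqM (arithmeticRingAut _ σ _) =
      arithmeticRingAut _ σ (atkinLehner φ hq hqM _)
    have hfix : ∀ y : ↥(algGen L (M * q)), coeffMap (σ : L →+* L) (y : LaurentSeries L) = y →
        arithmeticRingAut (modularFunctionFieldFull (M * q)) σ (algToField L (M * q) y) =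
          algToField L (M * q) y := fun y hy => Subtype.ext hy
    rw [atkinLehner_algToField, hfix _ (coeffMap_jL σ d)]
    rw [atkinLehner_algToField]
    obtain ⟨a, b, ha, hb, hab⟩ := exists_dvd_and_dvd_of_dvd_mul hd
    rcases (Nat.dvd_prime hq).mp hb with rfl | rfl
    · rw [mul_one] at hab
      subst hab
      haveI : NeZero d := hd0
      have e : (⟨jL L d, Algebra.subset_adjoin ⟨d, hd0, hd, rfl⟩⟩ : ↥(algGen L (M * q))) =
          genAt L M q (⟨d, ha⟩, false) := Subtype.ext (coe_genAt_false (L := L) (ℓ := q) ⟨d, ha⟩).symm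
      rw [e, swapAlg_genAt]
      exact (hfix _ (by rw [genSwap, Bool.not_false, coe_genAt_true]; exact coeffMap_jL σ _)).symm
    · subst hab
      haveI : NeZero a := ⟨fun h => NeZero.ne M (Nat.eq_zero_of_zero_dvd (h ▸ ha))⟩
      have e : (⟨jL L (a * b), Algebra.subset_adjoin ⟨a * b, hd0, hd, rfl⟩⟩ :
          ↥(algGen L (M * b))) = genAt L M b (⟨a, ha⟩, true) :=
        Subtype.ext (coe_genAt_true (L := L) (ℓ := b) ⟨a, ha⟩).symm
      rw [e, swapAlg_genAt]
      exact (hfix _ (by rw [genSwap, Bool.not_true, coe_genAt_false]; exact coeffMap_jL σ _)).symm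

section Bar

local notation "Qbar" => AlgebraicClosure ℚ

/-- An embedding of `ℚ̄` into `ℂ`. -/
def qbarToComplex : Qbar →+* ℂ :=
  haveI : Algebra.IsAlgebraic ℚ Qbar := AlgebraicClosure.isAlgebraic ℚ
  (IsAlgClosed.lift (R := ℚ) (M := ℂ) (S := Qbar)).toRingHom

variable {M q : ℕ} [NeZero M] [NeZero q]

/-- `w_q` on `modularFunctionFieldBar (M * q)`. -/
def wq (hq : q.Prime) (hqM : ¬ q ∣ M) :
    ↥(modularFunctionFieldBar (M * q)) ≃ₐ[Qbar] ↥(modularFunctionFieldBar (M * q)) :=
  atkinLehner qbarToComplex hq hqM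

theorem wq_wq (hq : q.Prime) (hqM : ¬ q ∣ M) (x : ↥(modularFunctionFieldBar (M * q))) :
    wq hq hqM (wq hq hqM x) = x :=
  atkinLehner_atkinLehner _ hq hqM x

theorem wq_heckeAlphaBar (hq : q.Prime) (hqM : ¬ q ∣ M) (x : ↥(modularFunctionFieldBar M)) :
    wq hq hqM (heckeAlphaBar Qbar M q x) = heckeBetaBar Qbar M q x :=
  atkinLehner_heckeAlphaBar _ hq hqM x

theorem wq_heckeBetaBar (hq : q.Prime) (hqM : ¬ q ∣ M) (x : ↥(modularFunctionFieldBar M)) :
    wq hq hqM (heckeBetaBar Qbar M q x) = heckeAlphaBar Qbar M q x :=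
  atkinLehner_heckeBetaBar _ hq hqM x

theorem wq_galois_smul (hq : q.Prime) (hqM : ¬ q ∣ M) (σ : Qbar ≃ₐ[ℚ] Qbar)
    (x : ↥(modularFunctionFieldBar (M * q))) :
    wq hq hqM (arithmeticGalois (modularFunctionFieldFull (M * q)) σ • x) =
      arithmeticGalois (modularFunctionFieldFull (M * q)) σ • wq hq hqM x :=
  atkinLehner_arithmeticRingAut _ hq hqM σ x

/-- As semilinear automorphisms, `w_q` and the coefficient action commute. -/
theorem commute_ofAlgAut_wq (hq : q.Prime) (hqM : ¬ q ∣ M) (σ : Qbar ≃ₐ[ℚ] Qbar) :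
    AlgebraicCurve.SemilinearAut.ofAlgAut (wq hq hqM) *
        arithmeticGalois (modularFunctionFieldFull (M * q)) σ =
      arithmeticGalois (modularFunctionFieldFull (M * q)) σ *
        AlgebraicCurve.SemilinearAut.ofAlgAut (wq hq hqM) :=
  Subtype.ext (Prod.ext (RingEquiv.ext (wq_galois_smul hq hqM σ)) rfl)

end Bar

end Fermat.Agent.SemistableRed

end
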