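import Fermat.Agent.SemistableRed.Model

/-!
# Twisted spaces and their images under reduction

For a representative `u ≡ 1` of an `n`-torsion class (`div u = nD`), the reductions of
`L(D + mH)` form a subspace of constant codimension in `L(mC) × L(mC)`.
-/

set_option autoImplicit false

noncomputable section

open AlgebraicCurve Fermat.Agent.FunctionFieldRR

namespace Fermat.Agent.SemistableRed

/-- Regularity bound in terms of orders. -/
theorem mem_rrs_iff {K E : Type*} [Field K] [Field E] [Algebra K E] {D : Divisor K E} {f : E} :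
    f ∈ riemannRochSpace D ↔ f = 0 ∨ ∀ P, -D P ≤ P.ord f := by
  rw [mem_riemannRochSpace_iff]
  exact ⟨fun h => or_iff_not_imp_left.mpr fun hf P => (h P).resolve_left hf,
    fun h P => h.imp id fun h' => h' P⟩

theorem mul_mem_rrs {K E : Type*} [Field K] [Field E] [Algebra K E] {D D' : Divisor K E} {f g : E}
    (hf : f ∈ riemannRochSpace D) (hg : g ∈ riemannRochSpace D') :
    f * g ∈ riemannRochSpace (D + D') := by
  rw [mem_rrs_iff] at hf hg ⊢
  rcases eq_or_ne f 0 with rfl | hf0
  · simp
  rcases eq_or_ne g 0 with rfl | hg0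
  · simp
  refine Or.inr fun P => ?_
  rw [P.ord_mul hf0 hg0, Finsupp.add_apply]
  linarith [hf.resolve_left hf0 P, hg.resolve_left hg0 P]

theorem rrs_mono {K E : Type*} [Field K] [Field E] [Algebra K E] {D D' : Divisor K E}
    (h : ∀ P, D P ≤ D' P) : riemannRochSpace D ≤ riemannRochSpace D' := fun f hf => by
  rw [mem_rrs_iff] at hf ⊢
  exact hf.imp id fun h' P => by linarith [h P, h' P]

/-- Outside a finite set of conditions: evaluation at finitely many places is surjective on
spaces of large degree. -/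
theorem exists_prescribed_values {K E : Type*} [Field K] [Field E] [Algebra K E]
    [IsAlgClosed K] [IsFunctionField K E] {g bound : ℤ}
    (hrr : ∀ D : Divisor K E, bound ≤ Divisor.degree D →
      (Module.finrank K (riemannRochSpace D) : ℤ) = Divisor.degree D + 1 - g)
    (D : Divisor K E) (s : Finset (Place K E)) (hD : ∀ P ∈ s, D P = 0)
    (hdeg : bound + s.card ≤ Divisor.degree D)
    (hpos : 0 < Divisor.degree D - s.card + 1 - g) (a : s → K) :
    ∃ f ∈ riemannRochSpace D, ∀ P : s, residueConst (P : Place K E) f = a P := by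
  classical
  have hmem : ∀ (P : s) (f : riemannRochSpace D), (f : E) ∈ (P : Place K E).toValuationSubring := by
    intro P f
    rcases mem_rrs_iff.mp f.2 with h | h
    · rw [h]; exact zero_mem _
    · have := h (P : Place K E)
      rw [hD P P.2, neg_zero] at this
      exact (ord_nonneg_iff _ _).mp this
  let ev : riemannRochSpace D →ₗ[K] (s → K) :=
    { toFun := fun f P => residueConst (P : Place K E) (f : E)
      map_add' := fun f g' => funext fun P => residueConst_eq _ (by
        have := (residueConst_spec _ (hmem P f)).add (residueConst_spec _ (hmem P g'))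
        simpa [map_add, add_sub_add_comm] using this)
      map_smul' := fun c f => funext fun P => residueConst_eq _ (by
        have := (residueConst_spec _ (hmem P f)).smul c
        rw [smul_sub] at this
        simpa [Algebra.smul_def, map_mul] using this) }
  suffices hsurj : Function.Surjective ev by
    obtain ⟨f, hf⟩ := hsurj a
    exact ⟨f, f.2, fun P => congrFun hf P⟩
  let E' : Divisor K E := D - ∑ P ∈ s, Finsupp.single P 1
  have hE' : ∀ P, E' P = D P - if P ∈ s then 1 else 0 := fun P => by
    simp [E', Finsupp.single_apply]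
  have hker : LinearMap.ker ev = (riemannRochSpace E').comap (riemannRochSpace D).subtype := by
    ext f
    rw [LinearMap.mem_ker, Submodule.mem_comap, Submodule.coe_subtype, mem_rrs_iff]
    constructor
    · intro h
      refine or_iff_not_imp_left.mpr fun hf P => ?_
      rw [hE']
      by_cases hP : P ∈ s
      · have h1 := residueConst_spec _ (hmem ⟨P, hP⟩ f)
        rw [show residueConst P (f : E) = 0 from congrFun h ⟨P, hP⟩, map_zero, sub_zero] at h1
        rw [if_pos hP, hD P hP]
        simpa using h1.resolve_left hf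
      · rw [if_neg hP, sub_zero]
        exact (mem_rrs_iff.mp f.2).resolve_left hf P
    · intro h
      funext P
      refine residueConst_eq _ ?_
      rw [Pi.zero_apply, map_zero, sub_zero]
      refine h.imp id fun h' => ?_
      have := h' P
      rw [hE', if_pos P.2, hD P P.2] at this
      simpa using this
  have hdegE : Divisor.degree E' = Divisor.degree D - s.card := by
    simp [E', map_sub, map_sum, Divisor.degree_single, deg_eq_one]
  have hfd : FiniteDimensional K (riemannRochSpace D) :=
    Module.finite_of_finrank_pos <| by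
      have := hrr D (by omega)
      omega
  have h1 := LinearMap.finrank_range_add_finrank_ker ev
  have h2 : Module.finrank K (LinearMap.ker ev) = Module.finrank K (riemannRochSpace E') := by
    rw [hker]
    refine LinearEquiv.finrank_eq (Submodule.comapSubtypeEquivOfLe (rrs_mono fun P => ?_))
    rw [hE']
    split_ifs <;> omega
  have h3 := hrr D (by omega)
  have h4 := hrr E' (by omega)
  refine LinearMap.range_eq_top.mp (Submodule.eq_top_of_finrank_eq ?_)
  rw [Module.finrank_pi, Fintype.card_coe]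
  omega

namespace SplitModel

variable {L : Type*} [Field L] {A : ValuationSubring L} {k : Type*} [Field k] {π : A →+* k}
  {F : Type*} [Field F] [Algebra L F] {G : Type*} [Field G] [Algebra k G]
variable (S : SplitModel A π F G)

/-- A representative `u ≡ 1` of an `n`-torsion class. -/
structure Rep (n : ℕ) where
  u : F
  D : Divisor L F
  u_ne : u ≠ 0
  ord_u : ∀ P, P.ord u = (n : ℤ) * D P
  degree_D : Divisor.degree D = 0
  int : S.Int2 u
  red_u : ∀ i, S.red i u = 1

/-- The trivial representative. -/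
def Rep.one (n : ℕ) : S.Rep n where
  u := 1
  D := 0
  u_ne := one_ne_zero
  ord_u P := by simp
  degree_D := map_zero _
  int := S.int_one
  red_u := S.red_one

variable {S}

/-- The product of two representatives. -/
def Rep.mul {n : ℕ} (R R' : S.Rep n) : S.Rep n where
  u := R.u * R'.u
  D := R.D + R'.D
  u_ne := mul_ne_zero R.u_ne R'.u_ne
  ord_u P := by rw [P.ord_mul R.u_ne R'.u_ne, R.ord_u, R'.ord_u, Finsupp.add_apply]; ring
  degree_D := by rw [map_add, R.degree_D, R'.degree_D, add_zero]
  int i := S.int_mul i _ _ (R.int i) (R'.int i)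
  red_u i := by rw [S.red_mul i _ _ (R.int i) (R'.int i), R.red_u, R'.red_u, mul_one]

variable (S)

/-- `L(D + mH)`. -/
def twist {n : ℕ} (R : S.Rep n) (m : ℕ) : Submodule L F :=
  riemannRochSpace (R.D + (m : ℤ) • S.H)

theorem twist_mono {n : ℕ} (R : S.Rep n) {m m' : ℕ} (h : m ≤ m') :
    S.twist R m ≤ S.twist R m' := rrs_mono fun P => by
  simp only [Finsupp.add_apply, Finsupp.smul_apply, smul_eq_mul]
  have := S.H_nonneg P
  have : (m : ℤ) * S.H P ≤ (m' : ℤ) * S.H P :=
    mul_le_mul_of_nonneg_right (by exact_mod_cast h) this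
  linarith

theorem mul_mem_twist {n : ℕ} {R R' : S.Rep n} {m m' : ℕ} {f g : F} (hf : f ∈ S.twist R m)
    (hg : g ∈ S.twist R' m') : f * g ∈ S.twist (R.mul R') (m + m') := by
  have := mul_mem_rrs hf hg
  rwa [show R.D + (m : ℤ) • S.H + (R'.D + (m' : ℤ) • S.H) =
    (R.mul R').D + ((m + m' : ℕ) : ℤ) • S.H by
      show _ = R.D + R'.D + _
      push_cast; rw [add_smul]; abel] at this

/-- Pairs of functions with poles bounded by `mC`. -/
def pairSpace (m : ℕ) : Submodule k (Fin 2 → G) :=
  Submodule.pi Set.univ fun _ => riemannRochSpace ((m : ℤ) • S.C)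

theorem mem_pairSpace {m : ℕ} {z : Fin 2 → G} :
    z ∈ S.pairSpace m ↔ ∀ i, z i ∈ riemannRochSpace ((m : ℤ) • S.C) := by
  simp [pairSpace]

theorem pairSpace_mono {m m' : ℕ} (h : m ≤ m') : S.pairSpace m ≤ S.pairSpace m' := fun z hz => by
  rw [mem_pairSpace] at hz ⊢
  refine fun i => rrs_mono (fun P => ?_) (hz i)
  simp only [Finsupp.smul_apply, smul_eq_mul]
  exact mul_le_mul_of_nonneg_right (by exact_mod_cast h) (S.C_nonneg P)

/-- Reductions of the integral elements of a space. -/
def imgSpace (V : Submodule L F) : Submodule k (Fin 2 → G) where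
  carrier := {z | ∃ f ∈ V, S.Int2 f ∧ S.red2 f = z}
  zero_mem' := ⟨0, V.zero_mem, S.int_zero, funext S.red_zero⟩
  add_mem' := by
    rintro _ _ ⟨f, hf, hfi, rfl⟩ ⟨g, hg, hgi, rfl⟩
    exact ⟨f + g, V.add_mem hf hg, fun i => S.int_add i f g (hfi i) (hgi i),
      funext fun i => S.red_add i f g (hfi i) (hgi i)⟩
  smul_mem' := by
    rintro c _ ⟨f, hf, hfi, rfl⟩
    obtain ⟨a, rfl⟩ := S.residue_surjective c
    exact ⟨(a : L) • f, V.smul_mem _ hf, fun i => S.int_smul i _ f a.2 (hfi i),
      funext fun i => S.red_smul i _ f a.2 (hfi i)⟩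

theorem imgSpace_mono {V W : Submodule L F} (h : V ≤ W) : S.imgSpace V ≤ S.imgSpace W := by
  rintro _ ⟨f, hf, hfi, rfl⟩
  exact ⟨f, h hf, hfi, rfl⟩

theorem finrank_imgSpace (V : Submodule L F) [FiniteDimensional L V] :
    FiniteDimensional k (S.imgSpace V) ∧
      Module.finrank k (S.imgSpace V) = Module.finrank L V := by
  classical
  obtain ⟨e, hspan, hint, hind⟩ := S.reduced_basis _ V inferInstance rfl
  have heq : S.imgSpace V = Submodule.span k (Set.range fun j => S.red2 (e j)) := by
    refine le_antisymm ?_ (Submodule.span_le.mpr ?_)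
    · rintro _ ⟨f, hf, hfi, rfl⟩
      rw [← hspan, Submodule.mem_span_range_iff_exists_fun] at hf
      obtain ⟨c, rfl⟩ := hf
      have hc := S.coeff_mem hint hind hfi
      have h1 : S.red2 (∑ j, c j • e j) = ∑ j, π ⟨_, hc j⟩ • S.red2 (e j) := funext fun i => by
        rw [Finset.sum_apply]
        show S.red i _ = _
        rw [(S.int_sum Finset.univ fun j _ => S.int_smul i _ _ (hc j) (hint j i)).2]
        exact Finset.sum_congr rfl fun j _ => S.red_smul i _ _ (hc j) (hint j i)
      rw [h1]
      exact Submodule.sum_mem _ fun j _ => Submodule.smul_mem _ _ (Submodule.subset_span ⟨j, rfl⟩)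
    · rintro _ ⟨j, rfl⟩
      exact ⟨e j, hspan ▸ Submodule.subset_span ⟨j, rfl⟩, hint j, rfl⟩
  rw [heq]
  refine ⟨FiniteDimensional.span_of_finite k (Set.finite_range _), ?_⟩
  change Module.finrank k (Submodule.span k (Set.range fun j i => S.red i (e j))) = _
  rw [finrank_span_eq_card hind, Fintype.card_fin]

theorem imgSpace_twist_le {n : ℕ} (hn : n ≠ 0) (R : S.Rep n) (m : ℕ) :
    S.imgSpace (S.twist R m) ≤ S.pairSpace m := by
  rintro _ ⟨f, hf, hfi, rfl⟩
  rw [mem_pairSpace]
  intro i
  rcases eq_or_ne f 0 with rfl | hf0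
  · show S.red i 0 ∈ _
    rw [S.red_zero]; exact Submodule.zero_mem _
  have hmem : f ^ n * R.u ∈ riemannRochSpace (((n * m : ℕ) : ℤ) • S.H) := by
    rw [mem_rrs_iff]
    refine Or.inr fun P => ?_
    rw [P.ord_mul (pow_ne_zero _ hf0) R.u_ne, ord_pow, R.ord_u]
    have h := (mem_rrs_iff.mp hf).resolve_left hf0 P
    simp only [Finsupp.add_apply, Finsupp.smul_apply, smul_eq_mul] at h ⊢
    push_cast
    nlinarith
  have h := S.bound _ _ (fun j => S.int_mul j _ _ (S.int_pow (hfi j) n) (R.int j)) hmem i
  rw [S.red_mul i _ _ (S.int_pow (hfi i) n) (R.int i), S.red_pow (hfi i), R.red_u, mul_one] at h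
  show S.red i f ∈ _
  rcases eq_or_ne (S.red i f) 0 with h0 | h0
  · rw [h0]; exact Submodule.zero_mem _
  refine mem_rrs_iff.mpr (Or.inr fun P => ?_)
  have h' := (mem_rrs_iff.mp h).resolve_left (pow_ne_zero _ h0) P
  rw [ord_pow] at h'
  simp only [Finsupp.smul_apply, smul_eq_mul] at h' ⊢
  push_cast at h'
  have hn' : (0 : ℤ) < n := by exact_mod_cast Nat.pos_of_ne_zero hn
  nlinarith

/-- A level from which all the Riemann–Roch equalities hold. -/
def baseLevel : ℕ :=
  (S.rrBound.natAbs + S.gF.natAbs + S.gG.natAbs + S.leadBound + 1)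

theorem degree_twist {n : ℕ} (R : S.Rep n) (m : ℕ) :
    Divisor.degree (R.D + (m : ℤ) • S.H) = 2 * (m : ℤ) * Divisor.degree S.C := by
  rw [map_add, R.degree_D, map_zsmul, S.degree_H, smul_eq_mul]; ring

theorem finrank_twist {n : ℕ} (R : S.Rep n) {m : ℕ} (hm : S.baseLevel ≤ m) :
    FiniteDimensional L (S.twist R m) ∧
      (Module.finrank L (S.twist R m) : ℤ) = 2 * (m : ℤ) * Divisor.degree S.C + 1 - S.gF := by
  have hC := S.degree_C_pos
  have hd := S.degree_twist R m
  have hm' : (S.baseLevel : ℤ) ≤ m := by exact_mod_cast hm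
  have hb : (S.baseLevel : ℤ) = |S.rrBound| + |S.gF| + |S.gG| + S.leadBound + 1 := by
    simp [baseLevel]
  have hmC : (m : ℤ) ≤ (m : ℤ) * Divisor.degree S.C := by nlinarith
  have h := S.rrF (R.D + (m : ℤ) • S.H) (by
    rw [hd]; have := le_abs_self S.rrBound; nlinarith [abs_nonneg S.gF, abs_nonneg S.gG])
  rw [hd] at h
  refine ⟨Module.finite_of_finrank_pos ?_, h⟩
  show 0 < Module.finrank L (riemannRochSpace (R.D + (m : ℤ) • S.H))
  have : (0 : ℤ) < 2 * (m : ℤ) * Divisor.degree S.C + 1 - S.gF := by
    nlinarith [le_abs_self S.gF, abs_nonneg S.rrBound, abs_nonneg S.gG]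
  omega

theorem finrank_C {m : ℕ} (hm : S.baseLevel ≤ m) :
    FiniteDimensional k (riemannRochSpace ((m : ℤ) • S.C)) ∧
      (Module.finrank k (riemannRochSpace ((m : ℤ) • S.C)) : ℤ) =
        (m : ℤ) * Divisor.degree S.C + 1 - S.gG := by
  have hC := S.degree_C_pos
  have hd : Divisor.degree ((m : ℤ) • S.C) = (m : ℤ) * Divisor.degree S.C := by
    rw [map_zsmul, smul_eq_mul]
  have hm' : (S.baseLevel : ℤ) ≤ m := by exact_mod_cast hm
  have hb : (S.baseLevel : ℤ) = |S.rrBound| + |S.gF| + |S.gG| + S.leadBound + 1 := by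
    simp [baseLevel]
  have hmC : (m : ℤ) ≤ (m : ℤ) * Divisor.degree S.C := by nlinarith
  have h := S.rrG ((m : ℤ) • S.C) (by
    rw [hd]; nlinarith [le_abs_self S.rrBound, abs_nonneg S.gF, abs_nonneg S.gG])
  rw [hd] at h
  refine ⟨Module.finite_of_finrank_pos ?_, h⟩
  have : (0 : ℤ) < (m : ℤ) * Divisor.degree S.C + 1 - S.gG := by
    nlinarith [le_abs_self S.gG, abs_nonneg S.rrBound, abs_nonneg S.gF]
  omega

/-- `pairSpace` as a product. -/
def pairEquiv (m : ℕ) : S.pairSpace m ≃ₗ[k] (Fin 2 → riemannRochSpace ((m : ℤ) • S.C)) where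
  toFun z i := ⟨(z : Fin 2 → G) i, S.mem_pairSpace.mp z.2 i⟩
  invFun z := ⟨fun i => (z i : G), S.mem_pairSpace.mpr fun i => (z i).2⟩
  left_inv _ := rfl
  right_inv _ := rfl
  map_add' _ _ := rfl
  map_smul' _ _ := rfl

theorem finrank_pairSpace {m : ℕ} (hm : S.baseLevel ≤ m) :
    FiniteDimensional k (S.pairSpace m) ∧
      (Module.finrank k (S.pairSpace m) : ℤ) =
        2 * ((m : ℤ) * Divisor.degree S.C + 1 - S.gG) := by
  obtain ⟨hfd, hr⟩ := S.finrank_C hm
  refine ⟨Module.Finite.equiv (S.pairEquiv m).symm, ?_⟩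
  rw [(S.pairEquiv m).finrank_eq, Module.finrank_pi_fintype]
  simp [← hr]

/-- The codimension of the reductions. -/
def delta : ℤ := S.gF + 1 - 2 * S.gG

theorem finrank_imgTwist {n : ℕ} (R : S.Rep n) {m : ℕ} (hm : S.baseLevel ≤ m) :
    FiniteDimensional k (S.imgSpace (S.twist R m)) ∧
      (Module.finrank k (S.imgSpace (S.twist R m)) : ℤ) + S.delta =
        Module.finrank k (S.pairSpace m) := by
  obtain ⟨hfd, hr⟩ := S.finrank_twist R hm
  obtain ⟨h1, h2⟩ := S.finrank_imgSpace (S.twist R m)
  refine ⟨h1, ?_⟩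
  rw [h2, hr, (S.finrank_pairSpace hm).2, delta]
  ring

end SplitModel

end Fermat.Agent.SemistableRed

end
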