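import Fermat.Agent.SemistableRed.Spaces

/-!
# The reduced curve is glued at finitely many pairs of points

The reductions of functions with poles along `H` are exactly the pairs of functions agreeing at
finitely many pairs of places. The pairs `(t, pf t)` separate branches to first order and the
multiples of `hbar` give a conductor.
-/

set_option autoImplicit false
set_option linter.unusedSectionVars false

noncomputable section

open AlgebraicCurve Fermat.Agent.FunctionFieldRR

namespace Fermat.Agent.SemistableRed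

section Values

variable {K E : Type*} [Field K] [Field E] [Algebra K E] [IsAlgClosed K] [IsFunctionField K E]
variable {P : Place K E} {f g : E}

theorem residueConst_mul (hf : VanishesTo P 0 f) (hg : VanishesTo P 0 g) :
    residueConst P (f * g) = residueConst P f * residueConst P g := by
  rw [vanishesTo_zero_iff] at hf hg
  have := map_mul (residueHom P) ⟨f, hf⟩ ⟨g, hg⟩
  rwa [residueHom_apply, residueHom_apply, residueHom_apply] at this

theorem residueConst_add (hf : VanishesTo P 0 f) (hg : VanishesTo P 0 g) :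
    residueConst P (f + g) = residueConst P f + residueConst P g := by
  rw [vanishesTo_zero_iff] at hf hg
  have := map_add (residueHom P) ⟨f, hf⟩ ⟨g, hg⟩
  rwa [residueHom_apply, residueHom_apply, residueHom_apply] at this

theorem residueConst_algebraMap (c : K) : residueConst P (algebraMap K E c) = c :=
  residueConst_eq _ (by simp [VanishesTo.zero])

theorem residueConst_zero : residueConst P (0 : E) = 0 := by
  simpa using residueConst_algebraMap (P := P) (0 : K)

theorem residueConst_one : residueConst P (1 : E) = 1 := by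
  simpa using residueConst_algebraMap (P := P) (1 : K)

theorem residueConst_pow (hf : VanishesTo P 0 f) (n : ℕ) :
    residueConst P (f ^ n) = residueConst P f ^ n := by
  rw [vanishesTo_zero_iff] at hf
  have := map_pow (residueHom P) ⟨f, hf⟩ n
  rwa [residueHom_apply, residueHom_apply] at this

theorem residueConst_smul (c : K) (hf : VanishesTo P 0 f) :
    residueConst P (c • f) = c * residueConst P f := by
  rw [Algebra.smul_def, residueConst_mul (vanishesTo_algebraMap c) hf, residueConst_algebraMap]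

theorem vanishesTo_one_iff (hf : VanishesTo P 0 f) :
    VanishesTo P 1 f ↔ residueConst P f = 0 := by
  refine ⟨fun h => residueConst_eq _ (by simpa using h), fun h => ?_⟩
  have := residueConst_spec P ((vanishesTo_zero_iff P).mp hf)
  simpa [h] using this

theorem VanishesTo.pow' {m : ℤ} (hf : VanishesTo P m f) (n : ℕ) :
    VanishesTo P (n * m) (f ^ n) := by
  induction n with
  | zero => exact Or.inr (by simp)
  | succ n ih =>
    rw [pow_succ]
    have := ih.mul hf
    convert this using 2
    push_cast; ring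

end Values

namespace SplitModel

variable {L : Type*} [Field L] {A : ValuationSubring L} {k : Type*} [Field k] [IsAlgClosed k]
  {π : A →+* k} {F : Type*} [Field F] [Algebra L F] {G : Type*} [Field G] [Algebra k G]
  [IsFunctionField k G]
variable (S : SplitModel A π F G)

/-- The value of a pair of functions at a point of one of the components. -/
def ev (x : Fin 2 × Place k G) (z : Fin 2 → G) : k := residueConst x.2 (z x.1)

theorem twist_one (n m : ℕ) :
    S.twist (Rep.one S n) m = riemannRochSpace ((m : ℤ) • S.H) := by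
  show riemannRochSpace ((0 : Divisor L F) + _) = _
  rw [zero_add]

/-- Pairs of reductions of functions with poles along `H`. -/
def Reach (z : Fin 2 → G) : Prop :=
  ∃ m : ℕ, z ∈ S.imgSpace (riemannRochSpace ((m : ℤ) • S.H))

theorem Hspace_mono {m m' : ℕ} (h : m ≤ m') :
    riemannRochSpace ((m : ℤ) • S.H) ≤ riemannRochSpace ((m' : ℤ) • S.H) := by
  have := S.twist_mono (Rep.one S 1) h
  rwa [S.twist_one, S.twist_one] at this

theorem Reach.add {z w : Fin 2 → G} (hz : S.Reach z) (hw : S.Reach w) : S.Reach (z + w) := by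
  obtain ⟨m, hm⟩ := hz
  obtain ⟨m', hm'⟩ := hw
  exact ⟨max m m', add_mem (S.imgSpace_mono (S.Hspace_mono (le_max_left _ _)) hm)
    (S.imgSpace_mono (S.Hspace_mono (le_max_right _ _)) hm')⟩

theorem Reach.smul (c : k) {z : Fin 2 → G} (hz : S.Reach z) : S.Reach (c • z) :=
  hz.imp fun _ hm => Submodule.smul_mem _ c hm

theorem Reach.mul {z w : Fin 2 → G} (hz : S.Reach z) (hw : S.Reach w) : S.Reach (z * w) := by
  obtain ⟨m, f, hf, hfi, rfl⟩ := hz
  obtain ⟨m', g, hg, hgi, rfl⟩ := hw
  refine ⟨m + m', f * g, ?_, fun i => S.int_mul i f g (hfi i) (hgi i),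
    funext fun i => S.red_mul i f g (hfi i) (hgi i)⟩
  have := mul_mem_rrs hf hg
  rwa [← add_smul, ← Nat.cast_add] at this

theorem reach_one : S.Reach 1 :=
  ⟨0, 1, mem_rrs_iff.mpr (Or.inr fun P => by simp), S.int_one, funext S.red_one⟩

theorem reach_zero : S.Reach 0 := ⟨0, Submodule.zero_mem _⟩

theorem Reach.sub {z w : Fin 2 → G} (hz : S.Reach z) (hw : S.Reach w) : S.Reach (z - w) := by
  have := hz.add S (hw.smul S (-1))
  rwa [neg_one_smul, ← sub_eq_add_neg] at this

theorem Reach.pow {z : Fin 2 → G} (hz : S.Reach z) (n : ℕ) : S.Reach (z ^ n) := by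
  induction n with
  | zero => simpa using S.reach_one
  | succ n ih => rw [pow_succ]; exact ih.mul S hz

theorem Reach.prod {ι : Type*} (s : Finset ι) {z : ι → Fin 2 → G} (hz : ∀ i ∈ s, S.Reach (z i)) :
    S.Reach (∏ i ∈ s, z i) :=
  Finset.prod_induction _ S.Reach (fun _ _ h h' => h.mul S h') S.reach_one hz

theorem Reach.mem_pairSpace {z : Fin 2 → G} (hz : S.Reach z) :
    ∃ m, z ∈ S.pairSpace m := by
  obtain ⟨m, hm⟩ := hz
  exact ⟨m, S.imgSpace_twist_le one_ne_zero (Rep.one S 1) m (by rwa [S.twist_one])⟩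

theorem regular_of_mem_pairSpace {m : ℕ} {z : Fin 2 → G} (hz : z ∈ S.pairSpace m) (i : Fin 2)
    {P : Place k G} (hP : S.C P = 0) : VanishesTo P 0 (z i) := by
  refine (mem_rrs_iff.mp ((S.mem_pairSpace.mp hz) i)).imp id fun h => ?_
  simpa [hP] using h P

theorem Reach.regular {z : Fin 2 → G} (hz : S.Reach z) (i : Fin 2) {P : Place k G}
    (hP : S.C P = 0) : VanishesTo P 0 (z i) :=
  let ⟨_, hm⟩ := hz.mem_pairSpace S
  S.regular_of_mem_pairSpace hm i hP

theorem reach_graph {m : ℕ} {z : G} (hz : z ∈ riemannRochSpace ((m : ℤ) • S.C)) (i : Fin 2) :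
    S.Reach (fun j => if j = i then z else S.pf z) := by
  obtain ⟨m', f, hf, hfi, hr⟩ := S.lift_graph m z hz i
  exact ⟨m', f, hf, hfi, funext hr⟩

theorem reach_crit {m : ℕ} {z : G} (hz : z ∈ riemannRochSpace ((m : ℤ) • S.C)) (i : Fin 2) :
    S.Reach (fun j => if j = i then S.hbar * z else 0) := by
  obtain ⟨m', f, hf, hfi, hr⟩ := S.lift_crit m z hz i
  exact ⟨m', f, hf, hfi, funext hr⟩

theorem baseLevel_bounds (m : ℕ) (c : ℤ) (hc : 0 ≤ c) (hm : (S.baseLevel : ℤ) + c ≤ m) :
    S.rrBound + c ≤ (m : ℤ) * Divisor.degree S.C ∧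
      0 < (m : ℤ) * Divisor.degree S.C - c + 1 - S.gG ∧
      0 < (m : ℤ) * Divisor.degree S.C - c + 1 - S.gF := by
  have hC := S.degree_C_pos
  have hb : (S.baseLevel : ℤ) = |S.rrBound| + |S.gF| + |S.gG| + S.leadBound + 1 := by
    simp [baseLevel]
  have hmC : (m : ℤ) ≤ (m : ℤ) * Divisor.degree S.C := by nlinarith
  have := le_abs_self S.rrBound
  have := le_abs_self S.gG
  have := le_abs_self S.gF
  have := abs_nonneg S.rrBound
  have := abs_nonneg S.gG
  have := abs_nonneg S.gF
  omega

/-- Functions with prescribed values at finitely many affine places. -/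
theorem exists_values (s : Finset (Place k G)) (hs : ∀ P ∈ s, S.C P = 0) (m : ℕ)
    (hm : S.baseLevel + s.card ≤ m) (a : s → k) :
    ∃ z ∈ riemannRochSpace ((m : ℤ) • S.C), ∀ P : s, residueConst (P : Place k G) z = a P := by
  obtain ⟨h1, h2, -⟩ := S.baseLevel_bounds m s.card (by positivity) (by exact_mod_cast hm)
  refine exists_prescribed_values S.rrG _ s (fun P hP => by simp [hs P hP]) ?_ ?_ a <;>
    rw [map_zsmul, smul_eq_mul] <;> omega

/-- A regular function with a simple zero at a given affine place. -/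
theorem exists_simple_zero {P : Place k G} (hP : S.C P = 0) (m : ℕ) (hm : S.baseLevel + 2 ≤ m) :
    ∃ z ∈ riemannRochSpace ((m : ℤ) • S.C), z ≠ 0 ∧ P.ord z = 1 := by
  classical
  obtain ⟨hb1, hb2, -⟩ := S.baseLevel_bounds m 2 (by norm_num) (by exact_mod_cast hm)
  have hd : ∀ j : ℤ, Divisor.degree ((m : ℤ) • S.C - Finsupp.single P j) =
      (m : ℤ) * Divisor.degree S.C - j := fun j => by
    rw [map_sub, map_zsmul, smul_eq_mul, Divisor.degree_single, deg_eq_one, Nat.cast_one, mul_one]
  have h1 := S.rrG ((m : ℤ) • S.C - Finsupp.single P 1) (by rw [hd]; omega)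
  have h2 := S.rrG ((m : ℤ) • S.C - Finsupp.single P 2) (by rw [hd]; omega)
  rw [hd] at h1 h2
  have hnle : ¬ riemannRochSpace ((m : ℤ) • S.C - Finsupp.single P 1) ≤
      riemannRochSpace ((m : ℤ) • S.C - Finsupp.single P 2) := fun hle => by
    have := Module.finite_of_finrank_pos
      (show 0 < Module.finrank k (riemannRochSpace ((m : ℤ) • S.C - Finsupp.single P 2)) by omega)
    have := Submodule.finrank_mono hle
    omega
  obtain ⟨z, hz, hz'⟩ := SetLike.not_le_iff_exists.mp hnle
  have hz0 : z ≠ 0 := fun h => hz' (h ▸ Submodule.zero_mem _)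
  have hzb := (mem_rrs_iff.mp hz).resolve_left hz0
  refine ⟨z, rrs_mono (fun Q => ?_) hz, hz0, ?_⟩
  · simp only [Finsupp.sub_apply, Finsupp.single_apply]
    split_ifs <;> omega
  · by_contra hne
    refine hz' (mem_rrs_iff.mpr (Or.inr fun Q => ?_))
    have hQ := hzb Q
    simp only [Finsupp.sub_apply, Finsupp.single_apply, Finsupp.smul_apply, smul_eq_mul] at hQ ⊢
    rcases eq_or_ne P Q with rfl | hPQ
    · simp only [if_true, hP, mul_zero] at hQ ⊢
      omega
    · simpa [if_neg hPQ] using hQ

/-- `x` and `y` cannot be told apart by reductions. -/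
def Rel (x y : Fin 2 × Place k G) : Prop := ∀ z, S.Reach z → ev x z = ev y z

/-- Glued pairs of places. -/
def Pair (P Q : Place k G) : Prop := S.C P = 0 ∧ S.C Q = 0 ∧ S.Rel (0, P) (1, Q)

theorem eq_of_rel {i : Fin 2} {P P' : Place k G} (hP : S.C P = 0) (hP' : S.C P' = 0)
    (h : S.Rel (i, P) (i, P')) : P = P' := by
  classical
  by_contra hne
  obtain ⟨z, hz, hv⟩ := S.exists_values {P, P'} (by simp [hP, hP'])
    _ le_rfl fun x => if (x : Place k G) = P then 1 else 0
  have h1 := h _ (S.reach_graph hz i)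
  simp only [ev, reduceIte] at h1
  rw [hv ⟨P, by simp⟩, hv ⟨P', by simp⟩] at h1
  simp [Ne.symm hne] at h1

theorem mem_crit_of_rel {i j : Fin 2} (hij : i ≠ j) {P Q : Place k G} (hP : S.C P = 0)
    (h : S.Rel (i, P) (j, Q)) : P ∈ S.crit := by
  have h1 := h _ (S.reach_crit (m := 0) (z := 1) (mem_rrs_iff.mpr (Or.inr fun P => by simp)) i)
  simp only [ev, reduceIte, if_neg hij.symm, mul_one] at h1
  rw [residueConst_zero] at h1
  refine (S.mem_crit P).mpr ⟨hP, ?_⟩
  have h2 := (vanishesTo_one_iff (Or.inr (S.hbar_nonneg P hP))).mpr h1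
  have := h2.resolve_left S.hbar_ne
  omega

theorem Pair.crit {P Q : Place k G} (h : S.Pair P Q) : P ∈ S.crit ∧ Q ∈ S.crit :=
  ⟨S.mem_crit_of_rel (by decide) h.1 h.2.2,
    S.mem_crit_of_rel (i := 1) (j := 0) (by decide) h.2.1 fun z hz => (h.2.2 z hz).symm⟩

theorem Pair.right_unique {P Q Q' : Place k G} (h : S.Pair P Q) (h' : S.Pair P Q') : Q = Q' :=
  S.eq_of_rel h.2.1 h'.2.1 fun z hz => (h.2.2 z hz).symm.trans (h'.2.2 z hz)

theorem Pair.left_unique {P P' Q : Place k G} (h : S.Pair P Q) (h' : S.Pair P' Q) : P = P' :=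
  S.eq_of_rel h.1 h'.1 fun z hz => (h.2.2 z hz).trans (h'.2.2 z hz).symm

/-- The finite set of glued pairs. -/
def pairs : Finset (Place k G × Place k G) := by
  classical exact (S.crit ×ˢ S.crit).filter fun x => S.Pair x.1 x.2

theorem mem_pairs {P Q : Place k G} : (P, Q) ∈ S.pairs ↔ S.Pair P Q := by
  classical
  simp only [pairs, Finset.mem_filter, Finset.mem_product]
  exact ⟨fun h => h.2, fun h => ⟨h.crit S, h⟩⟩

/-- Pairs of functions agreeing at the glued pairs. -/
def glueSpace (m : ℕ) : Submodule k (Fin 2 → G) where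
  carrier := {z | z ∈ S.pairSpace m ∧ ∀ x ∈ S.pairs, ev (0, x.1) z = ev (1, x.2) z}
  zero_mem' := ⟨Submodule.zero_mem _, fun x _ => by simp [ev, residueConst_zero]⟩
  add_mem' := by
    rintro z w ⟨hz, hz'⟩ ⟨hw, hw'⟩
    refine ⟨Submodule.add_mem _ hz hw, fun x hx => ?_⟩
    have hp := S.mem_pairs.mp hx
    simp only [ev, Pi.add_apply]
    rw [residueConst_add (S.regular_of_mem_pairSpace hz _ hp.1)
        (S.regular_of_mem_pairSpace hw _ hp.1),
      residueConst_add (S.regular_of_mem_pairSpace hz _ hp.2.1)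
        (S.regular_of_mem_pairSpace hw _ hp.2.1)]
    exact congrArg₂ (· + ·) (hz' x hx) (hw' x hx)
  smul_mem' := by
    rintro c z ⟨hz, hz'⟩
    refine ⟨Submodule.smul_mem _ c hz, fun x hx => ?_⟩
    have hp := S.mem_pairs.mp hx
    simp only [ev, Pi.smul_apply]
    rw [residueConst_smul c (S.regular_of_mem_pairSpace hz _ hp.1),
      residueConst_smul c (S.regular_of_mem_pairSpace hz _ hp.2.1)]
    exact congrArg (c * ·) (hz' x hx)

theorem mem_glueSpace {m : ℕ} {z : Fin 2 → G} : z ∈ S.glueSpace m ↔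
    z ∈ S.pairSpace m ∧ ∀ x ∈ S.pairs, ev (0, x.1) z = ev (1, x.2) z := Iff.rfl

theorem glue_of_reach {m : ℕ} {z : Fin 2 → G} (hz : S.Reach z) (hm : z ∈ S.pairSpace m) :
    z ∈ S.glueSpace m :=
  ⟨hm, fun _ hx => (S.mem_pairs.mp hx).2.2 z hz⟩

theorem imgSpace_le_glueSpace (m : ℕ) :
    S.imgSpace (riemannRochSpace ((m : ℤ) • S.H)) ≤ S.glueSpace m := fun _ hz =>
  S.glue_of_reach ⟨m, hz⟩ (S.imgSpace_twist_le one_ne_zero (Rep.one S 1) m (by rwa [S.twist_one]))

/-- The points over which gluing may happen. -/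
def points : Finset (Fin 2 × Place k G) := Finset.univ ×ˢ S.crit

theorem C_points {x : Fin 2 × Place k G} (hx : x ∈ S.points) : S.C x.2 = 0 :=
  ((S.mem_crit _).mp (Finset.mem_product.mp hx).2).1

/-- A truncation order exceeding all orders of `hbar`. -/
def critOrder : ℕ := (∑ P ∈ S.crit, (P.ord S.hbar).toNat) + 1

theorem ord_hbar_le {P : Place k G} (hP : P ∈ S.crit) : P.ord S.hbar ≤ S.critOrder := by
  have h : (P.ord S.hbar).toNat ≤ ∑ Q ∈ S.crit, (Q.ord S.hbar).toNat :=
    Finset.single_le_sum (f := fun Q => (Q.ord S.hbar).toNat) (fun _ _ => Nat.zero_le _) hP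
  simp only [critOrder]
  omega

/-- Functions vanishing deeply at the special points are reached. -/
theorem reach_of_vanish {m : ℕ} {w : Fin 2 → G} (hw : w ∈ S.pairSpace m)
    (hv : ∀ x ∈ S.points, VanishesTo x.2 S.critOrder (w x.1)) : S.Reach w := by
  classical
  set m' := m + ∑ P ∈ S.C.support, (P.ord S.hbar).natAbs with hm'
  have hmem : ∀ i, w i / S.hbar ∈ riemannRochSpace ((m' : ℤ) • S.C) := by
    intro i
    rcases eq_or_ne (w i) 0 with h0 | h0
    · rw [h0, zero_div]; exact Submodule.zero_mem _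
    refine mem_rrs_iff.mpr (Or.inr fun P => ?_)
    rw [ord_div P h0 S.hbar_ne]
    have hb := (mem_rrs_iff.mp (S.mem_pairSpace.mp hw i)).resolve_left h0 P
    simp only [Finsupp.smul_apply, smul_eq_mul] at hb ⊢
    rcases eq_or_ne (S.C P) 0 with hC | hC
    · rw [hC, mul_zero, neg_zero] at hb ⊢
      by_cases hP : P ∈ S.crit
      · have h1 := (hv (i, P) (Finset.mem_product.mpr ⟨Finset.mem_univ _, hP⟩)).resolve_left h0
        have h2 := S.ord_hbar_le hP
        simp only at h1
        omega
      · have h1 := S.hbar_nonneg P hC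
        have h2 : ¬ 0 < P.ord S.hbar := fun h => hP ((S.mem_crit P).mpr ⟨hC, h⟩)
        omega
    · have hsum : (P.ord S.hbar).natAbs ≤ ∑ Q ∈ S.C.support, (Q.ord S.hbar).natAbs :=
        Finset.single_le_sum (f := fun Q => (Q.ord S.hbar).natAbs) (fun _ _ => Nat.zero_le _)
          (Finsupp.mem_support_iff.mpr hC)
      have hC1 : 1 ≤ S.C P := lt_of_le_of_ne (S.C_nonneg P) (Ne.symm hC)
      have h3 : P.ord S.hbar ≤ ((P.ord S.hbar).natAbs : ℤ) := Int.le_natAbs
      have h4 : ((P.ord S.hbar).natAbs : ℤ) ≤ ((m' : ℤ) - m) := by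
        rw [hm']; push_cast; simpa using (by exact_mod_cast hsum :
          ((P.ord S.hbar).natAbs : ℤ) ≤ ∑ Q ∈ S.C.support, ((Q.ord S.hbar).natAbs : ℤ))
      nlinarith
  have h := (S.reach_crit (hmem 0) 0).add S (S.reach_crit (hmem 1) 1)
  convert h using 1
  funext j
  fin_cases j <;> simp [mul_div_cancel₀ _ S.hbar_ne]

/-- Idempotent of a gluing class up to order `N`. -/
theorem exists_idem {x : Fin 2 × Place k G} (hx : x ∈ S.points) (N : ℕ) (hN : 0 < N) :
    ∃ e, S.Reach e ∧ ∀ y ∈ S.points,
      (S.Rel x y → VanishesTo y.2 N (e y.1 - 1)) ∧ (¬ S.Rel x y → VanishesTo y.2 N (e y.1)) := by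
  classical
  have hsep : ∀ y : Fin 2 × Place k G, ∃ z, S.Reach z ∧
      (y ∈ S.points → ¬ S.Rel x y → ev x z = 1 ∧ ev y z = 0) := by
    intro y
    by_cases hy : y ∈ S.points ∧ ¬ S.Rel x y
    · obtain ⟨hy, hr⟩ := hy
      simp only [Rel, not_forall] at hr
      obtain ⟨z, hz, hne⟩ := hr
      refine ⟨(ev x z - ev y z)⁻¹ • (z + (-ev y z) • 1),
        (hz.add S (S.reach_one.smul S _)).smul S _, fun _ _ => ?_⟩
      have key : ∀ w ∈ S.points, ev w ((ev x z - ev y z)⁻¹ • (z + (-ev y z) • 1)) =
          (ev x z - ev y z)⁻¹ * (ev w z - ev y z) := fun w hw => by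
        have hreg := hz.regular S w.1 (S.C_points hw)
        have hone : VanishesTo w.2 0 (1 : G) := Or.inr (by simp)
        simp only [ev, Pi.smul_apply, Pi.add_apply, Pi.one_apply]
        rw [residueConst_smul _ (hreg.add (hone.smul _)), residueConst_add hreg (hone.smul _),
          residueConst_smul _ hone, residueConst_one, mul_one, ← sub_eq_add_neg]
      rw [key x hx, key y hy, inv_mul_cancel₀ (sub_ne_zero.mpr hne), sub_self, mul_zero]
      exact ⟨rfl, rfl⟩
    · exact ⟨0, S.reach_zero, fun h1 h2 => absurd ⟨h1, h2⟩ hy⟩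
  choose sep hsepR hsepV using hsep
  set T := S.points.filter fun y => ¬ S.Rel x y
  set s := ∏ y ∈ T, sep y with hs
  have hsR : S.Reach s := Reach.prod S T fun y _ => hsepR y
  have hval : ∀ w ∈ S.points, ev w s = ∏ y ∈ T, ev w (sep y) := fun w hw => by
    have hC := S.C_points hw
    have hgen : ∀ U : Finset (Fin 2 × Place k G),
        ev w (∏ y ∈ U, sep y) = ∏ y ∈ U, ev w (sep y) := fun U => by
      induction U using Finset.induction with
      | empty => simp [ev, residueConst_one]
      | insert y U hy ih =>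
        rw [Finset.prod_insert hy, Finset.prod_insert hy, ← ih]
        exact residueConst_mul ((hsepR y).regular S _ hC)
          ((Reach.prod S U fun y _ => hsepR y).regular S _ hC)
    exact hgen T
  have hsx : ev x s = 1 := by
    rw [hval x hx]
    exact Finset.prod_eq_one fun y hy =>
      (hsepV y (Finset.mem_filter.mp hy).1 (Finset.mem_filter.mp hy).2).1
  refine ⟨1 - (1 - s ^ N) ^ N, S.reach_one.sub S ((S.reach_one.sub S (hsR.pow S N)).pow S N),
    fun y hy => ⟨fun hr => ?_, fun hr => ?_⟩⟩
  · have hC := S.C_points hy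
    have h1 : VanishesTo y.2 1 (1 - s y.1 ^ N) := by
      have hreg := (hsR.pow S N).regular S y.1 hC
      have hv : residueConst y.2 (s y.1 ^ N) = 1 := by
        rw [residueConst_pow (hsR.regular S _ hC),
          show residueConst y.2 (s y.1) = 1 from (hr s hsR).symm.trans hsx, one_pow]
      have := residueConst_spec y.2 ((vanishesTo_zero_iff _).mp hreg)
      rw [Pi.pow_apply, hv, map_one] at this
      simpa using this.neg
    have h2 := (VanishesTo.pow' h1 N).neg
    simpa [sub_eq_add_neg] using h2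
  · have hC := S.C_points hy
    have h0 : ev y s = 0 := by
      rw [hval y hy]
      exact Finset.prod_eq_zero (Finset.mem_filter.mpr ⟨hy, hr⟩) (hsepV y hy hr).2
    have h1 : VanishesTo y.2 1 (s y.1) := (vanishesTo_one_iff (hsR.regular S _ hC)).mpr h0
    obtain ⟨c, hc⟩ : s y.1 ^ N ∣ 1 - (1 - s y.1 ^ N) ^ N := by
      have := sub_dvd_pow_sub_pow (1 : G) (1 - s y.1 ^ N) N
      simpa using this
    simp only [Pi.sub_apply, Pi.one_apply, Pi.pow_apply]
    rcases eq_or_ne (s y.1) 0 with hz | hz
    · rw [hz, zero_pow hN.ne', sub_zero, one_pow, sub_self]; exact VanishesTo.zero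
    rw [hc]
    have hreg : VanishesTo y.2 0 c := by
      have hsum : c = ∑ i ∈ Finset.range N, (1 - s y.1 ^ N) ^ i := by
        refine mul_left_cancel₀ (pow_ne_zero N hz) (hc.symm.trans ?_)
        have := geom_sum_mul_neg (1 - s y.1 ^ N) N
        rw [sub_sub_cancel] at this
        rw [← this, mul_comm]
      rw [hsum]
      refine VanishesTo.sum _ _ fun i _ => ?_
      have h' := (S.reach_one.sub S (hsR.pow S N)).regular S y.1 hC
      simpa using VanishesTo.pow' h' i
    simpa using (VanishesTo.pow' h1 N).mul hreg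

/-- A function with a simple zero at a point vanishing doubly at the glued partner. -/
theorem exists_local {x : Fin 2 × Place k G} (hx : x ∈ S.points) :
    ∃ a, S.Reach a ∧ a x.1 ≠ 0 ∧ x.2.ord (a x.1) = 1 ∧
      ∀ y ∈ S.points, S.Rel x y → y ≠ x → VanishesTo y.2 2 (a y.1) := by
  have hC := S.C_points hx
  obtain ⟨z, hz, hz0, hzo⟩ := S.exists_simple_zero hC (S.baseLevel + 2) le_rfl
  refine ⟨_, S.reach_graph hz x.1, by simpa using hz0, by simpa using hzo, fun y hy hr hne => ?_⟩
  have hyne : y.1 ≠ x.1 := by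
    intro h
    refine hne (Prod.ext h (S.eq_of_rel (i := x.1) (S.C_points hy) hC fun w hw => ?_))
    have := (hr w hw).symm
    simp only [ev, h] at this ⊢
    exact this
  simp only [if_neg hyne]
  have h1 := hr _ (S.reach_graph hz x.1)
  simp only [ev, reduceIte, if_neg hyne] at h1
  have hvz : residueConst x.2 z = 0 := (vanishesTo_one_iff (Or.inr (by omega))).mp (Or.inr hzo.ge)
  rw [hvz] at h1
  have hreg : VanishesTo y.2 0 (S.pf z) := by
    simpa [if_neg hyne] using (S.reach_graph hz x.1).regular S y.1 (S.C_points hy)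
  rcases (vanishesTo_one_iff hreg).mpr h1.symm with h | h
  · exact Or.inl h
  · exact Or.inr (S.pf_two _ z y.2 hz (S.C_points hy) (by omega))

theorem eq_or_pair_of_rel {x y : Fin 2 × Place k G} (hx : x ∈ S.points) (hy : y ∈ S.points)
    (h : S.Rel x y) :
    x = y ∨ (x.1 = 0 ∧ y.1 = 1 ∧ S.Pair x.2 y.2) ∨ (x.1 = 1 ∧ y.1 = 0 ∧ S.Pair y.2 x.2) := by
  obtain ⟨i, P⟩ := x
  obtain ⟨j, Q⟩ := y
  have hP : S.C P = 0 := S.C_points hx
  have hQ : S.C Q = 0 := S.C_points hy
  fin_cases i <;> fin_cases j
  · exact Or.inl (congrArg _ (S.eq_of_rel hP hQ h))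
  · exact Or.inr (Or.inl ⟨rfl, rfl, hP, hQ, h⟩)
  · exact Or.inr (Or.inr ⟨rfl, rfl, hQ, hP, fun z hz => (h z hz).symm⟩)
  · exact Or.inl (congrArg _ (S.eq_of_rel hP hQ h))

theorem ev_eq_of_glue {m : ℕ} {z : Fin 2 → G} (hz : z ∈ S.glueSpace m)
    {x y : Fin 2 × Place k G} (hx : x ∈ S.points) (hy : y ∈ S.points) (h : S.Rel x y) :
    ev x z = ev y z := by
  rcases S.eq_or_pair_of_rel hx hy h with rfl | ⟨h1, h2, hp⟩ | ⟨h1, h2, hp⟩
  · rfl
  · have h3 := hz.2 _ (S.mem_pairs.mpr hp)
    simp only [ev] at h3 ⊢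
    rw [h1, h2]; exact h3
  · have h3 := hz.2 _ (S.mem_pairs.mpr hp)
    simp only [ev] at h3 ⊢
    rw [h1, h2]; exact h3.symm

/-- One step of the approximation: from order `l` to order `l + 1` at one more point. -/
theorem exists_approx_step {m : ℕ} {z : Fin 2 → G} (hz : z ∈ S.glueSpace m) (l : ℕ)
    (hprev : ∃ c, S.Reach c ∧ ∀ x ∈ S.points, VanishesTo x.2 (l : ℤ) (z x.1 - c x.1))
    (s : Finset (Fin 2 × Place k G)) (hs : s ⊆ S.points) :
    ∃ c, S.Reach c ∧ (∀ x ∈ S.points, VanishesTo x.2 (l : ℤ) (z x.1 - c x.1)) ∧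
      ∀ x ∈ s, VanishesTo x.2 ((l : ℤ) + 1) (z x.1 - c x.1) := by
  classical
  induction s using Finset.induction with
  | empty => exact hprev.imp fun c hc => ⟨hc.1, hc.2, fun x hx => absurd hx (Finset.notMem_empty x)⟩
  | insert x t hxt ih =>
    obtain ⟨c, hc, hcl, hct⟩ := ih fun y hy => hs (Finset.mem_insert_of_mem hy)
    have hx : x ∈ S.points := hs (Finset.mem_insert_self x t)
    by_cases hdone : VanishesTo x.2 ((l : ℤ) + 1) (z x.1 - c x.1)
    · refine ⟨c, hc, hcl, fun y hy => ?_⟩
      rcases Finset.mem_insert.mp hy with rfl | hy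
      · exact hdone
      · exact hct y hy
    obtain ⟨e, he, hev⟩ := S.exists_idem hx (l + 1) l.succ_pos
    obtain ⟨a, ha, ha0, ha1, hay⟩ := S.exists_local hx
    have hCx := S.C_points hx
    have hal : a x.1 ^ l ≠ 0 := pow_ne_zero _ ha0
    have hdiv : VanishesTo x.2 0 ((z x.1 - c x.1) / a x.1 ^ l) := by
      rcases hcl x hx with h0 | h0
      · exact Or.inl (by rw [h0, zero_div])
      rcases eq_or_ne (z x.1 - c x.1) 0 with h1 | h1
      · exact Or.inl (by rw [h1, zero_div])
      refine Or.inr ?_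
      rw [ord_div x.2 h1 hal, ord_pow, ha1]
      omega
    set α := residueConst x.2 ((z x.1 - c x.1) / a x.1 ^ l) with hα
    have hareg : ∀ y ∈ S.points, VanishesTo y.2 0 (a y.1) := fun y hy =>
      ha.regular S _ (S.C_points hy)
    refine ⟨c + α • (a ^ l * e), hc.add S (((ha.pow S l).mul S he).smul S α), ?_, ?_⟩
    · intro y hy
      have h1 : VanishesTo y.2 (l : ℤ) (a y.1 ^ l * e y.1) := by
        by_cases hr : S.Rel x y
        · have hy1 : VanishesTo y.2 1 (a y.1) := by
            by_cases hyx : y = x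
            · subst hyx; exact Or.inr ha1.ge
            · exact (hay y hy hr hyx).mono (by norm_num)
          simpa using (VanishesTo.pow' hy1 l).mul (he.regular S y.1 (S.C_points hy))
        · have := (VanishesTo.pow' (hareg y hy) l).mul ((hev y hy).2 hr)
          exact this.mono (by push_cast; omega)
      simpa [sub_add_eq_sub_sub] using (hcl y hy).sub (h1.smul α)
    · intro y hy
      have hy' : y ∈ S.points := hs hy
      simp only [Pi.add_apply, Pi.smul_apply, Pi.mul_apply, Pi.pow_apply, sub_add_eq_sub_sub]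
      by_cases hyx : y = x
      · subst hyx
        have h1 := residueConst_spec y.2 ((vanishesTo_zero_iff _).mp hdiv)
        rw [← hα] at h1
        have h2 := (VanishesTo.pow' (show VanishesTo y.2 1 (a y.1) from Or.inr ha1.ge) l).mul h1
        rw [mul_sub, mul_div_cancel₀ _ hal, mul_one] at h2
        have h3 := ((VanishesTo.pow' (show VanishesTo y.2 1 (a y.1) from Or.inr ha1.ge) l).mul
          ((hev y hy').1 fun _ _ => rfl)).smul α
        have h4 := h2.sub (h3.mono (show ((l : ℤ) + 1) ≤ (l : ℤ) * 1 + ((l + 1 : ℕ) : ℤ) by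
          push_cast; omega))
        convert h4 using 1
        simp only [Algebra.smul_def]
        ring
      · have hyt : y ∈ t := (Finset.mem_insert.mp hy).resolve_left hyx
        refine (hct y hyt).sub (VanishesTo.smul α ?_)
        by_cases hr : S.Rel x y
        · rcases Nat.eq_zero_or_pos l with rfl | hl
          · exfalso
            refine hdone ?_
            have hzreg : ∀ w ∈ S.points, VanishesTo w.2 0 (z w.1) := fun w hw =>
              S.regular_of_mem_pairSpace hz.1 _ (S.C_points hw)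
            have hcreg : ∀ w ∈ S.points, VanishesTo w.2 0 (c w.1) := fun w hw =>
              hc.regular S _ (S.C_points hw)
            have hsplit : ∀ w ∈ S.points, residueConst w.2 (z w.1 - c w.1) = ev w z - ev w c :=
              fun w hw => by
                have := residueConst_add ((hzreg w hw).sub (hcreg w hw)) (hcreg w hw)
                rw [sub_add_cancel] at this
                simp only [ev]
                rw [this, add_sub_cancel_right]
            have h1 : VanishesTo y.2 1 (z y.1 - c y.1) := by simpa using hct y hyt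
            rw [vanishesTo_one_iff ((hzreg y hy').sub (hcreg y hy')), hsplit y hy'] at h1
            have h2 : VanishesTo x.2 1 (z x.1 - c x.1) := by
              rw [vanishesTo_one_iff ((hzreg x hx).sub (hcreg x hx)), hsplit x hx,
                S.ev_eq_of_glue hz hx hy' hr, hr c hc]
              exact h1
            simpa using h2
          · have := (VanishesTo.pow' (hay y hy' hr hyx) l).mul (he.regular S y.1 (S.C_points hy'))
            exact this.mono (by omega)
        · have := (VanishesTo.pow' (hareg y hy') l).mul ((hev y hy').2 hr)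
          exact this.mono (by push_cast; omega)

/-- Every glued pair of functions is reached by reductions. -/
theorem reach_of_glue {m : ℕ} {z : Fin 2 → G} (hz : z ∈ S.glueSpace m) : S.Reach z := by
  have key : ∀ l : ℕ, ∃ c, S.Reach c ∧ ∀ x ∈ S.points, VanishesTo x.2 (l : ℤ) (z x.1 - c x.1) := by
    intro l
    induction l with
    | zero =>
      exact ⟨0, S.reach_zero, fun x hx => by
        simpa using S.regular_of_mem_pairSpace hz.1 x.1 (S.C_points hx)⟩
    | succ l ih =>
      obtain ⟨c, hc, -, hcs⟩ := S.exists_approx_step hz l ih S.points subset_rfl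
      exact ⟨c, hc, fun x hx => by exact_mod_cast hcs x hx⟩
  obtain ⟨c, hc, hcv⟩ := key S.critOrder
  obtain ⟨m', hm'⟩ := hc.mem_pairSpace S
  have hw : z - c ∈ S.pairSpace (max m m') :=
    sub_mem (S.pairSpace_mono (le_max_left _ _) hz.1) (S.pairSpace_mono (le_max_right _ _) hm')
  have := (S.reach_of_vanish hw hcv).add S hc
  rwa [sub_add_cancel] at this

end SplitModel

end Fermat.Agent.SemistableRed

end
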