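import Fermat.Agent.SemistableRed.Toric

/-!
# The Frobenius composed with `w_q` on the gluing datum

An automorphism exchanging the components through `t`, with `t` exchanging the two members of
each glued pair, raises the gluing datum to the power `- e`. So `w_q φ = - q` on classes with a
representative congruent to one, which gives the toric relations with their sign.
-/

set_option autoImplicit false
set_option linter.unusedSectionVars false

noncomputable section

open AlgebraicCurve Fermat.Agent.FunctionFieldRR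

namespace Fermat.Agent.SemistableRed

namespace SplitModel

variable {L : Type*} [Field L] [IsAlgClosed L] {A : ValuationSubring L} {k : Type*} [Field k]
  [IsAlgClosed k] {π : A →+* k} {F : Type*} [Field F] [Algebra L F] [IsFunctionField L F]
  {G : Type*} [Field G] [Algebra k G] [IsFunctionField k G]
variable (S : SplitModel A π F G) {n : ℕ}

/-- `s` maps each component to the other one through `t`, which acts by `c ↦ c ^ e` on
constants. -/
structure SwapCompatible (s : SemilinearAut L F) (t : SemilinearAut k G) (e : ℕ) : Prop where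
  int : ∀ i f, S.Int (1 - i) f → S.Int i (s • f)
  red : ∀ i f, S.Int (1 - i) f → S.red i (s • f) = t • S.red (1 - i) f
  H_inv : ∀ P, S.H (s • P) = S.H P
  C_inv : ∀ P, S.C (t • P) = S.C P
  base : ∀ c, SemilinearAut.baseAut t c = c ^ e

variable {S} {s : SemilinearAut L F} {t : SemilinearAut k G} {e : ℕ}

theorem residueConst_smul_aut (hb : ∀ c, SemilinearAut.baseAut t c = c ^ e) {P : Place k G} {f : G}
    (hf : VanishesTo P 0 f) : residueConst (t • P) (t • f) = residueConst P f ^ e := by
  refine residueConst_eq _ ?_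
  have hspec := residueConst_spec P ((vanishesTo_zero_iff P).mp hf)
  have he : t • f - algebraMap k G (residueConst P f ^ e) =
      t • (f - algebraMap k G (residueConst P f)) := by
    rw [smul_sub, SemilinearAut.smul_algebraMap, hb]
  rcases hspec with h0 | h0
  · exact Or.inl (by rw [he, h0, smul_zero])
  · exact Or.inr (by rw [he, SemilinearAut.ord_smul]; exact h0)

variable (hb : ∀ c, SemilinearAut.baseAut t c = c ^ e) (hC : ∀ P, S.C (t • P) = S.C P)

include hb hC in
/-- `t` exchanges the two members of a glued pair. -/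
theorem smul_of_rel (hpf : ∀ z, t • S.pf z = z ^ e) {i : Fin 2} {P Q : Place k G}
    (hP : S.C P = 0) (hQ : S.C Q = 0) (hrel : S.Rel (i, P) (1 - i, Q)) : t • P = Q := by
  have hne : (1 - i : Fin 2) ≠ i := (by decide : ∀ j : Fin 2, (1 - j : Fin 2) ≠ j) i
  have hPt : S.C (t • P) = 0 := by rw [hC, hP]
  have hfrob : Function.Injective fun c : k => c ^ e := fun a b hab =>
    (SemilinearAut.baseAut t).injective (by rw [hb, hb]; exact hab)
  by_contra hne'
  classical
  obtain ⟨z, hz, hv⟩ := S.exists_values {t • P, Q} (by simp [hPt, hQ]) _ le_rfl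
    fun y => if (y : Place k G) = Q then 1 else 0
  have h1 := hrel _ (S.reach_graph hz (1 - i))
  obtain ⟨m, hw⟩ := (S.reach_graph hz (1 - i)).mem_pairSpace S
  have hreg : VanishesTo P 0 (S.pf z) := by
    simpa [hne.symm] using S.regular_of_mem_pairSpace hw i hP
  have hzr : VanishesTo (t • P) 0 z :=
    (mem_rrs_iff.mp hz).imp id fun h' => by simpa [hPt] using h' (t • P)
  simp only [ev, if_neg hne.symm, if_true] at h1
  have h3 := residueConst_smul_aut hb hreg
  rw [hpf, residueConst_pow hzr, h1] at h3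
  have h4 := hfrob h3
  rw [hv ⟨Q, by simp⟩, hv ⟨t • P, by simp⟩] at h4
  simp [hne'] at h4

variable (h : S.SwapCompatible s t e)

/-- The image of a representative. -/
def SwapCompatible.mapRep (R : S.Rep n) : S.Rep n where
  u := s • R.u
  D := s • R.D
  u_ne := (smul_ne_zero_iff_ne s).mpr R.u_ne
  ord_u P := by
    have := SemilinearAut.ord_smul s (s⁻¹ • P) R.u
    rw [smul_inv_smul] at this
    rw [this, R.ord_u, SemilinearAut.divisor_smul_apply]
  degree_D := by rw [SemilinearAut.degree_smul, R.degree_D]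
  int i := h.int i _ (R.int (1 - i))
  red_u i := by rw [h.red i _ (R.int (1 - i)), R.red_u, smul_one]

theorem SwapCompatible.cls_mapRep (R : S.Rep n) :
    Rep.cls S (h.mapRep R) = s • Rep.cls S R :=
  (SemilinearAut.pic0_smul_mk s ⟨R.D, Divisor.mem_degZero.mpr R.degree_D⟩).symm

include h in
theorem SwapCompatible.mem_twist {R : S.Rep n} {m : ℕ} {f : F}
    (hf : f ∈ S.twist R m) : s • f ∈ S.twist (h.mapRep R) m := by
  rcases eq_or_ne f 0 with rfl | h0
  · rw [smul_zero]; exact Submodule.zero_mem _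
  refine mem_rrs_iff.mpr (Or.inr fun P => ?_)
  have h1 := (mem_rrs_iff.mp hf).resolve_left h0 (s⁻¹ • P)
  have h2 := SemilinearAut.ord_smul s (s⁻¹ • P) f
  rw [smul_inv_smul] at h2
  have h3 := h.H_inv (s⁻¹ • P)
  rw [smul_inv_smul] at h3
  simp only [SwapCompatible.mapRep, Finsupp.add_apply, Finsupp.smul_apply, smul_eq_mul,
    SemilinearAut.divisor_smul_apply] at h1 ⊢
  rw [h3, h2]
  exact h1

include h in
/-- The gluing datum of the image is the `- e`-th power. -/
theorem SwapCompatible.zeta_mul (hpf : ∀ z, t • S.pf z = z ^ e) {R : S.Rep n}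
    {ζ η : S.pairs → k} (hζ : S.HasZeta R ζ) (hη : S.HasZeta (h.mapRep R) η) :
    η * ζ ^ e = 1 := by
  obtain ⟨z, hz, hv⟩ := S.exists_pair_values (le_refl S.evalLevel) ζ 1
  have hmem : z ∈ S.imgSpace (S.twist R S.evalLevel) := by
    rw [hζ _ le_rfl]
    exact S.mem_zetaSpace.mpr ⟨hz, fun x => by rw [(hv x).1, (hv x).2]; simp⟩
  obtain ⟨f, hf, hfi, hfr⟩ := hmem
  have himg : (fun i => t • z (1 - i)) ∈ S.imgSpace (S.twist (h.mapRep R) S.evalLevel) :=
    ⟨s • f, h.mem_twist hf, fun i => h.int i f (hfi _), funext fun i => by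
      show S.red i (s • f) = t • z (1 - i)
      rw [h.red i f (hfi _), ← hfr]; rfl⟩
  rw [hη _ le_rfl] at himg
  funext x
  obtain ⟨hP, hQ, hrel⟩ := S.mem_pairs.mp x.2
  have e1 := smul_of_rel h.base h.C_inv hpf (i := 0) hP hQ hrel
  have e2 := smul_of_rel h.base h.C_inv hpf (i := 1) hQ hP fun w hw => (hrel w hw).symm
  have h0 : ev (0, (x : Place k G × Place k G).1) (fun i => t • z (1 - i)) = 1 := by
    show residueConst _ (t • z 1) = _
    conv_lhs => rw [← e2]
    rw [residueConst_smul_aut h.base (S.regular_of_mem_pairSpace hz 1 hQ)]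
    have h0' := (hv x).2
    simp only [ev, Pi.one_apply] at h0'
    rw [h0', one_pow]
  have h1 : ev (1, (x : Place k G × Place k G).2) (fun i => t • z (1 - i)) = ζ x ^ e := by
    show residueConst _ (t • z 0) = _
    conv_lhs => rw [← e1]
    rw [residueConst_smul_aut h.base (S.regular_of_mem_pairSpace hz 0 hP)]
    exact congrArg (· ^ e) (hv x).1
  have h2 := (S.mem_zetaSpace.mp himg).2 x
  rw [h0, h1] at h2
  exact h2.symm

include h in
/-- `s + e` kills the classes with a representative congruent to one. -/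
theorem SwapCompatible.smul_cls (hn : (n : k) ≠ 0) (hpf : ∀ z, t • S.pf z = z ^ e) (R : S.Rep n) :
    s • Rep.cls S R + e • Rep.cls S R = 0 := by
  have hn0 : n ≠ 0 := fun h0 => hn (by rw [h0, Nat.cast_zero])
  obtain ⟨ζ, -, hζ⟩ := S.exists_hasZeta hn0 R
  obtain ⟨η, -, hη⟩ := S.exists_hasZeta hn0 (h.mapRep R)
  have h1 := HasZeta.mul S hn0 hη (HasZeta.npow S hn0 hζ e)
  rw [h.zeta_mul hpf hζ hη] at h1
  have h2 := S.cls_eq_zero hn h1
  rwa [Rep.cls_mul, h.cls_mapRep, Rep.cls_npow] at h2

omit h in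
/-- A representative of `(s² - 1) x` when the norms of the reductions of `x` are powers. -/
theorem Compatible.exists_rep_sq {s : SemilinearAut L F} (h : S.Compatible s t e) (hn : n ≠ 0)
    (D : Divisor.degZero (K := L) (F := F)) {u : F} (hu : u ≠ 0)
    (hD : ∀ P, P.ord u = (n : ℤ) * (D : Divisor L F) P) (c : Fin 2 → L) (y : Fin 2 → G)
    (hy : ∀ i, y i ≠ 0 ∧ S.Int i (c i • u) ∧ S.red i (c i • u) ≠ 0)
    (hnorm : ∀ i, S.red i (c i • u) * t • S.red (1 - i) (c (1 - i) • u) = y i ^ n) :
    ∃ R : S.Rep n, Rep.cls S R = s • s • Pic0.mk D - Pic0.mk D := by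
  obtain ⟨R, hR⟩ := (h.mul h).exists_rep_diff hn D hu hD c
    (fun i => t • y (1 - i) / y i) fun i => by
    refine ⟨div_ne_zero ((smul_ne_zero_iff_ne t).mpr (hy _).1) (hy i).1, (hy i).2.1, (hy i).2.2, ?_⟩
    have hrev : (1 - (1 - i) : Fin 2) = i := sub_sub_cancel 1 i
    have h1 := congrArg (t • ·) (hnorm (1 - i))
    simp only [smul_mul', smul_pow', hrev] at h1
    have h2 := hnorm i
    show (t * t) • S.red i (c i • u) = S.red i (c i • u) * (t • y (1 - i) / y i) ^ n
    rw [div_pow, ← h1, ← h2, mul_smul]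
    have hz1 : S.red i (c i • u) ≠ 0 := (hy i).2.2
    have hz2 : t • S.red (1 - i) (c (1 - i) • u) ≠ 0 :=
      (smul_ne_zero_iff_ne t).mpr (hy _).2.2
    field_simp
  exact ⟨R, hR.trans (by rw [mul_smul])⟩

end SplitModel

open IsLocalRing ModularCurve Fermat.Agent.Reduction

local notation "Qbar" => AlgebraicClosure ℚ

variable {A : ValuationSubring Qbar} {M q : ℕ} [NeZero M] [NeZero q] [Fact q.Prime]
  [CharP (ResidueField A) q] [IsAlgClosed (ResidueField A)] (S : Setting A M q)

local notation "gal" => arithmeticGalois (L := AlgebraicClosure ℚ) (modularFunctionFieldFull (M * q))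

namespace Setting

/-- `w_q φ` exchanges the components through the Frobenius of the residue field. -/
theorem swapCompatible {φ : Qbar ≃ₐ[ℚ] Qbar} {t : SemilinearAut (ResidueField A)
      (modularFunctionFieldFullC (ResidueField A) M)} {e : ℕ}
    (hc : S.splitModel.Compatible (gal φ) t e) :
    S.splitModel.SwapCompatible (SemilinearAut.ofAlgAut S.w * gal φ) t e where
  int i f hf := by
    rw [mul_smul]
    exact (S.red_w (hc.int (1 - i) f hf)).1
  red i f hf := by
    rw [mul_smul]
    exact (S.red_w (hc.int (1 - i) f hf)).2.trans (hc.red (1 - i) f hf)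
  H_inv P := by
    rw [mul_smul]
    exact (S.polesH_smul_w _).trans (hc.H_inv P)
  C_inv := hc.C_inv
  base := hc.base

include S in
/-- `φ = - q w_q` on classes with a representative congruent to one. -/
theorem smul_cls_add {φ : Qbar ≃ₐ[ℚ] Qbar} (hφ : A.IsFrobeniusAt φ q) {n : ℕ}
    (hn : (n : ResidueField A) ≠ 0) (R : S.splitModel.Rep n) :
    φ • (SplitModel.Rep.cls S.splitModel R : JZero (M * q)) +
      q • (SemilinearAut.ofAlgAut S.w • SplitModel.Rep.cls S.splitModel R) = 0 := by
  have := isFunctionField_level (M * q)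
  have := S.isFunctionField_C
  obtain ⟨hs, hact⟩ := hφ
  have hc := S.compatible hs (frobenius (ResidueField A) q)
    (fun a => (ResidueField.residue_smul _ (⟨φ, hs⟩ : A.decompositionSubgroup ℚ) a).trans (hact _))
    (frobG (ResidueField A) M q) (fun z => coe_frobG_smul _ M q z) (e := q)
    (baseAut_frobG _ M q)
  have h := congrArg (SemilinearAut.ofAlgAut S.w • ·)
    ((S.swapCompatible hc).smul_cls hn (fun z => frobG_smul_piG _ M q z) R)
  have hw : SemilinearAut.ofAlgAut S.w * SemilinearAut.ofAlgAut S.w =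
      (1 : SemilinearAut Qbar (modularFunctionFieldBar (M * q))) := by
    rw [← map_mul, ← map_one SemilinearAut.ofAlgAut]
    exact congrArg _ (AlgEquiv.ext S.w_w)
  simp only [smul_add, smul_comm (SemilinearAut.ofAlgAut S.w) q, smul_smul,
    ← mul_assoc, hw, one_mul] at h
  exact h

include S in
/-- `(φ + q w_q) (τ - 1) = 0` on torsion of order prime to `q`, for `τ` in inertia. -/
theorem signed_monodromy {φ τ : Qbar ≃ₐ[ℚ] Qbar} (hφ : A.IsFrobeniusAt φ q)
    (hτ : τ ∈ A.inertiaSubgroupIn ℚ) {n : ℕ} (hn : n.Coprime q) (x : JZero (M * q))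
    (hx : n • x = 0) :
    φ • (τ • x - x) + q • (SemilinearAut.ofAlgAut S.w • (τ • x - x)) = 0 := by
  have := isFunctionField_level (M * q)
  have := S.isFunctionField_C
  have hnk : (n : ResidueField A) ≠ 0 := natCast_residue_ne_zero S.above
    fun h => S.prime.not_dvd_one (hn ▸ Nat.dvd_gcd h dvd_rfl)
  have hn0 : n ≠ 0 := fun h0 => hnk (by rw [h0, Nat.cast_zero])
  obtain ⟨⟨σ, hs⟩, hker, rfl⟩ := hτ
  have hc := S.compatible (σ := σ) hs (RingHom.id _)
    (fun a => (ResidueField.residue_smul _ (⟨σ, hs⟩ : A.decompositionSubgroup ℚ) a).trans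
      (RingEquiv.congr_fun (MonoidHom.mem_ker.1 hker) _))
    1 (fun z => by rw [one_smul, coeffMap_id]) (e := 1)
    (fun c => by rw [SemilinearAut.baseAut_one, pow_one]; rfl)
  obtain ⟨D, u, rfl, hu, hD⟩ := SplitModel.exists_function x hx
  choose c hc' hcr using fun i => S.normalise i u hu
  obtain ⟨R, hR⟩ := hc.exists_rep_diff hn0 D hu hD c (fun _ => 1) fun i =>
    ⟨one_ne_zero, hc' i, hcr i, by rw [one_smul, one_pow, mul_one]⟩
  have h := S.smul_cls_add hφ hnk R
  rw [hR] at h
  exact h

set_option maxHeartbeats 400000 in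
include S in
/-- `(φ + q w_q) (φ² - 1) = 0` on classes killed by both norms. -/
theorem signed_toric {φ : Qbar ≃ₐ[ℚ] Qbar} (hφ : A.IsFrobeniusAt φ q) {n : ℕ} (hn : n.Coprime q)
    (hα : HeckeAlphaBarIntegral Qbar M q) (hβ : HeckeBetaBarIntegral Qbar M q)
    (D : Divisor.degZero (K := Qbar) (F := modularFunctionFieldBar (M * q)))
    (hx : n • Pic0.mk D = 0)
    (hDα : PushTrivial (heckeAlphaBar Qbar M q) hα
      (D : Divisor Qbar (modularFunctionFieldBar (M * q))))
    (hDβ : PushTrivial (heckeBetaBar Qbar M q) hβ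
      (D : Divisor Qbar (modularFunctionFieldBar (M * q)))) :
    φ • (φ • φ • Pic0.mk D - Pic0.mk D) +
      q • (SemilinearAut.ofAlgAut S.w • (φ • φ • Pic0.mk D - Pic0.mk D)) = 0 := by
  have := isFunctionField_level M
  have := isFunctionField_level (M * q)
  have := S.isFunctionField_C
  have hφ' := hφ
  obtain ⟨hs, hact⟩ := hφ'
  have hnk : (n : ResidueField A) ≠ 0 := natCast_residue_ne_zero S.above
    fun h => S.prime.not_dvd_one (hn ▸ Nat.dvd_gcd h dvd_rfl)
  have hn0 : n ≠ 0 := fun h0 => hnk (by rw [h0, Nat.cast_zero])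
  have hc := S.compatible hs (frobenius (ResidueField A) q)
    (fun a => (ResidueField.residue_smul _ (⟨φ, hs⟩ : A.decompositionSubgroup ℚ) a).trans (hact _))
    (frobG (ResidueField A) M q) (fun z => coe_frobG_smul _ M q z) (e := q)
    (baseAut_frobG _ M q)
  have hp : n • D ∈ (Divisor.principal (K := Qbar)
      (F := modularFunctionFieldBar (M * q))).addSubgroupOf _ :=
    (QuotientAddGroup.eq_zero_iff (n • D)).mp hx
  obtain ⟨u, hu, hu'⟩ := hp
  have hD : ∀ P, P.ord u = (n : ℤ) * (D : Divisor Qbar (modularFunctionFieldBar (M * q))) P :=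
    fun P => by rw [← hu' P]; simp
  choose c hc' hcr using fun i => S.normalise i u hu
  have hwu : ∀ i, S.gauss.Int i (c (1 - i) • S.w u) ∧
      S.gauss.red i (c (1 - i) • S.w u) = S.gauss.red (1 - i) (c (1 - i) • u) := fun i => by
    rw [← S.w_smul]; exact S.red_w (hc' _)
  obtain ⟨gα, hgα, hgα'⟩ := hDα
  obtain ⟨gβ, hgβ, hgβ'⟩ := hDβ
  obtain ⟨aα, hNα, -⟩ := normAlong_eq_pow _ hα hu hD hgα hgα'
  obtain ⟨aβ, hNβ, -⟩ := normAlong_eq_pow _ hβ hu hD hgβ hgβ'
  rw [normAlong_comp (heckeBetaBar Qbar M q) S.w (φ := heckeAlphaBar Qbar M q)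
    (fun x => wq_heckeBetaBar _ _ x)] at hNβ
  obtain ⟨y0, hy0, hy0'⟩ := S.exists_root hn0 hgα hNα (c := c) fun i => ⟨hc' i, hcr i⟩
  obtain ⟨y1, hy1, hy1'⟩ := S.exists_root hn0 hgβ hNβ (c := fun i => c (1 - i))
    fun i => ⟨(hwu i).1, by rw [(hwu i).2]; exact hcr _⟩
  rw [(hwu 0).2, (hwu 1).2] at hy1'
  obtain ⟨R, hR⟩ := hc.exists_rep_sq hn0 D hu hD c ![y0, y1] (fun i => by
      obtain rfl | rfl : i = 0 ∨ i = 1 := by omega
      · exact ⟨hy0, hc' _, hcr _⟩
      · exact ⟨hy1, hc' _, hcr _⟩) fun i => by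
    obtain rfl | rfl : i = 0 ∨ i = 1 := by omega
    · exact hy0'
    · exact hy1'
  have h := S.smul_cls_add hφ hnk R
  rw [hR] at h
  exact h

end Setting

end Fermat.Agent.SemistableRed

end
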