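import Fermat.Agent.SemistableRed.Injective
import Fermat.Agent.FunctionFieldRR.RationalBase
import Fermat.Prelude.Def_AlgebraicCurve_DivisorClassGroup

/-!
# Representatives of torsion classes

A class of order dividing `n` whose defining function reduces to `n`-th powers on both components
has a representative congruent to one; classes with the same gluing datum are equal.
-/

set_option autoImplicit false
set_option linter.unusedSectionVars false

noncomputable section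

open AlgebraicCurve Fermat.Agent.FunctionFieldRR

namespace Fermat.Agent.SemistableRed.SplitModel

variable {L : Type*} [Field L] [IsAlgClosed L] {A : ValuationSubring L} {k : Type*} [Field k]
  [IsAlgClosed k] {π : A →+* k} {F : Type*} [Field F] [Algebra L F] [IsFunctionField L F]
  {G : Type*} [Field G] [Algebra k G] [IsFunctionField k G]
variable (S : SplitModel A π F G) {n : ℕ}

theorem mul_int_smul {i : Fin 2} {a b : L} {x y : F} (hx : S.Int i (a • x))
    (hy : S.Int i (b • y)) :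
    S.Int i ((a * b) • (x * y)) ∧
      S.red i ((a * b) • (x * y)) = S.red i (a • x) * S.red i (b • y) := by
  rw [← smul_mul_smul_comm]
  exact ⟨S.int_mul i _ _ hx hy, S.red_mul i _ _ hx hy⟩

/-- A function congruent to one on both components, the second after scaling by `s ∈ A`. -/
theorem exists_ratio_aux (s : L) (hs : s ∈ A) (hs0 : s ≠ 0) :
    ∃ f : F, S.Int 0 f ∧ S.red 0 f = 1 ∧ S.Int 1 (s • f) ∧ S.red 1 (s • f) = 1 := by
  obtain ⟨e1, he1⟩ := S.exists_lift ![1, 0]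
  obtain ⟨e2, he2⟩ := S.exists_lift ![0, 1]
  have h10 := he1 0
  have h11 := he1 1
  have h20 := he2 0
  have h21 := he2 1
  simp only [Matrix.cons_val_zero, Matrix.cons_val_one] at h10 h11 h20 h21
  obtain ⟨b, hb0, hbπ, hdiv⟩ : ∃ b : A, (b : L) ≠ 0 ∧ π b = 0 ∧ S.Int 0 ((b : L)⁻¹ • e2) := by
    obtain ⟨b, hb0, hbπ, hdiv⟩ := S.exists_divisor h20.1 h20.2
    refine ⟨b, hb0, hbπ, ?_⟩
    exact hdiv (b : L) hb0 (by rw [div_self hb0]; exact A.one_mem)
  obtain ⟨m, hm⟩ := S.rankOne s hs0 b hbπ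
  have hq : (b : L) ^ (m + 1) / s ∈ A := by
    rw [pow_succ, mul_comm, mul_div_assoc]
    exact A.mul_mem _ _ b.2 hm
  have hqπ : π ⟨_, hq⟩ = 0 := by
    have he : (⟨_, hq⟩ : A) = b * ⟨_, hm⟩ := Subtype.ext (by
      show (b : L) ^ (m + 1) / s = (b : L) * ((b : L) ^ m / s)
      rw [pow_succ]; ring)
    rw [he, map_mul, hbπ, zero_mul]
  have hkey : s⁻¹ • e2 ^ (m + 1) = ((b : L) ^ (m + 1) / s) • ((b : L)⁻¹ • e2) ^ (m + 1) := by
    rw [smul_pow, smul_smul, inv_pow]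
    congr 1
    field_simp
  have hint0 : S.Int 0 (s⁻¹ • e2 ^ (m + 1)) := by
    rw [hkey]; exact S.int_smul 0 _ _ hq (S.int_pow hdiv _)
  refine ⟨e1 + s⁻¹ • e2 ^ (m + 1), S.int_add 0 _ _ h10.1 hint0, ?_, ?_⟩
  · rw [S.red_add 0 _ _ h10.1 hint0, h10.2, hkey, S.smul_mem_zero hq hqπ (S.int_pow hdiv _),
      add_zero]
  have h1 := S.int_smul 1 s e1 hs h11.1
  have h2 : S.Int 1 (e2 ^ (m + 1)) := S.int_pow h21.1 _
  rw [smul_add, smul_smul, mul_inv_cancel₀ hs0, one_smul]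
  refine ⟨S.int_add 1 _ _ h1 h2, ?_⟩
  rw [S.red_add 1 _ _ h1 h2, S.red_smul 1 s e1 hs h11.1, h11.2, smul_zero, zero_add,
    S.red_pow h21.1, h21.2, one_pow]

theorem exists_ratio (s : L) (hs0 : s ≠ 0) :
    ∃ f : F, S.Int 0 f ∧ S.red 0 f = 1 ∧ S.Int 1 (s • f) ∧ S.red 1 (s • f) = 1 := by
  rcases A.mem_or_inv_mem s with hs | hs
  · exact S.exists_ratio_aux s hs hs0
  obtain ⟨f, h0, h0', h1, h1'⟩ := S.exists_ratio_aux s⁻¹ hs (inv_ne_zero hs0)
  obtain ⟨a0, a0'⟩ := S.int_inv h0 (by rw [h0']; exact one_ne_zero)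
  obtain ⟨a1, a1'⟩ := S.int_inv h1 (by rw [h1']; exact one_ne_zero)
  have he : (s⁻¹ • f)⁻¹ = s • f⁻¹ := by
    rw [Algebra.smul_def, Algebra.smul_def, mul_inv, ← map_inv₀, inv_inv]
  rw [he] at a1 a1'
  exact ⟨f⁻¹, a0, by rw [a0', h0', inv_one], a1, by rw [a1', h1', inv_one]⟩

/-- Prescribing scalars and reductions on both components. -/
theorem exists_scaled_lift (s : Fin 2 → L) (hs : ∀ i, s i ≠ 0) (y : Fin 2 → G)
    (hy : ∀ i, y i ≠ 0) :
    ∃ f : F, f ≠ 0 ∧ ∀ i, S.Int i (s i • f) ∧ S.red i (s i • f) = y i := by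
  obtain ⟨g, h0, h0', h1, h1'⟩ := S.exists_ratio (s 1 / s 0) (div_ne_zero (hs 1) (hs 0))
  obtain ⟨l, hl⟩ := S.exists_lift y
  refine ⟨(s 0)⁻¹ • (g * l), ?_, ?_⟩
  · have hg : g ≠ 0 := S.ne_zero_of_red_ne (i := 0) (by rw [h0']; exact one_ne_zero)
    have hl0 : l ≠ 0 := S.ne_zero_of_red_ne (i := 0) (by rw [(hl 0).2]; exact hy 0)
    exact smul_ne_zero (inv_ne_zero (hs 0)) (mul_ne_zero hg hl0)
  intro i
  fin_cases i
  · simp only [Fin.zero_eta, smul_smul, mul_inv_cancel₀ (hs 0), one_smul]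
    exact ⟨S.int_mul 0 _ _ h0 (hl 0).1, by rw [S.red_mul 0 _ _ h0 (hl 0).1, h0', (hl 0).2, one_mul]⟩
  · simp only [Fin.mk_one, smul_smul, ← div_eq_mul_inv, ← smul_mul_assoc]
    exact ⟨S.int_mul 1 _ _ h1 (hl 1).1, by rw [S.red_mul 1 _ _ h1 (hl 1).1, h1', (hl 1).2, one_mul]⟩

/-- The class of a representative. -/
def Rep.cls (R : S.Rep n) : Pic0 L F :=
  Pic0.mk ⟨R.D, Divisor.mem_degZero.mpr R.degree_D⟩

theorem Rep.ext' {R R' : S.Rep n} (hu : R.u = R'.u) (hD : R.D = R'.D) : R = R' := by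
  cases R; cases R'; simp only at hu hD; subst hu; subst hD; rfl

/-- The inverse representative. -/
def Rep.inv (R : S.Rep n) : S.Rep n where
  u := R.u⁻¹
  D := -R.D
  u_ne := inv_ne_zero R.u_ne
  ord_u P := by rw [P.ord_inv, R.ord_u, Finsupp.neg_apply]; ring
  degree_D := by rw [map_neg, R.degree_D, neg_zero]
  int i := (S.int_inv (R.int i) (by rw [R.red_u]; exact one_ne_zero)).1
  red_u i := by
    rw [(S.int_inv (R.int i) (by rw [R.red_u]; exact one_ne_zero)).2, R.red_u, inv_one]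

/-- Powers of a representative. -/
def Rep.npow (R : S.Rep n) : ℕ → S.Rep n
  | 0 => Rep.one S n
  | m + 1 => (Rep.npow R m).mul R

theorem Rep.cls_one : Rep.cls S (Rep.one S n) = 0 := rfl

theorem Rep.cls_mul (R R' : S.Rep n) : Rep.cls S (R.mul R') = Rep.cls S R + Rep.cls S R' := rfl

theorem Rep.cls_inv (R : S.Rep n) : Rep.cls S (Rep.inv S R) = -Rep.cls S R := rfl

theorem Rep.cls_npow (R : S.Rep n) (m : ℕ) : Rep.cls S (Rep.npow S R m) = m • Rep.cls S R := by
  induction m with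
  | zero => simp only [zero_nsmul]; exact Rep.cls_one S
  | succ m ih => rw [show Rep.npow S R (m + 1) = (Rep.npow S R m).mul R from rfl, Rep.cls_mul, ih,
      succ_nsmul]

theorem HasZeta.npow (hn : n ≠ 0) {R : S.Rep n} {ζ : S.pairs → k} (h : S.HasZeta R ζ) (m : ℕ) :
    S.HasZeta (Rep.npow S R m) (ζ ^ m) := by
  induction m with
  | zero => rw [pow_zero]; exact S.hasZeta_one
  | succ m ih => rw [pow_succ]; exact HasZeta.mul S hn ih h

theorem cls_eq_zero (hn : (n : k) ≠ 0) {R : S.Rep n} (h : S.HasZeta R 1) : Rep.cls S R = 0 := by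
  obtain ⟨c, f, hf, he⟩ := S.eq_const_mul_pow n hn R h
  have hc : c ≠ 0 := fun h0 => R.u_ne (by rw [he, h0, map_zero, zero_mul])
  have hn0 : n ≠ 0 := fun h0 => hn (by rw [h0, Nat.cast_zero])
  refine (QuotientAddGroup.eq_zero_iff _).mpr ?_
  simp only [AddSubgroup.mem_addSubgroupOf]
  refine ⟨f, hf, fun P => ?_⟩
  have h1 := R.ord_u P
  rw [he, P.ord_mul ((map_ne_zero _).mpr hc) (pow_ne_zero _ hf), ord_pow, ord_algebraMap,
    zero_add] at h1
  exact (mul_left_cancel₀ (by exact_mod_cast hn0) h1).symm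

theorem cls_eq_of_hasZeta (hn : (n : k) ≠ 0) {R R' : S.Rep n} {ζ : S.pairs → k}
    (h : S.HasZeta R ζ) (h' : S.HasZeta R' ζ) : Rep.cls S R' = Rep.cls S R := by
  have hn0 : n ≠ 0 := fun h0 => hn (by rw [h0, Nat.cast_zero])
  obtain ⟨η, -, hη⟩ := S.exists_hasZeta hn0 (Rep.inv S R)
  have h1 := HasZeta.mul S hn0 h hη
  have hone : R.mul (Rep.inv S R) = Rep.one S n :=
    Rep.ext' S (mul_inv_cancel₀ R.u_ne) (add_neg_cancel R.D)
  rw [hone] at h1
  have h2 : ζ * η = 1 := HasZeta.unique S h1 S.hasZeta_one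
  have h3 := S.cls_eq_zero hn (h2 ▸ HasZeta.mul S hn0 h' hη)
  rw [Rep.cls_mul, Rep.cls_inv, ← sub_eq_add_neg, sub_eq_zero] at h3
  exact h3

/-- A class with `n`-th power reductions has a representative congruent to one. -/
theorem exists_rep (hn : n ≠ 0) {u : F} (hu : u ≠ 0) (D : Divisor.degZero (K := L) (F := F))
    (hD : ∀ P, P.ord u = (n : ℤ) * (D : Divisor L F) P) (c : Fin 2 → L) (y : Fin 2 → G)
    (h : ∀ i, c i ≠ 0 ∧ y i ≠ 0 ∧ S.Int i (c i • u) ∧ S.red i (c i • u) = y i ^ n) :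
    ∃ R : S.Rep n, Rep.cls S R = Pic0.mk D := by
  have hroot : ∀ i, ∃ s : L, s ^ n = c i := fun i =>
    IsAlgClosed.exists_pow_nat_eq (c i) (Nat.pos_of_ne_zero hn)
  choose s hs using hroot
  have hs0 : ∀ i, s i ≠ 0 := fun i h0 => (h i).1 (by rw [← hs i, h0, zero_pow hn])
  obtain ⟨f, hf, hfi⟩ := S.exists_scaled_lift s hs0 y fun i => (h i).2.1
  have hkey : ∀ i, S.Int i (u * (f ^ n)⁻¹) ∧ S.red i (u * (f ^ n)⁻¹) = 1 := fun i => by
    have hp : S.Int i ((s i • f) ^ n) := S.int_pow (hfi i).1 n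
    have hpr : S.red i ((s i • f) ^ n) = y i ^ n := by rw [S.red_pow (hfi i).1, (hfi i).2]
    obtain ⟨a, a'⟩ := S.int_inv hp (by rw [hpr]; exact pow_ne_zero _ (h i).2.1)
    have he : u * (f ^ n)⁻¹ = (c i • u) * ((s i • f) ^ n)⁻¹ := by
      rw [smul_pow, hs i, Algebra.smul_def, Algebra.smul_def]
      have := (map_ne_zero (algebraMap L F)).mpr (h i).1
      field_simp
    rw [he]
    refine ⟨S.int_mul i _ _ (h i).2.2.1 a, ?_⟩
    rw [S.red_mul i _ _ (h i).2.2.1 a, a', (h i).2.2.2, hpr,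
      mul_inv_cancel₀ (pow_ne_zero _ (h i).2.1)]
  have hdeg : Divisor.degree ((D : Divisor L F) - divisorOf f) = 0 := by
    rw [map_sub, degree_divisorOf, sub_zero]
    exact Divisor.mem_degZero.mp D.2
  refine ⟨{ u := u * (f ^ n)⁻¹, D := (D : Divisor L F) - divisorOf f,
            u_ne := mul_ne_zero hu (inv_ne_zero (pow_ne_zero _ hf)),
            ord_u := fun P => ?_, degree_D := hdeg,
            int := fun i => (hkey i).1, red_u := fun i => (hkey i).2 }, ?_⟩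
  · rw [P.ord_mul hu (inv_ne_zero (pow_ne_zero _ hf)), P.ord_inv, ord_pow, hD,
      Finsupp.sub_apply, divisorOf_apply]
    ring
  · refine Eq.symm ((QuotientAddGroup.eq).mpr ?_)
    simp only [AddSubgroup.mem_addSubgroupOf, AddSubgroup.coe_add, NegMemClass.coe_neg]
    refine ⟨f⁻¹, inv_ne_zero hf, fun P => ?_⟩
    rw [P.ord_inv, Finsupp.add_apply, Finsupp.neg_apply, Finsupp.sub_apply, divisorOf_apply]
    ring

end Fermat.Agent.SemistableRed.SplitModel

end
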