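import Fermat.Agent.SemistableRed.NewRelation

/-!
# Eigenvalues at almost all primes determine those at all good primes

`T_ℓ` acts on `p`-power torsion as `F + ℓ F⁻¹` for a Frobenius `F` at `ℓ`, so modulo any power of
`p ≠ ℓ` it agrees with `T_ℓ'` for some `ℓ'` outside a given finite set, simultaneously at two
levels.
-/

set_option autoImplicit false

noncomputable section

namespace Fermat.Agent.SemistableRed

open Fermat.Agent.EigenRep Matrix ModularCurve CongruenceSubgroup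

local notation "Qbar" => AlgebraicClosure ℚ

/-- An algebraic integer divisible by all powers of `p` is zero. -/
theorem eq_zero_of_forall_pow_dvd {p : ℕ} (hp : p.Prime) (x : integralClosure ℤ ℂ)
    (h : ∀ n : ℕ, (p : integralClosure ℤ ℂ) ^ n ∣ x) : x = 0 := by
  by_contra hx
  have halg : IsAlgebraic ℤ x := (Algebra.IsIntegral.isIntegral x).isAlgebraic
  obtain ⟨c, hc, hxc⟩ := halg.exists_nonzero_dvd (mem_nonZeroDivisors_of_ne_zero hx)
  have key : ∀ n : ℕ, (p : ℤ) ^ n ∣ c := fun n => by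
    obtain ⟨y, hy⟩ := (h n).trans hxc
    have hy' : (c : ℂ) = (p : ℂ) ^ n * (y : ℂ) := by
      have := congrArg (fun z : integralClosure ℤ ℂ => (z : ℂ)) hy
      simpa using this
    have hp0 : (p : ℂ) ^ n ≠ 0 := pow_ne_zero _ (Nat.cast_ne_zero.mpr hp.ne_zero)
    have hint : IsIntegral ℤ ((c : ℚ) / (p : ℚ) ^ n) := by
      refine (isIntegral_algebraMap_iff (A := ℚ) (B := ℂ) (algebraMap ℚ ℂ).injective).mp ?_
      have e : algebraMap ℚ ℂ ((c : ℚ) / (p : ℚ) ^ n) = (y : ℂ) := by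
        rw [map_div₀, map_pow, map_intCast, map_natCast, hy', mul_div_cancel_left₀ _ hp0]
      rw [e]
      exact y.2
    obtain ⟨z, hz⟩ := IsIntegrallyClosed.isIntegral_iff.mp hint
    refine ⟨z, ?_⟩
    have : (c : ℚ) = (p : ℚ) ^ n * (z : ℚ) := by
      rw [show (z : ℚ) = algebraMap ℤ ℚ z from rfl, hz,
        mul_div_cancel₀ _ (pow_ne_zero _ (Nat.cast_ne_zero.mpr hp.ne_zero))]
    exact_mod_cast this
  obtain ⟨n, hn⟩ : ∃ n : ℕ, c.natAbs < p ^ n := ⟨_, Nat.lt_pow_self hp.one_lt⟩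
  refine hc (Int.eq_zero_of_abs_lt_dvd (key n) ?_)
  rw [Int.abs_eq_natAbs]
  exact_mod_cast hn

variable {N N' p : ℕ} [NeZero N] [NeZero N'] [Fact p.Prime]

/-- Two eigensystems agreeing outside a finite set agree at every `ℓ` prime to both levels
and to `p`. -/
theorem qCoeff_eq_of_agree (R : RepInputs N p) (R' : RepInputs N' p)
    {g : CuspForm (Gamma0 N) 2} (hg : g.IsNormalizedEigenform)
    {g' : CuspForm (Gamma0 N') 2} (hg' : g'.IsNormalizedEigenform) {S : Set ℕ} (hS : S.Finite)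
    (hagree : ∀ ℓ : ℕ, ℓ.Prime → ℓ ∉ S →
      ModularFormClass.qCoeff g ℓ = ModularFormClass.qCoeff g' ℓ)
    {ℓ : ℕ} (hℓ : ℓ.Prime) (hℓN : ¬ ℓ ∣ N * p) (hℓN' : ¬ ℓ ∣ N' * p) :
    ModularFormClass.qCoeff g ℓ = ModularFormClass.qCoeff g' ℓ := by
  classical
  obtain ⟨f, hf⟩ := exists_eigenHom R.model hg
  obtain ⟨f', hf'⟩ := exists_eigenHom R'.model hg'
  let T := matFamily R.model (∅ : Set ℕ)
  let T' := matFamily R'.model (∅ : Set ℕ)
  let e : {r : Nat.Primes // (r : ℕ) ∉ (∅ : Set ℕ)} := ⟨⟨ℓ, hℓ⟩, Set.notMem_empty _⟩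
  suffices h : f (matGen T e) - f' (matGen T' e) = 0 by
    rw [← hf e, ← hf' e, sub_eq_zero.mp h]
  refine eq_zero_of_forall_pow_dvd (Fact.out : p.Prime) _ fun n => ?_
  obtain ⟨M, hM⟩ :=
    HeckeUnramified.exists_pow_smul_submodule p (Subalgebra.toSubmodule (matAlg T)) n
  obtain ⟨M', hM'⟩ :=
    HeckeUnramified.exists_pow_smul_submodule p (Subalgebra.toSubmodule (matAlg T')) n
  obtain ⟨A, σ, hA, hσ⟩ := Frobenius.exists_liesOverPrime_and_isFrobeniusAt_qbar hℓ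
  obtain ⟨L₁, hL₁, hc₁⟩ := exists_level_galMat R.model R.smooth M
  obtain ⟨L₂, hL₂, hc₂⟩ := exists_level_galMat R'.model R'.smooth M'
  obtain ⟨L₃, hL₃, hc₃⟩ := exists_level_epsilon (p := p) (max M M')
  obtain ⟨r, hr, hrS, B, hB, τ, hτ, hag⟩ :=
    Chebotarev.exists_isFrobeniusAt_eqOn (L₁ ⊔ L₂ ⊔ L₃) σ
      (hS.toFinset ∪ (N * p).primeFactors ∪ (N' * p).primeFactors)
  simp only [Finset.mem_union, Set.Finite.mem_toFinset, Nat.mem_primeFactors, not_or, not_and,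
    not_not] at hrS
  have hrN : ¬ r ∣ N * p := fun h =>
    (NeZero.ne N) ((mul_eq_zero.mp (hrS.1.2 hr h)).resolve_right (Fact.out : p.Prime).ne_zero)
  have hrN' : ¬ r ∣ N' * p := fun h =>
    (NeZero.ne N') ((mul_eq_zero.mp (hrS.2 hr h)).resolve_right (Fact.out : p.Prime).ne_zero)
  have hfix : ∀ {L : IntermediateField ℚ Qbar}, L ≤ L₁ ⊔ L₂ ⊔ L₃ → ∀ x ∈ L, (σ⁻¹ * τ) x = x :=
    fun hL x hx => by
      rw [AlgEquiv.mul_apply, hag x (hL hx)]
      exact σ.symm_apply_apply x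
  have hℓp : ℓ ≠ p := fun h => hℓN (h ▸ dvd_mul_left p N)
  have hrp : r ≠ p := fun h => hrN (h ▸ dvd_mul_left p N)
  have heps : (r : ZMod (p ^ max M M')) = (ℓ : ZMod (p ^ max M M')) := by
    rw [← toZModPow_epsilon_frobenius hr hrp hB hτ, ← toZModPow_epsilon_frobenius hℓ hℓp hA hσ,
      ← mul_inv_cancel_left σ τ, map_mul, Units.val_mul, map_mul,
      hc₃ _ fun x hx => hfix le_sup_right x hx, mul_one]
  -- the congruence at each level
  have cong : ∀ {K : ℕ} [NeZero K] (Q : RepInputs K p) (k : ℕ), k ≤ max M M' →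
      ¬ ℓ ∣ K * p → ¬ r ∣ K * p →
      (∀ x : Qbar ≃ₐ[ℚ] Qbar, x = σ⁻¹ * τ → matMod p Q.model.d k (galMat Q.model x) = 1) →
      ∀ i j, ((p : ℤ) ^ k ∣ (Q.model.T ⟨ℓ, hℓ⟩ - Q.model.T ⟨r, hr⟩) i j) := by
    intro K _ Q k hk hKℓ hKr hfixk i j
    have hg1 : levelMat Q.model k τ = levelMat Q.model k σ := by
      have := hfixk _ rfl
      rw [matMod_galMat] at this
      rw [← mul_inv_cancel_left σ τ, map_mul, this, mul_one]
    have hg2 : levelMat Q.model k τ⁻¹ = levelMat Q.model k σ⁻¹ := by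
      have h1 : levelMat Q.model k τ⁻¹ * levelMat Q.model k τ = 1 := by
        rw [← map_mul, inv_mul_cancel, map_one]
      have h2 : levelMat Q.model k σ * levelMat Q.model k σ⁻¹ = 1 := by
        rw [← map_mul, mul_inv_cancel, map_one]
      rw [hg1] at h1
      exact left_inv_eq_right_inv h1 h2
    have hnum : (r : ZMod (p ^ k)) = (ℓ : ZMod (p ^ k)) := by
      have := congrArg (ZMod.castHom (pow_dvd_pow p hk) (ZMod (p ^ k))) heps
      rwa [map_natCast, map_natCast] at this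
    have e1 := matMod_heckeMat_eq Q hℓ hKℓ hA hσ k
    have e2 := matMod_heckeMat_eq Q hr hKr hB hτ k
    rw [hg1, hg2, ← Nat.cast_smul_eq_nsmul (ZMod (p ^ k)), hnum, Nat.cast_smul_eq_nsmul] at e2
    have e3 := e1.trans e2.symm
    rw [matMod_heckeMat, matMod_heckeMat] at e3
    have h4 := congr($e3 i j)
    simp only [Matrix.map_apply] at h4
    have h5 := (ZMod.intCast_eq_intCast_iff_dvd_sub _ _ _).mp h4.symm
    rw [Matrix.sub_apply]
    exact_mod_cast h5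
  let er : {r : Nat.Primes // (r : ℕ) ∉ (∅ : Set ℕ)} := ⟨⟨r, hr⟩, Set.notMem_empty _⟩
  obtain ⟨y, hy, hyeq⟩ := hM _ (sub_mem (matGen T e).2 (matGen T er).2)
    (cong R M (le_max_left _ _) hℓN hrN fun x hx =>
      hc₁ x fun a ha => hx ▸ hfix (le_sup_left.trans le_sup_left) a ha)
  obtain ⟨y', hy', hyeq'⟩ := hM' _ (sub_mem (matGen T' e).2 (matGen T' er).2)
    (cong R' M' (le_max_right _ _) hℓN' hrN' fun x hx =>
      hc₂ x fun a ha => hx ▸ hfix (le_sup_right.trans le_sup_left) a ha)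
  have h1 : f (matGen T e) - f (matGen T er) = (p : integralClosure ℤ ℂ) ^ n * f ⟨y, hy⟩ := by
    rw [← map_sub, show matGen T e - matGen T er = ((p : ℤ) ^ n) • (⟨y, hy⟩ : matAlg T) from
      Subtype.ext hyeq, map_zsmul, zsmul_eq_mul]
    push_cast
    rfl
  have h2 : f' (matGen T' e) - f' (matGen T' er) = (p : integralClosure ℤ ℂ) ^ n * f' ⟨y', hy'⟩ := by
    rw [← map_sub, show matGen T' e - matGen T' er = ((p : ℤ) ^ n) • (⟨y', hy'⟩ : matAlg T') from
      Subtype.ext hyeq', map_zsmul, zsmul_eq_mul]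
    push_cast
    rfl
  have h3 : f (matGen T er) = f' (matGen T' er) :=
    Subtype.ext ((hf er).trans ((hagree r hr hrS.1.1).trans (hf' er).symm))
  exact ⟨f ⟨y, hy⟩ - f' ⟨y', hy'⟩, by linear_combination h1 - h2 + h3⟩

/-- Two eigensystems agreeing outside a finite set agree at every good prime. -/
theorem qCoeff_eq_of_agree_of_inputs (R : ∀ (K p : ℕ) [NeZero K] [Fact p.Prime], RepInputs K p)
    {g : CuspForm (Gamma0 N) 2} (hg : g.IsNormalizedEigenform)
    {g' : CuspForm (Gamma0 N') 2} (hg' : g'.IsNormalizedEigenform) {S : Set ℕ} (hS : S.Finite)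
    (hagree : ∀ ℓ : ℕ, ℓ.Prime → ℓ ∉ S →
      ModularFormClass.qCoeff g ℓ = ModularFormClass.qCoeff g' ℓ)
    {ℓ : ℕ} (hℓ : ℓ.Prime) (hℓN : ¬ ℓ ∣ N) (hℓN' : ¬ ℓ ∣ N') :
    ModularFormClass.qCoeff g ℓ = ModularFormClass.qCoeff g' ℓ := by
  obtain ⟨r, hr, hrp⟩ := Nat.exists_infinite_primes (ℓ + 1)
  have : Fact r.Prime := ⟨hrp⟩
  have hne : ¬ ℓ ∣ r := fun h => by
    have := (Nat.prime_dvd_prime_iff_eq hℓ hrp).mp h
    omega
  exact qCoeff_eq_of_agree (R N r) (R N' r) hg hg' hS hagree hℓ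
    (fun h => (hℓ.dvd_mul.mp h).elim hℓN hne) fun h => (hℓ.dvd_mul.mp h).elim hℓN' hne

end Fermat.Agent.SemistableRed

end
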