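import Fermat.Agent.SemistableRed.GaussSplit
import Mathlib.Algebra.Polynomial.AlgebraMap

/-!
# A pair of abstract Gauss reductions

Integrality and reduction for two valuations with function fields as residue fields, and integral
coefficients of combinations with polynomial coefficients of a family with independent reductions.
-/

set_option autoImplicit false

noncomputable section

open Polynomial

namespace Fermat.Agent.SemistableRed

/-- Two reductions with common residue field `G`. -/
structure GaussPair {L : Type*} [Field L] (A : ValuationSubring L) {k : Type*} [Field k]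
    (π : A →+* k) (F : Type*) [Field F] [Algebra L F] (G : Type*) [Field G] [Algebra k G] where
  Int : Fin 2 → F → Prop
  red : Fin 2 → F → G
  int_one : ∀ i, Int i 1
  red_one : ∀ i, red i 1 = 1
  int_add : ∀ i f g, Int i f → Int i g → Int i (f + g)
  red_add : ∀ i f g, Int i f → Int i g → red i (f + g) = red i f + red i g
  int_mul : ∀ i f g, Int i f → Int i g → Int i (f * g)
  red_mul : ∀ i f g, Int i f → Int i g → red i (f * g) = red i f * red i g
  int_smul : ∀ i (c : L) f, c ∈ A → Int i f → Int i (c • f)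
  red_smul : ∀ i (c : L) f (hc : c ∈ A), Int i f → red i (c • f) = π ⟨c, hc⟩ • red i f
  isResidueMap : IsResidueMap A π

section Scale

variable {L : Type*} [Field L] {A : ValuationSubring L} {k : Type*} [Field k] {π : A →+* k}

theorem inv_mem_maximal (hπ : IsResidueMap A π) {c : L} (hc : c ∉ A) :
    ∃ h : c⁻¹ ∈ A, π ⟨c⁻¹, h⟩ = 0 := by
  have h := (A.mem_or_inv_mem c).resolve_left hc
  refine ⟨h, (hπ _).mpr fun hu => hc ?_⟩
  obtain ⟨u, hu⟩ := hu
  have h1 : c⁻¹ * ((↑u⁻¹ : A) : L) = 1 := by
    rw [← show ((u : A) : L) = c⁻¹ from congrArg Subtype.val hu]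
    exact congrArg Subtype.val u.mul_inv
  have h2 := eq_inv_of_mul_eq_one_right h1
  rw [inv_inv] at h2
  rw [← h2]
  exact SetLike.coe_mem _

variable {J : Type*} [Fintype J]

/-- A nonzero family of polynomials scales to an integral one with nonzero reduction; the scalar
is in the maximal ideal unless the family was integral. -/
theorem exists_scale_poly (hπ : IsResidueMap A π) (p : J → L[X]) (hp : ∃ j, p j ≠ 0) :
    ∃ (c : L) (P : J → A[X]), c ≠ 0 ∧ (∀ j, C c * p j = (P j).map A.subtype) ∧
      (∃ j, (P j).map π ≠ 0) ∧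
      ((∀ j n, (p j).coeff n ∈ A) ∨ ∃ h : c ∈ A, π ⟨c, h⟩ = 0) := by
  classical
  let s : Finset (J × ℕ) := Finset.univ.biUnion fun j => {j} ×ˢ (p j).support
  have hmem : ∀ j n, (j, n) ∈ s ↔ (p j).coeff n ≠ 0 := fun j n => by simp [s]
  obtain ⟨j0, hj0⟩ := hp
  have hs : s.Nonempty := by
    obtain ⟨n, hn⟩ := Polynomial.nonempty_support_iff.mpr hj0
    exact ⟨(j0, n), (hmem _ _).mpr (Polynomial.mem_support_iff.mp hn)⟩
  obtain ⟨⟨i0, n0⟩, h0, hmin⟩ := exists_forall_div_mem (A := A) s hs
    (fun x => ((p x.1).coeff x.2)⁻¹) fun x hx => inv_ne_zero ((hmem x.1 x.2).mp hx)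
  have hc0 : (p i0).coeff n0 ≠ 0 := (hmem _ _).mp h0
  have hall : ∀ j n, ((p i0).coeff n0)⁻¹ * (p j).coeff n ∈ A := fun j n => by
    by_cases h : (p j).coeff n = 0
    · rw [h, mul_zero]; exact A.zero_mem
    · have := hmin (j, n) ((hmem _ _).mpr h)
      rwa [div_inv_eq_mul] at this
  have hlift : ∀ j, ∃ P : A[X], C ((p i0).coeff n0)⁻¹ * p j = P.map A.subtype := fun j => by
    obtain ⟨P, hP⟩ := (Polynomial.lifts_iff_coeff_lifts
      (f := A.subtype) (C ((p i0).coeff n0)⁻¹ * p j)).mpr fun n =>
        ⟨⟨_, hall j n⟩, by rw [coeff_C_mul]; rfl⟩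
    exact ⟨P, hP.symm⟩
  choose P hP using hlift
  refine ⟨_, P, inv_ne_zero hc0, hP, ⟨i0, fun h => ?_⟩, ?_⟩
  · have h1 : (P i0).coeff n0 = 1 := Subtype.ext (by
      have := congrArg (fun r => r.coeff n0) (hP i0)
      simp only [coeff_C_mul, coeff_map, inv_mul_cancel₀ hc0] at this
      exact this.symm)
    have := congrArg (fun r => r.coeff n0) h
    simp only [coeff_map, h1, map_one, coeff_zero] at this
    exact one_ne_zero this
  · by_cases h : (p i0).coeff n0 ∈ A
    · refine Or.inl fun j n => ?_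
      have := A.mul_mem _ _ h (hall j n)
      rwa [← mul_assoc, mul_inv_cancel₀ hc0, one_mul] at this
    · exact Or.inr (inv_mem_maximal hπ h)

end Scale

namespace GaussPair

variable {L : Type*} [Field L] {A : ValuationSubring L} {k : Type*} [Field k] {π : A →+* k}
  {F : Type*} [Field F] [Algebra L F] {G : Type*} [Field G] [Algebra k G]
variable (S : GaussPair A π F G)

/-- Integral for both reductions. -/
def Int2 (f : F) : Prop := ∀ i, S.Int i f

theorem int_zero (i : Fin 2) : S.Int i (0 : F) := by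
  simpa using S.int_smul i 0 1 A.zero_mem (S.int_one i)

theorem red_zero (i : Fin 2) : S.red i (0 : F) = 0 := by
  have h := S.red_smul i 0 1 A.zero_mem (S.int_one i)
  rw [zero_smul, show (⟨0, A.zero_mem⟩ : A) = 0 from rfl, map_zero, zero_smul] at h
  exact h

theorem int_sum {J : Type*} (s : Finset J) {f : J → F} {i : Fin 2}
    (hf : ∀ j ∈ s, S.Int i (f j)) :
    S.Int i (∑ j ∈ s, f j) ∧ S.red i (∑ j ∈ s, f j) = ∑ j ∈ s, S.red i (f j) := by
  classical
  induction s using Finset.induction with
  | empty => exact ⟨by simpa using S.int_zero i, by simpa using S.red_zero i⟩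
  | insert j t hj ih =>
    obtain ⟨h1, h2⟩ := ih fun a ha => hf a (Finset.mem_insert_of_mem ha)
    have hj' := hf j (Finset.mem_insert_self j t)
    rw [Finset.sum_insert hj, Finset.sum_insert hj]
    exact ⟨S.int_add i _ _ hj' h1, by rw [S.red_add i _ _ hj' h1, h2]⟩

theorem int_pow {i : Fin 2} {f : F} (hf : S.Int i f) (m : ℕ) :
    S.Int i (f ^ m) ∧ S.red i (f ^ m) = S.red i f ^ m := by
  induction m with
  | zero => simp only [pow_zero]; exact ⟨S.int_one i, S.red_one i⟩
  | succ m ih =>
    rw [pow_succ, pow_succ]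
    exact ⟨S.int_mul i _ _ ih.1 hf, by rw [S.red_mul i _ _ ih.1 hf, ih.2]⟩

theorem int_const {i : Fin 2} (a : A) :
    S.Int i (algebraMap L F a) ∧ S.red i (algebraMap L F a) = algebraMap k G (π a) := by
  rw [Algebra.algebraMap_eq_smul_one, Algebra.algebraMap_eq_smul_one]
  exact ⟨S.int_smul i _ _ a.2 (S.int_one i), by rw [S.red_smul i _ _ a.2 (S.int_one i), S.red_one]⟩

theorem int_aeval {i : Fin 2} {x : F} (hx : S.Int i x) (p : A[X]) :
    S.Int i (aeval x (p.map A.subtype)) ∧
      S.red i (aeval x (p.map A.subtype)) = aeval (S.red i x) (p.map π) := by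
  induction p using Polynomial.induction_on' with
  | add p r hp hr =>
    rw [Polynomial.map_add, Polynomial.map_add, map_add, map_add]
    exact ⟨S.int_add i _ _ hp.1 hr.1, by rw [S.red_add i _ _ hp.1 hr.1, hp.2, hr.2]⟩
  | monomial n a =>
    rw [Polynomial.map_monomial, Polynomial.map_monomial, aeval_monomial, aeval_monomial]
    exact ⟨S.int_mul i _ _ (S.int_const a).1 (S.int_pow hx n).1, by
      rw [show (A.subtype a : L) = (a : L) from rfl,
        S.red_mul i _ _ (S.int_const a).1 (S.int_pow hx n).1, (S.int_const a).2,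
        (S.int_pow hx n).2]⟩

variable {J : Type*} [Fintype J]

/-- The reductions of `e` are independent over polynomials in the reduction `xb` of `x`. -/
def PolyIndep (xb : G) (e : J → F) : Prop :=
  ∀ p : J → k[X], (∀ i, ∑ j, aeval xb (p j) * S.red i (e j) = 0) → ∀ j, p j = 0

variable {S} {x : F} {xb : G} {e : J → F}

theorem red_comb (hx : ∀ i, S.Int i x ∧ S.red i x = xb) (he : ∀ j, S.Int2 (e j))
    (P : J → A[X]) (i : Fin 2) :
    S.Int i (∑ j, aeval x ((P j).map A.subtype) * e j) ∧
      S.red i (∑ j, aeval x ((P j).map A.subtype) * e j) =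
        ∑ j, aeval xb ((P j).map π) * S.red i (e j) := by
  obtain ⟨h1, h2⟩ := S.int_sum Finset.univ (i := i)
    (f := fun j => aeval x ((P j).map A.subtype) * e j)
    fun j _ => S.int_mul i _ _ (S.int_aeval (hx i).1 _).1 (he j i)
  refine ⟨h1, h2.trans (Finset.sum_congr rfl fun j _ => ?_)⟩
  rw [S.red_mul i _ _ (S.int_aeval (hx i).1 _).1 (he j i), (S.int_aeval (hx i).1 _).2, (hx i).2]

/-- An integral combination has integral coefficients. -/
theorem poly_coeff_mem (hx : ∀ i, S.Int i x ∧ S.red i x = xb) (he : ∀ j, S.Int2 (e j))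
    (hind : S.PolyIndep xb e) (p : J → L[X]) (hint : S.Int2 (∑ j, aeval x (p j) * e j)) :
    ∀ j, ∃ P : A[X], p j = P.map A.subtype := by
  intro j
  by_cases hall : ∀ j n, (p j).coeff n ∈ A
  · obtain ⟨P, hP⟩ := (Polynomial.lifts_iff_coeff_lifts (f := A.subtype) (p j)).mpr
      fun n => ⟨⟨_, hall j n⟩, rfl⟩
    exact ⟨P, hP.symm⟩
  exfalso
  have hne : ∃ j, p j ≠ 0 := by
    by_contra h
    push Not at h
    exact hall fun j n => by rw [h j, coeff_zero]; exact A.zero_mem
  obtain ⟨c, P, -, hP, ⟨j1, hj1⟩, h⟩ := exists_scale_poly S.isResidueMap p hne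
  obtain ⟨hcA, hcπ⟩ := h.resolve_left hall
  refine hj1 (hind (fun j => (P j).map π) (fun i => ?_) j1)
  have he' : c • ∑ j, aeval x (p j) * e j = ∑ j, aeval x ((P j).map A.subtype) * e j := by
    rw [Finset.smul_sum]
    refine Finset.sum_congr rfl fun j _ => ?_
    rw [← hP j, map_mul, aeval_C, Algebra.smul_def, mul_assoc]
  have h1 := S.red_smul i c _ hcA (hint i)
  rw [he', (red_comb hx he P i).2, hcπ, zero_smul] at h1
  exact h1

/-- A vanishing combination has vanishing coefficients. -/
theorem poly_eq_zero (hx : ∀ i, S.Int i x ∧ S.red i x = xb) (he : ∀ j, S.Int2 (e j))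
    (hind : S.PolyIndep xb e) (p : J → L[X]) (h0 : ∑ j, aeval x (p j) * e j = 0) :
    ∀ j, p j = 0 := by
  by_contra hne
  push Not at hne
  obtain ⟨c, P, hc, hP, ⟨j1, hj1⟩, -⟩ := exists_scale_poly S.isResidueMap p hne
  refine hj1 (hind (fun j => (P j).map π) (fun i => ?_) j1)
  rw [← (red_comb hx he P i).2]
  have : ∑ j, aeval x ((P j).map A.subtype) * e j = 0 := by
    simp only [← hP, map_mul, aeval_C, mul_assoc, ← Finset.mul_sum, h0, mul_zero]
  rw [this, S.red_zero]

end GaussPair

end Fermat.Agent.SemistableRed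

end
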