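import Fermat.Agent.SemistableRed.Poles

/-!
# Functions reducing to one component

The multiples of `h ^ r` vanish on the second side; on the first they give every top part of
`L((I + 1) C)` modulo `L(I C)`, and every multiple of `h̄` lifts to a function vanishing on the
other side.
-/

set_option autoImplicit false
set_option linter.unusedSectionVars false

noncomputable section

open IsLocalRing ModularCurve AlgebraicCurve IntermediateField
open Fermat.Agent.Reduction Fermat.Agent.FunctionFieldRR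

namespace Fermat.Agent.SemistableRed

local notation "Qbar" => AlgebraicClosure ℚ

/-- The exponents `r`, `k` with `r q² + k = N (q + 1)`, `K ≤ k ≤ r q`. -/
theorem exists_exponents {q : ℕ} (hq : 1 ≤ q) (K : ℕ) :
    ∃ N₀ : ℕ, ∀ N : ℕ, N₀ ≤ N →
      ∃ r k : ℕ, r * (q * q) + k = N * (q + 1) ∧ K ≤ k ∧ k ≤ r * q ∧ 1 ≤ r := by
  refine ⟨K + (K + q * q + 1) * (q * q), fun N hN => ?_⟩
  have hQ : 0 < q * q := Nat.mul_pos hq hq
  have hNq : N ≤ N * (q + 1) := Nat.le_mul_of_pos_right N (Nat.succ_pos q)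
  have h1 := Nat.div_add_mod (N * (q + 1) - K) (q * q)
  have h2 := Nat.mod_lt (N * (q + 1) - K) hQ
  set r := (N * (q + 1) - K) / (q * q) with hr
  set s := (N * (q + 1) - K) % (q * q)
  have hr0 : K + q * q + 1 ≤ r := by
    rw [hr, Nat.le_div_iff_mul_le hQ]
    omega
  refine ⟨r, K + s, ?_, Nat.le_add_right K s, ?_, by omega⟩
  · rw [mul_comm r]; omega
  · have : r ≤ r * q := Nat.le_mul_of_pos_right r hq
    omega

variable {A : ValuationSubring Qbar} {M q : ℕ} [NeZero M] [NeZero q] [Fact q.Prime]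
  [CharP (ResidueField A) q] [IsAlgClosed (ResidueField A)] (S : Setting A M q)

namespace Setting

theorem red_w {i : Fin 2} {f : modularFunctionFieldBar (M * q)}
    (h : S.gauss.Int (1 - i) f) :
    S.gauss.Int i (S.w f) ∧ S.gauss.red i (S.w f) = S.gauss.red (1 - i) f := by
  refine S.red_eq ?_
  rw [S.side_w]
  exact S.srep_red h

theorem polesH_smul_w (P : Place Qbar (modularFunctionFieldBar (M * q))) :
    S.polesH (SemilinearAut.ofAlgAut S.w • P) = S.polesH P := by
  have h : ∀ f, (SemilinearAut.ofAlgAut S.w • P).ord (S.w f) = P.ord f := fun f =>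
    SemilinearAut.ord_smul (SemilinearAut.ofAlgAut S.w) P f
  have h1 := h S.jF
  have h2 := h S.jqF
  rw [S.w_jF] at h1
  rw [S.w_jqF] at h2
  rw [polesH_apply, polesH_apply, h1, h2, add_comm]

theorem w_mem_rr {m : ℤ} {f : modularFunctionFieldBar (M * q)}
    (hf : f ∈ riemannRochSpace (m • S.polesH)) : S.w f ∈ riemannRochSpace (m • S.polesH) := by
  rcases eq_or_ne f 0 with rfl | hf0
  · rw [map_zero]; exact zero_mem _
  refine (mem_rr ((map_ne_zero _).mpr hf0)).mpr fun P => ?_
  set g := SemilinearAut.ofAlgAut S.w with hg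
  have h1 := (mem_rr hf0).mp hf (g⁻¹ • P)
  have h2 : P.ord (S.w f) = (g⁻¹ • P).ord f := by
    have := SemilinearAut.ord_smul g (g⁻¹ • P) f
    rw [smul_inv_smul] at this
    exact this
  have h3 := S.polesH_smul_w (g⁻¹ • P)
  rw [smul_inv_smul] at h3
  simp only [Finsupp.smul_apply, smul_eq_mul] at h1 ⊢
  rw [h2, h3]
  exact h1

theorem red_hFun (j : Fin 2) :
    S.gauss.Int j S.hFun ∧ S.gauss.red j S.hFun = (![S.hb, 0] : Fin 2 → _) j :=
  S.red_eq (S.srep_hFun j)

theorem hb_eq : S.hb =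
    jbar (ResidueField A) M - jbar (ResidueField A) M ^ (q * q) := by
  rw [hb, pow_mul]

theorem hFun_vanishes (P : Place Qbar (modularFunctionFieldBar (M * q))) {l : ℤ} (hl : l ≤ 0)
    (h1 : l ≤ P.ord S.jF) (h2 : l ≤ (q : ℤ) * P.ord S.jqF) : VanishesTo P l S.hFun := by
  rw [hFun]
  refine VanishesTo.sub (Or.inr h1) (Or.inr ?_)
  rw [ord_pow]
  exact h2

theorem vanishesTo_alpha {k : ℕ} {s : modularFunctionFieldBar M}
    (hs : ∀ v : Place Qbar (modularFunctionFieldBar M),
      VanishesTo v (-((k : ℤ) * max (-v.ord (jBar M)) 0)) s)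
    (P : Place Qbar (modularFunctionFieldBar (M * q))) :
    VanishesTo P (-((k : ℤ) * max (-P.ord S.jF) 0)) (heckeAlphaBar Qbar M q s) := by
  have := isFunctionField_level M
  have := isFunctionField_level (M * q)
  have hint := HeckeJ0.isIntegral_of_isFunctionField (heckeAlphaBar Qbar M q)
  rcases hs (P.restrictAlong _ hint) with h | h
  · exact Or.inl (by rw [h, map_zero])
  refine Or.inr ?_
  rw [jF, Place.ord_restrictAlong _ hint P s, Place.ord_restrictAlong _ hint P (jBar M)]
  set e : ℤ := (Place.ramificationIndexAlong (heckeAlphaBar Qbar M q) P : ℤ)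
  have he : 0 ≤ e := Int.natCast_nonneg _
  set o := (P.restrictAlong (heckeAlphaBar Qbar M q) hint).ord (jBar M)
  have h2 : max (-(e * o)) 0 = e * max (-o) 0 := by
    rw [mul_max_of_nonneg _ _ he, mul_zero, mul_neg]
  have h3 := mul_le_mul_of_nonneg_left h he
  rw [h2]
  linarith

theorem pow_hFun_mul_mem {r k N : ℕ} (hN : r * (q * q) + k = N * (q + 1)) (hk : k ≤ r * q)
    {s : modularFunctionFieldBar M} (hs : ∀ v : Place Qbar (modularFunctionFieldBar M),
      VanishesTo v (-((k : ℤ) * max (-v.ord (jBar M)) 0)) s) :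
    S.hFun ^ r * heckeAlphaBar Qbar M q s ∈ riemannRochSpace ((N : ℤ) • S.polesH) := by
  refine mem_riemannRochSpace_iff.mpr fun P => ?_
  have hq : (2 : ℤ) ≤ q := by exact_mod_cast S.prime.two_le
  have hN' : (r : ℤ) * (q * q) + k = N * (q + 1) := by exact_mod_cast hN
  have hk' : (k : ℤ) ≤ r * q := by exact_mod_cast hk
  have hr0 : (0 : ℤ) ≤ r := Int.natCast_nonneg _
  have ha := S.vanishesTo_alpha hs P
  -- a bound `l` on the pole of `h`
  obtain ⟨l, hl, hh, hle⟩ : ∃ l : ℤ, l ≤ 0 ∧ VanishesTo P l S.hFun ∧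
      -((N : ℤ) * S.polesH P) ≤ r * l + -((k : ℤ) * max (-P.ord S.jF) 0) := by
    rw [polesH_apply]
    by_cases hP : P.ord S.jF < 0
    · have hP' := (S.ord_jF_neg_iff P).mp hP
      rw [max_eq_left (by omega), max_eq_left (by omega)]
      have hcases : P.ord S.jqF = (q : ℤ) * P.ord S.jF ∨ P.ord S.jF = (q : ℤ) * P.ord S.jqF :=
        ord_jBar_cases S.prime P hP
      rcases hcases with h | h
      · refine ⟨(q : ℤ) * P.ord S.jqF, by nlinarith,
          S.hFun_vanishes P (by nlinarith) (by rw [h]; nlinarith) le_rfl, ?_⟩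
        rw [h]
        nlinarith
      · refine ⟨P.ord S.jF, hP.le, S.hFun_vanishes P hP.le le_rfl h.le, ?_⟩
        rw [h]
        have h5 : (r : ℤ) * q + k * q ≤ (N : ℤ) * (q + 1) := by nlinarith
        nlinarith
    · have hP' : ¬ P.ord S.jqF < 0 := fun h => hP ((S.ord_jF_neg_iff P).mpr h)
      rw [max_eq_right (by omega), max_eq_right (by omega)]
      refine ⟨0, le_rfl, S.hFun_vanishes P le_rfl (by omega) (by nlinarith), by simp⟩
  rw [Finsupp.smul_apply, smul_eq_mul]
  have hpow : ∀ n : ℕ, VanishesTo P ((n : ℤ) * l) (S.hFun ^ n) := by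
    intro n
    induction n with
    | zero => rw [Nat.cast_zero, zero_mul, pow_zero]; exact Or.inr P.ord_one.ge
    | succ n ih =>
      rw [pow_succ, Nat.cast_succ, add_mul, one_mul]
      exact ih.mul hh
  exact ((hpow r).mul ha).mono hle

theorem finrank_smul_polar :
    haveI := S.isFunctionField_C
    ∃ (c₀ : ℕ) (g : ℤ), ∀ n : ℕ, c₀ ≤ n →
      (Module.finrank (ResidueField A) (riemannRochSpace ((n : ℤ) •
        polarDivisor (K := ResidueField A) (jbar (ResidueField A) M))) : ℤ) =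
          (n : ℤ) * dedekindPsi M + 1 - g := by
  have := S.isFunctionField_C
  obtain ⟨c, hc⟩ := S.facts.choose_spec.genus_le
  refine ⟨c.toNat, S.facts.choose, fun n hn => ?_⟩
  have hdeg : Divisor.degree ((n : ℤ) •
      polarDivisor (K := ResidueField A) (jbar (ResidueField A) M)) = n * dedekindPsi M := by
    rw [map_zsmul, S.degree_polar_jbar, smul_eq_mul]
  have h1 := S.facts.choose_spec.charL.riemann ((n : ℤ) •
    polarDivisor (K := ResidueField A) (jbar (ResidueField A) M))
  have hpsi : (1 : ℤ) ≤ dedekindPsi M := by exact_mod_cast dedekindPsi_pos M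
  have h2 := hc _ (by
    rw [hdeg]
    have := Int.self_le_toNat c
    have : (n : ℤ) ≤ n * dedekindPsi M := le_mul_of_one_le_right (Int.natCast_nonneg n) hpsi
    omega)
  rw [hdeg] at h1 h2
  exact le_antisymm h2 h1

set_option maxHeartbeats 400000 in
/-- Every element of `L(N (q + 1) P̄)` is a multiple of `h̄ ^ r` up to lower terms. -/
theorem exists_top_zero :
    ∃ K : ℕ, ∀ I r k : ℕ, r * (q * q) + k = (I + 1) * (q + 1) → K ≤ k → k ≤ r * q → 1 ≤ r →
      ∀ z ∈ riemannRochSpace (((I + 1 : ℕ) : ℤ) • S.polesC),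
        ∃ f : modularFunctionFieldBar (M * q),
          f ∈ riemannRochSpace (((I + 1 : ℕ) : ℤ) • S.polesH) ∧ (∀ j, S.gauss.Int j f) ∧
            S.gauss.red 0 f - z ∈ riemannRochSpace ((I : ℤ) • S.polesC) ∧
              S.gauss.red 1 f = 0 := by
  have := S.isFunctionField_C
  obtain ⟨c₀, hlift⟩ := S.exists_lift_exact
  obtain ⟨c₁, g, hdim⟩ := S.finrank_smul_polar
  refine ⟨c₀ + c₁ + (q + 1), fun I r k hN hK hk hr z hz => ?_⟩
  set G := modularFunctionFieldFullC (ResidueField A) M
  set PD : Divisor (ResidueField A) G :=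
    polarDivisor (K := ResidueField A) (jbar (ResidueField A) M) with hPb
  have hN' : (r : ℤ) * (q * q) + k = (I + 1) * (q + 1) := by exact_mod_cast hN
  have hkq : q + 1 ≤ k := by omega
  have hC : ∀ n : ℕ, (n : ℤ) • S.polesC = ((n * (q + 1) : ℕ) : ℤ) • PD := fun n => by
    rw [polesC, smul_smul]; push_cast; rfl
  rw [hC] at hz
  rw [hC I]
  set V := riemannRochSpace ((((I + 1) * (q + 1) : ℕ) : ℤ) • PD) with hV
  set W := riemannRochSpace (((I * (q + 1) : ℕ) : ℤ) • PD) with hW
  set U₀ := riemannRochSpace ((k : ℤ) • PD) with hU₀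
  set U₁ := riemannRochSpace (((k - (q + 1) : ℕ) : ℤ) • PD) with hU₁
  set μ : G →ₗ[ResidueField A] G := LinearMap.mulLeft (ResidueField A) (S.hb ^ r) with hμ
  have hh0 : S.hb ^ r ≠ 0 := pow_ne_zero _ S.hb_ne
  have hinj : Function.Injective μ := fun a b h => mul_left_cancel₀ hh0 h
  have hq : (2 : ℤ) ≤ q := by exact_mod_cast S.prime.two_le
  -- the order of `h̄`
  have hord : ∀ Q : Place (ResidueField A) G,
      (Q.ord (jbar (ResidueField A) M) < 0 →
        Q.ord S.hb = (q * q : ℤ) * Q.ord (jbar (ResidueField A) M)) ∧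
      (0 ≤ Q.ord (jbar (ResidueField A) M) → 0 ≤ Q.ord S.hb) := fun Q => by
    rw [S.hb_eq]
    refine ⟨fun h => ?_, fun h => ?_⟩
    · have hp : Q.ord (jbar (ResidueField A) M ^ (q * q)) =
          (q * q : ℤ) * Q.ord (jbar (ResidueField A) M) := by rw [ord_pow]; push_cast; rfl
      have hlt : Q.ord (jbar (ResidueField A) M ^ (q * q)) < Q.ord (jbar (ResidueField A) M) := by
        rw [hp]; nlinarith [mul_lt_mul_of_neg_right (show (1 : ℤ) < q * q by nlinarith) h]
      have hne : jbar (ResidueField A) M ^ (q * q) ≠ 0 :=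
        fun e => by rw [e, Q.ord_zero] at hlt; omega
      rw [ord_sub_comm, sub_eq_add_neg, ord_add_eq_of_lt hne (by rw [ord_neg]; exact hlt), hp]
    · exact (ord_nonneg_iff _ _).mpr (sub_mem ((ord_nonneg_iff _ _).mp h)
        (pow_mem ((ord_nonneg_iff _ _).mp h) _))
  have hμV : Submodule.map μ U₀ ≤ V := by
    rintro _ ⟨u, hu, rfl⟩
    refine mem_riemannRochSpace_iff.mpr fun Q => ?_
    rcases mem_riemannRochSpace_iff.mp hu Q with h | h
    · exact Or.inl (by simp [hμ, h])
    rcases eq_or_ne u 0 with h0 | h0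
    · exact Or.inl (by simp [hμ, h0])
    refine Or.inr ?_
    simp only [hPb, Finsupp.smul_apply, smul_eq_mul, polarDivisor_apply] at h ⊢
    rw [hμ, LinearMap.mulLeft_apply, Q.ord_mul hh0 h0, ord_pow]
    push_cast
    rcases lt_or_ge (Q.ord (jbar (ResidueField A) M)) 0 with hj | hj
    · rw [(hord Q).1 hj]
      rw [max_eq_left (by omega)] at h ⊢
      nlinarith
    · rw [max_eq_right (by omega)] at h ⊢
      have := mul_nonneg (Int.natCast_nonneg r) ((hord Q).2 hj)
      omega
  have hWV : W ≤ V := rr_mono (Finsupp.le_def.mpr fun Q => by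
    simp only [hPb, Finsupp.smul_apply, smul_eq_mul, polarDivisor_apply]
    have := le_max_right (-Q.ord (jbar (ResidueField A) M)) (0 : ℤ)
    push_cast
    nlinarith)
  have hker : Submodule.map μ U₀ ⊓ W ≤ Submodule.map μ U₁ := by
    rintro _ ⟨⟨u, hu, rfl⟩, huW⟩
    refine ⟨u, mem_riemannRochSpace_iff.mpr fun Q => ?_, rfl⟩
    rcases eq_or_ne u 0 with h0 | h0
    · exact Or.inl h0
    refine Or.inr ?_
    have hu' := ((mem_rr h0).mp hu Q)
    have hW' := ((mem_rr (mul_ne_zero hh0 h0)).mp huW Q)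
    simp only [hPb, Finsupp.smul_apply, smul_eq_mul, polarDivisor_apply] at hu' hW' ⊢
    rw [Q.ord_mul hh0 h0, ord_pow] at hW'
    push_cast [Nat.cast_sub hkq] at hW' ⊢
    rcases lt_or_ge (Q.ord (jbar (ResidueField A) M)) 0 with hj | hj
    · rw [(hord Q).1 hj] at hW'
      rw [max_eq_left (by omega)] at hW' ⊢
      linear_combination hW' + (Q.ord (jbar (ResidueField A) M)) * hN'
    · rw [max_eq_right (by omega)] at hu' ⊢
      omega
  have : FiniteDimensional (ResidueField A) U₀ := finiteDimensional_riemannRochSpace _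
  have : FiniteDimensional (ResidueField A) U₁ := finiteDimensional_riemannRochSpace _
  have : FiniteDimensional (ResidueField A) V := finiteDimensional_riemannRochSpace _
  have : FiniteDimensional (ResidueField A) W := finiteDimensional_riemannRochSpace _
  have hVeq : Submodule.map μ U₀ ⊔ W = V := by
    refine Submodule.eq_of_le_of_finrank_le (sup_le hμV hWV) ?_
    have h1 := Submodule.finrank_sup_add_finrank_inf_eq (Submodule.map μ U₀) W
    have h2 := Submodule.finrank_mono hker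
    rw [← (Submodule.equivMapOfInjective μ hinj U₀).finrank_eq] at h1
    rw [← (Submodule.equivMapOfInjective μ hinj U₁).finrank_eq] at h2
    have hI : c₁ ≤ I * (q + 1) := by
      rw [Nat.succ_mul] at hN
      have h3 : r ≤ r * (q * q) := Nat.le_mul_of_pos_right r (Nat.mul_pos S.prime.pos S.prime.pos)
      omega
    have d1 := hdim k (by omega)
    have d2 := hdim (k - (q + 1)) (by omega)
    have d3 := hdim ((I + 1) * (q + 1)) (by rw [Nat.succ_mul]; omega)
    have d4 := hdim (I * (q + 1)) hI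
    rw [← hV] at d3
    rw [← hW] at d4
    rw [← hU₀] at d1
    rw [← hU₁] at d2
    push_cast [Nat.cast_sub hkq] at d1 d2 d3 d4
    zify at h1 h2 ⊢
    linarith
  rw [← hVeq] at hz
  obtain ⟨_, ⟨u, hu, rfl⟩, w, hw, rfl⟩ := Submodule.mem_sup.mp hz
  obtain ⟨s, hsi, rfl, hs⟩ := hlift k (by omega) u hu
  have hp := fun j => S.gauss.int_pow (S.red_hFun j).1 r
  have ha := fun j => S.red_eq (S.srep_alpha s hsi j)
  have hred : ∀ j, S.gauss.red j (S.hFun ^ r * heckeAlphaBar Qbar M q s) =
      (![S.hb, 0] : Fin 2 → _) j ^ r * alphaVal (q := q) (S.model.red s) j := fun j => by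
    rw [S.gauss.red_mul j _ _ (hp j).1 (ha j).1, (hp j).2, (ha j).2, (S.red_hFun j).2]
  refine ⟨S.hFun ^ r * heckeAlphaBar Qbar M q s, S.pow_hFun_mul_mem hN hk hs,
    fun j => S.gauss.int_mul j _ _ (hp j).1 (ha j).1, ?_, ?_⟩
  · rw [hred]
    show S.hb ^ r * S.model.red s - (μ (S.model.red s) + w) ∈ W
    rw [hμ, LinearMap.mulLeft_apply, sub_add_cancel_left]
    exact neg_mem hw
  · rw [hred]
    simp [zero_pow (show r ≠ 0 by omega)]

/-- Top parts lift to functions vanishing on the other side. -/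
theorem exists_lead :
    ∃ B : ℕ, ∀ I : ℕ, B ≤ I → ∀ (i : Fin 2) (z : modularFunctionFieldFullC (ResidueField A) M),
      z ∈ riemannRochSpace (((I + 1 : ℕ) : ℤ) • S.polesC) →
        ∃ f : modularFunctionFieldBar (M * q),
          f ∈ riemannRochSpace (((I + 1 : ℕ) : ℤ) • S.polesH) ∧ (∀ j, S.gauss.Int j f) ∧
            S.gauss.red i f - z ∈ riemannRochSpace ((I : ℤ) • S.polesC) ∧
              ∀ j, j ≠ i → S.gauss.red j f = 0 := by
  obtain ⟨K, hK⟩ := S.exists_top_zero
  obtain ⟨N₀, hN₀⟩ := exists_exponents (q := q) S.prime.one_le K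
  refine ⟨N₀, fun I hI i z hz => ?_⟩
  obtain ⟨r, k, hN, hKk, hk, hr⟩ := hN₀ (I + 1) (by omega)
  obtain ⟨f, hf, hfi, hf0, hf1⟩ := hK I r k hN hKk hk hr z hz
  obtain rfl | rfl : i = 0 ∨ i = 1 := by omega
  · exact ⟨f, hf, hfi, hf0, fun j hj => by rw [show j = 1 by omega]; exact hf1⟩
  · refine ⟨S.w f, S.w_mem_rr hf, fun j => (S.red_w (hfi _)).1, ?_, fun j hj => ?_⟩
    · rw [(S.red_w (hfi _)).2]; exact hf0
    · rw [(S.red_w (hfi _)).2, show j = 0 by omega]; exact hf1

/-- Multiples of `h̄` lift to functions vanishing on the other side. -/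
theorem lift_crit (m : ℕ) (z : modularFunctionFieldFullC (ResidueField A) M)
    (hz : z ∈ riemannRochSpace ((m : ℤ) • S.polesC)) (i : Fin 2) :
    ∃ (m' : ℕ) (f : modularFunctionFieldBar (M * q)),
      f ∈ riemannRochSpace ((m' : ℤ) • S.polesH) ∧ (∀ j, S.gauss.Int j f) ∧
        ∀ j, S.gauss.red j f = if j = i then S.hb * z else 0 := by
  obtain ⟨m₁, s, hsi, rfl, hs⟩ := S.exists_lift_level m z hz
  obtain ⟨ha, -⟩ := S.alpha_mem_rr hs
  have hh : S.hFun ∈ riemannRochSpace ((q : ℤ) • S.polesH) := by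
    refine mem_riemannRochSpace_iff.mpr fun P => ?_
    have h0 := S.polesH_nonneg P
    have hq : (1 : ℤ) ≤ q := by exact_mod_cast S.prime.one_le
    rw [Finsupp.smul_apply, smul_eq_mul]
    refine S.hFun_vanishes P (by nlinarith) ?_ ?_ <;> rw [polesH_apply] <;>
      rcases le_total 0 (P.ord S.jF) with h1 | h1 <;>
        rcases le_total 0 (P.ord S.jqF) with h2 | h2 <;> simp [h1, h2] <;> nlinarith
  have hmem : S.hFun * heckeAlphaBar Qbar M q s ∈
      riemannRochSpace (((q + m₁ : ℕ) : ℤ) • S.polesH) := by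
    rw [Nat.cast_add, add_smul]
    exact rr_mul hh ha
  have hsa := fun j => S.red_eq (S.srep_alpha s hsi j)
  have hint : ∀ j, S.gauss.Int j (S.hFun * heckeAlphaBar Qbar M q s) ∧
      S.gauss.red j (S.hFun * heckeAlphaBar Qbar M q s) =
        if j = 0 then S.hb * S.model.red s else 0 := fun j => by
    refine ⟨S.gauss.int_mul j _ _ (S.red_hFun j).1 (hsa j).1, ?_⟩
    rw [S.gauss.red_mul j _ _ (S.red_hFun j).1 (hsa j).1, (S.red_hFun j).2, (hsa j).2]
    obtain rfl | rfl : j = 0 ∨ j = 1 := by omega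
    · simp [alphaVal]
    · simp [alphaVal]
  obtain rfl | rfl : i = 0 ∨ i = 1 := by omega
  · exact ⟨q + m₁, _, hmem, fun j => (hint j).1, fun j => (hint j).2⟩
  · refine ⟨q + m₁, _, S.w_mem_rr hmem, fun j => (S.red_w (hint _).1).1, fun j => ?_⟩
    rw [(S.red_w (hint _).1).2, (hint _).2]
    obtain rfl | rfl : j = 0 ∨ j = 1 := by omega
    · simp
    · simp

end Setting

end Fermat.Agent.SemistableRed

end
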