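import Fermat.Agent.Reduction.RedRing
import Fermat.Agent.Reduction.Lattice
import Fermat.Prelude.Thm_ModularCurve_coeffMap_qExpand
import Fermat.Agent.SemistableRed.GaussSplit

/-!
# Gauss reductions of ratios of integral series

`Rep x v` says that `x` is a ratio of series over `A` whose denominator has nonzero reduction and
that `v` is the ratio of the reductions.
-/

set_option autoImplicit false

noncomputable section

open IsLocalRing ModularCurve HahnSeries Fermat.Agent.Reduction

namespace Fermat.Agent.SemistableRed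

variable {L : Type*} [Field L] {A : ValuationSubring L}

/-- `x` reduces to `v`. -/
abbrev SRep (x : LaurentSeries L) (v : LaurentSeries (ResidueField A)) : Prop :=
  GoodModel.Rep x v

namespace SRep

theorem series (y : LaurentSeries A) : SRep (A := A) (ιS A y) (redS A y) :=
  ⟨y, 1, by rw [map_one, one_mul], by rw [map_one]; exact one_ne_zero, by rw [map_one, div_one]⟩

theorem unique {x : LaurentSeries L} {v w : LaurentSeries (ResidueField A)}
    (h : SRep x v) (h' : SRep x w) : v = w :=
  GoodModel.Rep.unique h h'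

theorem one : SRep (A := A) (1 : LaurentSeries L) 1 := by
  simpa using series (1 : LaurentSeries A)

theorem zero : SRep (A := A) (0 : LaurentSeries L) 0 := by
  simpa using series (0 : LaurentSeries A)

theorem const (a : A) : SRep (A := A) (algebraMap L (LaurentSeries L) a)
    (algebraMap (ResidueField A) (LaurentSeries (ResidueField A)) (residue A a)) := by
  have h := series (HahnSeries.single 0 a : LaurentSeries A)
  rwa [ιS_single, redS_single, ← algebraMap_laurentSeries_eq_single,
    ← algebraMap_laurentSeries_eq_single] at h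

variable {x y : LaurentSeries L} {v w : LaurentSeries (ResidueField A)}

theorem add (h : SRep x v) (h' : SRep y w) : SRep (x + y) (v + w) := by
  obtain ⟨P, Q, hP, hQ, rfl⟩ := h
  obtain ⟨P', Q', hP', hQ', rfl⟩ := h'
  refine ⟨P * Q' + Q * P', Q * Q', by
    rw [map_mul, map_add, map_mul, map_mul, ← hP, ← hP']; ring, by
    rw [map_mul]; exact mul_ne_zero hQ hQ', ?_⟩
  rw [div_add_div _ _ hQ hQ', map_add, map_mul, map_mul, map_mul]

theorem mul (h : SRep x v) (h' : SRep y w) : SRep (x * y) (v * w) := by
  obtain ⟨P, Q, hP, hQ, rfl⟩ := h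
  obtain ⟨P', Q', hP', hQ', rfl⟩ := h'
  exact ⟨P * P', Q * Q', by rw [map_mul, map_mul, ← hP, ← hP']; ring,
    by rw [map_mul]; exact mul_ne_zero hQ hQ', by rw [div_mul_div_comm, map_mul, map_mul]⟩

theorem smul {c : L} (hc : c ∈ A) (h : SRep x v) :
    SRep (c • x) (residue A ⟨c, hc⟩ • v) := by
  rw [smul_eq_algebraMap_mul, smul_eq_algebraMap_mul]
  exact (const ⟨c, hc⟩).mul h

theorem neg (h : SRep x v) : SRep (-x) (-v) := by
  have := (const (-1 : A)).mul h
  simpa using this

theorem sub (h : SRep x v) (h' : SRep y w) : SRep (x - y) (v - w) := by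
  rw [sub_eq_add_neg, sub_eq_add_neg]; exact h.add h'.neg

theorem pow (h : SRep x v) (n : ℕ) : SRep (x ^ n) (v ^ n) := by
  induction n with
  | zero => simpa using one
  | succ n ih => rw [pow_succ, pow_succ]; exact ih.mul h

theorem inv (h : SRep x v) (hv : v ≠ 0) : SRep x⁻¹ v⁻¹ := by
  obtain ⟨P, Q, hP, hQ, rfl⟩ := h
  have hP0 : redS A P ≠ 0 := fun h => hv (by rw [h, zero_div])
  have hx : x ≠ 0 := fun h => hP0 (by
    rw [show P = 0 from ιS_injective (by rw [map_zero, ← hP, h, mul_zero]), map_zero])
  exact ⟨Q, P, by rw [← hP, mul_assoc, mul_inv_cancel₀ hx, mul_one], hP0, by rw [inv_div]⟩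

theorem sum {J : Type*} (s : Finset J) {f : J → LaurentSeries L}
    {g : J → LaurentSeries (ResidueField A)} (h : ∀ j ∈ s, SRep (f j) (g j)) :
    SRep (∑ j ∈ s, f j) (∑ j ∈ s, g j) := by
  classical
  induction s using Finset.induction with
  | empty => simpa using zero
  | insert j t hj ih =>
    rw [Finset.sum_insert hj, Finset.sum_insert hj]
    exact (h j (Finset.mem_insert_self j t)).add (ih fun a ha => h a (Finset.mem_insert_of_mem ha))

theorem qExpand (n : ℕ) [NeZero n] (h : SRep x v) :
    SRep (ModularCurve.qExpand L n x) (ModularCurve.qExpand (ResidueField A) n v) := by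
  obtain ⟨P, Q, hP, hQ, rfl⟩ := h
  refine ⟨ModularCurve.qExpand A n P, ModularCurve.qExpand A n Q, ?_, ?_, ?_⟩
  · rw [ιS, coeffMap_qExpand, coeffMap_qExpand, ← map_mul, hP]
  · rw [redS, coeffMap_qExpand]
    exact (map_ne_zero_iff _ (qExpand_injective (R := ResidueField A) n)).mpr hQ
  · rw [map_div₀, redS, coeffMap_qExpand, coeffMap_qExpand]

/-- Transport along an automorphism of coefficients preserving `A`. -/
theorem map (σ : L →+* L) (g : A →+* A) (hg : ∀ a, (g a : L) = σ a)
    (gbar : ResidueField A →+* ResidueField A) (hbar : ∀ a, residue A (g a) = gbar (residue A a))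
    (h : SRep x v) : SRep (coeffMap σ x) (coeffMap gbar v) := by
  obtain ⟨P, Q, hP, hQ, rfl⟩ := h
  have hι : ∀ z : LaurentSeries A, ιS A (coeffMap g z) = coeffMap σ (ιS A z) := fun z => by
    ext n; exact hg _
  have hr : ∀ z : LaurentSeries A, redS A (coeffMap g z) = coeffMap gbar (redS A z) := fun z => by
    ext n; exact hbar _
  refine ⟨coeffMap g P, coeffMap g Q, ?_, ?_, ?_⟩
  · rw [hι, hι, ← map_mul, hP]
  · rw [hr]; exact (map_ne_zero_iff _ (coeffMap gbar).injective).mpr hQ
  · rw [map_div₀, hr, hr]

theorem exists_series (hnil : NilModulo A) (hb : Bdd A x) (h : SRep x v) :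
    ∃ z : LaurentSeries A, ιS A z = x ∧ redS A z = v := by
  obtain ⟨P, Q, hP, hQ, rfl⟩ := h
  obtain ⟨z, hz, hQz⟩ := exists_div hnil hQ hb hP
  exact ⟨z, hz, by rw [← hQz, map_mul, mul_div_cancel_left₀ _ hQ]⟩

end SRep

theorem Bdd.qExpand {x : LaurentSeries L} (n : ℕ) [NeZero n] (h : Bdd A x) :
    Bdd A (ModularCurve.qExpand L n x) := by
  obtain ⟨c, hc, y, hy⟩ := h
  refine ⟨c, hc, ModularCurve.qExpand A n y, ?_⟩
  rw [ιS, coeffMap_qExpand, hy, map_mul, qExpand_single, mul_zero]

/-- A series over `A` coming from `ℤ` and reducing to zero is divisible by the residue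
characteristic. -/
theorem exists_natCast_mul {q : ℕ} [CharP (ResidueField A) q] (hq : (q : A) ≠ 0)
    (z : LaurentSeries ℤ) (h : redS A (coeffMap (Int.castRingHom A) z) = 0) :
    ∃ w : LaurentSeries A, coeffMap (Int.castRingHom A) z = HahnSeries.single 0 (q : A) * w := by
  refine exists_eq_single_zero_mul hq fun n => ?_
  have h0 := congrArg (fun t => t.coeff n) h
  simp only [coeffMap_coeff, eq_intCast, map_intCast, HahnSeries.coeff_zero] at h0
  obtain ⟨t, ht⟩ := (CharP.intCast_eq_zero_iff (ResidueField A) q _).mp h0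
  exact ⟨(t : A), by rw [coeffMap_coeff, eq_intCast, ht]; push_cast; rfl⟩

end Fermat.Agent.SemistableRed

end
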