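import Fermat.Agent.SemistableRed.GaussPair
import Fermat.Agent.SemistableRed.SeriesRep
import Fermat.Agent.SemistableRed.Frob
import Fermat.Agent.SemistableRed.AtkinLehner
import Fermat.Agent.Reduction.ModularModel
import Fermat.Agent.Reduction.RedSurj
import Fermat.Agent.Reduction.Instances

/-!
# The two components of `X₀(M q)` modulo `q`

The reductions of the expansion at `∞` of `f` and of `w_q f`. The functions `h = j - j_q ^ q` and
`(w_q h) j_q ^ b`, `b < q`, form an integral basis over level `M` with independent reductions, so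
every function can be normalised on each side and its reductions lie in `F̄_M`.
-/

set_option autoImplicit false
set_option linter.unusedSectionVars false

noncomputable section

open IsLocalRing ModularCurve AlgebraicCurve Fermat.Agent.Reduction

namespace Fermat.Agent.SemistableRed

local notation "Qbar" => AlgebraicClosure ℚ

/-- `q ∤ M`, the place `A` lies over `q`, and the good reduction facts at level `M`. -/
structure Setting (A : ValuationSubring Qbar) (M q : ℕ) : Prop where
  not_dvd : ¬ q ∣ M
  above : A.LiesOverPrime q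
  facts : ∃ g : ℤ, ReductionFacts (ResidueField A) M g

variable {A : ValuationSubring Qbar} {M q : ℕ} [NeZero M] [NeZero q] [Fact q.Prime]
  [CharP (ResidueField A) q] [IsAlgClosed (ResidueField A)] (S : Setting A M q)

namespace Setting

include S in
theorem prime : q.Prime := Fact.out

/-- The good model of level `M`. -/
def model : GoodModel A (modularFunctionFieldBar M) (modularFunctionFieldFullC (ResidueField A) M) :=
  modularGoodModel A M S.above S.facts.choose_spec

include S in
theorem nilModulo' : NilModulo A := S.model.nil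

/-- `w_q`. -/
def w : modularFunctionFieldBar (M * q) ≃ₐ[Qbar] modularFunctionFieldBar (M * q) :=
  wq S.prime S.not_dvd

theorem w_w (x : modularFunctionFieldBar (M * q)) : S.w (S.w x) = x := wq_wq _ _ x

/-- The two expansions. -/
def side : Fin 2 → (modularFunctionFieldBar (M * q) →ₐ[Qbar] LaurentSeries Qbar) :=
  ![(modularFunctionFieldBar (M * q)).val,
    (modularFunctionFieldBar (M * q)).val.comp S.w.toAlgHom]

theorem side_zero (x : modularFunctionFieldBar (M * q)) :
    S.side 0 x = (x : LaurentSeries Qbar) := rfl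

theorem side_one (x : modularFunctionFieldBar (M * q)) :
    S.side 1 x = (S.w x : LaurentSeries Qbar) := rfl

theorem side_smul (i : Fin 2) (c : Qbar) (x : modularFunctionFieldBar (M * q)) :
    S.side i (c • x) = c • S.side i x := algHom_smul _ c x

theorem w_smul (c : Qbar) (x : modularFunctionFieldBar (M * q)) : S.w (c • x) = c • S.w x := by
  rw [Algebra.smul_def, Algebra.smul_def, map_mul, AlgEquiv.commutes]

theorem side_w (i : Fin 2) (x : modularFunctionFieldBar (M * q)) :
    S.side i (S.w x) = S.side (1 - i) x := by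
  fin_cases i
  · rfl
  · show ((S.w (S.w x) : modularFunctionFieldBar (M * q)) : LaurentSeries Qbar) = x
    rw [S.w_w]

theorem side_alpha (x : modularFunctionFieldBar M) :
    S.side 0 (heckeAlphaBar Qbar M q x) = (x : LaurentSeries Qbar) ∧
      S.side 1 (heckeAlphaBar Qbar M q x) = qExpand Qbar q (x : LaurentSeries Qbar) := by
  refine ⟨coe_heckeAlphaBar M q x, ?_⟩
  rw [side_one, w, wq_heckeAlphaBar]
  exact coe_heckeBetaBar M q x

theorem side_beta (x : modularFunctionFieldBar M) :
    S.side 0 (heckeBetaBar Qbar M q x) = qExpand Qbar q (x : LaurentSeries Qbar) ∧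
      S.side 1 (heckeBetaBar Qbar M q x) = (x : LaurentSeries Qbar) := by
  refine ⟨coe_heckeBetaBar M q x, ?_⟩
  rw [side_one, w, wq_heckeBetaBar]
  exact coe_heckeAlphaBar M q x

/-- The reduction of a level `M` function on the two sides, through `α`. -/
def alphaVal (v : modularFunctionFieldFullC (ResidueField A) M) :
    Fin 2 → modularFunctionFieldFullC (ResidueField A) M :=
  ![v, piG (ResidueField A) M q v]

theorem srep_level (x : modularFunctionFieldBar M) (hx : S.model.IsInt x) :
    SRep (x : LaurentSeries Qbar) (S.model.red x : LaurentSeries (ResidueField A)) := by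
  obtain ⟨P, Q, h1, h2, h3⟩ := S.model.exists_witness hx
  exact ⟨P, Q, h1, h2, h3⟩

theorem srep_alpha (x : modularFunctionFieldBar M) (hx : S.model.IsInt x) (i : Fin 2) :
    SRep (S.side i (heckeAlphaBar Qbar M q x))
      (alphaVal (S.model.red x) i : LaurentSeries (ResidueField A)) := by
  fin_cases i
  · show SRep (S.side 0 _) _
    rw [(S.side_alpha x).1]; exact S.srep_level x hx
  · show SRep (S.side 1 _) _
    rw [(S.side_alpha x).2]; exact (S.srep_level x hx).qExpand q

theorem srep_beta (x : modularFunctionFieldBar M) (hx : S.model.IsInt x) (i : Fin 2) :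
    SRep (S.side i (heckeBetaBar Qbar M q x))
      (alphaVal (S.model.red x) (1 - i) : LaurentSeries (ResidueField A)) := by
  fin_cases i
  · show SRep (S.side 0 _) _
    rw [(S.side_beta x).1]; exact (S.srep_level x hx).qExpand q
  · show SRep (S.side 1 _) _
    rw [(S.side_beta x).2]; exact S.srep_level x hx

include S in
theorem isInt_jBar : S.model.IsInt (jBar M) ∧ S.model.red (jBar M) = jbar (ResidueField A) M := by
  have h := S.model.isInt_series (x := jBar M) (y := jqModC A) (coeffMap_jqModC A.subtype).symm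
  exact ⟨h.1, Subtype.ext (h.2.trans (coeffMap_jqModC (residue A)))⟩

/-- `j` at level `M q`. -/
def jF (_S : Setting A M q) : modularFunctionFieldBar (M * q) := heckeAlphaBar Qbar M q (jBar M)

/-- `j(q τ)` at level `M q`. -/
def jqF (_S : Setting A M q) : modularFunctionFieldBar (M * q) := heckeBetaBar Qbar M q (jBar M)

theorem w_jF : S.w S.jF = S.jqF := wq_heckeAlphaBar _ _ _

theorem w_jqF : S.w S.jqF = S.jF := wq_heckeBetaBar _ _ _

theorem srep_jF (i : Fin 2) :
    SRep (S.side i S.jF) (alphaVal (jbar (ResidueField A) M) i : LaurentSeries (ResidueField A)) :=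
  S.isInt_jBar.2 ▸ S.srep_alpha (jBar M) S.isInt_jBar.1 i

theorem srep_jqF (i : Fin 2) :
    SRep (S.side i S.jqF)
      (alphaVal (jbar (ResidueField A) M) (1 - i) : LaurentSeries (ResidueField A)) :=
  S.isInt_jBar.2 ▸ S.srep_beta (jBar M) S.isInt_jBar.1 i

/-- The function `h = j - j_q ^ q`. -/
def hFun : modularFunctionFieldBar (M * q) := S.jF - S.jqF ^ q

/-- The reduction `j̄ - j̄ ^ (q²)` of `h` on the first side. -/
def hb (_S : Setting A M q) : modularFunctionFieldFullC (ResidueField A) M :=
  jbar (ResidueField A) M - (jbar (ResidueField A) M ^ q) ^ q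

theorem hb_ne : S.hb ≠ 0 := fun h =>
  jbar_ne_pow (ResidueField A) M q _ (sub_eq_zero.mp h).symm

theorem srep_hFun (i : Fin 2) :
    SRep (S.side i S.hFun)
      ((![S.hb, 0] : Fin 2 → modularFunctionFieldFullC (ResidueField A) M) i :
        LaurentSeries (ResidueField A)) := by
  have h := (S.srep_jF i).sub ((S.srep_jqF i).pow q)
  rw [← map_pow, ← map_sub] at h
  have e : ∀ j : Fin 2, alphaVal (q := q) (jbar (ResidueField A) M) j -
      alphaVal (q := q) (jbar (ResidueField A) M) (1 - j) ^ q = ![S.hb, 0] j := by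
    intro j
    fin_cases j
    · show jbar (ResidueField A) M - piG (ResidueField A) M q (jbar (ResidueField A) M) ^ q = S.hb
      rw [piG_jbar]; rfl
    · show piG (ResidueField A) M q (jbar (ResidueField A) M) - jbar (ResidueField A) M ^ q = 0
      rw [piG_jbar, sub_self]
  rw [← e i, AddSubgroupClass.coe_sub, SubmonoidClass.coe_pow]
  exact h

/-- The integral basis over level `M`. -/
def base : Option (Fin q) → modularFunctionFieldBar (M * q)
  | none => S.hFun
  | some b => S.w S.hFun * S.jqF ^ (b : ℕ)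

/-- Its reductions. -/
def baseVal : Option (Fin q) → Fin 2 → modularFunctionFieldFullC (ResidueField A) M
  | none => ![S.hb, 0]
  | some b => fun i => (![0, S.hb] : Fin 2 → _) i *
      alphaVal (q := q) (jbar (ResidueField A) M) (1 - i) ^ (b : ℕ)

theorem srep_base (o : Option (Fin q)) (i : Fin 2) :
    SRep (S.side i (S.base o)) (S.baseVal o i : LaurentSeries (ResidueField A)) := by
  cases o with
  | none => exact S.srep_hFun i
  | some b =>
    simp only [base, baseVal]
    rw [map_mul, map_pow, S.side_w, MulMemClass.coe_mul, SubmonoidClass.coe_pow]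
    refine SRep.mul ?_ ((S.srep_jqF i).pow _)
    fin_cases i <;> exact S.srep_hFun _

/-- The value of a combination of the basis. -/
def combVal (v : Option (Fin q) → modularFunctionFieldFullC (ResidueField A) M) (i : Fin 2) :
    modularFunctionFieldFullC (ResidueField A) M :=
  ∑ o, alphaVal (q := q) (v o) i * S.baseVal o i

theorem srep_comb (c : Option (Fin q) → modularFunctionFieldBar M)
    (hc : ∀ o, S.model.IsInt (c o)) (i : Fin 2) :
    SRep (S.side i (∑ o, heckeAlphaBar Qbar M q (c o) * S.base o))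
      (S.combVal (fun o => S.model.red (c o)) i : LaurentSeries (ResidueField A)) := by
  rw [map_sum, combVal, AddSubmonoidClass.coe_finsetSum]
  refine SRep.sum _ fun o _ => ?_
  rw [map_mul, MulMemClass.coe_mul]
  exact (S.srep_alpha _ (hc o) i).mul (S.srep_base o i)

theorem eq_zero_of_combVal (v : Option (Fin q) → modularFunctionFieldFullC (ResidueField A) M)
    (h : ∀ i, S.combVal v i = 0) : ∀ o, v o = 0 := by
  have h0 := h 0
  have h1 := h 1
  simp only [combVal, Fintype.sum_option, baseVal, alphaVal, Matrix.cons_val_zero,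
    Matrix.cons_val_one, zero_mul, mul_zero, Finset.sum_const_zero, add_zero, zero_add,
    mul_eq_zero, S.hb_ne, or_false] at h0 h1
  have h2 : ∑ b : Fin q, piG (ResidueField A) M q (v (some b)) *
      jbar (ResidueField A) M ^ (b : ℕ) = 0 := by
    refine (mul_eq_zero.mp ?_).resolve_left S.hb_ne
    rw [← h1, Finset.mul_sum]
    refine Finset.sum_congr rfl fun b _ => ?_
    rw [show (1 : Fin 2) - 1 = 0 from rfl, Matrix.cons_val_zero]
    ring
  intro o
  cases o with
  | none => exact h0
  | some b => exact eq_zero_of_sum_piG_mul_pow _ M q _ h2 b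

/-- Scaling a family at level `M`. -/
theorem exists_scaled_family {J : Type*} [Fintype J] (c : J → modularFunctionFieldBar M)
    (hc : ∃ j, c j ≠ 0) :
    ∃ a : Qbar, a ≠ 0 ∧ (∀ j, S.model.IsInt (a • c j)) ∧ ∃ j, S.model.red (a • c j) ≠ 0 := by
  classical
  let s : Finset J := Finset.univ.filter fun j => c j ≠ 0
  have key : ∀ j, ∃ a : Qbar, j ∈ s → a ≠ 0 ∧ S.model.IsInt (a • c j) ∧
      S.model.red (a • c j) ≠ 0 := fun j => by
    by_cases hj : j ∈ s
    · obtain ⟨a, ha⟩ := S.model.exists_scale (Finset.mem_filter.mp hj).2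
      exact ⟨a, fun _ => ha⟩
    · exact ⟨0, fun h => absurd h hj⟩
  choose a ha using key
  obtain ⟨j0, hj0, hmin⟩ := exists_forall_div_mem (A := A) s
    (by obtain ⟨j, hj⟩ := hc; exact ⟨j, by simp [s, hj]⟩) a fun j hj => (ha j hj).1
  refine ⟨a j0, (ha j0 hj0).1, fun j => ?_, j0, (ha j0 hj0).2.2⟩
  by_cases hj : c j = 0
  · rw [hj, smul_zero]; exact S.model.isInt_zero
  · have hjs : j ∈ s := by simp [s, hj]
    rw [show a j0 • c j = (a j0 / a j) • (a j • c j) by
      rw [smul_smul, div_mul_cancel₀ _ (ha j hjs).1]]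
    exact (S.model.isInt_smul (hmin j hjs) (ha j hjs).2.1).1

theorem smul_comb (a : Qbar) (c : Option (Fin q) → modularFunctionFieldBar M) :
    a • ∑ o, heckeAlphaBar Qbar M q (c o) * S.base o =
      ∑ o, heckeAlphaBar Qbar M q (a • c o) * S.base o := by
  rw [Finset.smul_sum]
  exact Finset.sum_congr rfl fun o _ => by
    rw [Algebra.smul_def, Algebra.smul_def, map_mul, AlgHom.commutes, mul_assoc]

theorem exists_comb (f : modularFunctionFieldBar (M * q)) :
    ∃ c : Option (Fin q) → modularFunctionFieldBar M,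
      f = ∑ o, heckeAlphaBar Qbar M q (c o) * S.base o := by
  have hdeg := Congruence.finrankAlong_heckeAlphaBar (N := M) qbarToComplex S.prime S.not_dvd
  let := algebraAlong (heckeAlphaBar Qbar M q)
  let : Module (modularFunctionFieldBar M) (modularFunctionFieldBar (M * q)) := Algebra.toModule
  have hsmul : ∀ (c : modularFunctionFieldBar M) (x : modularFunctionFieldBar (M * q)),
      c • x = heckeAlphaBar Qbar M q c * x := fun c x => Algebra.smul_def c x
  have hli : LinearIndependent (modularFunctionFieldBar M) S.base := by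
    rw [Fintype.linearIndependent_iff]
    intro c hc o
    by_contra hne
    obtain ⟨a, -, hai, j, hj⟩ := S.exists_scaled_family c ⟨o, hne⟩
    refine hj (S.eq_zero_of_combVal (fun o => S.model.red (a • c o)) (fun i => Subtype.ext ?_) j)
    have h0 : ∑ o, heckeAlphaBar Qbar M q (a • c o) * S.base o = 0 := by
      simp only [hsmul] at hc
      rw [← S.smul_comb, hc, smul_zero]
    have h1 := S.srep_comb _ hai i
    rw [h0, map_zero] at h1
    exact h1.unique SRep.zero
  have hcard : Fintype.card (Option (Fin q)) =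
      Module.finrank (modularFunctionFieldBar M) (modularFunctionFieldBar (M * q)) := by
    rw [Fintype.card_option, Fintype.card_fin]
    exact hdeg.symm
  let b := basisOfLinearIndependentOfCardEqFinrank hli hcard
  refine ⟨fun o => b.repr f o, ?_⟩
  conv_lhs => rw [← b.sum_repr f]
  refine Finset.sum_congr rfl fun o _ => ?_
  rw [hsmul]
  congr 1
  exact congrFun (coe_basisOfLinearIndependentOfCardEqFinrank hli hcard) o

/-- A common scaling of both sides. -/
theorem exists_scaled {f : modularFunctionFieldBar (M * q)} (hf : f ≠ 0) :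
    ∃ (a : Qbar) (v : Fin 2 → modularFunctionFieldFullC (ResidueField A) M),
      a ≠ 0 ∧ (∀ i, SRep (S.side i (a • f)) (v i : LaurentSeries (ResidueField A))) ∧
        ∃ i, v i ≠ 0 := by
  obtain ⟨c, rfl⟩ := S.exists_comb f
  have hc : ∃ o, c o ≠ 0 := by
    by_contra h
    push Not at h
    exact hf (Finset.sum_eq_zero fun o _ => by rw [h o, map_zero, zero_mul])
  obtain ⟨a, ha, hai, j, hj⟩ := S.exists_scaled_family c hc
  refine ⟨a, S.combVal fun o => S.model.red (a • c o), ha, fun i => ?_, ?_⟩
  · rw [S.smul_comb]; exact S.srep_comb _ hai i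
  · by_contra h
    push Not at h
    exact hj (S.eq_zero_of_combVal _ h j)

end Setting

theorem srep_zero_of_not_mem {x : LaurentSeries Qbar} {c : Qbar} (hc : c ∉ A)
    {w : LaurentSeries (ResidueField A)} (h : SRep (c • x) w) : SRep (A := A) x 0 := by
  obtain ⟨h1, h2⟩ := inv_mem_maximal (π := residue A)
    (fun a => by rw [residue_eq_zero_iff]; rfl) hc
  have h3 := h.smul h1
  rwa [h2, zero_smul, smul_smul, inv_mul_cancel₀ fun h0 : c = 0 => hc (h0 ▸ A.zero_mem),
    one_smul] at h3

theorem mem_of_srep_const {c : Qbar} {w : LaurentSeries (ResidueField A)}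
    (h : SRep (c • (1 : LaurentSeries Qbar)) w) : c ∈ A := by
  by_contra hc
  exact one_ne_zero ((SRep.one (A := A)).unique (srep_zero_of_not_mem hc h))

theorem coe_smul_full (c : ResidueField A) (x : modularFunctionFieldFullC (ResidueField A) M) :
    ((c • x : modularFunctionFieldFullC (ResidueField A) M) : LaurentSeries (ResidueField A)) =
      algebraMap (ResidueField A) (LaurentSeries (ResidueField A)) c * x := by
  rw [Algebra.smul_def, MulMemClass.coe_mul]
  rfl

namespace Setting

include S in
theorem exists_pow_small {c : A} (hc : c ≠ 0) :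
    ∃ N : ℕ, ∃ d : A, ((q : Qbar)) ^ N = (c : Qbar) * d ∧ residue A d = 0 := by
  obtain ⟨N, d, hd⟩ := S.nilModulo' (q : A) (natCast_mem_maximalIdeal S.above) c hc
  refine ⟨N + 1, d * (q : A), ?_, ?_⟩
  · have := congrArg (fun t : A => (t : Qbar)) hd
    push_cast at this ⊢
    rw [pow_succ, this]; ring
  · rw [map_mul, map_natCast, residue_natCast_eq_zero S.above, mul_zero]

/-- `h` is divisible by `q` on the second side. -/
theorem srep_hFun_div :
    ∃ w : LaurentSeries (ResidueField A), SRep (S.side 1 ((q : Qbar)⁻¹ • S.hFun)) w := by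
  set z : LaurentSeries ℤ := qExpand ℤ q (jqModC ℤ) - jqModC ℤ ^ q with hz
  have hq : (q : A) ≠ 0 := fun h => (Nat.cast_ne_zero.mpr (NeZero.ne q) : (q : Qbar) ≠ 0) (by
    simpa using congrArg (fun t : A => (t : Qbar)) h)
  have e : S.side 1 S.hFun = ιS A (coeffMap (Int.castRingHom A) z) := by
    rw [hz, hFun, map_sub, map_pow, jF, jqF, (S.side_alpha _).2, (S.side_beta _).2, map_sub,
      map_pow, coeffMap_qExpand, coeffMap_jqModC, map_sub, map_pow, ιS, coeffMap_qExpand,
      coeffMap_jqModC]
    rfl
  have hred : redS A (coeffMap (Int.castRingHom A) z) = 0 := by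
    have h1 := SRep.series (coeffMap (Int.castRingHom A) z)
    rw [← e] at h1
    exact h1.unique (S.srep_hFun 1)
  obtain ⟨w, hw⟩ := exists_natCast_mul hq z hred
  refine ⟨redS A w, ?_⟩
  have : S.side 1 ((q : Qbar)⁻¹ • S.hFun) = ιS A w := by
    rw [S.side_smul, e, hw, map_mul, ιS_single, smul_eq_algebraMap_mul,
      algebraMap_laurentSeries_eq_single, ← mul_assoc, HahnSeries.single_mul_single, zero_add]
    rw [show ((q : A) : Qbar) = (q : Qbar) from map_natCast A.subtype q,
      inv_mul_cancel₀ (Nat.cast_ne_zero.mpr (NeZero.ne q)), HahnSeries.single_zero_one, one_mul]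
  rw [this]
  exact SRep.series w

/-- Normalisation on the first side. -/
theorem exists_norm_zero {f : modularFunctionFieldBar (M * q)} (hf : f ≠ 0) :
    ∃ (c : Qbar) (v : modularFunctionFieldFullC (ResidueField A) M), v ≠ 0 ∧
      SRep (S.side 0 (c • f)) (v : LaurentSeries (ResidueField A)) := by
  obtain ⟨a0, v0, ha0, hv0, -⟩ := S.exists_scaled hf
  obtain ⟨a2, v2, ha2, hv2, -⟩ := S.exists_scaled (inv_ne_zero hf)
  -- a power of `q` small against `a0 * a2`
  obtain ⟨N, d, hd, hdA, hdπ⟩ : ∃ (N : ℕ) (d : Qbar),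
      (q : Qbar) ^ N = a0 * a2 * d ∧ ∃ h : d ∈ A, residue A ⟨d, h⟩ = 0 := by
    by_cases hmem : a0 * a2 ∈ A
    · obtain ⟨N, d, h1, h2⟩ := S.exists_pow_small (c := ⟨a0 * a2, hmem⟩)
        fun h => mul_ne_zero ha0 ha2 (congrArg Subtype.val h)
      exact ⟨N, d, h1, d.2, h2⟩
    · obtain ⟨h1, h2⟩ := inv_mem_maximal (π := residue A)
        (fun a => by rw [residue_eq_zero_iff]; rfl) hmem
      exact ⟨0, (a0 * a2)⁻¹, by rw [pow_zero, mul_inv_cancel₀ (mul_ne_zero ha0 ha2)], h1, h2⟩
  obtain ⟨hw, hhw⟩ := S.srep_hFun_div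
  obtain ⟨aN, v, haN, hv, i, hi⟩ := S.exists_scaled
    (mul_ne_zero hf (pow_ne_zero N fun h : S.hFun = 0 => S.hb_ne (Subtype.ext (by
      have := S.srep_hFun 0
      rw [h, map_zero] at this
      exact this.unique SRep.zero))))
  have hh0 : SRep (S.side 0 (S.hFun ^ N)) ((S.hb ^ N : _) : LaurentSeries (ResidueField A)) := by
    rw [map_pow, SubmonoidClass.coe_pow]; exact (S.srep_hFun 0).pow N
  have hhN : ((S.hb ^ N : _) : LaurentSeries (ResidueField A)) ≠ 0 :=
    fun h => pow_ne_zero N S.hb_ne (Subtype.ext h)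
  -- on the first side
  have h0 : SRep (S.side 0 (aN • f))
      ((v 0 * (S.hb ^ N)⁻¹ : _) : LaurentSeries (ResidueField A)) := by
    have := (hv 0).mul (hh0.inv hhN)
    rw [← map_inv₀, ← map_mul, smul_mul_assoc, mul_assoc,
      mul_inv_cancel₀ (pow_ne_zero N fun h : S.hFun = 0 => ?_), mul_one] at this
    · simpa using this
    · exact hhN (((by rw [h, map_pow, map_zero] at hh0; exact hh0) : SRep _ _).unique
        (by
          rcases Nat.eq_zero_or_pos N with hN | hN
          · exact absurd h fun h => S.hb_ne (Subtype.ext (by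
              have := S.srep_hFun 0
              rw [h, map_zero] at this
              exact this.unique SRep.zero))
          · rw [zero_pow hN.ne']; exact SRep.zero))
  refine ⟨aN, v 0 * (S.hb ^ N)⁻¹, mul_ne_zero ?_ (inv_ne_zero (pow_ne_zero N S.hb_ne)), h0⟩
  intro hv00
  have hi1 : i = 1 := by
    fin_cases i
    · exact absurd hv00 hi
    · rfl
  subst hi1
  -- on the second side
  have hmemA : aN * a2 ∈ A := by
    refine mem_of_srep_const
      (w := ((v 0 * (S.hb ^ N)⁻¹ : _) : LaurentSeries (ResidueField A)) * (v2 0 : LaurentSeries (ResidueField A))) ?_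
    have := h0.mul (hv2 0)
    rwa [← map_mul, smul_mul_smul_comm, mul_inv_cancel₀ hf, S.side_smul, map_one] at this
  have h1 : SRep (A := A) (S.side 1 (aN • (f * S.hFun ^ N))) 0 := by
    have h2 : SRep (S.side 1 ((a0 • f) * ((q : Qbar)⁻¹ • S.hFun) ^ N))
        ((v0 1 : LaurentSeries (ResidueField A)) * hw ^ N) := by
      rw [map_mul, map_pow]; exact (hv0 1).mul (hhw.pow N)
    have hcA : d * (aN * a2) ∈ A := A.mul_mem _ _ hdA hmemA
    have h3 := h2.smul hcA
    have hz : residue A ⟨_, hcA⟩ = 0 := by
      rw [show (⟨_, hcA⟩ : A) = ⟨d, hdA⟩ * ⟨_, hmemA⟩ from rfl, map_mul, hdπ, zero_mul]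
    rw [hz, zero_smul, ← S.side_smul, smul_pow, smul_mul_smul_comm, smul_smul] at h3
    have hq0 : (q : Qbar) ^ N ≠ 0 := pow_ne_zero _ (Nat.cast_ne_zero.mpr (NeZero.ne q))
    rwa [show d * (aN * a2) * (a0 * (q : Qbar)⁻¹ ^ N) = aN by
      rw [inv_pow, show d * (aN * a2) * (a0 * ((q : Qbar) ^ N)⁻¹) =
        aN * (a0 * a2 * d) * ((q : Qbar) ^ N)⁻¹ by ring, ← hd, mul_assoc,
        mul_inv_cancel₀ hq0, mul_one]] at h3
  exact hi (Subtype.ext ((hv 1).unique h1))

theorem exists_norm {f : modularFunctionFieldBar (M * q)} (hf : f ≠ 0) (i : Fin 2) :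
    ∃ (c : Qbar) (v : modularFunctionFieldFullC (ResidueField A) M), v ≠ 0 ∧
      SRep (S.side i (c • f)) (v : LaurentSeries (ResidueField A)) := by
  fin_cases i
  · exact S.exists_norm_zero hf
  · obtain ⟨c, v, hv, h⟩ := S.exists_norm_zero ((map_ne_zero S.w).mpr hf)
    refine ⟨c, v, hv, ?_⟩
    rwa [← S.w_smul, S.side_w] at h

theorem srep_mem {f : modularFunctionFieldBar (M * q)} {i : Fin 2}
    {v : LaurentSeries (ResidueField A)} (h : SRep (S.side i f) v) :
    v ∈ modularFunctionFieldFullC (ResidueField A) M := by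
  rcases eq_or_ne f 0 with rfl | hf
  · rw [map_zero] at h
    rw [h.unique SRep.zero]; exact zero_mem _
  obtain ⟨c, v', hv', h'⟩ := S.exists_norm hf i
  rw [S.side_smul] at h'
  by_cases hc : c ∈ A
  · have h1 := h'.unique (h.smul hc)
    have hne : residue A ⟨c, hc⟩ ≠ 0 := fun e => hv' (Subtype.ext (by rw [h1, e, zero_smul]; rfl))
    have : v = (residue A ⟨c, hc⟩)⁻¹ • (v' : LaurentSeries (ResidueField A)) := by
      rw [h1, smul_smul, inv_mul_cancel₀ hne, one_smul]
    rw [this, smul_eq_algebraMap_mul]
    exact mul_mem ((modularFunctionFieldFullC (ResidueField A) M).algebraMap_mem _) v'.2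
  · rw [h.unique (srep_zero_of_not_mem hc h')]; exact zero_mem _

open Classical in
/-- The pair of Gauss reductions of `X₀(M q)` at `q`. -/
def gauss : GaussPair A (residue A) (modularFunctionFieldBar (M * q))
    (modularFunctionFieldFullC (ResidueField A) M) where
  Int i f := ∃ v : LaurentSeries (ResidueField A), SRep (S.side i f) v
  red i f := if h : ∃ v : LaurentSeries (ResidueField A), SRep (S.side i f) v then ⟨h.choose, S.srep_mem h.choose_spec⟩ else 0
  int_one i := ⟨1, by rw [map_one]; exact SRep.one⟩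
  red_one i := by
    have h : ∃ v, SRep (A := A) (S.side i 1) v := ⟨1, by rw [map_one]; exact SRep.one⟩
    rw [dif_pos h]
    exact Subtype.ext (h.choose_spec.unique (by rw [map_one]; exact SRep.one))
  int_add i f g := fun ⟨v, hv⟩ ⟨w, hw⟩ => ⟨v + w, by rw [map_add]; exact hv.add hw⟩
  red_add i f g hf hg := by
    have h : ∃ v, SRep (A := A) (S.side i (f + g)) v :=
      ⟨_, by rw [map_add]; exact hf.choose_spec.add hg.choose_spec⟩
    rw [dif_pos h, dif_pos hf, dif_pos hg]
    exact Subtype.ext (h.choose_spec.unique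
      (by rw [map_add]; exact hf.choose_spec.add hg.choose_spec))
  int_mul i f g := fun ⟨v, hv⟩ ⟨w, hw⟩ => ⟨v * w, by rw [map_mul]; exact hv.mul hw⟩
  red_mul i f g hf hg := by
    have h : ∃ v, SRep (A := A) (S.side i (f * g)) v :=
      ⟨_, by rw [map_mul]; exact hf.choose_spec.mul hg.choose_spec⟩
    rw [dif_pos h, dif_pos hf, dif_pos hg]
    exact Subtype.ext (h.choose_spec.unique
      (by rw [map_mul]; exact hf.choose_spec.mul hg.choose_spec))
  int_smul i c f hc := fun ⟨v, hv⟩ => ⟨_, by rw [S.side_smul]; exact hv.smul hc⟩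
  red_smul i c f hc hf := by
    have h : ∃ v, SRep (A := A) (S.side i (c • f)) v :=
      ⟨_, by rw [S.side_smul]; exact hf.choose_spec.smul hc⟩
    rw [dif_pos h, dif_pos hf]
    refine Subtype.ext (h.choose_spec.unique ?_)
    rw [S.side_smul, coe_smul_full]
    have := hf.choose_spec.smul hc
    rw [smul_eq_algebraMap_mul (residue A ⟨c, hc⟩)] at this
    exact this
  isResidueMap a := by rw [residue_eq_zero_iff]; rfl

theorem red_eq {i : Fin 2} {f : modularFunctionFieldBar (M * q)}
    {v : modularFunctionFieldFullC (ResidueField A) M}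
    (h : SRep (S.side i f) (v : LaurentSeries (ResidueField A))) :
    S.gauss.Int i f ∧ S.gauss.red i f = v := by
  have h' : ∃ w, SRep (A := A) (S.side i f) w := ⟨_, h⟩
  refine ⟨h', ?_⟩
  classical
  show (dite _ _ _ : modularFunctionFieldFullC (ResidueField A) M) = v
  rw [dif_pos h']
  exact Subtype.ext (h'.choose_spec.unique h)

theorem srep_red {i : Fin 2} {f : modularFunctionFieldBar (M * q)} (h : S.gauss.Int i f) :
    SRep (S.side i f) (S.gauss.red i f : LaurentSeries (ResidueField A)) := by
  obtain ⟨v, hv⟩ := h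
  rw [(S.red_eq (v := ⟨v, S.srep_mem hv⟩) hv).2]
  exact hv

theorem normalise (i : Fin 2) (f : modularFunctionFieldBar (M * q)) (hf : f ≠ 0) :
    ∃ c : Qbar, S.gauss.Int i (c • f) ∧ S.gauss.red i (c • f) ≠ 0 := by
  obtain ⟨c, v, hv, h⟩ := S.exists_norm hf i
  exact ⟨c, (S.red_eq h).1, by rw [(S.red_eq h).2]; exact hv⟩

include S in
theorem rankOne (x : Qbar) (hx : x ≠ 0) (y : A) (hy : residue A y = 0) :
    ∃ m : ℕ, (y : Qbar) ^ m / x ∈ A := by
  rcases A.mem_or_inv_mem x with h | h
  · obtain ⟨m, d, hd⟩ := S.nilModulo' y ((residue_eq_zero_iff _).mp hy) ⟨x, h⟩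
      fun e => hx (congrArg Subtype.val e)
    refine ⟨m, ?_⟩
    have he := congrArg (fun t : A => (t : Qbar)) hd
    push_cast at he
    rw [he, mul_div_cancel_left₀ _ hx]
    exact d.2
  · exact ⟨0, by rw [pow_zero, one_div]; exact h⟩

theorem exists_lift (z : Fin 2 → modularFunctionFieldFullC (ResidueField A) M) :
    ∃ f, ∀ i, S.gauss.Int i f ∧ S.gauss.red i f = z i := by
  obtain ⟨s, hs, hs'⟩ := S.model.exists_isInt_red_eq (z 0 / S.hb)
  obtain ⟨t, ht, ht'⟩ := S.model.exists_isInt_red_eq (z 1 / S.hb)
  refine ⟨heckeAlphaBar Qbar M q s * S.hFun + heckeBetaBar Qbar M q t * S.w S.hFun,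
    fun i => S.red_eq ?_⟩
  have h1 := ((S.srep_alpha s hs i).mul (S.srep_hFun i)).add
    ((S.srep_beta t ht i).mul ((S.side_w i S.hFun).symm ▸ S.srep_hFun (1 - i)))
  rw [← map_mul, ← map_mul, ← map_add, ← MulMemClass.coe_mul, ← MulMemClass.coe_mul,
    ← AddMemClass.coe_add] at h1
  have e : alphaVal (q := q) (S.model.red s) i * ![S.hb, 0] i +
      alphaVal (q := q) (S.model.red t) (1 - i) * ![S.hb, 0] (1 - i) = z i := by
    rw [hs', ht']
    fin_cases i
    · simp [alphaVal, div_mul_cancel₀ _ S.hb_ne]
    · simp [alphaVal, div_mul_cancel₀ _ S.hb_ne]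
  rw [e] at h1
  exact h1

theorem exists_common_denominator {J : Type*} [Fintype J]
    (f : J → modularFunctionFieldBar (M * q)) :
    ∃ u : modularFunctionFieldBar (M * q),
      (∀ i, S.gauss.Int i u ∧ S.gauss.red i u ≠ 0) ∧
        ∀ i j, Bdd A (S.side i (u * f j)) := by
  choose c hc using fun j => S.exists_comb (f j)
  obtain ⟨Q, hQ, hQF, hb⟩ := S.model.exists_common_denom
    (fun x : J × Option (Fin q) => c x.1 x.2)
  set u0 : modularFunctionFieldBar M := ⟨ιS A Q, hQF⟩
  have hu0 := S.model.isInt_series (x := u0) (y := Q) rfl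
  refine ⟨heckeAlphaBar Qbar M q u0, fun i => ?_, fun i j => ?_⟩
  · obtain ⟨h1, h2⟩ := S.red_eq (S.srep_alpha u0 hu0.1 i)
    refine ⟨h1, ?_⟩
    rw [h2]
    have hne : S.model.red u0 ≠ 0 := fun e => hQ (by rw [← hu0.2, e]; rfl)
    fin_cases i
    · exact hne
    · exact (map_ne_zero _).mpr hne
  · rw [hc j, Finset.mul_sum, map_sum]
    refine Bdd.sum _ _ fun o _ => ?_
    have hbase : ∀ i, Bdd A (S.side i (S.base o)) := by
      intro i
      have hj : ∀ i, S.side i S.jF ∈ (ιS A).range ∧ S.side i S.jqF ∈ (ιS A).range := by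
        intro i
        obtain rfl | rfl : i = 0 ∨ i = 1 := by omega
        · exact ⟨⟨jqModC A, by rw [jF, show S.side _ _ = _ from (S.side_alpha _).1]; exact coeffMap_jqModC _⟩,
            ⟨qExpand A q (jqModC A), by
              rw [jqF, show S.side _ _ = _ from (S.side_beta _).1, ιS, coeffMap_qExpand,
                coeffMap_jqModC]; rfl⟩⟩
        · exact ⟨⟨qExpand A q (jqModC A), by
              rw [jF, show S.side _ _ = _ from (S.side_alpha _).2, ιS, coeffMap_qExpand,
                coeffMap_jqModC]; rfl⟩,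
            ⟨jqModC A, by rw [jqF, show S.side _ _ = _ from (S.side_beta _).2]; exact coeffMap_jqModC _⟩⟩
      have hh : ∀ i, S.side i S.hFun ∈ (ιS A).range := fun i => by
        rw [hFun, map_sub, map_pow]; exact sub_mem (hj i).1 (pow_mem (hj i).2 _)
      cases o with
      | none => exact Bdd.of_range (hh i)
      | some b =>
        rw [base, map_mul, map_pow, S.side_w]
        exact Bdd.of_range (mul_mem (hh _) (pow_mem (hj i).2 _))
    rw [← mul_assoc, ← map_mul, map_mul]
    have hcb : Bdd A (S.side i (heckeAlphaBar Qbar M q (u0 * c j o))) := by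
      obtain rfl | rfl : i = 0 ∨ i = 1 := by omega
      · rw [show S.side _ _ = _ from (S.side_alpha _).1]
        exact hb (j, o)
      · rw [show S.side _ _ = _ from (S.side_alpha _).2]
        exact Fermat.Agent.SemistableRed.Bdd.qExpand q (hb (j, o))
    obtain ⟨d, hd, y, hy⟩ := hbase i
    obtain ⟨d', hd', y', hy'⟩ := hcb
    exact ⟨d' * d, mul_ne_zero hd' hd, y' * y, by
      rw [map_mul, hy, hy', MulMemClass.coe_mul,
        ← zero_add (0 : ℤ), ← HahnSeries.single_mul_single, zero_add]
      ring⟩

theorem reduced_basis (r : ℕ) (V : Submodule Qbar (modularFunctionFieldBar (M * q)))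
    (hV : FiniteDimensional Qbar V) (hr : Module.finrank Qbar V = r) :
    ∃ e : Fin r → modularFunctionFieldBar (M * q), Submodule.span Qbar (Set.range e) = V ∧
      (∀ j i, S.gauss.Int i (e j)) ∧
        LinearIndependent (ResidueField A) fun j i => S.gauss.red i (e j) := by
  classical
  have := Module.Free.of_divisionRing Qbar V
  let b := Module.finBasisOfFinrankEq Qbar V hr
  obtain ⟨u, hu, hub⟩ := S.exists_common_denominator fun j => (b j : modularFunctionFieldBar (M * q))
  have hu0 : u ≠ 0 := fun h => (hu 0).2 (by rw [h, S.gauss.red_zero])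
  set mu := LinearMap.mulLeft Qbar u with hmu
  have hinj : Function.Injective mu := fun a c h => mul_left_cancel₀ hu0 h
  set W := V.map mu
  have hbdd : ∀ i, ∀ f ∈ W, Bdd A (S.side i f) := by
    rintro i _ ⟨v, hv, rfl⟩
    have hdec := congrArg V.subtype (b.sum_repr ⟨v, hv⟩)
    rw [map_sum] at hdec
    rw [hmu, LinearMap.mulLeft_apply, ← show _ = v from hdec, Finset.mul_sum, map_sum]
    refine Bdd.sum _ _ fun j _ => ?_
    rw [map_smul, mul_smul_comm, S.side_smul, smul_eq_algebraMap_mul,
      algebraMap_laurentSeries_eq_single]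
    exact (hub i j).single_mul _
  have hser : ∀ i, ∀ f ∈ W, ∀ (c : Qbar) v, SRep (A := A) (S.side i (c • f)) v →
      IntSeries A (S.side i (c • f)) ∧ redSeries A (residue A) (S.side i (c • f)) = v := by
    intro i f hf c v hv
    have hb : Bdd A (S.side i (c • f)) := by
      rw [S.side_smul, smul_eq_algebraMap_mul, algebraMap_laurentSeries_eq_single]
      exact (hbdd i f hf).single_mul c
    obtain ⟨z, hz, hz'⟩ := hv.exists_series S.nilModulo' hb
    rw [← hz]
    exact ⟨intSeries_coeffMap z, by rw [redSeries_coeffMap]; exact hz'⟩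
  have hdim : Module.finrank Qbar W = r :=
    (Submodule.equivMapOfInjective mu hinj V).finrank_eq.symm.trans hr
  obtain ⟨e, he, hei, hred⟩ := exists_reduced_basis (π := residue A) S.side
    (fun a => by rw [residue_eq_zero_iff]; rfl) W (fun i f hf hf0 => by
      obtain ⟨c, v, hv, h⟩ := S.exists_norm hf0 i
      obtain ⟨h1, h2⟩ := hser i f hf c _ h
      exact ⟨c, h1, fun e => hv (Subtype.ext (h2.symm.trans e))⟩) r W le_rfl
      (Module.Finite.equiv (Submodule.equivMapOfInjective mu hinj V)) hdim
  have heW : ∀ j, e j ∈ W := fun j => he ▸ Submodule.subset_span ⟨j, rfl⟩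
  choose v hv hve using heW
  have hrep : ∀ j i, SRep (A := A) (S.side i (v j))
      ((redSeries A (residue A) (S.side i (e j))) *
        ((S.gauss.red i u : LaurentSeries (ResidueField A)))⁻¹) := by
    intro j i
    have h1 : SRep (A := A) (S.side i (e j)) (redSeries A (residue A) (S.side i (e j))) := by
      have h := SRep.series (A := A) ((S.side i (e j)).map (toA A))
      rw [ιS, (hei j i).coeffMap_map] at h
      exact h
    have h2 := h1.mul ((S.srep_red (hu i).1).inv fun h => (hu i).2 (Subtype.ext h))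
    rw [← map_inv₀, ← map_mul] at h2
    rwa [show e j * u⁻¹ = v j by
      rw [← hve j, hmu, LinearMap.mulLeft_apply, mul_comm u, mul_assoc, mul_inv_cancel₀ hu0,
        mul_one]] at h2
  refine ⟨v, ?_, fun j i => ⟨_, hrep j i⟩, ?_⟩
  · apply Submodule.map_injective_of_injective hinj
    rw [Submodule.map_span, ← Set.range_comp]
    rw [show (mu ∘ v : Fin r → _) = e from funext hve, he]
  · rw [Fintype.linearIndependent_iff] at hred ⊢
    intro c hc
    refine hred c (funext fun i => ?_)
    have h1 := congrArg (fun t : modularFunctionFieldFullC (ResidueField A) M =>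
      (t : LaurentSeries (ResidueField A))) (congrFun hc i)
    simp only [Finset.sum_apply, Pi.smul_apply, AddSubmonoidClass.coe_finsetSum,
      coe_smul_full, Pi.zero_apply, ZeroMemClass.coe_zero] at h1
    have hval : ∀ j, (S.gauss.red i (v j) : LaurentSeries (ResidueField A)) =
        redSeries A (residue A) (S.side i (e j)) *
          ((S.gauss.red i u : LaurentSeries (ResidueField A)))⁻¹ := fun j =>
      (S.srep_red (i := i) ⟨_, hrep j i⟩).unique (hrep j i)
    simp only [hval, ← mul_assoc, ← Finset.sum_mul, mul_eq_zero, inv_eq_zero] at h1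
    have h2 := h1.resolve_right fun h => (hu i).2 (Subtype.ext h)
    simp only [Finset.sum_apply, Pi.smul_apply, redFam, Pi.zero_apply]
    rw [← h2]
    exact Finset.sum_congr rfl fun j _ => smul_eq_algebraMap_mul _ _

end Setting

end Fermat.Agent.SemistableRed

end
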