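import Fermat.Agent.SemistableRed.Gluing

/-!
# Torsion classes as gluing data

The reductions of `L(mH)` are exactly the glued pairs; there are `gF + 1 - 2 gG` glued pairs. For a
representative `u ≡ 1` of an `n`-torsion class the reductions of `L(D + mH)` are the pairs glued
by an `n`-th root of unity at each pair, and this gluing datum is multiplicative.
-/

set_option autoImplicit false
set_option linter.unusedSectionVars false

noncomputable section

open AlgebraicCurve Fermat.Agent.FunctionFieldRR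

namespace Fermat.Agent.SemistableRed.SplitModel

variable {L : Type*} [Field L] {A : ValuationSubring L} {k : Type*} [Field k] [IsAlgClosed k]
  {π : A →+* k} {F : Type*} [Field F] [Algebra L F] {G : Type*} [Field G] [Algebra k G]
  [IsFunctionField k G]
variable (S : SplitModel A π F G)

theorem pairSpace_succ_le {I : ℕ} (hI : S.leadBound ≤ I) :
    S.pairSpace (I + 1) ≤
      S.imgSpace (riemannRochSpace (((I + 1 : ℕ) : ℤ) • S.H)) ⊔ S.pairSpace I := by
  intro z hz
  rw [mem_pairSpace] at hz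
  obtain ⟨f, hf, hfi, hfr, hfo⟩ := S.lead I hI 0 (z 0) (hz 0)
  obtain ⟨g, hg, hgi, hgr, hgo⟩ := S.lead I hI 1 (z 1) (hz 1)
  refine Submodule.mem_sup.mpr ⟨S.red2 (f + g), ⟨f + g, Submodule.add_mem _ hf hg,
    fun i => S.int_add i f g (hfi i) (hgi i), rfl⟩, z - S.red2 (f + g), ?_, add_sub_cancel _ _⟩
  rw [mem_pairSpace]
  intro i
  rw [Pi.sub_apply, show S.red2 (f + g) i = S.red i f + S.red i g from
    S.red_add i f g (hfi i) (hgi i)]
  fin_cases i
  · simp only [Fin.zero_eta, Fin.isValue, hgo 0 (by decide), add_zero]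
    simpa using Submodule.neg_mem _ hfr
  · simp only [Fin.mk_one, Fin.isValue, hfo 1 (by decide), zero_add]
    simpa using Submodule.neg_mem _ hgr

theorem imgSpace_inf_pairSpace {I : ℕ} (hI : S.baseLevel ≤ I) :
    S.imgSpace (riemannRochSpace (((I + 1 : ℕ) : ℤ) • S.H)) ⊓ S.pairSpace I =
      S.imgSpace (riemannRochSpace ((I : ℤ) • S.H)) := by
  have hlead : S.leadBound ≤ I := le_trans (by simp [baseLevel]; omega) hI
  have hle : S.imgSpace (riemannRochSpace ((I : ℤ) • S.H)) ≤
      S.imgSpace (riemannRochSpace (((I + 1 : ℕ) : ℤ) • S.H)) ⊓ S.pairSpace I :=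
    le_inf (S.imgSpace_mono (S.Hspace_mono (Nat.le_succ I)))
      fun z hz => ((S.imgSpace_le_glueSpace I) hz).1
  obtain ⟨hfd1, h1⟩ := S.finrank_imgTwist (Rep.one S 1) hI
  obtain ⟨hfd2, h2⟩ := S.finrank_imgTwist (Rep.one S 1) (m := I + 1) (le_trans hI (Nat.le_succ I))
  rw [S.twist_one] at hfd1 h1 hfd2 h2
  obtain ⟨hfd3, -⟩ := S.finrank_pairSpace hI
  obtain ⟨hfd4, -⟩ := S.finrank_pairSpace (m := I + 1) (le_trans hI (Nat.le_succ I))
  have hsup : S.imgSpace (riemannRochSpace (((I + 1 : ℕ) : ℤ) • S.H)) ⊔ S.pairSpace I =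
      S.pairSpace (I + 1) :=
    le_antisymm (sup_le (fun z hz => ((S.imgSpace_le_glueSpace _) hz).1)
      (S.pairSpace_mono (Nat.le_succ I))) (S.pairSpace_succ_le hlead)
  have h3 := Submodule.finrank_sup_add_finrank_inf_eq
    (S.imgSpace (riemannRochSpace (((I + 1 : ℕ) : ℤ) • S.H))) (S.pairSpace I)
  rw [hsup] at h3
  have : FiniteDimensional k
      (S.imgSpace (riemannRochSpace (((I + 1 : ℕ) : ℤ) • S.H)) ⊓ S.pairSpace I :
        Submodule k (Fin 2 → G)) := Submodule.finiteDimensional_inf_left _ _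
  refine (Submodule.eq_of_le_of_finrank_le hle ?_).symm
  omega

theorem mem_imgSpace_of_reach {I : ℕ} (hI : S.baseLevel ≤ I) {z : Fin 2 → G} (hz : S.Reach z)
    (hzI : z ∈ S.pairSpace I) : z ∈ S.imgSpace (riemannRochSpace ((I : ℤ) • S.H)) := by
  obtain ⟨M, hM⟩ := hz
  induction M with
  | zero => exact S.imgSpace_mono (S.Hspace_mono (Nat.zero_le I)) hM
  | succ M ih =>
    rcases le_or_gt (M + 1) I with h | h
    · exact S.imgSpace_mono (S.Hspace_mono h) hM
    · refine ih ?_
      rw [← S.imgSpace_inf_pairSpace (le_trans hI (Nat.lt_succ_iff.mp h))]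
      exact ⟨hM, S.pairSpace_mono (Nat.lt_succ_iff.mp h) hzI⟩

/-- Reductions of `L(mH)` are exactly the glued pairs. -/
theorem imgSpace_eq_glueSpace {I : ℕ} (hI : S.baseLevel ≤ I) :
    S.imgSpace (riemannRochSpace ((I : ℤ) • S.H)) = S.glueSpace I :=
  le_antisymm (S.imgSpace_le_glueSpace I) fun _ hz =>
    S.mem_imgSpace_of_reach hI (S.reach_of_glue hz) hz.1

/-- A level from which evaluation at all glued places is surjective. -/
def evalLevel : ℕ := S.baseLevel + S.crit.card

theorem baseLevel_le_evalLevel : S.baseLevel ≤ S.evalLevel := Nat.le_add_right _ _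

/-- Prescribed values at both members of every glued pair. -/
theorem exists_pair_values {m : ℕ} (hm : S.evalLevel ≤ m) (a b : S.pairs → k) :
    ∃ z ∈ S.pairSpace m, ∀ x : S.pairs,
      ev (0, (x : Place k G × Place k G).1) z = a x ∧
        ev (1, (x : Place k G × Place k G).2) z = b x := by
  classical
  have hs : ∀ P ∈ S.crit, S.C P = 0 := fun P hP => ((S.mem_crit P).mp hP).1
  obtain ⟨z0, hz0, h0⟩ := S.exists_values S.crit hs m hm fun P =>
    if h : ∃ x : S.pairs, (x : Place k G × Place k G).1 = P then a h.choose else 0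
  obtain ⟨z1, hz1, h1⟩ := S.exists_values S.crit hs m hm fun P =>
    if h : ∃ x : S.pairs, (x : Place k G × Place k G).2 = P then b h.choose else 0
  refine ⟨![z0, z1], S.mem_pairSpace.mpr fun i => by fin_cases i <;> [exact hz0; exact hz1], fun x => ?_⟩
  have hp : S.Pair (x : Place k G × Place k G).1 (x : Place k G × Place k G).2 :=
    S.mem_pairs.mp x.2
  constructor
  · have hex : ∃ y : S.pairs, (y : Place k G × Place k G).1 = (x : Place k G × Place k G).1 :=
      ⟨x, rfl⟩
    have := h0 ⟨_, (hp.crit S).1⟩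
    rw [dif_pos hex] at this
    have hpy : S.Pair (hex.choose : Place k G × Place k G).1 (hex.choose : Place k G × Place k G).2 :=
      S.mem_pairs.mp hex.choose.2
    rw [hex.choose_spec] at hpy
    have hy : hex.choose = x := Subtype.ext (Prod.ext hex.choose_spec
      (Pair.right_unique S hpy hp))
    rw [hy] at this
    simpa [ev] using this
  · have hex : ∃ y : S.pairs, (y : Place k G × Place k G).2 = (x : Place k G × Place k G).2 :=
      ⟨x, rfl⟩
    have := h1 ⟨_, (hp.crit S).2⟩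
    rw [dif_pos hex] at this
    have hpy : S.Pair (hex.choose : Place k G × Place k G).1 (hex.choose : Place k G × Place k G).2 :=
      S.mem_pairs.mp hex.choose.2
    rw [hex.choose_spec] at hpy
    have hy : hex.choose = x := Subtype.ext (Prod.ext
      (Pair.left_unique S hpy hp) hex.choose_spec)
    rw [hy] at this
    simpa [ev] using this

/-- `z ↦ (z(P) - ζ z(Q))` over the glued pairs `(P, Q)`. -/
def diffMap (ζ : S.pairs → k) (m : ℕ) : S.pairSpace m →ₗ[k] (S.pairs → k) where
  toFun z x := ev (0, (x : Place k G × Place k G).1) (z : Fin 2 → G) -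
    ζ x * ev (1, (x : Place k G × Place k G).2) (z : Fin 2 → G)
  map_add' z w := funext fun x => by
    have hp := S.mem_pairs.mp x.2
    simp only [ev, Submodule.coe_add, Pi.add_apply]
    rw [residueConst_add (S.regular_of_mem_pairSpace z.2 _ hp.1)
        (S.regular_of_mem_pairSpace w.2 _ hp.1),
      residueConst_add (S.regular_of_mem_pairSpace z.2 _ hp.2.1)
        (S.regular_of_mem_pairSpace w.2 _ hp.2.1)]
    ring
  map_smul' c z := funext fun x => by
    have hp := S.mem_pairs.mp x.2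
    simp only [ev, Submodule.coe_smul, Pi.smul_apply, RingHom.id_apply, smul_eq_mul]
    rw [residueConst_smul c (S.regular_of_mem_pairSpace z.2 _ hp.1),
      residueConst_smul c (S.regular_of_mem_pairSpace z.2 _ hp.2.1)]
    ring

/-- Pairs glued by `ζ`. -/
def zetaSpace (ζ : S.pairs → k) (m : ℕ) : Submodule k (Fin 2 → G) :=
  (LinearMap.ker (S.diffMap ζ m)).map (S.pairSpace m).subtype

theorem mem_zetaSpace {ζ : S.pairs → k} {m : ℕ} {z : Fin 2 → G} :
    z ∈ S.zetaSpace ζ m ↔ z ∈ S.pairSpace m ∧ ∀ x : S.pairs,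
      ev (0, (x : Place k G × Place k G).1) z =
        ζ x * ev (1, (x : Place k G × Place k G).2) z := by
  simp only [zetaSpace, Submodule.mem_map, LinearMap.mem_ker, Submodule.coe_subtype]
  constructor
  · rintro ⟨w, hw, rfl⟩
    exact ⟨w.2, fun x => sub_eq_zero.mp (congrFun hw x)⟩
  · rintro ⟨hz, hz'⟩
    exact ⟨⟨z, hz⟩, funext fun x => sub_eq_zero.mpr (hz' x), rfl⟩

theorem zetaSpace_one (m : ℕ) : S.zetaSpace 1 m = S.glueSpace m := by
  ext z
  simp only [mem_zetaSpace, mem_glueSpace, Pi.one_apply, one_mul]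
  exact ⟨fun h => ⟨h.1, fun x hx => h.2 ⟨x, hx⟩⟩, fun h => ⟨h.1, fun x => h.2 _ x.2⟩⟩

theorem finrank_zetaSpace (ζ : S.pairs → k) {m : ℕ} (hm : S.evalLevel ≤ m) :
    FiniteDimensional k (S.zetaSpace ζ m) ∧
      Module.finrank k (S.zetaSpace ζ m) + S.pairs.card = Module.finrank k (S.pairSpace m) := by
  obtain ⟨hfd, -⟩ := S.finrank_pairSpace (le_trans S.baseLevel_le_evalLevel hm)
  have hsurj : Function.Surjective (S.diffMap ζ m) := fun a => by
    obtain ⟨z, hz, hv⟩ := S.exists_pair_values hm a 0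
    exact ⟨⟨z, hz⟩, funext fun x => by simp [diffMap, (hv x).1, (hv x).2]⟩
  have h := LinearMap.finrank_range_add_finrank_ker (S.diffMap ζ m)
  rw [LinearMap.range_eq_top.mpr hsurj, finrank_top, Module.finrank_pi, Fintype.card_coe] at h
  have e := Submodule.equivMapOfInjective _ (S.pairSpace m).injective_subtype
    (LinearMap.ker (S.diffMap ζ m))
  refine ⟨Module.Finite.equiv e, ?_⟩
  rw [zetaSpace, ← e.finrank_eq]
  omega

theorem delta_eq_card : S.delta = S.pairs.card := by
  obtain ⟨-, h1⟩ := S.finrank_imgTwist (Rep.one S 1) S.baseLevel_le_evalLevel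
  rw [S.twist_one, S.imgSpace_eq_glueSpace S.baseLevel_le_evalLevel, ← S.zetaSpace_one] at h1
  obtain ⟨-, h2⟩ := S.finrank_zetaSpace 1 le_rfl
  omega

section Zeta

variable {n : ℕ}

theorem pow_mem_glue (hn : n ≠ 0) (R : S.Rep n) {m : ℕ} {z : Fin 2 → G}
    (hz : z ∈ S.imgSpace (S.twist R m)) (x : S.pairs) :
    ev (0, (x : Place k G × Place k G).1) z ^ n =
      ev (1, (x : Place k G × Place k G).2) z ^ n := by
  have hp := S.mem_pairs.mp x.2
  have hzm := S.imgSpace_twist_le hn R m hz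
  obtain ⟨f, hf, hfi, rfl⟩ := hz
  have hreach : S.Reach (S.red2 f ^ n) := by
    refine ⟨n * m, f ^ n * R.u, ?_, fun j => S.int_mul j _ _ (S.int_pow (hfi j) n) (R.int j),
      funext fun j => ?_⟩
    · rw [mem_rrs_iff]
      rcases eq_or_ne f 0 with h0 | h0
      · exact Or.inl (by rw [h0, zero_pow hn, zero_mul])
      refine Or.inr fun P => ?_
      rw [P.ord_mul (pow_ne_zero _ h0) R.u_ne, ord_pow, R.ord_u]
      have h := (mem_rrs_iff.mp hf).resolve_left h0 P
      simp only [Finsupp.add_apply, Finsupp.smul_apply, smul_eq_mul] at h ⊢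
      push_cast
      nlinarith
    · show S.red j (f ^ n * R.u) = S.red j f ^ n
      rw [S.red_mul j _ _ (S.int_pow (hfi j) n) (R.int j), S.red_pow (hfi j), R.red_u, mul_one]
  have h := hp.2.2 _ hreach
  simp only [ev, Pi.pow_apply] at h ⊢
  rwa [residueConst_pow (S.regular_of_mem_pairSpace hzm _ hp.1),
    residueConst_pow (S.regular_of_mem_pairSpace hzm _ hp.2.1)] at h

theorem exists_zeta_at (hn : n ≠ 0) (R : S.Rep n) {m : ℕ} (hm : S.evalLevel ≤ m) :
    ∃ ζ : S.pairs → k, (∀ x, ζ x ^ n = 1) ∧ S.imgSpace (S.twist R m) = S.zetaSpace ζ m := by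
  classical
  have hline : ∀ x : S.pairs, ∃ c : k, c ^ n = 1 ∧ ∀ z ∈ S.imgSpace (S.twist R m),
      ev (0, (x : Place k G × Place k G).1) z =
        c * ev (1, (x : Place k G × Place k G).2) z := by
    intro x
    have hp := S.mem_pairs.mp x.2
    by_cases hall : ∀ z ∈ S.imgSpace (S.twist R m), ev (1, (x : Place k G × Place k G).2) z = 0
    · refine ⟨1, one_pow n, fun z hz => ?_⟩
      have := S.pow_mem_glue hn R hz x
      rw [hall z hz, zero_pow hn] at this
      rw [hall z hz, mul_zero]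
      exact eq_zero_of_pow_eq_zero this
    · push Not at hall
      obtain ⟨z0, hz0, hne⟩ := hall
      set b0 := ev (1, (x : Place k G × Place k G).2) z0 with hb0
      set a0 := ev (0, (x : Place k G × Place k G).1) z0 with ha0
      refine ⟨a0 / b0, by rw [div_pow, S.pow_mem_glue hn R hz0 x, div_self (pow_ne_zero _ hne)],
        fun z hz => ?_⟩
      have hzm := S.imgSpace_twist_le hn R m
      set b := ev (1, (x : Place k G × Place k G).2) z with hb
      set a := ev (0, (x : Place k G × Place k G).1) z with ha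
      have hw : b0 • z + (-b) • z0 ∈ S.imgSpace (S.twist R m) :=
        add_mem (Submodule.smul_mem _ _ hz) (Submodule.smul_mem _ _ hz0)
      have h := S.pow_mem_glue hn R hw x
      have hev : ∀ (y : Fin 2 × Place k G), S.C y.2 = 0 →
          ev y (b0 • z + (-b) • z0) = b0 * ev y z + (-b) * ev y z0 := fun y hy => by
        have r1 := S.regular_of_mem_pairSpace (hzm hz) y.1 hy
        have r2 := S.regular_of_mem_pairSpace (hzm hz0) y.1 hy
        simp only [ev, Pi.add_apply, Pi.smul_apply]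
        rw [residueConst_add (r1.smul _) (r2.smul _), residueConst_smul _ r1,
          residueConst_smul _ r2]
      rw [hev _ hp.1, hev _ hp.2.1, ← ha, ← ha0, ← hb, ← hb0] at h
      rw [show b0 * b + -b * b0 = 0 by ring, zero_pow hn] at h
      have h' := eq_zero_of_pow_eq_zero h
      field_simp
      linear_combination h'
  choose ζ hζn hζ using hline
  refine ⟨ζ, hζn, ?_⟩
  have hle : S.imgSpace (S.twist R m) ≤ S.zetaSpace ζ m := fun z hz =>
    S.mem_zetaSpace.mpr ⟨S.imgSpace_twist_le hn R m hz, fun x => hζ x z hz⟩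
  obtain ⟨-, h1⟩ := S.finrank_imgTwist R (le_trans S.baseLevel_le_evalLevel hm)
  obtain ⟨hfd, h2⟩ := S.finrank_zetaSpace ζ hm
  refine Submodule.eq_of_le_of_finrank_le hle ?_
  have := S.delta_eq_card
  omega

theorem zetaSpace_injective {ζ ζ' : S.pairs → k} {m : ℕ} (hm : S.evalLevel ≤ m)
    (h : S.zetaSpace ζ m ≤ S.zetaSpace ζ' m) : ζ = ζ' := by
  obtain ⟨z, hz, hv⟩ := S.exists_pair_values hm ζ 1
  have h1 := h (S.mem_zetaSpace.mpr ⟨hz, fun x => by rw [(hv x).1, (hv x).2]; simp⟩)
  funext x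
  have := (S.mem_zetaSpace.mp h1).2 x
  rwa [(hv x).1, (hv x).2, Pi.one_apply, mul_one] at this

/-- The gluing datum of a representative: the reductions of `L(D + mH)` are glued by it. -/
def HasZeta (R : S.Rep n) (ζ : S.pairs → k) : Prop :=
  ∀ m, S.evalLevel ≤ m → S.imgSpace (S.twist R m) = S.zetaSpace ζ m

theorem exists_hasZeta (hn : n ≠ 0) (R : S.Rep n) :
    ∃ ζ, (∀ x, ζ x ^ n = 1) ∧ S.HasZeta R ζ := by
  obtain ⟨ζ, hζn, hζ⟩ := S.exists_zeta_at hn R le_rfl
  refine ⟨ζ, hζn, fun m hm => ?_⟩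
  obtain ⟨ζ', -, hζ'⟩ := S.exists_zeta_at hn R hm
  suffices ζ = ζ' by rw [this]; exact hζ'
  obtain ⟨z, hz, hv⟩ := S.exists_pair_values (le_refl S.evalLevel) ζ 1
  have h1 : z ∈ S.zetaSpace ζ S.evalLevel :=
    S.mem_zetaSpace.mpr ⟨hz, fun x => by rw [(hv x).1, (hv x).2]; simp⟩
  rw [← hζ] at h1
  have h2 := S.imgSpace_mono (S.twist_mono R hm) h1
  rw [hζ'] at h2
  funext x
  have := (S.mem_zetaSpace.mp h2).2 x
  rwa [(hv x).1, (hv x).2, Pi.one_apply, mul_one] at this

theorem HasZeta.unique {R : S.Rep n} {ζ ζ' : S.pairs → k} (h : S.HasZeta R ζ)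
    (h' : S.HasZeta R ζ') : ζ = ζ' :=
  S.zetaSpace_injective (le_refl _) (by rw [← h _ le_rfl, ← h' _ le_rfl])

theorem hasZeta_one : S.HasZeta (Rep.one S n) 1 := fun m hm => by
  rw [S.twist_one, S.zetaSpace_one,
    S.imgSpace_eq_glueSpace (le_trans S.baseLevel_le_evalLevel hm)]

theorem HasZeta.mul (hn : n ≠ 0) {R R' : S.Rep n} {ζ ζ' : S.pairs → k} (h : S.HasZeta R ζ)
    (h' : S.HasZeta R' ζ') : S.HasZeta (R.mul R') (ζ * ζ') := by
  obtain ⟨η, -, hη⟩ := S.exists_hasZeta hn (R.mul R')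
  suffices η = ζ * ζ' by rw [← this]; exact hη
  obtain ⟨z, hz, hv⟩ := S.exists_pair_values (le_refl S.evalLevel) ζ 1
  obtain ⟨w, hw, hu⟩ := S.exists_pair_values (le_refl S.evalLevel) ζ' 1
  have hz' : z ∈ S.imgSpace (S.twist R S.evalLevel) := by
    rw [h _ le_rfl]
    exact S.mem_zetaSpace.mpr ⟨hz, fun x => by rw [(hv x).1, (hv x).2]; simp⟩
  have hw' : w ∈ S.imgSpace (S.twist R' S.evalLevel) := by
    rw [h' _ le_rfl]
    exact S.mem_zetaSpace.mpr ⟨hw, fun x => by rw [(hu x).1, (hu x).2]; simp⟩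
  obtain ⟨f, hf, hfi, hfr⟩ := hz'
  obtain ⟨g, hg, hgi, hgr⟩ := hw'
  have hmem : z * w ∈ S.imgSpace (S.twist (R.mul R') (S.evalLevel + S.evalLevel)) :=
    ⟨f * g, S.mul_mem_twist hf hg, fun i => S.int_mul i f g (hfi i) (hgi i), by
      rw [← hfr, ← hgr]; exact funext fun i => S.red_mul i f g (hfi i) (hgi i)⟩
  rw [hη _ (Nat.le_add_right _ _)] at hmem
  funext x
  have h1 := (S.mem_zetaSpace.mp hmem).2 x
  have hp := S.mem_pairs.mp x.2
  simp only [ev, Pi.mul_apply] at h1 hv hu ⊢
  rw [residueConst_mul (S.regular_of_mem_pairSpace hz _ hp.1)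
      (S.regular_of_mem_pairSpace hw _ hp.1),
    residueConst_mul (S.regular_of_mem_pairSpace hz _ hp.2.1)
      (S.regular_of_mem_pairSpace hw _ hp.2.1), (hv x).1, (hv x).2, (hu x).1, (hu x).2] at h1
  simpa using h1.symm

end Zeta

end Fermat.Agent.SemistableRed.SplitModel

end
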